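import Fermat.Prelude.Def_AlgebraicCurve_Repartitions
import Mathlib

/-!
Basic facts on places of a field over `K`: the `K`-subspaces `ordGE v n` of functions of order
at least `n` at `v`, and the maps "leading coefficient" to the residue field.
-/

set_option autoImplicit false

noncomputable section

open AlgebraicCurve WithZero IsLocalRing

namespace FermatLib.Curve

variable {K F : Type*} [Field K] [Field F] [Algebra K F]

/-- Functions of order at least `n` at `v` (including `0`), as a `K`-subspace. -/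
def ordGE (v : Place K F) (n : ℤ) : Submodule K F where
  carrier := {f | v.adicValuation f ≤ exp (-n)}
  zero_mem' := by simp
  add_mem' := fun {f g} hf hg =>
    ((v.adicValuation).map_add f g).trans (max_le hf hg)
  smul_mem' := fun c f hf => by
    show v.adicValuation (c • f) ≤ exp (-n)
    rw [Algebra.smul_def, map_mul]
    exact (mul_le_of_le_one_left' (v.adicValuation_algebraMap_le_one c)).trans hf

variable {v : Place K F}

theorem mem_ordGE {n : ℤ} {f : F} : f ∈ ordGE v n ↔ f = 0 ∨ n ≤ v.ord f := by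
  show v.adicValuation f ≤ exp (-n) ↔ _
  rw [v.adicValuation_le_exp_iff, neg_neg]

theorem mem_ordGE_of_ne_zero {n : ℤ} {f : F} (hf : f ≠ 0) :
    f ∈ ordGE v n ↔ n ≤ v.ord f := by
  rw [mem_ordGE, or_iff_right hf]

theorem mem_ordGE_of_le {n : ℤ} {f : F} (h : n ≤ v.ord f) : f ∈ ordGE v n :=
  mem_ordGE.mpr (Or.inr h)

theorem le_ord_of_mem {n : ℤ} {f : F} (h : f ∈ ordGE v n) (hf : f ≠ 0) : n ≤ v.ord f :=
  (mem_ordGE_of_ne_zero hf).mp h

theorem ordGE_anti {m n : ℤ} (h : m ≤ n) : ordGE v n ≤ ordGE v m := fun _ hf =>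
  le_trans hf (exp_le_exp.mpr (by omega))

theorem mul_mem_ordGE {m n : ℤ} {f g : F} (hf : f ∈ ordGE v m) (hg : g ∈ ordGE v n) :
    f * g ∈ ordGE v (m + n) := by
  show v.adicValuation (f * g) ≤ exp (-(m + n))
  rw [map_mul, neg_add, exp_add]
  exact mul_le_mul' hf hg

theorem one_mem_ordGE : (1 : F) ∈ ordGE v 0 :=
  mem_ordGE_of_le (by simp)

variable (v)

theorem mem_valuationSubring_iff {f : F} :
    f ∈ v.toValuationSubring ↔ f ∈ ordGE v 0 := by
  constructor
  · intro h
    show v.adicValuation f ≤ exp (-0)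
    simpa using v.adicValuation_le_one_of_mem h
  · intro h
    rcases mem_ordGE.mp h with rfl | h'
    · exact zero_mem _
    rcases eq_or_ne f 0 with rfl | hf
    · exact zero_mem _
    obtain ⟨π, hπ⟩ := IsDiscreteValuationRing.exists_irreducible v.toValuationSubring
    obtain ⟨u, hu⟩ := v.exists_unit_mul_zpow hf hπ
    rw [hu, show v.ord f = (((v.ord f).toNat : ℕ) : ℤ) from (Int.toNat_of_nonneg h').symm,
      zpow_natCast]
    exact mul_mem (u : v.toValuationSubring).2 (pow_mem (π : v.toValuationSubring).2 _)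

theorem ord_pow (f : F) (n : ℕ) : v.ord (f ^ n) = n * v.ord f := by
  simpa using v.ord_zpow f (n : ℤ)

theorem ord_div {f g : F} (hf : f ≠ 0) (hg : g ≠ 0) :
    v.ord (f / g) = v.ord f - v.ord g := by
  rw [div_eq_mul_inv, v.ord_mul hf (inv_ne_zero hg), v.ord_inv, sub_eq_add_neg]

@[simp]
theorem ord_algebraMap (a : K) : v.ord (algebraMap K F a) = 0 := by
  rcases eq_or_ne a 0 with rfl | ha
  · simp
  have hne : ∀ b : K, b ≠ 0 → algebraMap K F b ≠ 0 := fun b hb => by simpa using hb
  have h1 := le_ord_of_mem ((mem_valuationSubring_iff v).mp (v.algebraMap_mem' a)) (hne a ha)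
  have h2 := le_ord_of_mem ((mem_valuationSubring_iff v).mp (v.algebraMap_mem' a⁻¹))
    (hne _ (inv_ne_zero ha))
  rw [map_inv₀, v.ord_inv] at h2
  omega

theorem ord_neg (f : F) : v.ord (-f) = v.ord f := by
  unfold Place.ord
  rw [Valuation.map_neg]

theorem ord_add_eq_left {f g : F} (hf : f ≠ 0) (hg : g = 0 ∨ v.ord f < v.ord g) :
    v.ord (f + g) = v.ord f := by
  rcases eq_or_ne g 0 with rfl | hg0
  · simp
  have hlt : v.ord f < v.ord g := hg.resolve_left hg0
  unfold Place.ord
  rw [Valuation.map_add_eq_of_lt_left]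
  rw [v.adicValuation_eq_exp_neg_ord hf, v.adicValuation_eq_exp_neg_ord hg0, exp_lt_exp]
  omega

theorem ord_eq_zero_of_isUnit {u : v.toValuationSubring} (hu : IsUnit u) :
    v.ord (u : F) = 0 := by
  obtain ⟨u, rfl⟩ := hu
  exact v.ord_coe_unit u

/-- A chosen element of order one at `v`. -/
def unif : F :=
  ((IsDiscreteValuationRing.exists_irreducible v.toValuationSubring).choose : F)

@[simp]
theorem ord_unif : v.ord (unif v) = 1 :=
  v.ord_coe_irreducible (IsDiscreteValuationRing.exists_irreducible v.toValuationSubring).choose_spec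

theorem unif_ne_zero : unif v ≠ 0 := fun h => by
  have := ord_unif v
  rw [h, v.ord_zero] at this
  exact zero_ne_one this

@[simp]
theorem ord_unif_zpow (n : ℤ) : v.ord (unif v ^ n) = n := by
  rw [v.ord_zpow, ord_unif, mul_one]

/-- Residue map on functions regular at `v`. -/
def residueAt : ↥(ordGE v 0) →ₗ[K] v.ResidueField where
  toFun f := IsLocalRing.residue _ ⟨(f : F), (mem_valuationSubring_iff v).mpr f.2⟩
  map_add' f g := by
    rw [← map_add]
    rfl
  map_smul' c f := by
    rw [RingHom.id_apply, Algebra.smul_def]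
    show _ = algebraMap K v.ResidueField c * _
    rw [IsScalarTower.algebraMap_apply K v.toValuationSubring v.ResidueField,
      IsLocalRing.ResidueField.algebraMap_eq, ← map_mul]
    congr 1
    ext
    simp [Algebra.smul_def]

theorem residueAt_surjective : Function.Surjective (residueAt v) := fun r => by
  obtain ⟨a, rfl⟩ := IsLocalRing.residue_surjective r
  exact ⟨⟨(a : F), (mem_valuationSubring_iff v).mp a.2⟩, rfl⟩

theorem residueAt_eq_zero_iff {f : ↥(ordGE v 0)} :
    residueAt v f = 0 ↔ (f : F) ∈ ordGE v 1 := by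
  show IsLocalRing.residue _ _ = 0 ↔ _
  rw [IsLocalRing.residue_eq_zero_iff, IsLocalRing.mem_maximalIdeal, mem_nonunits_iff,
    ← v.adicValuation_coe_eq_one_iff]
  show ¬v.adicValuation (f : F) = 1 ↔ _
  rcases eq_or_ne (f : F) 0 with hf | hf
  · simp [hf]
  rw [mem_ordGE_of_ne_zero hf, v.adicValuation_eq_exp_neg_ord hf, ← exp_zero, exp_inj]
  have := le_ord_of_mem f.2 hf
  omega

/-- Coefficient of `unif v ^ n` of a function of order at least `n` at `v`. -/
def leadCoeff (n : ℤ) : ↥(ordGE v n) →ₗ[K] v.ResidueField :=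
  residueAt v ∘ₗ ((LinearMap.mulLeft K (unif v ^ (-n))).domRestrict (ordGE v n)).codRestrict _
    (fun f => by
      have h := mul_mem_ordGE (mem_ordGE_of_le (v := v) (ord_unif_zpow v (-n)).ge) f.2
      rwa [neg_add_cancel] at h)

theorem leadCoeff_eq_zero_iff {n : ℤ} {f : ↥(ordGE v n)} :
    leadCoeff v n f = 0 ↔ (f : F) ∈ ordGE v (n + 1) := by
  rw [leadCoeff, LinearMap.comp_apply, residueAt_eq_zero_iff]
  show unif v ^ (-n) * (f : F) ∈ ordGE v 1 ↔ _
  rcases eq_or_ne (f : F) 0 with hf | hf
  · simp [hf]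
  rw [mem_ordGE_of_ne_zero (mul_ne_zero (zpow_ne_zero _ (unif_ne_zero v)) hf),
    mem_ordGE_of_ne_zero hf, v.ord_mul (zpow_ne_zero _ (unif_ne_zero v)) hf, ord_unif_zpow]
  omega

theorem leadCoeff_surjective (n : ℤ) : Function.Surjective (leadCoeff v n) := fun r => by
  obtain ⟨g, rfl⟩ := residueAt_surjective v r
  refine ⟨⟨unif v ^ n * (g : F), ?_⟩, ?_⟩
  · have h := mul_mem_ordGE (mem_ordGE_of_le (v := v) (ord_unif_zpow v n).ge) g.2
    rwa [add_zero] at h
  · rw [leadCoeff, LinearMap.comp_apply]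
    congr 1
    ext
    show unif v ^ (-n) * (unif v ^ n * (g : F)) = _
    rw [← mul_assoc, ← zpow_add₀ (unif_ne_zero v), neg_add_cancel, zpow_zero, one_mul]

theorem finite_residueField [h : v.FiniteResidue] : Module.Finite K v.ResidueField := h.finite

theorem deg_pos [v.FiniteResidue] : 0 < v.deg := by
  haveI := finite_residueField v
  exact Module.finrank_pos

theorem mem_riemannRochSpace {D : Divisor K F} {f : F} :
    f ∈ riemannRochSpace D ↔ ∀ v : Place K F, f ∈ ordGE v (-D v) := by
  show (∀ v : Place K F, v.adicValuation f ≤ exp (D v)) ↔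
    ∀ v : Place K F, v.adicValuation f ≤ exp (- -D v)
  simp only [neg_neg]

end FermatLib.Curve

end
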