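import Fermat.Agent.Curve.PlaceBasics

/-!
Weak approximation for finitely many places.
-/

set_option autoImplicit false

noncomputable section

open AlgebraicCurve

namespace FermatLib.Curve

variable {K F : Type*} [Field K] [Field F] [Algebra K F]

theorem place_eq_of_le {v w : Place K F}
    (h : ∀ f : F, 0 ≤ v.ord f → 0 ≤ w.ord f) : v = w := by
  have hle : ∀ f : F, f ∈ v.toValuationSubring → f ∈ w.toValuationSubring := fun f hf => by
    rw [mem_valuationSubring_iff, mem_ordGE] at hf ⊢
    exact hf.imp id (h f)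
  ext f
  refine ⟨hle f, fun hf => ?_⟩
  by_contra hfv
  apply w.ne_top'
  refine SetLike.ext fun g => ⟨fun _ => ValuationSubring.mem_top g, fun _ => ?_⟩
  rw [mem_valuationSubring_iff, mem_ordGE, not_or, not_le] at hfv
  obtain ⟨hf0, hfneg⟩ := hfv
  obtain ⟨m, hm⟩ : ∃ m : ℕ, -v.ord g ≤ m := ⟨(-v.ord g).toNat, Int.self_le_toNat _⟩
  rcases eq_or_ne g 0 with rfl | hg
  · exact zero_mem _
  have hg' : g / f ^ m ∈ v.toValuationSubring := by
    rw [mem_valuationSubring_iff]
    refine mem_ordGE_of_le ?_
    rw [ord_div v hg (pow_ne_zero _ hf0), ord_pow]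
    nlinarith
  have := mul_mem (hle _ hg') (pow_mem hf m)
  rwa [div_mul_cancel₀ g (pow_ne_zero _ hf0)] at this

theorem exists_ord_nonneg_neg {v w : Place K F} (h : v ≠ w) :
    ∃ f : F, 0 ≤ v.ord f ∧ w.ord f < 0 := by
  by_contra hne
  push Not at hne
  exact h (place_eq_of_le hne)

theorem exists_ord_pos_neg_pair {v w : Place K F} (h : v ≠ w) :
    ∃ f : F, 0 < v.ord f ∧ w.ord f < 0 := by
  obtain ⟨a, hav, haw⟩ := exists_ord_nonneg_neg h
  obtain ⟨b, hbw, hbv⟩ := exists_ord_nonneg_neg h.symm
  have ha : a ≠ 0 := fun e => by simp [e] at haw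
  have hb : b ≠ 0 := fun e => by simp [e] at hbv
  refine ⟨a / b, ?_, ?_⟩
  · rw [ord_div v ha hb]; omega
  · rw [ord_div w ha hb]; omega

/-- An element with a zero at `v` and a pole at each of finitely many other places. -/
theorem exists_ord_pos_forall_neg (v : Place K F) (S : Finset (Place K F)) (hS : v ∉ S) :
    ∃ f : F, 0 < v.ord f ∧ ∀ w ∈ S, w.ord f < 0 := by
  classical
  induction S using Finset.induction_on with
  | empty => exact ⟨unif v, by simp, by simp⟩
  | @insert w S hwS ih =>
    rw [Finset.mem_insert, not_or] at hS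
    obtain ⟨y, hyv, hyS⟩ := ih hS.2
    obtain ⟨z, hzv, hzw⟩ := exists_ord_pos_neg_pair hS.1
    have hy0 : y ≠ 0 := fun e => by simp [e] at hyv
    have hz0 : z ≠ 0 := fun e => by simp [e] at hzv
    by_cases hyw : w.ord y < 0
    · exact ⟨y, hyv, Finset.forall_mem_insert _ _ _ |>.mpr ⟨hyw, hyS⟩⟩
    let r : ℕ := (∑ i ∈ insert v (insert w S), (i.ord y).natAbs) + 1
    have hr : ∀ i ∈ insert v (insert w S), ((i.ord y).natAbs : ℤ) < r := fun i hi => by
      have := Finset.single_le_sum (f := fun i : Place K F => (i.ord y).natAbs)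
        (fun _ _ => Nat.zero_le _) hi
      simp only [r, Nat.cast_add, Nat.cast_one]
      omega
    have hzr : z ^ r ≠ 0 := pow_ne_zero _ hz0
    refine ⟨y + z ^ r, ?_, ?_⟩
    · have hlt : v.ord y < v.ord (z ^ r) := by
        rw [ord_pow]
        have := hr v (Finset.mem_insert_self _ _)
        nlinarith [le_abs_self (v.ord y), (Int.natCast_natAbs (v.ord y))]
      rw [ord_add_eq_left v hy0 (Or.inr hlt)]
      exact hyv
    · intro i hi
      rcases Finset.mem_insert.mp hi with rfl | hiS
      · have hlt : i.ord (z ^ r) < i.ord y := by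
          rw [ord_pow]
          have : (r : ℤ) ≥ 1 := by
            simp only [r, Nat.cast_add, Nat.cast_one, ge_iff_le, le_add_iff_nonneg_left]
            exact Int.natCast_nonneg _
          nlinarith
        rw [add_comm, ord_add_eq_left i hzr (Or.inr hlt), ord_pow]
        have : (r : ℤ) ≥ 1 := by
          simp only [r, Nat.cast_add, Nat.cast_one, ge_iff_le, le_add_iff_nonneg_left]
          exact Int.natCast_nonneg _
        nlinarith
      · have hy := hyS i hiS
        have hri := hr i (Finset.mem_insert_of_mem hi)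
        have habs : ((i.ord y).natAbs : ℤ) = -i.ord y := by omega
        rcases lt_trichotomy (i.ord z) 0 with hz | hz | hz
        · have hlt : i.ord (z ^ r) < i.ord y := by rw [ord_pow]; nlinarith
          rw [add_comm, ord_add_eq_left i hzr (Or.inr hlt)]
          omega
        · rw [ord_add_eq_left i hy0 (Or.inr (by rw [ord_pow, hz, mul_zero]; exact hy))]
          exact hy
        · rw [ord_add_eq_left i hy0 (Or.inr (by rw [ord_pow]; nlinarith))]
          exact hy

/-- Partition of unity at finitely many places. -/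
theorem exists_near_indicator (v : Place K F) (S : Finset (Place K F)) (hS : v ∉ S) (k : ℕ) :
    ∃ e : F, e - 1 ∈ ordGE v k ∧ ∀ w ∈ S, e ∈ ordGE w k := by
  obtain ⟨x, hxv, hxS⟩ := exists_ord_pos_forall_neg v S hS
  have hx0 : x ≠ 0 := fun e => by simp [e] at hxv
  set y : F := x ^ (k + 1) with hy
  have hy0 : y ≠ 0 := pow_ne_zero _ hx0
  have hyv : (k : ℤ) < v.ord y := by rw [hy, ord_pow]; push_cast; nlinarith
  have h1 : v.ord (1 + y) = 0 := by
    rw [ord_add_eq_left v one_ne_zero (Or.inr (by rw [v.ord_one]; omega)), v.ord_one]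
  have hne : 1 + y ≠ 0 := by
    intro h
    have : y = -1 := by linear_combination h
    rw [this, ord_neg, v.ord_one] at hyv
    omega
  refine ⟨(1 + y)⁻¹, ?_, fun w hw => ?_⟩
  · have : (1 + y)⁻¹ - 1 = -(y / (1 + y)) := by field_simp; ring
    rw [this]
    refine mem_ordGE_of_le ?_
    rw [ord_neg, ord_div v hy0 hne, h1]
    omega
  · have hyw : w.ord y < -(k : ℤ) := by
      rw [hy, ord_pow]
      have := hxS w hw
      push_cast
      nlinarith
    refine mem_ordGE_of_le ?_
    rw [w.ord_inv, add_comm, ord_add_eq_left w hy0 (Or.inr (by rw [w.ord_one]; omega))]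
    omega

/-- Weak approximation. -/
theorem exists_approx (S : Finset (Place K F)) (a : Place K F → F) (n : Place K F → ℤ) :
    ∃ f : F, ∀ v ∈ S, f - a v ∈ ordGE v (n v) := by
  classical
  let k : ℕ := ∑ i ∈ S, ∑ j ∈ S, (n i - i.ord (a j)).toNat
  have hk : ∀ i ∈ S, ∀ j ∈ S, ∀ e : F, e ∈ ordGE i k → a j * e ∈ ordGE i (n i) := by
    intro i hi j hj e he
    rcases eq_or_ne (a j) 0 with ha | ha
    · simp [ha]
    refine ordGE_anti ?_ (mul_mem_ordGE (mem_ordGE_of_le le_rfl) he)
    have h1 := Finset.single_le_sum (f := fun j => (n i - i.ord (a j)).toNat)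
      (fun _ _ => Nat.zero_le _) hj
    have h2 := Finset.single_le_sum (f := fun i => ∑ j ∈ S, (n i - i.ord (a j)).toNat)
      (fun _ _ => Nat.zero_le _) hi
    have h3 : (n i - i.ord (a j)).toNat ≤ k := h1.trans h2
    omega
  choose e he1 he2 using fun v : Place K F =>
    exists_near_indicator v (S.erase v) (Finset.notMem_erase v S) k
  refine ⟨∑ j ∈ S, a j * e j, fun v hv => ?_⟩
  rw [← Finset.add_sum_erase S _ hv,
    show a v * e v + ∑ j ∈ S.erase v, a j * e j - a v
      = a v * (e v - 1) + ∑ j ∈ S.erase v, a j * e j by ring]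
  refine add_mem (hk v hv v hv _ (he1 v)) (Submodule.sum_mem _ fun j hj => ?_)
  exact hk v hv j (Finset.mem_of_mem_erase hj) _
    (he2 j v (Finset.mem_erase.mpr ⟨(Finset.ne_of_mem_erase hj).symm, hv⟩))

end FermatLib.Curve

end
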