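import Fermat.Agent.Curve.PlaceBasics
import Fermat.Agent.Curve.Approximation

/-!
Function fields in one variable over a field: finiteness of residue fields, finiteness of the
sets of zeros and poles, and existence of places.
-/

set_option autoImplicit false

noncomputable section

open AlgebraicCurve Polynomial
open scoped IntermediateField

namespace FermatLib.Curve

/-- `F` is a function field in one variable over `K`: finite over `K(x)` for some transcendental
`x`. No separability and no assumption on the constants. -/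
class IsFunctionField (K F : Type*) [Field K] [Field F] [Algebra K F] : Prop where
  exists_transcendental : ∃ x : F, Transcendental K x ∧ FiniteDimensional K⟮x⟯ F

variable {K F : Type*} [Field K] [Field F] [Algebra K F]

open scoped IntermediateField.algebraAdjoinAdjoin in
theorem trdeg_eq_one [IsFunctionField K F] : Algebra.trdeg K F = 1 := by
  obtain ⟨x, hx, hfin⟩ := IsFunctionField.exists_transcendental (K := K) (F := F)
  have hind : AlgebraicIndependent K (fun _ : Unit => x) :=
    algebraicIndependent_unique_type_iff.mpr hx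
  have hb : IsTranscendenceBasis K (fun _ : Unit => x) := by
    refine hind.isTranscendenceBasis_iff_isAlgebraic.mpr ?_
    rw [Set.range_const]
    have : Algebra.IsAlgebraic K⟮x⟯ F := Algebra.IsAlgebraic.of_finite _ _
    exact Algebra.IsAlgebraic.trans (Algebra.adjoin K {x}) K⟮x⟯ F
  rw [← Cardinal.lift_inj.{_, 0}, ← hb.lift_cardinalMk_eq_trdeg]
  simp

/-- A function field is finite over `K(t)` for every transcendental `t`. -/
theorem finiteDimensional_adjoin_of_transcendental [IsFunctionField K F] {t : F}
    (ht : Transcendental K t) : FiniteDimensional K⟮t⟯ F := by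
  classical
  obtain ⟨x, -, hfin⟩ := IsFunctionField.exists_transcendental (K := K) (F := F)
  have hind : AlgebraicIndependent K (fun _ : Unit => t) :=
    algebraicIndependent_unique_type_iff.mpr ht
  have hb : IsTranscendenceBasis K (fun _ : Unit => t) := by
    refine hind.isTranscendenceBasis_of_lift_trdeg_le_of_finite ?_
    rw [trdeg_eq_one]
    simp
  haveI halg : Algebra.IsAlgebraic K⟮t⟯ F := by
    have h := hb.isAlgebraic_field
    rw [Set.range_const] at h
    exact h
  let b := Module.finBasis K⟮x⟯ F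
  let S : Set F := insert x (Set.range b)
  haveI : Finite S := Set.finite_range b |>.insert x |>.to_subtype
  haveI : FiniteDimensional K⟮t⟯ (IntermediateField.adjoin K⟮t⟯ S) :=
    IntermediateField.finiteDimensional_adjoin fun s _ =>
      (Algebra.IsAlgebraic.isAlgebraic s).isIntegral
  have htop : IntermediateField.adjoin K⟮t⟯ S = ⊤ := by
    refine eq_top_iff.mpr fun f _ => ?_
    have hx : (K⟮x⟯ : IntermediateField K F) ≤
        (IntermediateField.adjoin K⟮t⟯ S).restrictScalars K :=
      IntermediateField.adjoin_simple_le_iff.mpr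
        ((IntermediateField.mem_restrictScalars K).mpr
          (IntermediateField.subset_adjoin K⟮t⟯ S (Set.mem_insert _ _)))
    rw [← b.sum_repr f]
    refine sum_mem fun i _ => ?_
    rw [IntermediateField.smul_def, smul_eq_mul]
    exact mul_mem (hx (b.repr f i).2)
      (IntermediateField.subset_adjoin _ _ (Set.mem_insert_of_mem _ ⟨i, rfl⟩))
  rw [htop] at this
  exact IntermediateField.topEquiv.toLinearEquiv.finiteDimensional

theorem IsFunctionField.of_transcendental {t : F} (ht : Transcendental K t)
    [FiniteDimensional K⟮t⟯ F] : IsFunctionField K F :=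
  ⟨t, ht, inferInstance⟩

theorem aeval_mem_ordGE {v : Place K F} {t : F} (ht : t ∈ ordGE v 0) (p : K[X]) :
    aeval t p ∈ ordGE v 0 := by
  rw [← mem_valuationSubring_iff] at ht ⊢
  induction p using Polynomial.induction_on' with
  | add p q hp hq => rw [map_add]; exact add_mem hp hq
  | monomial n a =>
    rw [aeval_monomial]
    exact mul_mem (v.algebraMap_mem' a) (pow_mem ht n)

/-- A function with a zero or pole is transcendental over the constants. -/
theorem transcendental_of_ord_pos {v : Place K F} {t : F} (h : 0 < v.ord t) :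
    Transcendental K t := by
  intro halg
  have ht0 : t ≠ 0 := fun e => by simp [e] at h
  have hc : (minpoly K t).coeff 0 ≠ 0 := minpoly.coeff_zero_ne_zero halg.isIntegral ht0
  have heq : algebraMap K F ((minpoly K t).coeff 0) = -(t * aeval t (minpoly K t).divX) := by
    have h0 := minpoly.aeval K t
    rw [← (minpoly K t).X_mul_divX_add] at h0
    rw [map_add, map_mul, aeval_X, aeval_C] at h0
    linear_combination h0
  have hm : t * aeval t (minpoly K t).divX ∈ ordGE v (1 + 0) :=
    mul_mem_ordGE (mem_ordGE_of_le (by omega)) (aeval_mem_ordGE (mem_ordGE_of_le h.le) _)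
  have hne : t * aeval t (minpoly K t).divX ≠ 0 := by
    intro e
    rw [e, neg_zero, map_eq_zero] at heq
    exact hc heq
  have := le_ord_of_mem hm hne
  rw [← ord_neg, ← heq, ord_algebraMap] at this
  omega

theorem transcendental_of_ord_ne_zero {v : Place K F} {t : F} (h : v.ord t ≠ 0) :
    Transcendental K t := by
  rcases lt_or_gt_of_ne h with h | h
  · intro halg
    exact transcendental_of_ord_pos (t := t⁻¹) (by rw [v.ord_inv]; omega) halg.inv
  · exact transcendental_of_ord_pos h

open scoped IntermediateField.algebraAdjoinAdjoin in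
/-- Functions regular at all `v ∈ S` whose classes modulo `t` are independent over `K` are
independent over `K(t)`. -/
theorem linearIndependent_adjoin_of_ordGE {ι : Type*} [Fintype ι] (S : Finset (Place K F))
    {t : F} (ht : Transcendental K t) (hS : ∀ v ∈ S, 0 ≤ v.ord t) (f : ι → F)
    (hf : ∀ i, ∀ v ∈ S, f i ∈ ordGE v 0)
    (hindep : ∀ c : ι → K, (∀ v ∈ S, ∑ i, c i • f i ∈ ordGE v (v.ord t)) → c = 0) :
    LinearIndependent K⟮t⟯ f := by
  classical
  have key : ∀ (d : ℕ) (p : ι → K[X]), (∀ i, (p i).natDegree ≤ d) →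
      ∑ i, aeval t (p i) * f i = 0 → ∀ i, p i = 0 := by
    intro d
    induction d using Nat.strong_induction_on with
    | _ d ih =>
      intro p hd hsum
      have hsplit : ∑ i, (p i).coeff 0 • f i = -(t * ∑ i, aeval t (p i).divX * f i) := by
        rw [eq_neg_iff_add_eq_zero, Finset.mul_sum, ← Finset.sum_add_distrib, ← hsum]
        refine Finset.sum_congr rfl fun i _ => ?_
        conv_rhs => rw [← (p i).X_mul_divX_add]
        rw [map_add, map_mul, aeval_X, aeval_C, Algebra.smul_def]
        ring
      have hc : (fun i => (p i).coeff 0) = 0 := hindep _ fun v hv => by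
        rw [hsplit]
        refine neg_mem ?_
        have := mul_mem_ordGE (mem_ordGE_of_le (v := v) (f := t) le_rfl)
          (Submodule.sum_mem _ fun i (_ : i ∈ Finset.univ) =>
            mul_mem_ordGE (aeval_mem_ordGE (mem_ordGE_of_le (hS v hv)) (p i).divX) (hf i v hv))
        simpa using this
      have ht0 : t ≠ 0 := fun e => ht (e ▸ isAlgebraic_zero)
      have hdiv : ∑ i, aeval t (p i).divX * f i = 0 := by
        rw [Finset.sum_congr rfl fun i _ => by rw [show (p i).coeff 0 = 0 from congrFun hc i,
          zero_smul], Finset.sum_const_zero, eq_comm, neg_eq_zero] at hsplit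
        exact (mul_eq_zero.mp hsplit).resolve_left ht0
      intro i
      rcases Nat.eq_zero_or_pos d with rfl | hdpos
      · rw [eq_C_of_natDegree_le_zero (hd i), show (p i).coeff 0 = 0 from congrFun hc i, C_0]
      · have := ih (d - 1) (by omega) (fun j => (p j).divX)
          (fun j => by have := hd j; rw [natDegree_divX_eq_natDegree_tsub_one]; omega) hdiv i
        have h2 := (p i).X_mul_divX_add
        rw [this, show (p i).coeff 0 = 0 from congrFun hc i] at h2
        simpa using h2.symm
  rw [← LinearIndependent.iff_fractionRing (Algebra.adjoin K {t}) K⟮t⟯, Fintype.linearIndependent_iff]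
  intro g hg
  have hp : ∀ i, ∃ p : K[X], aeval t p = (g i : F) := fun i => by
    exact (SetLike.ext_iff.mp (Algebra.adjoin_singleton_eq_range_aeval K t) _).mp (g i).2
  choose p hp using hp
  have hzero := key (Finset.univ.sup fun i => (p i).natDegree) p
    (fun i => Finset.le_sup (f := fun i => (p i).natDegree) (Finset.mem_univ i)) (by
      rw [← hg]
      exact Finset.sum_congr rfl fun i _ => by rw [hp i]; rfl)
  intro i
  ext
  rw [← hp i, hzero i, map_zero]
  rfl

/-- Digits: if `∑ πⁱ gᵢ` has order `≥ e` with the `gᵢ` constant combinations of lifts of a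
family independent in the residue field, all coefficients vanish. -/
theorem digits_eq_zero {v : Place K F} {e : ℕ} {m : ℕ} (b : Fin m → ↥(ordGE v 0))
    (hb : LinearIndependent K (residueAt v ∘ b)) (c : Fin e → Fin m → K)
    (h : ∑ i : Fin e, ∑ j, c i j • (unif v ^ (i : ℕ) * (b j : F)) ∈ ordGE v e) :
    c = 0 := by
  classical
  by_contra hne
  have hex : ∃ i : Fin e, c i ≠ 0 := by
    by_contra h'; push Not at h'; exact hne (funext h')
  obtain ⟨i₀, hi₀, hmin⟩ := Finset.exists_min_image (Finset.univ.filter fun i => c i ≠ 0) id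
    ⟨hex.choose, by simp [hex.choose_spec]⟩
  simp only [Finset.mem_filter, Finset.mem_univ, true_and, id] at hi₀ hmin
  have hterm : ∀ i : Fin e, ∑ j, c i j • (unif v ^ (i : ℕ) * (b j : F)) =
      unif v ^ (i : ℕ) * ((∑ j, c i j • b j : ↥(ordGE v 0)) : F) := fun i => by
    rw [Submodule.coe_sum, Finset.mul_sum]
    exact Finset.sum_congr rfl fun j _ => by rw [SetLike.val_smul, mul_smul_comm]
  simp only [hterm] at h
  rw [← Finset.add_sum_erase _ _ (Finset.mem_univ i₀)] at h
  have hrest : ∀ i ∈ Finset.univ.erase i₀,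
      unif v ^ (i : ℕ) * ((∑ j, c i j • b j : ↥(ordGE v 0)) : F) ∈
        ordGE v ((i₀ : ℕ) + 1 : ℤ) := by
    intro i hi
    rcases eq_or_ne (c i) 0 with hci | hci
    · simp [hci]
    have h1 : (i₀ : ℕ) < (i : ℕ) :=
      lt_of_le_of_ne (hmin i hci) (fun e' => (Finset.ne_of_mem_erase hi) (Fin.ext e'.symm))
    refine ordGE_anti (by omega : ((i₀ : ℕ) + 1 : ℤ) ≤ (i : ℕ) + 0) (mul_mem_ordGE ?_ (Subtype.mem _))
    exact mem_ordGE_of_le (by simp [ord_pow])
  have h' := sub_mem (ordGE_anti (by omega : ((i₀ : ℕ) + 1 : ℤ) ≤ e) h)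
    (Submodule.sum_mem _ hrest)
  rw [add_sub_cancel_right] at h'
  have hmul := mul_mem_ordGE (mem_ordGE_of_le (v := v) (ord_unif_zpow v (-(i₀ : ℕ) : ℤ)).ge) h'
  rw [zpow_neg, zpow_natCast, ← mul_assoc, inv_mul_cancel₀ (pow_ne_zero _ (unif_ne_zero v)),
    one_mul, show -((i₀ : ℕ) : ℤ) + ((i₀ : ℕ) + 1) = 1 by omega, ← residueAt_eq_zero_iff,
    map_sum] at hmul
  simp only [map_smul] at hmul
  exact hi₀ (funext (Fintype.linearIndependent_iff.mp hb _ hmul))

/-- `∑ ord_v(t)·deg v ≤ [F : K(t)]` over any finite set of places and families independent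
in their residue fields. -/
theorem sum_ord_mul_card_le [IsFunctionField K F] (S : Finset (Place K F)) {t : F}
    (ht : Transcendental K t) (hS : ∀ v ∈ S, 0 ≤ v.ord t) (m : Place K F → ℕ)
    (b : ∀ v : Place K F, Fin (m v) → ↥(ordGE v 0))
    (hb : ∀ v ∈ S, LinearIndependent K (residueAt v ∘ b v)) :
    ∑ v ∈ S, (v.ord t).toNat * m v ≤ Module.finrank K⟮t⟯ F := by
  classical
  haveI := finiteDimensional_adjoin_of_transcendental ht
  let e : Place K F → ℕ := fun v => (v.ord t).toNat
  let ι := Σ v : S, Fin (e v.1) × Fin (m v.1)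
  have happ : ∀ p : ι, ∃ f : F, ∀ w ∈ S, f - Function.update (0 : Place K F → F) p.1.1
      (unif p.1.1 ^ (p.2.1 : ℕ) * (b p.1.1 p.2.2 : F)) w ∈ ordGE w (e w) :=
    fun p => exists_approx S _ _
  choose f hf using happ
  have hmem : ∀ p : ι, ∀ w ∈ S, f p ∈ ordGE w 0 := by
    intro p w hw
    have h := ordGE_anti (m := 0) (by omega) (hf p w hw)
    rcases eq_or_ne w p.1.1 with rfl | hne
    · rw [Function.update_self] at h
      have h2 : unif p.1.1 ^ (p.2.1 : ℕ) * (b p.1.1 p.2.2 : F) ∈ ordGE p.1.1 0 := by
        simpa using mul_mem_ordGE (mem_ordGE_of_le (v := p.1.1) (n := 0)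
          (f := unif p.1.1 ^ (p.2.1 : ℕ)) (by simp [ord_pow])) (b p.1.1 p.2.2).2
      simpa using add_mem h h2
    · rw [Function.update_of_ne hne] at h
      simpa using h
  have hli : LinearIndependent K⟮t⟯ f := by
    refine linearIndependent_adjoin_of_ordGE S ht hS f hmem fun c hc => ?_
    funext p
    obtain ⟨⟨w, hw⟩, ij⟩ := p
    have h1 : ∑ q : ι, c q • Function.update (0 : Place K F → F) q.1.1
        (unif q.1.1 ^ (q.2.1 : ℕ) * (b q.1.1 q.2.2 : F)) w ∈ ordGE w (e w) := by
      have h2 : ∑ q : ι, c q • (f q - Function.update (0 : Place K F → F) q.1.1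
          (unif q.1.1 ^ (q.2.1 : ℕ) * (b q.1.1 q.2.2 : F)) w) ∈ ordGE w (e w) :=
        Submodule.sum_mem _ fun q _ => Submodule.smul_mem _ _ (hf q w hw)
      have h3 : ∑ q : ι, c q • f q ∈ ordGE w (e w) :=
        ordGE_anti (by have := hS w hw; simp only [e]; omega) (hc w hw)
      have := sub_mem h3 h2
      simpa [smul_sub, Finset.sum_sub_distrib] using this
    rw [Fintype.sum_sigma, Finset.sum_eq_single ⟨w, hw⟩] at h1
    · simp only [Function.update_self] at h1
      rw [Fintype.sum_prod_type] at h1
      exact congrFun (congrFun (digits_eq_zero (b w) (hb w hw)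
        (fun i j => c ⟨⟨w, hw⟩, (i, j)⟩) h1) ij.1) ij.2
    · intro v _ hv
      refine Finset.sum_eq_zero fun x _ => ?_
      rw [Function.update_of_ne (fun e' => hv (Subtype.ext e'.symm)), Pi.zero_apply, smul_zero]
    · simp
  have hcard := hli.fintype_card_le_finrank
  rw [Fintype.card_sigma] at hcard
  simp only [Fintype.card_prod, Fintype.card_fin] at hcard
  rwa [← Finset.sum_coe_sort]

theorem finite_residueField_of_isFunctionField [IsFunctionField K F] (v : Place K F) :
    Module.Finite K v.ResidueField := by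
  classical
  refine Module.rank_lt_aleph0_iff.mp (lt_of_le_of_lt
    (rank_le (n := Module.finrank K⟮unif v⟯ F) fun s hs => ?_) (Cardinal.natCast_lt_aleph0))
  let r : Fin s.card → v.ResidueField := fun i => (s.equivFin.symm i : v.ResidueField)
  have hr : LinearIndependent K r := hs.comp _ s.equivFin.symm.injective
  choose b hb using fun i => residueAt_surjective v (r i)
  have hu : Transcendental K (unif v) := transcendental_of_ord_pos (v := v) (by simp)
  let bb : ∀ w : Place K F, Fin (if w = v then s.card else 0) → ↥(ordGE w 0) := fun w i =>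
    if h : w = v then h ▸ b (Fin.cast (if_pos h) i) else Fin.elim0 (Fin.cast (if_neg h) i)
  have := sum_ord_mul_card_le {v} hu (by simp) (fun w => if w = v then s.card else 0) bb
    (by
      intro w hw
      rw [Finset.mem_singleton] at hw
      subst hw
      have hbb : residueAt w ∘ bb w = r ∘ Fin.cast (if_pos rfl) := by
        funext i
        simp [bb, hb]
      rw [hbb]
      exact hr.comp _ (Fin.cast_injective _))
  simpa using this

instance (priority := 100) finiteResidue_of_isFunctionField [IsFunctionField K F]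
    (v : Place K F) : v.FiniteResidue :=
  ⟨finite_residueField_of_isFunctionField v⟩

/-- `∑ ord_v(t)·deg v ≤ [F : K(t)]` over finite sets of zeros. -/
theorem sum_ord_mul_deg_le [IsFunctionField K F] (S : Finset (Place K F)) {t : F}
    (ht : Transcendental K t) (hS : ∀ v ∈ S, 0 ≤ v.ord t) :
    ∑ v ∈ S, v.ord t * v.deg ≤ Module.finrank K⟮t⟯ F := by
  haveI := fun v : Place K F => finite_residueField v
  choose b hb using fun (v : Place K F) (i : Fin v.deg) =>
    residueAt_surjective v (Module.finBasis K v.ResidueField i)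
  have h := sum_ord_mul_card_le S ht hS (fun v => v.deg) b fun v _ => by
    rw [show residueAt v ∘ b v = Module.finBasis K v.ResidueField from funext (hb v)]
    exact (Module.finBasis K v.ResidueField).linearIndependent
  refine le_trans ?_ (Int.ofNat_le.mpr h)
  rw [Nat.cast_sum]
  exact Finset.sum_le_sum fun v hv => by rw [Nat.cast_mul, Int.toNat_of_nonneg (hS v hv)]

theorem finite_setOf_ord_pos [IsFunctionField K F] (t : F) :
    {v : Place K F | 0 < v.ord t}.Finite := by
  by_contra hinf
  obtain ⟨v₀, hv₀⟩ := Set.Infinite.nonempty hinf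
  have ht : Transcendental K t := transcendental_of_ord_pos hv₀
  obtain ⟨S, hSsub, hScard⟩ :=
    Set.Infinite.exists_subset_card_eq hinf (Module.finrank K⟮t⟯ F + 1)
  have h := sum_ord_mul_deg_le S ht fun v hv => le_of_lt (hSsub hv)
  have h2 : (S.card : ℤ) ≤ ∑ v ∈ S, v.ord t * v.deg := by
    have : ∀ v ∈ S, (1 : ℤ) ≤ v.ord t * v.deg := fun v hv => by
      have h1 : 0 < v.ord t := hSsub hv
      have h2 := deg_pos v
      exact one_le_mul_of_one_le_of_one_le (by omega) (by omega)
    simpa using Finset.sum_le_sum this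
  omega

theorem finite_setOf_ord_ne_zero [IsFunctionField K F] (t : F) :
    {v : Place K F | v.ord t ≠ 0}.Finite :=
  ((finite_setOf_ord_pos (K := K) t).union (finite_setOf_ord_pos (K := K) t⁻¹)).subset fun v hv => by
    simp only [Set.mem_union, Set.mem_ofPred_eq, v.ord_inv] at hv ⊢
    omega

/-- The divisor of a function. -/
def divOf [IsFunctionField K F] (f : F) : Divisor K F :=
  Finsupp.ofSupportFinite (fun v => v.ord f) (finite_setOf_ord_ne_zero f)

@[simp]
theorem divOf_apply [IsFunctionField K F] (f : F) (v : Place K F) : divOf f v = v.ord f := rfl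

theorem exists_mul_valuation_eq_zpow (B : ValuationSubring F) (hK : ∀ a : K, algebraMap K F a ∈ B)
    {t : F} (ht : Transcendental K t) (htB : B.valuation t < 1) {g : F} (hg : g ∈ K⟮t⟯)
    (hg0 : g ≠ 0) : ∃ m : ℤ, B.valuation g = B.valuation t ^ m := by
  have ht0 : B.valuation t ≠ 0 := by
    rw [ne_eq, map_eq_zero]; exact fun e => ht (e ▸ isAlgebraic_zero)
  have hconst : ∀ a : K, a ≠ 0 → B.valuation (algebraMap K F a) = 1 := fun a ha => by
    apply le_antisymm ((B.valuation_le_one_iff _).mpr (hK a))
    have h := (B.valuation_le_one_iff _).mpr (hK a⁻¹)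
    rw [map_inv₀, map_inv₀, inv_le_one₀ (zero_lt_iff.mpr (by simp [ha]))] at h
    exact h
  have haev : ∀ p : K[X], B.valuation (aeval t p) ≤ 1 := fun p => by
    rw [B.valuation_le_one_iff]
    induction p using Polynomial.induction_on' with
    | add p q hp hq => rw [map_add]; exact add_mem hp hq
    | monomial n a =>
      rw [aeval_monomial]
      exact mul_mem (hK a) (pow_mem ((B.valuation_le_one_iff t).mp htB.le) n)
  have hpoly : ∀ p : K[X], p ≠ 0 → ∃ m : ℤ, B.valuation (aeval t p) = B.valuation t ^ m := by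
    intro p hp
    obtain ⟨q, hq, hqdvd⟩ := exists_eq_pow_rootMultiplicity_mul_and_not_dvd p hp 0
    refine ⟨p.rootMultiplicity 0, ?_⟩
    rw [C_0, sub_zero] at hq hqdvd
    have hq0 : q.coeff 0 ≠ 0 := fun h => hqdvd (X_dvd_iff.mpr h)
    have hqv : B.valuation (aeval t q) = 1 := by
      conv_lhs => rw [← q.X_mul_divX_add]
      rw [map_add, map_mul, aeval_X, aeval_C,
        Valuation.map_add_eq_of_lt_right, hconst _ hq0]
      rw [hconst _ hq0, map_mul]
      exact lt_of_le_of_lt (mul_le_of_le_one_right' (haev _)) htB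
    conv_lhs => rw [hq]
    rw [map_mul, map_pow, aeval_X, map_mul, hqv, mul_one, map_pow, zpow_natCast]
  obtain ⟨r, hr⟩ := (IntermediateField.mem_adjoin_simple_iff K g).mp hg
  obtain ⟨s, hs⟩ := hr
  have hr0 : r ≠ 0 := by rintro rfl; simp at hs; exact hg0 hs
  have hs0 : s ≠ 0 := by rintro rfl; simp at hs; exact hg0 hs
  obtain ⟨a, ha⟩ := hpoly r hr0
  obtain ⟨c, hc⟩ := hpoly s hs0
  exact ⟨a - c, by rw [hs, map_div₀, ha, hc, zpow_sub₀ ht0]⟩

/-- A valuation subring containing the constants in which a transcendental element is a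
non-unit is a discrete valuation ring. -/
theorem isPrincipalIdealRing_of_valuation_lt_one [IsFunctionField K F] (B : ValuationSubring F)
    (hK : ∀ a : K, algebraMap K F a ∈ B) {t : F} (ht : Transcendental K t)
    (htB : B.valuation t < 1) : IsPrincipalIdealRing B := by
  classical
  haveI := finiteDimensional_adjoin_of_transcendental ht
  have ht0 : t ≠ 0 := fun e => ht (e ▸ isAlgebraic_zero)
  have hvt0 : B.valuation t ≠ 0 := by simpa using ht0
  set n := Module.finrank K⟮t⟯ F with hn
  have hpow : ∀ g : F, g ≠ 0 → ∃ m : ℤ, B.valuation g ^ n.factorial = B.valuation t ^ m := by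
    intro g hg
    obtain ⟨hint, hdeg⟩ : IsIntegral K⟮t⟯ g ∧ (minpoly K⟮t⟯ g).natDegree ≤ n :=
      ⟨IsIntegral.of_finite _ g, minpoly.natDegree_le g⟩
    set q := minpoly K⟮t⟯ g
    let term : ℕ → F := fun i => (q.coeff i : F) * g ^ i
    have hsum : ∑ i ∈ q.support, term i = 0 := by
      have := minpoly.aeval K⟮t⟯ g
      rw [aeval_eq_sum_range] at this
      rw [← this]
      symm
      refine (Finset.sum_subset (s₁ := q.support) ?_ ?_).symm.trans ?_
      · intro i hi
        exact Finset.mem_range.mpr (Nat.lt_succ_of_le (le_natDegree_of_mem_supp i hi))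
      · intro i _ hi
        rw [notMem_support_iff] at hi
        rw [show (minpoly K⟮t⟯ g).coeff i = 0 from hi, zero_smul]
      · rfl
    obtain ⟨i, hi, j, hj, hij, hval⟩ : ∃ i ∈ q.support, ∃ j ∈ q.support, i < j ∧
        B.valuation (term i) = B.valuation (term j) := by
      by_contra hcon
      push Not at hcon
      obtain ⟨i₀, hi₀, hmax⟩ := Finset.exists_max_image q.support (fun i => B.valuation (term i))
        (support_nonempty.mpr (minpoly.ne_zero hint))
      have hlt : ∀ k ∈ q.support.erase i₀, B.valuation (term k) < B.valuation (term i₀) := by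
        intro k hk
        refine lt_of_le_of_ne (hmax k (Finset.mem_of_mem_erase hk)) ?_
        rcases lt_or_gt_of_ne (Finset.ne_of_mem_erase hk) with h | h
        · exact hcon k (Finset.mem_of_mem_erase hk) i₀ hi₀ h
        · exact (hcon i₀ hi₀ k (Finset.mem_of_mem_erase hk) h).symm
      have hne : B.valuation (term i₀) ≠ 0 := by
        simp only [term, ne_eq, map_eq_zero, mul_eq_zero, not_or]
        exact ⟨by simpa using mem_support_iff.mp hi₀, pow_ne_zero _ hg⟩
      have := Valuation.map_sum_eq_of_lt B.valuation hi₀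
        (fun k hk => hlt k (Finset.mem_erase.mpr ⟨by simpa using (Finset.mem_sdiff.mp hk).2,
          (Finset.mem_sdiff.mp hk).1⟩))
      rw [hsum, map_zero] at this
      exact hne this.symm
    have hc : ∀ k ∈ q.support, ∃ m : ℤ, B.valuation (q.coeff k : F) = B.valuation t ^ m :=
      fun k hk => exists_mul_valuation_eq_zpow B hK ht htB (q.coeff k).2
        (by simpa using mem_support_iff.mp hk)
    obtain ⟨a, ha⟩ := hc i hi
    obtain ⟨c, hc⟩ := hc j hj
    obtain ⟨l, hl⟩ : (j - i) ∣ n.factorial :=
      Nat.dvd_factorial (by omega) (le_trans (by omega) ((le_natDegree_of_mem_supp j hj).trans hdeg))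
    refine ⟨(a - c) * l, ?_⟩
    simp only [term, map_mul, map_pow, ha, hc] at hval
    have hgv : B.valuation g ≠ 0 := by simpa using hg
    have hji : B.valuation g ^ (j - i) = B.valuation t ^ (a - c) := by
      rw [zpow_sub₀ hvt0, eq_div_iff (zpow_ne_zero _ hvt0), mul_comm]
      apply mul_right_cancel₀ (pow_ne_zero i hgv)
      rw [mul_assoc, ← pow_add, Nat.sub_add_cancel hij.le, ← hval]
    rw [hl, pow_mul, hji, zpow_mul, zpow_natCast]
  constructor
  intro I
  by_cases hI0 : I = ⊥
  · subst hI0; exact bot_isPrincipal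
  choose φ hφ using hpow
  have hle : ∀ (g : F) (hg : g ≠ 0) (h : F) (hh : h ≠ 0), φ g hg ≤ φ h hh →
      B.valuation h ≤ B.valuation g := by
    intro g hg h hh hle
    rw [← pow_le_pow_iff_left₀ zero_le zero_le n.factorial_ne_zero, hφ g hg, hφ h hh]
    exact zpow_le_zpow_right_of_le_one₀ (zero_lt_iff.mpr hvt0) htB.le hle
  have hnn : ∀ (b : B) (hb : (b : F) ≠ 0), 0 ≤ φ b hb := by
    intro b hb
    by_contra hneg
    push Not at hneg
    have h1 := pow_le_one₀ (n := n.factorial) zero_le ((B.valuation_le_one_iff _).mpr b.2)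
    rw [hφ _ hb] at h1
    exact absurd h1 (not_le.mpr (one_lt_zpow_of_neg₀ (zero_lt_iff.mpr hvt0) htB hneg))
  let P : ℕ → Prop := fun k => ∃ b ∈ I, ∃ hb : (b : F) ≠ 0, (φ b hb).toNat = k
  obtain ⟨b₀, hb₀, hb₀0⟩ := (Submodule.ne_bot_iff I).mp hI0
  have hP : ∃ k, P k := ⟨_, b₀, hb₀, by simpa using hb₀0, rfl⟩
  obtain ⟨b, hb, hb0, hbmin⟩ := Nat.find_spec hP
  refine ⟨b, le_antisymm ?_ ((Ideal.span_singleton_le_iff_mem I).mpr hb)⟩
  intro c hc
  rcases eq_or_ne (c : F) 0 with hc0 | hc0
  · have : c = 0 := Subtype.ext hc0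
    simp [this]
  have hmin := Nat.find_min' hP ⟨c, hc, hc0, rfl⟩
  have h1 := hnn b hb0
  have h2 := hnn c hc0
  have hvle := hle b hb0 c hc0 (by omega)
  rw [Ideal.mem_span_singleton]
  have hmem : (c : F) / (b : F) ∈ B := by
    rw [← B.valuation_le_one_iff, map_div₀, div_le_one₀ (zero_lt_iff.mpr (by simpa using hb0))]
    exact hvle
  exact ⟨⟨_, hmem⟩, Subtype.ext (mul_div_cancel₀ (c : F) hb0).symm⟩

/-- Places with a zero at any given transcendental element exist. -/
theorem exists_place_ord_pos [IsFunctionField K F] {t : F} (ht : Transcendental K t) :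
    ∃ v : Place K F, 0 < v.ord t := by
  classical
  haveI := finiteDimensional_adjoin_of_transcendental ht
  let A : Subring F := (Algebra.adjoin K {t}).toSubring
  let tA : A := ⟨t, Algebra.self_mem_adjoin_singleton K t⟩
  have hI : Ideal.span {tA} ≠ ⊤ := by
    intro h
    obtain ⟨q, hq⟩ := Ideal.mem_span_singleton'.mp (h.symm ▸ Submodule.mem_top : (1 : A) ∈ _)
    obtain ⟨p, hp⟩ : ∃ p : K[X], aeval t p = (q : F) := by
      have h := q.2
      simp only [A, Subalgebra.mem_toSubring, Algebra.adjoin_singleton_eq_range_aeval] at h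
      exact h
    have h0 : aeval t (p * X - 1) = 0 := by
      have := congrArg Subtype.val hq
      simp only [Subring.coe_mul, Subring.coe_one, tA] at this
      rw [map_sub, map_mul, aeval_X, map_one, hp, this, sub_self]
    have := congrArg (fun r : K[X] => r.coeff 0) (transcendental_iff.mp ht _ h0)
    simp at this
  obtain ⟨B, hAB, hIB⟩ := Ideal.image_subset_nonunits_valuationSubring _ hI
  have hK : ∀ a : K, algebraMap K F a ∈ B := fun a =>
    hAB (Subalgebra.algebraMap_mem (Algebra.adjoin K {t}) a)
  have htB : B.valuation t < 1 :=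
    B.mem_nonunits_iff.mp (hIB ⟨tA, Ideal.subset_span rfl, rfl⟩)
  have ht0 : t ≠ 0 := fun e => ht (e ▸ isAlgebraic_zero)
  have hvt0 : B.valuation t ≠ 0 := by simpa using ht0
  have hPID : IsPrincipalIdealRing B := isPrincipalIdealRing_of_valuation_lt_one B hK ht htB
  have hne : B ≠ ⊤ := by
    intro e
    have h : t⁻¹ ∈ B := e ▸ ValuationSubring.mem_top _
    rw [← B.valuation_le_one_iff, map_inv₀, inv_le_one₀ (zero_lt_iff.mpr hvt0)] at h
    exact absurd h (not_le.mpr htB)
  refine ⟨⟨B, hK, hne, hPID⟩, ?_⟩
  set v : Place K F := ⟨B, hK, hne, hPID⟩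
  have h1 : t ∈ ordGE v 0 := (mem_valuationSubring_iff v).mp ((B.valuation_le_one_iff t).mp htB.le)
  have h2 : ¬ t⁻¹ ∈ ordGE v 0 := fun h => by
    have h' : t⁻¹ ∈ B := (mem_valuationSubring_iff v).mpr h
    rw [← B.valuation_le_one_iff, map_inv₀, inv_le_one₀ (zero_lt_iff.mpr hvt0)] at h'
    exact absurd h' (not_le.mpr htB)
  rw [mem_ordGE_of_ne_zero ht0] at h1
  rw [mem_ordGE_of_ne_zero (inv_ne_zero ht0), v.ord_inv] at h2
  omega

theorem exists_place_ord_neg [IsFunctionField K F] {t : F} (ht : Transcendental K t) :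
    ∃ v : Place K F, v.ord t < 0 := by
  obtain ⟨v, hv⟩ := exists_place_ord_pos (t := t⁻¹) (fun h => ht (IsAlgebraic.inv_iff.mp h))
  exact ⟨v, by rw [v.ord_inv] at hv; omega⟩

instance nonempty_place [IsFunctionField K F] : Nonempty (Place K F) := by
  obtain ⟨x, hx, -⟩ := IsFunctionField.exists_transcendental (K := K) (F := F)
  exact ⟨(exists_place_ord_pos hx).choose⟩

/-- A function without poles is algebraic over the constants. -/
theorem isAlgebraic_of_forall_ord_nonneg [IsFunctionField K F] {f : F}
    (h : ∀ v : Place K F, 0 ≤ v.ord f) : IsAlgebraic K f := by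
  by_contra hf
  obtain ⟨v, hv⟩ := exists_place_ord_neg hf
  exact absurd (h v) (not_le.mpr hv)

end FermatLib.Curve

end
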