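import Mathlib
import Fermat.Prelude.Def_AlgebraicCurve_IsCurveOver

/-!
Kähler differentials of a function field: rank one with basis `dx` for a separating element `x`.
-/

set_option autoImplicit false

noncomputable section

open KaehlerDifferential IntermediateField AlgebraicCurve

namespace FermatLib.Curve

variable {K F : Type*} [Field K] [Field F] [Algebra K F] {x : F}

/-- For `F` separable algebraic over `K(x)` with `x` transcendental, `Ω[F⁄K]` is the free
module on `dx`. -/
theorem exists_kaehlerBasis (hx : Transcendental K x) [Algebra.IsSeparable K⟮x⟯ F] :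
    ∃ b : Module.Basis Unit F Ω[F⁄K], b () = D K F x := by
  let : Algebra (Polynomial K) K⟮x⟯ :=
    (Polynomial.aeval (AdjoinSimple.gen K x)).toRingHom.toAlgebra
  let : Algebra (Polynomial K) F := (Polynomial.aeval x).toRingHom.toAlgebra
  have : IsScalarTower (Polynomial K) K⟮x⟯ F := IsScalarTower.of_algebraMap_eq fun p => by
    simp only [RingHom.algebraMap_toAlgebra]
    show Polynomial.aeval x p
      = IntermediateField.val K⟮x⟯ (Polynomial.aeval (AdjoinSimple.gen K x) p)
    rw [← Polynomial.aeval_algHom_apply]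
    rfl
  have : IsScalarTower K (Polynomial K) F := IsScalarTower.of_algebraMap_eq fun a => by
    simp [RingHom.algebraMap_toAlgebra]
  let e : RatFunc K ≃ₐ[Polynomial K] K⟮x⟯ :=
    AlgEquiv.ofRingEquiv (f := (RatFunc.algEquivOfTranscendental x hx).toRingEquiv) fun p => by
      simp [RingHom.algebraMap_toAlgebra]
  have : Algebra.FormallyEtale (Polynomial K) (RatFunc K) :=
    Algebra.FormallyEtale.of_isLocalization (nonZeroDivisors (Polynomial K))
  have : Algebra.FormallyEtale (Polynomial K) K⟮x⟯ := Algebra.FormallyEtale.of_equiv e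
  have : Algebra.FormallyEtale K⟮x⟯ F := Algebra.FormallyEtale.of_isSeparable _ _
  have : Algebra.FormallyEtale (Polynomial K) F :=
    Algebra.FormallyEtale.comp (Polynomial K) K⟮x⟯ F
  let b₀ : Module.Basis Unit (Polynomial K) Ω[Polynomial K⁄K] :=
    (Module.Basis.singleton Unit (Polynomial K)).map
      (KaehlerDifferential.polynomialEquiv K).symm
  refine ⟨(b₀.baseChange F).map
    (KaehlerDifferential.tensorKaehlerEquivOfFormallyEtale K (Polynomial K) F), ?_⟩
  rw [Module.Basis.map_apply, Module.Basis.baseChange_apply,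
    tensorKaehlerEquivOfFormallyEtale_apply, mapBaseChange_tmul, one_smul]
  simp [b₀, RingHom.algebraMap_toAlgebra]

theorem finrank_kaehler_eq_one (hx : Transcendental K x) [Algebra.IsSeparable K⟮x⟯ F] :
    Module.Free F Ω[F⁄K] ∧ Module.finrank F Ω[F⁄K] = 1 := by
  obtain ⟨b, -⟩ := exists_kaehlerBasis hx
  exact ⟨Module.Free.of_basis b, by simpa using Module.finrank_eq_card_basis b⟩

theorem D_ne_zero_of_separating (hx : Transcendental K x) [Algebra.IsSeparable K⟮x⟯ F] :
    D K F x ≠ 0 := by
  obtain ⟨b, hb⟩ := exists_kaehlerBasis hx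
  exact hb ▸ b.ne_zero ()

theorem nontrivial_kaehler (hx : Transcendental K x) [Algebra.IsSeparable K⟮x⟯ F] :
    Nontrivial Ω[F⁄K] :=
  ⟨D K F x, 0, D_ne_zero_of_separating hx⟩

theorem exists_eq_smul_D (hx : Transcendental K x) [Algebra.IsSeparable K⟮x⟯ F]
    (ω : Ω[F⁄K]) : ∃ f : F, ω = f • D K F x := by
  obtain ⟨b, hb⟩ := exists_kaehlerBasis hx
  exact ⟨b.repr ω (), by rw [← hb]; simpa using (b.sum_repr ω).symm⟩

/-- The criterion for `IsCurveOver`. -/
theorem isCurveOver_of_separating (hx : Transcendental K x) [Algebra.IsSeparable K⟮x⟯ F]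
    [HasPrincipalDivisors K F] (hres : ∀ v : Place K F, Module.Finite K v.ResidueField) :
    IsCurveOver K F :=
  { finiteResidue := hres, kaehler_free_rank_one := finrank_kaehler_eq_one hx }

/-- An element with nonzero differential is transcendental over a perfect base. -/
theorem transcendental_of_D_ne_zero [PerfectField K] (h : D K F x ≠ 0) :
    Transcendental K x := by
  intro halg
  apply h
  have hsep : IsSeparable K x := PerfectField.separable_of_irreducible
    (minpoly.irreducible halg.isIntegral)
  have h0 := (D K F).map_aeval (minpoly K x) x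
  rw [minpoly.aeval, map_zero] at h0
  refine (smul_eq_zero.mp h0.symm).resolve_left ?_
  exact hsep.aeval_derivative_ne_zero (minpoly.aeval K x)

/-- Converse: any `x` with `dx ≠ 0` is a separating element. -/
theorem finite_separable_of_D_ne_zero [PerfectField K] [IsCurveOver K F]
    [Algebra.EssFiniteType K F] (h : D K F x ≠ 0) :
    Transcendental K x ∧ FiniteDimensional K⟮x⟯ F ∧ Algebra.IsSeparable K⟮x⟯ F := by
  refine ⟨transcendental_of_D_ne_zero h, ?_⟩
  have : Algebra.EssFiniteType K⟮x⟯ F := Algebra.EssFiniteType.of_comp K _ _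
  have : Algebra.FormallyUnramified K⟮x⟯ F := by
    rw [Algebra.formallyUnramified_iff]
    refine ⟨fun a b => ?_⟩
    have hspan : ∀ ω : Ω[F⁄K], KaehlerDifferential.map K K⟮x⟯ F F ω = 0 := fun ω => by
      obtain ⟨c, rfl⟩ := (finrank_eq_one_iff_of_nonzero' _ h).mp IsCurveOver.finrank_kaehler ω
      rw [map_smul, KaehlerDifferential.map_D]
      show c • D K⟮x⟯ F x = 0
      rw [show D K⟮x⟯ F x = D K⟮x⟯ F (algebraMap K⟮x⟯ F (AdjoinSimple.gen K x)) from rfl,
        Derivation.map_algebraMap, smul_zero]
    obtain ⟨a, rfl⟩ := KaehlerDifferential.map_surjective K K⟮x⟯ F a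
    obtain ⟨b, rfl⟩ := KaehlerDifferential.map_surjective K K⟮x⟯ F b
    rw [hspan, hspan]
  exact ⟨Algebra.FormallyUnramified.finite_of_free _ _,
    Algebra.FormallyUnramified.isSeparable _ _⟩

/-- An essentially finite type curve has a separating element. -/
theorem exists_separating [PerfectField K] [IsCurveOver K F] [Algebra.EssFiniteType K F] :
    ∃ x : F, Transcendental K x ∧ FiniteDimensional K⟮x⟯ F ∧ Algebra.IsSeparable K⟮x⟯ F := by
  obtain ⟨x, hx⟩ : ∃ x : F, D K F x ≠ 0 := by
    by_contra! h
    obtain ⟨ω, hω⟩ := exists_ne (0 : Ω[F⁄K])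
    apply hω
    have : ω ∈ Submodule.span F (Set.range (D K F)) := by
      rw [KaehlerDifferential.span_range_derivation]; trivial
    rw [Submodule.span_eq_bot.mpr (by rintro _ ⟨y, rfl⟩; exact h y)] at this
    simpa using this
  exact ⟨x, finite_separable_of_D_ne_zero hx⟩

end FermatLib.Curve
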