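import Mathlib
import Fermat.Prelude.Def_AlgebraicCurve_IsCurveOver
import Fermat.Prelude.Def_AlgebraicCurve_Repartitions
import Fermat.Prelude.Def_ModularCurve_CanonicalDivisor

/-!
Power series expansion at a degree one place and the order of differentials.
-/

set_option autoImplicit false

noncomputable section

open KaehlerDifferential AlgebraicCurve

namespace FermatLib.Curve

variable {K F : Type*} [Field K] [Field F] [Algebra K F] (v : Place K F)

theorem exists_residue_eq (hv : v.deg = 1) (f : v.toValuationSubring) :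
    ∃ c : K, IsLocalRing.residue v.toValuationSubring f =
      algebraMap K v.ResidueField c := by
  obtain ⟨c, hc⟩ := (finrank_eq_one_iff_of_nonzero' (1 : v.ResidueField) one_ne_zero).mp hv
    (IsLocalRing.residue v.toValuationSubring f)
  exact ⟨c, by rw [← hc, Algebra.smul_def, mul_one]⟩

theorem exists_sub_const_mem_maximalIdeal (hv : v.deg = 1) (f : v.toValuationSubring) :
    ∃ c : K, f - algebraMap K v.toValuationSubring c ∈
      IsLocalRing.maximalIdeal v.toValuationSubring := by
  obtain ⟨c, hc⟩ := exists_residue_eq v hv f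
  refine ⟨c, Ideal.Quotient.eq.mp ?_⟩
  exact hc

theorem ord_unit_mul_pow (u : (v.toValuationSubring)ˣ) {π : v.toValuationSubring}
    (hπ : Irreducible π) (n : ℕ) :
    v.ord ((u.val * π ^ n : v.toValuationSubring) : F) = n := by
  have := v.ord_unit_smul_zpow u hπ (n : ℤ)
  simpa using this

theorem isUnit_algebraMap_of_ne {c : K} (hc : c ≠ 0) :
    IsUnit (algebraMap K v.toValuationSubring c) :=
  (Ne.isUnit hc).map _

theorem isUnit_aeval_of_coeff_zero_ne {g : v.toValuationSubring}
    (hg : g ∈ IsLocalRing.maximalIdeal v.toValuationSubring) {q : Polynomial K}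
    (hq : q.coeff 0 ≠ 0) : IsUnit (Polynomial.aeval g q) := by
  have h : Polynomial.aeval g q = algebraMap K v.toValuationSubring (q.coeff 0) +
      g * Polynomial.aeval g q.divX := by
    conv_lhs => rw [← Polynomial.X_mul_divX_add q]
    rw [map_add, map_mul, Polynomial.aeval_X, Polynomial.aeval_C, add_comm]
  by_contra hn
  have hm : Polynomial.aeval g q ∈ IsLocalRing.maximalIdeal v.toValuationSubring := hn
  have : algebraMap K v.toValuationSubring (q.coeff 0) ∈
      IsLocalRing.maximalIdeal v.toValuationSubring := by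
    rw [eq_sub_of_add_eq h.symm]
    exact sub_mem hm (Ideal.mul_mem_right _ _ hg)
  exact this (isUnit_algebraMap_of_ne v hq)

section Expansion

variable {π : v.toValuationSubring}

theorem exists_poly_approx (hv : v.deg = 1) (hπ : Irreducible π) (m : ℕ)
    (f : v.toValuationSubring) : ∃ p : Polynomial K, π ^ m ∣ f - Polynomial.aeval π p := by
  induction m generalizing f with
  | zero => exact ⟨0, by simp⟩
  | succ m ih =>
    obtain ⟨c, hc⟩ := exists_sub_const_mem_maximalIdeal v hv f
    rw [hπ.maximalIdeal_eq, Ideal.mem_span_singleton] at hc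
    obtain ⟨g, hg⟩ := hc
    obtain ⟨p, hp⟩ := ih g
    refine ⟨Polynomial.C c + Polynomial.X * p, ?_⟩
    rw [show f - Polynomial.aeval π (Polynomial.C c + Polynomial.X * p)
      = π * (g - Polynomial.aeval π p) by simp [mul_sub, ← hg]; ring, pow_succ']
    exact mul_dvd_mul_left π hp

theorem X_pow_dvd_of_dvd_aeval (hπ : Irreducible π) {m : ℕ} {p : Polynomial K}
    (h : π ^ m ∣ Polynomial.aeval π p) : Polynomial.X ^ m ∣ p := by
  by_cases hp : p = 0
  · simp [hp]
  obtain ⟨q, hpq, hq⟩ := Polynomial.exists_eq_pow_rootMultiplicity_mul_and_not_dvd p hp 0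
  simp only [map_zero, sub_zero] at hpq hq
  rw [Polynomial.X_dvd_iff] at hq
  obtain ⟨k, hk⟩ : ∃ k, k = p.rootMultiplicity 0 := ⟨_, rfl⟩
  rw [← hk] at hpq
  have hmem : π ∈ IsLocalRing.maximalIdeal v.toValuationSubring := hπ.not_isUnit
  rw [hpq, map_mul, map_pow, Polynomial.aeval_X,
    (isUnit_aeval_of_coeff_zero_ne v hmem hq).dvd_mul_right,
    pow_dvd_pow_iff hπ.ne_zero hπ.not_isUnit] at h
  rw [hpq]
  exact (pow_dvd_pow _ h).mul_right _

/-- The `n`-th Taylor coefficient of `f` in the uniformizer `π`. -/
def expandCoeff (hv : v.deg = 1) (hπ : Irreducible π) (f : v.toValuationSubring) (n : ℕ) : K :=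
  (exists_poly_approx v hv hπ (n + 1) f).choose.coeff n

theorem expandCoeff_eq (hv : v.deg = 1) (hπ : Irreducible π) {f : v.toValuationSubring}
    {p : Polynomial K} {m n : ℕ} (h : π ^ m ∣ f - Polynomial.aeval π p) (hn : n < m) :
    expandCoeff v hv hπ f n = p.coeff n := by
  have h₁ := (exists_poly_approx v hv hπ (n + 1) f).choose_spec
  have h₂ : π ^ (n + 1) ∣ f - Polynomial.aeval π p := (pow_dvd_pow _ hn).trans h
  have h₃ := dvd_sub h₂ h₁
  rw [sub_sub_sub_cancel_left, ← map_sub] at h₃
  have h₄ := Polynomial.X_pow_dvd_iff.mp (X_pow_dvd_of_dvd_aeval v hπ h₃) n n.lt_succ_self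
  rw [Polynomial.coeff_sub, sub_eq_zero] at h₄
  exact h₄

/-- Expansion at a degree one place in powers of a uniformizer. -/
def expand (hv : v.deg = 1) (hπ : Irreducible π) :
    v.toValuationSubring →ₐ[K] PowerSeries K where
  toFun f := PowerSeries.mk (expandCoeff v hv hπ f)
  map_one' := by
    ext n
    rw [PowerSeries.coeff_mk, expandCoeff_eq v hv hπ (p := 1) (m := n + 1) (by simp)
      n.lt_succ_self, PowerSeries.coeff_one, Polynomial.coeff_one]
  map_zero' := by
    ext n
    rw [PowerSeries.coeff_mk, expandCoeff_eq v hv hπ (p := 0) (m := n + 1) (by simp)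
      n.lt_succ_self]
    simp
  map_add' f g := by
    ext n
    obtain ⟨p, hp⟩ := exists_poly_approx v hv hπ (n + 1) f
    obtain ⟨q, hq⟩ := exists_poly_approx v hv hπ (n + 1) g
    simp only [map_add, PowerSeries.coeff_mk]
    rw [expandCoeff_eq v hv hπ hp n.lt_succ_self, expandCoeff_eq v hv hπ hq n.lt_succ_self,
      expandCoeff_eq v hv hπ (p := p + q) (m := n + 1) ?_ n.lt_succ_self,
      Polynomial.coeff_add]
    rw [map_add, add_sub_add_comm]
    exact dvd_add hp hq
  map_mul' f g := by
    ext n
    obtain ⟨p, hp⟩ := exists_poly_approx v hv hπ (n + 1) f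
    obtain ⟨q, hq⟩ := exists_poly_approx v hv hπ (n + 1) g
    rw [PowerSeries.coeff_mk, expandCoeff_eq v hv hπ (p := p * q) (m := n + 1) ?_
      n.lt_succ_self, Polynomial.coeff_mul, PowerSeries.coeff_mul]
    · refine Finset.sum_congr rfl fun ij hij => ?_
      have := Finset.HasAntidiagonal.mem_antidiagonal.mp hij
      rw [PowerSeries.coeff_mk, PowerSeries.coeff_mk, expandCoeff_eq v hv hπ hp (by omega),
        expandCoeff_eq v hv hπ hq (by omega)]
    · rw [map_mul, show f * g - Polynomial.aeval π p * Polynomial.aeval π q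
        = (f - Polynomial.aeval π p) * g + Polynomial.aeval π p * (g - Polynomial.aeval π q)
        by ring]
      exact dvd_add (hp.mul_right _) (hq.mul_left _)
  commutes' c := by
    ext n
    rw [PowerSeries.coeff_mk, expandCoeff_eq v hv hπ (p := Polynomial.C c) (m := n + 1)
      (by simp) n.lt_succ_self, Polynomial.coeff_C, PowerSeries.algebraMap_eq,
      PowerSeries.coeff_C]

theorem expand_uniformizer (hv : v.deg = 1) (hπ : Irreducible π) :
    expand v hv hπ π = PowerSeries.X := by
  ext n
  show PowerSeries.coeff n (PowerSeries.mk (expandCoeff v hv hπ π)) = _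
  rw [PowerSeries.coeff_mk, expandCoeff_eq v hv hπ (p := Polynomial.X) (m := n + 1) (by simp)
    n.lt_succ_self, Polynomial.coeff_X, PowerSeries.coeff_X]
  simp [eq_comm]

theorem expand_unit_mul_pow (hv : v.deg = 1) (hπ : Irreducible π)
    (u : (v.toValuationSubring)ˣ) (n : ℕ) :
    expand v hv hπ (u.val * π ^ n) = expand v hv hπ u.val * PowerSeries.X ^ n := by
  rw [map_mul, map_pow, expand_uniformizer]

theorem order_expand_unit (hv : v.deg = 1) (hπ : Irreducible π)
    (u : (v.toValuationSubring)ˣ) : (expand v hv hπ u.val).order = 0 :=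
  PowerSeries.order_zero_of_unit (u.isUnit.map _)

theorem order_expand (hv : v.deg = 1) (hπ : Irreducible π) {f : v.toValuationSubring}
    (hf : f ≠ 0) : ∃ n : ℕ, v.ord (f : F) = n ∧ (expand v hv hπ f).order = n := by
  obtain ⟨n, u, rfl⟩ := IsDiscreteValuationRing.eq_unit_mul_pow_irreducible hf hπ
  refine ⟨n, ord_unit_mul_pow v u hπ n, ?_⟩
  rw [expand_unit_mul_pow, PowerSeries.order_mul, order_expand_unit, PowerSeries.order_X_pow,
    zero_add]

theorem expand_injective (hv : v.deg = 1) (hπ : Irreducible π) :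
    Function.Injective (expand v hv hπ) := by
  rw [injective_iff_map_eq_zero]
  intro f hf
  by_contra h
  obtain ⟨n, -, hn⟩ := order_expand v hv hπ h
  simp [hf] at hn

/-- An identity of differentials in `F` becomes one of formal derivatives. -/
theorem derivative_expand_of_smul_eq (hv : v.deg = 1) (hπ : Irreducible π)
    (f a b : v.toValuationSubring)
    (h : (b : F) • D K F (f : F) = (a : F) • D K F (π : F)) :
    expand v hv hπ b * PowerSeries.derivative K (expand v hv hπ f) = expand v hv hπ a := by
  let : Algebra v.toValuationSubring (PowerSeries K) := (expand v hv hπ).toRingHom.toAlgebra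
  have : IsScalarTower K v.toValuationSubring (PowerSeries K) :=
    IsScalarTower.of_algebraMap_eq fun c => ((expand v hv hπ).commutes c).symm
  let δ : Derivation K v.toValuationSubring (PowerSeries K) :=
    Derivation.mk' ((PowerSeries.derivative K).toLinearMap ∘ₗ (expand v hv hπ).toLinearMap)
      fun r s => by
        simp only [LinearMap.comp_apply, AlgHom.toLinearMap_apply, map_mul]
        show PowerSeries.derivative K (_ * _) = _
        rw [Derivation.leibniz]
        rfl
  have h' : KaehlerDifferential.map K K v.toValuationSubring F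
      (b • D K v.toValuationSubring f - a • D K v.toValuationSubring π) = 0 := by
    rw [map_sub, map_smul, map_smul, map_D, map_D, sub_eq_zero]
    exact h
  obtain ⟨s, hs⟩ :=
    (IsLocalizedModule.eq_zero_iff (nonZeroDivisors v.toValuationSubring)
      (KaehlerDifferential.map K K v.toValuationSubring F)).mp h'
  have hs' := congrArg δ.liftKaehlerDifferential hs
  simp only [Submonoid.smul_def, map_smul, map_sub, map_zero,
    Derivation.liftKaehlerDifferential_comp_D] at hs'
  replace hs' : expand v hv hπ s.1 * (expand v hv hπ b *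
      PowerSeries.derivative K (expand v hv hπ f) -
      expand v hv hπ a * PowerSeries.derivative K (expand v hv hπ π)) = 0 := hs'
  have hs0 : expand v hv hπ s.1 ≠ 0 :=
    (map_ne_zero_iff _ (expand_injective v hv hπ)).mpr (nonZeroDivisors.ne_zero s.2)
  rw [expand_uniformizer, PowerSeries.derivative_X, mul_one] at hs'
  exact sub_eq_zero.mp ((mul_eq_zero.mp hs').resolve_left hs0)

theorem D_uniformizer_ne_zero (hv : v.deg = 1) (hπ : Irreducible π) :
    D K F (π : F) ≠ 0 := fun h => by
  have := derivative_expand_of_smul_eq v hv hπ 0 1 1 (by simp [h])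
  simp at this

theorem exists_eq_smul_D_uniformizer (hv : v.deg = 1) (hπ : Irreducible π)
    (hΩ : Module.finrank F Ω[F⁄K] = 1) (ω : Ω[F⁄K]) :
    ∃ g : F, g • D K F (π : F) = ω :=
  (finrank_eq_one_iff_of_nonzero' _ (D_uniformizer_ne_zero v hv hπ)).mp hΩ ω

/-- The main computation: `d(u π ^ n) = g • dπ` with `ord g = n - 1` if `n ≠ 0` in `K`. -/
theorem ord_of_D_eq_smul (hv : v.deg = 1) (hπ : Irreducible π)
    (u : (v.toValuationSubring)ˣ) {n : ℕ} (hn : (n : K) ≠ 0) {g : F}
    (hg : D K F (((u.val * π ^ n : v.toValuationSubring)) : F) = g • D K F (π : F)) :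
    g ≠ 0 ∧ v.ord g = (n : ℤ) - 1 := by
  obtain ⟨n, rfl⟩ : ∃ k, n = k + 1 := Nat.exists_eq_succ_of_ne_zero fun h0 => hn (by simp [h0])
  obtain ⟨a, b, hb, rfl⟩ := IsFractionRing.div_surjective (A := v.toValuationSubring) g
  have hb0 : b ≠ 0 := nonZeroDivisors.ne_zero hb
  have hbF : (b : F) ≠ 0 := by simpa using hb0
  have key := derivative_expand_of_smul_eq v hv hπ (u.val * π ^ (n + 1)) a b (by
    rw [hg, smul_smul]
    congr 1
    exact mul_div_cancel₀ _ hbF)
  set U := expand v hv hπ u.val with hU
  set W := ((n + 1 : ℕ) : PowerSeries K) * U + PowerSeries.X * PowerSeries.derivative K U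
  have hW : PowerSeries.order W = 0 := by
    refine PowerSeries.order_zero_of_unit (PowerSeries.isUnit_iff_constantCoeff.mpr ?_)
    have hU0 : PowerSeries.constantCoeff U ≠ 0 :=
      (PowerSeries.isUnit_iff_constantCoeff.mp (u.isUnit.map _)).ne_zero
    simp only [W, map_add, map_mul, map_natCast, PowerSeries.constantCoeff_X, zero_mul, add_zero]
    exact (mul_ne_zero hn hU0).isUnit
  have hder : PowerSeries.derivative K (expand v hv hπ (u.val * π ^ (n + 1)))
      = PowerSeries.X ^ n * W := by
    rw [expand_unit_mul_pow, Derivation.leibniz, PowerSeries.derivative_pow,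
      PowerSeries.derivative_X, smul_eq_mul, smul_eq_mul, ← hU]
    simp only [W, Nat.add_sub_cancel]
    ring
  rw [hder] at key
  obtain ⟨j, hj, hj'⟩ := order_expand v hv hπ hb0
  have hord := congrArg PowerSeries.order key
  rw [PowerSeries.order_mul, PowerSeries.order_mul, PowerSeries.order_X_pow, hW, add_zero,
    hj'] at hord
  have ha0 : a ≠ 0 := fun h => by
    rw [h, map_zero, PowerSeries.order_zero] at hord
    simp [← Nat.cast_add] at hord
  obtain ⟨i, hi, hi'⟩ := order_expand v hv hπ ha0
  rw [hi', ← Nat.cast_add] at hord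
  have hij : j + n = i := by exact_mod_cast hord
  refine ⟨div_ne_zero (by simpa using ha0) hbF, ?_⟩
  show v.ord ((a : F) / (b : F)) = _
  rw [div_eq_mul_inv, v.ord_mul (by simpa using ha0) (inv_ne_zero hbF), v.ord_inv, hi, hj]
  omega

/-- Differentials of integral functions are integral multiples of `dπ`. -/
theorem mem_of_D_eq_smul (hv : v.deg = 1) (hπ : Irreducible π)
    (f : v.toValuationSubring) {g : F} (hg : D K F (f : F) = g • D K F (π : F)) :
    g = 0 ∨ 0 ≤ v.ord g := by
  obtain ⟨a, b, hb, rfl⟩ := IsFractionRing.div_surjective (A := v.toValuationSubring) g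
  have hb0 : b ≠ 0 := nonZeroDivisors.ne_zero hb
  have hbF : (b : F) ≠ 0 := by simpa using hb0
  by_cases ha0 : a = 0
  · exact Or.inl (by simp [ha0])
  have key := derivative_expand_of_smul_eq v hv hπ f a b (by
    rw [hg, smul_smul]
    congr 1
    exact mul_div_cancel₀ _ hbF)
  obtain ⟨j, hj, hj'⟩ := order_expand v hv hπ hb0
  obtain ⟨i, hi, hi'⟩ := order_expand v hv hπ ha0
  have hord := congrArg PowerSeries.order key
  rw [PowerSeries.order_mul, hj', hi'] at hord
  have hij : (j : ℕ∞) ≤ i := by rw [← hord]; exact le_self_add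
  refine Or.inr ?_
  show 0 ≤ v.ord ((a : F) / (b : F))
  rw [div_eq_mul_inv, v.ord_mul (by simpa using ha0) (inv_ne_zero hbF), v.ord_inv, hi, hj]
  have : j ≤ i := by exact_mod_cast hij
  omega

end Expansion

end FermatLib.Curve
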