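import Mathlib
import Fermat.Prelude.Def_AlgebraicCurve_IsCurveOver
import Fermat.Prelude.Def_AlgebraicCurve_Repartitions
import Fermat.Prelude.Def_ModularCurve_CanonicalDivisor
import Fermat.Agent.Curve.KaehlerBasic
import Fermat.Agent.Curve.PlaceExpansion

/-!
The order of a differential at a degree one place.
-/

set_option autoImplicit false

noncomputable section

open KaehlerDifferential AlgebraicCurve

namespace FermatLib.Curve

variable {K F : Type*} [Field K] [Field F] [Algebra K F] (v : Place K F)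

theorem exists_dCoord_eq :
    ∃ π : v.toValuationSubring, Irreducible π ∧ v.dCoord = D K F (π : F) :=
  ⟨(IsDiscreteValuationRing.exists_irreducible v.toValuationSubring).choose,
    (IsDiscreteValuationRing.exists_irreducible v.toValuationSubring).choose_spec, rfl⟩

theorem dCoordGenerates_of_deg_eq_one (hv : v.deg = 1)
    (hΩ : Module.finrank F Ω[F⁄K] = 1) : v.DCoordGenerates := by
  obtain ⟨π, hπ, hd⟩ := exists_dCoord_eq v
  refine ⟨Submodule.eq_top_iff'.mpr fun ω => Submodule.mem_span_singleton.mpr ?_⟩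
  rw [hd]
  exact exists_eq_smul_D_uniformizer v hv hπ hΩ ω

/-- On a curve over an algebraically closed field every `dt` generates. -/
instance instDCoordGenerates [IsAlgClosed K] [IsCurveOver K F] : v.DCoordGenerates :=
  dCoordGenerates_of_deg_eq_one v (IsCurveOver.deg_eq_one_of_isAlgClosed v)
    IsCurveOver.finrank_kaehler

theorem mem_of_ord_nonneg {f : F} (h : f = 0 ∨ 0 ≤ v.ord f) : f ∈ v.toValuationSubring := by
  rcases v.toValuationSubring.mem_or_inv_mem f with hm | hm
  · exact hm
  · rcases eq_or_ne f 0 with rfl | hf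
    · exact zero_mem _
    by_contra hnm
    obtain ⟨π, hπ⟩ := IsDiscreteValuationRing.exists_irreducible v.toValuationSubring
    have hi : (⟨f⁻¹, hm⟩ : v.toValuationSubring) ≠ 0 :=
      fun hc => inv_ne_zero hf (congrArg Subtype.val hc)
    obtain ⟨n, u, hu⟩ := IsDiscreteValuationRing.eq_unit_mul_pow_irreducible hi hπ
    have hn : v.ord f⁻¹ = n := by
      have := ord_unit_mul_pow v u hπ n
      rwa [← hu] at this
    rw [v.ord_inv] at hn
    have hn0 : n = 0 := by
      have := h.resolve_left hf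
      omega
    subst hn0
    rw [pow_zero, mul_one] at hu
    apply hnm
    have h1 : f = ((↑u⁻¹ : v.toValuationSubring) : F) := by
      have h2 : ((↑u⁻¹ : v.toValuationSubring) : F) * f⁻¹ = 1 := by
        have := congrArg (fun z => ((↑u⁻¹ * z : v.toValuationSubring) : F)) hu
        simpa using this
      exact ((mul_inv_eq_one₀ hf).mp h2).symm
    rw [h1]
    exact SetLike.coe_mem _

/-- At a degree one place, an integral function takes a value in `K`. -/
theorem exists_const_sub (hv : v.deg = 1) {f : F} (hf : f = 0 ∨ 0 ≤ v.ord f) :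
    ∃ c : K, f = algebraMap K F c ∨ 0 < v.ord (f - algebraMap K F c) := by
  obtain ⟨c, hc⟩ := exists_sub_const_mem_maximalIdeal v hv ⟨f, mem_of_ord_nonneg v hf⟩
  refine ⟨c, ?_⟩
  by_cases h0 : f = algebraMap K F c
  · exact Or.inl h0
  right
  obtain ⟨π, hπ⟩ := IsDiscreteValuationRing.exists_irreducible v.toValuationSubring
  set z : v.toValuationSubring := ⟨f, mem_of_ord_nonneg v hf⟩ - algebraMap K _ c with hz
  have hz0 : z ≠ 0 := fun h => h0 (sub_eq_zero.mp (congrArg Subtype.val h))
  obtain ⟨n, u, hu⟩ := IsDiscreteValuationRing.eq_unit_mul_pow_irreducible hz0 hπ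
  have hn : v.ord (f - algebraMap K F c) = n := by
    have := ord_unit_mul_pow v u hπ n
    rw [← hu] at this
    exact this
  rw [hn]
  rcases Nat.eq_zero_or_pos n with rfl | hpos
  · rw [pow_zero, mul_one] at hu
    exact absurd (hu ▸ u.isUnit) hc
  · exact_mod_cast hpos

section Ord

variable [v.DCoordGenerates] [Nontrivial Ω[F⁄K]]

omit [Nontrivial Ω[F⁄K]] in
theorem differentialCoeff_ne_zero {ω : Ω[F⁄K]} (hω : ω ≠ 0) : v.differentialCoeff ω ≠ 0 :=
  fun h => hω (by rw [← v.differentialCoeff_smul_dCoord ω, h, zero_smul])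

theorem ordDifferential_smul_of_ne {c : F} (hc : c ≠ 0) {ω : Ω[F⁄K]} (hω : ω ≠ 0) :
    v.ordDifferential (c • ω) = v.ord c + v.ordDifferential ω :=
  v.ordDifferential_smul hc (differentialCoeff_ne_zero v hω)

end Ord

variable (hv : v.deg = 1) (hΩ : Module.finrank F Ω[F⁄K] = 1)

include hv hΩ

theorem ordDifferential_D_of_unit_mul {π : v.toValuationSubring} (hπ : Irreducible π)
    (hd : v.dCoord = D K F (π : F)) (u : (v.toValuationSubring)ˣ) {n : ℕ} (hn : (n : K) ≠ 0) :
    D K F ((u.val * π ^ n : v.toValuationSubring) : F) ≠ 0 ∧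
      v.ordDifferential (D K F ((u.val * π ^ n : v.toValuationSubring) : F)) = (n : ℤ) - 1 := by
  have := dCoordGenerates_of_deg_eq_one v hv hΩ
  have : Nontrivial Ω[F⁄K] := Module.nontrivial_of_finrank_eq_succ (n := 0) hΩ
  obtain ⟨g, hg⟩ := exists_eq_smul_D_uniformizer v hv hπ hΩ
    (D K F ((u.val * π ^ n : v.toValuationSubring) : F))
  obtain ⟨hg0, hord⟩ := ord_of_D_eq_smul v hv hπ u hn hg.symm
  refine ⟨?_, ?_⟩
  · rw [← hg]
    exact smul_ne_zero hg0 (D_uniformizer_ne_zero v hv hπ)
  · rw [Place.ordDifferential, ← hg, ← hd, v.differentialCoeff_unique rfl, hord]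

/-- If `n = ord f` is nonzero in `K`, then `ord df = n - 1` (zeros and poles alike). -/
theorem ordDifferential_D_of_deg_eq_one {f : F} (hf : (v.ord f : K) ≠ 0) :
    D K F f ≠ 0 ∧ v.ordDifferential (D K F f) = v.ord f - 1 := by
  have hf0 : f ≠ 0 := fun h => hf (by simp [h])
  obtain ⟨π, hπ, hd⟩ := exists_dCoord_eq v
  obtain ⟨u, hu⟩ := v.exists_unit_mul_zpow hf0 hπ
  rcases Int.eq_nat_or_neg (v.ord f) with ⟨n, h | h⟩
  · rw [h, zpow_natCast] at hu
    rw [h, Int.cast_natCast] at hf
    obtain ⟨h1, h2⟩ := ordDifferential_D_of_unit_mul v hv hΩ hπ hd u hf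
    have hcoe : ((u.val * π ^ n : v.toValuationSubring) : F) = f := by simpa using hu.symm
    rw [hcoe] at h1 h2
    exact ⟨h1, h ▸ h2⟩
  · have hinv : ((↑u⁻¹ * π ^ n : v.toValuationSubring) : F) = f⁻¹ := by
      rw [hu, h, zpow_neg, mul_inv, inv_inv, zpow_natCast]
      push_cast
      congr 1
      refine eq_inv_of_mul_eq_one_left ?_
      exact_mod_cast u.inv_mul
    rw [h, Int.cast_neg, neg_ne_zero, Int.cast_natCast] at hf
    obtain ⟨h1, h2⟩ := ordDifferential_D_of_unit_mul v hv hΩ hπ hd u⁻¹ hf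
    rw [hinv] at h1 h2
    have hsq : (-f ^ 2 : F) ≠ 0 := neg_ne_zero.mpr (pow_ne_zero _ hf0)
    have hD : D K F f = (-f ^ 2) • D K F f⁻¹ := by
      have := Derivation.leibniz_inv (D K F) f⁻¹
      simp only [inv_inv] at this
      exact this
    refine ⟨hD ▸ smul_ne_zero hsq h1, ?_⟩
    have := dCoordGenerates_of_deg_eq_one v hv hΩ
    have : Nontrivial Ω[F⁄K] := Module.nontrivial_of_finrank_eq_succ (n := 0) hΩ
    have hneg : v.ord (-f ^ 2) = 2 * v.ord f := by
      have h1 : v.ord (-f ^ 2) = v.ord (f ^ 2) := by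
        simp [Place.ord, Valuation.map_neg]
      rw [h1, pow_two, v.ord_mul hf0 hf0, two_mul]
    rw [hD, ordDifferential_smul_of_ne v hsq h1, h2, hneg, h]
    ring

/-- Differentials of integral functions are regular. -/
theorem ordDifferential_D_nonneg {f : F} (hf : f = 0 ∨ 0 ≤ v.ord f) :
    0 ≤ v.ordDifferential (D K F f) := by
  have := dCoordGenerates_of_deg_eq_one v hv hΩ
  have : Nontrivial Ω[F⁄K] := Module.nontrivial_of_finrank_eq_succ (n := 0) hΩ
  obtain ⟨π, hπ, hd⟩ := exists_dCoord_eq v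
  obtain ⟨g, hg⟩ := exists_eq_smul_D_uniformizer v hv hπ hΩ (D K F f)
  rw [Place.ordDifferential, ← hg, ← hd, v.differentialCoeff_unique rfl]
  rcases mem_of_D_eq_smul v hv hπ ⟨f, mem_of_ord_nonneg v hf⟩ hg.symm with h | h
  · simp [h]
  · exact h

omit hv hΩ

section CurveOver

variable [IsAlgClosed K] [IsCurveOver K F]

theorem ordDifferential_D_eq_ord_sub_one {f : F} (hf : (v.ord f : K) ≠ 0) :
    v.ordDifferential (D K F f) = v.ord f - 1 :=
  (ordDifferential_D_of_deg_eq_one v (IsCurveOver.deg_eq_one_of_isAlgClosed v)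
    IsCurveOver.finrank_kaehler hf).2

theorem ordDifferential_D_sub_const (c : K) {f : F}
    (hf : (v.ord (f - algebraMap K F c) : K) ≠ 0) :
    v.ordDifferential (D K F f) = v.ord (f - algebraMap K F c) - 1 := by
  rw [← ordDifferential_D_eq_ord_sub_one v hf, map_sub, Derivation.map_algebraMap, sub_zero]

theorem ordDifferential_D_of_pos [CharZero K] (c : K) {f : F}
    (hf : 0 < v.ord (f - algebraMap K F c)) :
    v.ordDifferential (D K F f) = v.ord (f - algebraMap K F c) - 1 :=
  ordDifferential_D_sub_const v c (Int.cast_ne_zero.mpr hf.ne')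

theorem ordDifferential_D_of_neg [CharZero K] {f : F} (hf : v.ord f < 0) :
    v.ordDifferential (D K F f) = v.ord f - 1 :=
  ordDifferential_D_eq_ord_sub_one v (Int.cast_ne_zero.mpr hf.ne)

end CurveOver

end FermatLib.Curve
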