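import Mathlib
import Fermat.Prelude.Def_AlgebraicCurve_CanonicalDivisor
import Fermat.Agent.Curve.KaehlerBasic
import Fermat.Agent.Curve.KaehlerPlace

/-!
Almost everywhere `ord dx = 0`; existence of canonical divisors.
-/

set_option autoImplicit false

noncomputable section

open KaehlerDifferential IntermediateField AlgebraicCurve

namespace FermatLib.Curve

variable {K F : Type*} [Field K] [Field F] [Algebra K F]

section Approx

variable (v : Place K F)

/-- Congruence mod every power of `π` to a polynomial in `u` is preserved by simple roots. -/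
theorem exists_approx_simple_root (hv : v.deg = 1) {π u y : v.toValuationSubring}
    (hπ : Irreducible π) (Q : Polynomial (Polynomial K))
    (hQ : (Q.map (Polynomial.aeval u).toRingHom).IsRoot y)
    (hQ' : IsUnit ((Q.map (Polynomial.aeval u).toRingHom).derivative.eval y)) (m : ℕ) :
    ∃ p : Polynomial K, π ^ m ∣ y - Polynomial.aeval u p := by
  rcases Nat.eq_zero_or_pos m with rfl | hm
  · exact ⟨0, by simp⟩
  induction m, hm using Nat.le_induction with
  | base =>
    obtain ⟨c, hc⟩ := exists_sub_const_mem_maximalIdeal v hv y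
    rw [hπ.maximalIdeal_eq, Ideal.mem_span_singleton] at hc
    exact ⟨Polynomial.C c, by simpa using hc⟩
  | succ m hm ih =>
    obtain ⟨p, hp⟩ := ih
    set R := Q.map (Polynomial.aeval u).toRingHom with hR
    set z := Polynomial.aeval u p with hz
    set d := R.derivative.eval y with hd
    obtain ⟨a, ha⟩ := exists_sub_const_mem_maximalIdeal v hv d
    rw [hπ.maximalIdeal_eq, Ideal.mem_span_singleton] at ha
    have ha0 : a ≠ 0 := fun h => by
      rw [h, map_zero, sub_zero] at ha
      exact hπ.not_isUnit (isUnit_of_dvd_unit ha hQ')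
    refine ⟨p - Polynomial.C a⁻¹ * Q.eval p, ?_⟩
    have hev : Polynomial.aeval u (Q.eval p) = R.eval z := by
      rw [hR, Polynomial.eval_map]
      exact Polynomial.hom_eval₂ Q (RingHom.id _) (Polynomial.aeval u).toRingHom p
    obtain ⟨k, hk⟩ := Polynomial.binomExpansion R y (z - y)
    rw [show y + (z - y) = z by ring, hQ, zero_add, ← hd] at hk
    have hinv : algebraMap K v.toValuationSubring a⁻¹ * algebraMap K v.toValuationSubring a = 1 :=
      by rw [← map_mul, inv_mul_cancel₀ ha0, map_one]
    have key : y - Polynomial.aeval u (p - Polynomial.C a⁻¹ * Q.eval p)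
        = (y - z) * (algebraMap K v.toValuationSubring a⁻¹ *
            ((y - z) * k - (d - algebraMap K v.toValuationSubring a))) := by
      rw [map_sub, map_mul, Polynomial.aeval_C, hev, hk, ← hz]
      linear_combination -(y - z) * hinv
    rw [key, pow_succ]
    exact mul_dvd_mul hp (dvd_mul_of_dvd_right
      (dvd_sub (((dvd_pow_self π (by omega : m ≠ 0)).trans hp).mul_right k) ha) _)

/-- If `u` vanishes at `v`, `y` is a simple root over `K[u]` and `F = K(u, y)`, then `u` is a
uniformizer at `v`. -/
theorem ord_eq_one_of_simple_root (hv : v.deg = 1) {u y : v.toValuationSubring}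
    (hu : ¬IsUnit u) (hu0 : u ≠ 0) (Q : Polynomial (Polynomial K))
    (hQ : (Q.map (Polynomial.aeval u).toRingHom).IsRoot y)
    (hQ' : IsUnit ((Q.map (Polynomial.aeval u).toRingHom).derivative.eval y))
    (hgen : IntermediateField.adjoin K ({(u : F), (y : F)} : Set F) = ⊤) :
    v.ord (u : F) = 1 := by
  obtain ⟨π, hπ⟩ := IsDiscreteValuationRing.exists_irreducible v.toValuationSubring
  obtain ⟨n, w, huw⟩ := IsDiscreteValuationRing.eq_unit_mul_pow_irreducible hu0 hπ
  have hn : v.ord (u : F) = n := by rw [huw]; exact ord_unit_mul_pow v w hπ n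
  have happ : ∀ f ∈ Algebra.adjoin K ({u, y} : Set v.toValuationSubring), ∀ m : ℕ,
      ∃ p : Polynomial K, π ^ m ∣ f - Polynomial.aeval u p := by
    intro f hf m
    induction hf using Algebra.adjoin_induction with
    | mem x hx =>
      rcases hx with rfl | rfl
      · exact ⟨Polynomial.X, by simp⟩
      · exact exists_approx_simple_root v hv hπ Q hQ hQ' m
    | algebraMap c => exact ⟨Polynomial.C c, by simp⟩
    | add a b _ _ ha hb =>
      obtain ⟨p, hp⟩ := ha
      obtain ⟨q, hq⟩ := hb
      exact ⟨p + q, by rw [map_add, add_sub_add_comm]; exact dvd_add hp hq⟩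
    | mul a b _ _ ha hb =>
      obtain ⟨p, hp⟩ := ha
      obtain ⟨q, hq⟩ := hb
      refine ⟨p * q, ?_⟩
      rw [map_mul, show a * b - Polynomial.aeval u p * Polynomial.aeval u q
        = (a - Polynomial.aeval u p) * b + Polynomial.aeval u p * (b - Polynomial.aeval u q)
        by ring]
      exact dvd_add (hp.mul_right _) (hq.mul_left _)
  have hdvd : ∀ a ∈ Algebra.adjoin K ({(u : F), (y : F)} : Set F), a ≠ 0 →
      (n : ℤ) ∣ v.ord a := by
    intro a ha ha0
    have himg : ({(u : F), (y : F)} : Set F)
        = IsScalarTower.toAlgHom K v.toValuationSubring F '' {u, y} := by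
      simp [Set.image_pair]
    rw [himg, Algebra.adjoin_image] at ha
    obtain ⟨f, hf, rfl⟩ := ha
    have hf0 : f ≠ 0 := fun h => ha0 (by simp [h])
    obtain ⟨r, e, hfe⟩ := IsDiscreteValuationRing.eq_unit_mul_pow_irreducible hf0 hπ
    obtain ⟨p, hp⟩ := happ f hf (r + 1)
    have hp0 : p ≠ 0 := fun h => by
      rw [h, map_zero, sub_zero, hfe, e.isUnit.dvd_mul_left,
        pow_dvd_pow_iff hπ.ne_zero hπ.not_isUnit] at hp
      omega
    obtain ⟨q, hpq, hq⟩ := Polynomial.exists_eq_pow_rootMultiplicity_mul_and_not_dvd p hp0 0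
    simp only [map_zero, sub_zero] at hpq hq
    rw [Polynomial.X_dvd_iff] at hq
    obtain ⟨e', he'⟩ := isUnit_aeval_of_coeff_zero_ne v (g := u) hu hq
    obtain ⟨t, ht⟩ := hp
    set k := Polynomial.rootMultiplicity 0 p
    have hpe : Polynomial.aeval u p = u ^ k * (e' : v.toValuationSubring) := by
      rw [hpq, map_mul, map_pow, Polynomial.aeval_X, he']
    have hru : IsUnit ((e : v.toValuationSubring) - π * t) := by
      by_contra hnu
      have hmem : (e : v.toValuationSubring) - π * t ∈
          IsLocalRing.maximalIdeal v.toValuationSubring := hnu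
      have hπm : π * t ∈ IsLocalRing.maximalIdeal v.toValuationSubring :=
        Ideal.mul_mem_right _ _ hπ.not_isUnit
      have := Ideal.add_mem _ hmem hπm
      rw [sub_add_cancel] at this
      exact this e.isUnit
    have hfu : u ^ k * (e' : v.toValuationSubring) = hru.unit.val * π ^ r := by
      rw [← hpe, IsUnit.unit_spec]
      linear_combination hfe - ht
    have hpow : u ^ k * (e' : v.toValuationSubring) = (w ^ k * e').val * π ^ (n * k) := by
      rw [huw, Units.val_mul, Units.val_pow_eq_pow_val, mul_pow, ← pow_mul]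
      ring
    have hord : v.ord ((hru.unit.val * π ^ r : v.toValuationSubring) : F)
        = v.ord (((w ^ k * e').val * π ^ (n * k) : v.toValuationSubring) : F) := by
      rw [← hfu, hpow]
    rw [ord_unit_mul_pow v _ hπ, ord_unit_mul_pow v _ hπ] at hord
    show (n : ℤ) ∣ v.ord (f : F)
    rw [hfe, ord_unit_mul_pow v e hπ, hord, Nat.cast_mul]
    exact dvd_mul_right _ _
  have hπ1 := v.ord_coe_irreducible hπ
  have hmem : (π : F) ∈ IntermediateField.adjoin K ({(u : F), (y : F)} : Set F) := by
    rw [hgen]; trivial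
  obtain ⟨a, ha, b, hb, hab⟩ := IntermediateField.mem_adjoin_iff_div.mp hmem
  have hπ0 : (π : F) ≠ 0 := by simpa using hπ.ne_zero
  rw [hab] at hπ0
  obtain ⟨ha0, hb0⟩ := div_ne_zero_iff.mp hπ0
  rw [hab, div_eq_mul_inv, v.ord_mul ha0 (inv_ne_zero hb0), v.ord_inv] at hπ1
  have h1 : (n : ℤ) ∣ 1 := hπ1 ▸ dvd_add (hdvd a ha ha0) (hdvd b hb hb0).neg_right
  rw [hn]
  exact Int.eq_one_of_dvd_one (Int.natCast_nonneg n) h1

end Approx

theorem exists_primitive_and_relation {x : F} (hx : Transcendental K x)
    [FiniteDimensional K⟮x⟯ F] [Algebra.IsSeparable K⟮x⟯ F] :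
    ∃ (y : F) (Q : Polynomial (Polynomial K)),
      (Q.map (Polynomial.aeval x).toRingHom).IsRoot y ∧
      (Q.map (Polynomial.aeval x).toRingHom).derivative.eval y ≠ 0 ∧
      IntermediateField.adjoin K ({x, y} : Set F) = ⊤ := by
  obtain ⟨y, hy⟩ := Field.exists_primitive_element K⟮x⟯ F
  let : Algebra (Polynomial K) K⟮x⟯ :=
    (Polynomial.aeval (AdjoinSimple.gen K x)).toRingHom.toAlgebra
  let e : RatFunc K ≃ₐ[Polynomial K] K⟮x⟯ :=
    AlgEquiv.ofRingEquiv (f := (RatFunc.algEquivOfTranscendental x hx).toRingEquiv) fun p => by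
      simp [RingHom.algebraMap_toAlgebra]
  have : IsFractionRing (Polynomial K) K⟮x⟯ := IsLocalization.isLocalization_of_algEquiv _ e
  obtain ⟨b, hb, hQeq⟩ := IsLocalization.integerNormalization_spec
    (nonZeroDivisors (Polynomial K)) (minpoly K⟮x⟯ y)
  set Q := IsLocalization.integerNormalization (nonZeroDivisors (Polynomial K))
    (minpoly K⟮x⟯ y)
  have hcomp : (algebraMap K⟮x⟯ F).comp (algebraMap (Polynomial K) K⟮x⟯)
      = (Polynomial.aeval x).toRingHom := by
    ext p
    · simp [RingHom.algebraMap_toAlgebra]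
    · simp [RingHom.algebraMap_toAlgebra]
  have hQF : Q.map (Polynomial.aeval x).toRingHom
      = Polynomial.C ((algebraMap K⟮x⟯ F) (algebraMap (Polynomial K) K⟮x⟯ b)) *
        (minpoly K⟮x⟯ y).map (algebraMap K⟮x⟯ F) := by
    rw [← hcomp, ← Polynomial.map_map, hQeq, Algebra.smul_def, Polynomial.algebraMap_apply,
      Polynomial.map_mul, Polynomial.map_C]
  refine ⟨y, Q, ?_, ?_, ?_⟩
  · rw [Polynomial.IsRoot, hQF, Polynomial.eval_mul, Polynomial.eval_map,
      ← Polynomial.aeval_def, minpoly.aeval, mul_zero]
  · rw [hQF, Polynomial.derivative_C_mul, Polynomial.derivative_map, Polynomial.eval_mul,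
      Polynomial.eval_C, Polynomial.eval_map, ← Polynomial.aeval_def]
    refine mul_ne_zero ?_
      ((Algebra.IsSeparable.isSeparable K⟮x⟯ y).aeval_derivative_ne_zero (minpoly.aeval _ _))
    rw [map_ne_zero_iff _ (algebraMap K⟮x⟯ F).injective]
    exact IsFractionRing.to_map_ne_zero_of_mem_nonZeroDivisors hb
  · have h2 := IntermediateField.adjoin_adjoin_left (F := K) (S := ({x} : Set F))
      (T := ({y} : Set F))
    rw [hy, IntermediateField.restrictScalars_top, Set.singleton_union] at h2
    exact h2.symm

/-- Away from finitely many places `x - x(v)` is a uniformizer, so `ord dx = 0`. -/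
theorem finite_ordDifferential_D_ne_zero {x : F} (hx : Transcendental K x)
    [FiniteDimensional K⟮x⟯ F] [Algebra.IsSeparable K⟮x⟯ F] [HasPrincipalDivisors K F]
    (hdeg : ∀ v : Place K F, v.deg = 1) :
    {v : Place K F | v.ordDifferential (D K F x) ≠ 0}.Finite := by
  obtain ⟨y, Q, hQ, hQ', hgen⟩ := exists_primitive_and_relation hx
  set d := (Q.map (Polynomial.aeval x).toRingHom).derivative.eval y with hd
  have hsupp : ∀ f : F, {v : Place K F | v.ord f ≠ 0}.Finite := fun f => by
    rcases eq_or_ne f 0 with rfl | hf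
    · simp
    obtain ⟨E, hE, -⟩ := HasPrincipalDivisors.exists_divisor (K := K) f hf
    exact E.support.finite_toSet.subset fun v hv => by
      simpa [Finsupp.mem_support_iff, hE v] using hv
  refine ((((hsupp x).inter_of_left {v | v.ord x < 0}).union
    ((hsupp y).inter_of_left {v | v.ord y < 0})).union (hsupp d)).subset fun v hvne => ?_
  by_contra hbad
  simp only [Set.mem_union, Set.mem_inter_iff, Set.mem_ofPred_eq, not_or, not_and, not_lt,
    ne_eq, not_not] at hbad
  obtain ⟨⟨hx', hy'⟩, hd'⟩ := hbad
  have hxnn : x = 0 ∨ 0 ≤ v.ord x := Or.inr (by by_contra hc; have := hx' (by omega); omega)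
  have hynn : y = 0 ∨ 0 ≤ v.ord y := Or.inr (by by_contra hc; have := hy' (by omega); omega)
  obtain ⟨c, hc | hc⟩ := exists_const_sub v (hdeg v) hxnn
  · exact hx (hc ▸ isAlgebraic_algebraMap c)
  let u : v.toValuationSubring :=
    ⟨x, mem_of_ord_nonneg v hxnn⟩ - algebraMap K v.toValuationSubring c
  let y' : v.toValuationSubring := ⟨y, mem_of_ord_nonneg v hynn⟩
  let Q₁ := Q.map (Polynomial.aeval (Polynomial.X + Polynomial.C c) :
    Polynomial K →ₐ[K] Polynomial K).toRingHom
  have hmap : (Q₁.map (Polynomial.aeval u).toRingHom).map (algebraMap v.toValuationSubring F)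
      = Q.map (Polynomial.aeval x).toRingHom := by
    simp only [Q₁, Polynomial.map_map]
    congr 1
    ext p
    · simp
    · simp [u]
  have hroot : (Q₁.map (Polynomial.aeval u).toRingHom).IsRoot y' := by
    apply Polynomial.IsRoot.of_map (f := algebraMap v.toValuationSubring F) ?_
      (IsFractionRing.injective _ _)
    rw [hmap]; exact hQ
  have hder : IsUnit ((Q₁.map (Polynomial.aeval u).toRingHom).derivative.eval y') := by
    set d' := (Q₁.map (Polynomial.aeval u).toRingHom).derivative.eval y'
    have hdd : (d' : F) = d := by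
      have h3 := Polynomial.eval_map_apply (algebraMap v.toValuationSubring F) y'
        (p := (Q₁.map (Polynomial.aeval u).toRingHom).derivative)
      rw [← Polynomial.derivative_map, hmap] at h3
      exact h3.symm
    have hd0 : d' ≠ 0 := fun h => hQ' (by rw [← hdd, h]; rfl)
    obtain ⟨π, hπ⟩ := IsDiscreteValuationRing.exists_irreducible v.toValuationSubring
    obtain ⟨n, e, hde⟩ := IsDiscreteValuationRing.eq_unit_mul_pow_irreducible hd0 hπ
    have : v.ord (d' : F) = n := by rw [hde]; exact ord_unit_mul_pow v e hπ n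
    rw [hdd, hd'] at this
    have hn : n = 0 := by omega
    rw [hde, hn, pow_zero, mul_one]
    exact e.isUnit
  have hgen' : IntermediateField.adjoin K ({(u : F), (y' : F)} : Set F) = ⊤ := by
    refine top_le_iff.mp (hgen ▸ IntermediateField.adjoin_le_iff.mpr ?_)
    rintro z (rfl | rfl)
    · have h1 := add_mem
        (IntermediateField.subset_adjoin K ({(u : F), (y' : F)} : Set F)
          (Set.mem_insert (u : F) {(y' : F)}))
        (IntermediateField.algebraMap_mem _ c)
      simpa [u] using h1
    · exact IntermediateField.subset_adjoin K _ (Set.mem_insert_of_mem _ rfl)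
  have hucoe : (u : F) = x - algebraMap K F c := rfl
  have hu : ¬IsUnit u := fun h => by
    have := v.ord_coe_unit h.unit
    rw [IsUnit.unit_spec, hucoe] at this
    omega
  have hu0 : u ≠ 0 := fun h => by
    have : (u : F) = 0 := by rw [h]; rfl
    rw [hucoe] at this
    rw [this] at hc
    simp at hc
  have hone := ord_eq_one_of_simple_root v (hdeg v) hu hu0 Q₁ hroot hder hgen'
  rw [hucoe] at hone
  have hD := (ordDifferential_D_of_deg_eq_one v (hdeg v) (finrank_kaehler_eq_one hx).2
    (f := x - algebraMap K F c) (by rw [hone]; simp)).2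
  rw [map_sub, Derivation.map_algebraMap, sub_zero, hone, sub_self] at hD
  exact hvne hD

/-- Every nonzero differential on a function field has a divisor. -/
theorem hasCanonicalDivisor_of_separating {x : F} (hx : Transcendental K x)
    [FiniteDimensional K⟮x⟯ F] [Algebra.IsSeparable K⟮x⟯ F] [HasPrincipalDivisors K F]
    (hdeg : ∀ v : Place K F, v.deg = 1) : HasCanonicalDivisor (K := K) (F := F) := by
  constructor
  intro ω hω
  obtain ⟨f, rfl⟩ := exists_eq_smul_D hx ω
  obtain ⟨hf, hDx⟩ := smul_ne_zero_iff.mp hω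
  have hΩ := (finrank_kaehler_eq_one hx).2
  have : Nontrivial Ω[F⁄K] := nontrivial_kaehler hx
  obtain ⟨E, hE, -⟩ := HasPrincipalDivisors.exists_divisor (K := K) f hf
  have hfin : (Function.support fun v : Place K F => v.ordDifferential (D K F x)).Finite :=
    finite_ordDifferential_D_ne_zero hx hdeg
  refine ⟨E + Finsupp.ofSupportFinite _ hfin, fun v => ?_⟩
  have := dCoordGenerates_of_deg_eq_one v (hdeg v) hΩ
  rw [ordDifferential_smul_of_ne v hf hDx, Finsupp.add_apply, hE v]
  rfl

/-- Curves over algebraically closed fields have canonical divisors. -/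
theorem hasCanonicalDivisor_of_isCurveOver [IsAlgClosed K] [IsCurveOver K F]
    [Algebra.EssFiniteType K F] : HasCanonicalDivisor (K := K) (F := F) := by
  obtain ⟨x, hx, _, _⟩ := exists_separating (K := K) (F := F)
  exact hasCanonicalDivisor_of_separating hx IsCurveOver.forall_deg_eq_one_of_isAlgClosed

end FermatLib.Curve
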