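import Fermat.Agent.Curve.WeilShift
import Mathlib.LinearAlgebra.Dual.Lemmas

/-!
# Duality given by a Weil differential

Assume Riemann's equation `l(E) - i(E) = deg E + 1 - g` with finite-dimensional spaces.  If `D` is
the divisor of a Weil differential, then `i(E) = l(D - E)`; in particular `l(D) = g` and
`deg D = 2g - 2`.
-/

set_option autoImplicit false

noncomputable section

open AlgebraicCurve WithZero

namespace FermatLib.Curve

variable {K F : Type*} [Field K] [Field F] [Algebra K F]

/-- Riemann's equation, with finiteness, for all divisors. -/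
structure RiemannEquation (K F : Type*) [Field K] [Field F] [Algebra K F] : Prop where
  finite_space : ∀ E : Divisor K F, Module.Finite K ↥(riemannRochSpace E)
  finite_H1 : ∀ E : Divisor K F, Module.Finite K (H1 E)
  eq : ∀ E : Divisor K F, (Module.finrank K ↥(riemannRochSpace E) : ℤ)
    - Module.finrank K (H1 E) = Divisor.degree E + 1 - genusFF K F

variable {D : Divisor K F} {φ : ↥(repartitions K F) →ₗ[K] K} (hφ : IsWeilDivisorOf D φ)
include hφ

theorem smulWeil_eq_zero_on {E : Divisor K F} {f : F} (hf : f ∈ riemannRochSpace (D - E))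
    {α : ↥(repartitions K F)} (hα : α ∈ repartitionsOf E ⊔ principalRepartitions K F) :
    smulWeil f φ α = 0 := by
  obtain ⟨a, ha, b, hb, rfl⟩ := Submodule.mem_sup.1 hα
  rw [map_add, smulWeil_apply, smulWeil_apply, hφ.map_repartitionsOf _ ?_, hφ.map_principal _ ?_,
    add_zero]
  · obtain ⟨g, hg⟩ := mem_principalRepartitions_iff.1 hb
    refine mem_principalRepartitions_iff.2 ⟨f * g, ?_⟩
    funext w
    show f * (b : Place K F → F) w = f * g
    rw [hg]
  · intro v
    show v.adicValuation (f * (a : Place K F → F) v) ≤ _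
    rw [map_mul]
    refine (mul_le_mul' (hf v) (ha v)).trans ?_
    rw [← exp_add, exp_le_exp, Finsupp.sub_apply]
    omega

/-- `f ↦ f φ` from `L(D - E)` to the dual of `H¹(E)`. -/
def dualityMap (E : Divisor K F) : ↥(riemannRochSpace (D - E)) →ₗ[K] Module.Dual K (H1 E) where
  toFun f := (repartitionsOf E ⊔ principalRepartitions K F).liftQ (smulWeil (f : F) φ)
    fun _ hα => smulWeil_eq_zero_on hφ f.2 hα
  map_add' f g := by
    refine Submodule.linearMap_qext _ (LinearMap.ext fun α => ?_)
    simp [smulWeil_apply, add_smul]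
  map_smul' c f := by
    refine Submodule.linearMap_qext _ (LinearMap.ext fun α => ?_)
    simp [smulWeil_apply, smul_assoc]

theorem dualityMap_mk (E : Divisor K F) (f : ↥(riemannRochSpace (D - E)))
    (α : ↥(repartitions K F)) :
    dualityMap hφ E f (Submodule.Quotient.mk α) = φ ((f : F) • α) := rfl

theorem eq_zero_of_smulWeil_eq_zero [Nonempty (Place K F)] {f : F}
    (h : ∀ α, smulWeil f φ α = 0) : f = 0 := by
  by_contra hf
  obtain ⟨v⟩ := ‹Nonempty (Place K F)›
  obtain ⟨α, -, hα⟩ := hφ.exists_ne_zero v
  apply hα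
  have := h (f⁻¹ • α)
  rwa [smulWeil_apply, smul_inv_smul₀ hf] at this

theorem dualityMap_injective [Nonempty (Place K F)] (E : Divisor K F) :
    Function.Injective (dualityMap hφ E) := by
  rw [← LinearMap.ker_eq_bot, Submodule.eq_bot_iff]
  intro f hf
  refine Subtype.ext (eq_zero_of_smulWeil_eq_zero hφ fun α => ?_)
  have := LinearMap.congr_fun (LinearMap.mem_ker.1 hf) (Submodule.Quotient.mk α)
  simpa [dualityMap_mk, smulWeil_apply] using this

variable (hR : RiemannEquation K F)
include hR

/-- Every Weil differential is a multiple of `φ`. -/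
theorem exists_smulWeil_eq [Nonempty (Place K F)] (hdeg : ∀ v : Place K F, v.deg = 1)
    {E : Divisor K F} (ψ : Module.Dual K (H1 E)) :
    ∃ f : F, ∀ α, ψ (Submodule.Quotient.mk α) = φ (f • α) := by
  rcases eq_or_ne ψ 0 with rfl | hψ
  · exact ⟨0, fun α => by simp⟩
  obtain ⟨P⟩ := ‹Nonempty (Place K F)›
  obtain ⟨n, hn1, hn2⟩ : ∃ n : ℕ, 0 ≤ (n : ℤ) ∧
      3 * (genusFF K F : ℤ) + |Divisor.degree D| + |Divisor.degree E| + 2 < (n : ℤ) :=
    ⟨(3 * (genusFF K F : ℤ) + |Divisor.degree D| + |Divisor.degree E| + 3).toNat, by positivity,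
      by have := abs_nonneg (Divisor.degree D); have := abs_nonneg (Divisor.degree E); omega⟩
  set N : Divisor K F := -Finsupp.single P (n : ℤ) with hN
  have hdegN : Divisor.degree N = -n := by simp [hN, hdeg]
  let T₂ : ↥(riemannRochSpace (E - N)) →ₗ[K] Module.Dual K (H1 N) :=
    { toFun := fun f => (repartitionsOf N ⊔ principalRepartitions K F).liftQ
        (smulWeil (f : F) (ψ ∘ₗ Submodule.mkQ _)) (by
          intro α hα
          rw [LinearMap.mem_ker, smulWeil_apply, LinearMap.comp_apply, Submodule.mkQ_apply]
          convert map_zero ψ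
          rw [Submodule.Quotient.mk_eq_zero]
          obtain ⟨a, ha, b, hb, rfl⟩ := Submodule.mem_sup.1 hα
          rw [smul_add]
          refine Submodule.add_mem_sup ?_ ?_
          · intro v
            show v.adicValuation ((f : F) * (a : Place K F → F) v) ≤ _
            rw [map_mul]
            refine (mul_le_mul' (f.2 v) (ha v)).trans ?_
            rw [← exp_add, exp_le_exp, Finsupp.sub_apply]
            omega
          · obtain ⟨g, hg⟩ := mem_principalRepartitions_iff.1 hb
            refine mem_principalRepartitions_iff.2 ⟨(f : F) * g, ?_⟩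
            funext w
            show (f : F) * (b : Place K F → F) w = (f : F) * g
            rw [hg])
      map_add' := fun f g => by
        refine Submodule.linearMap_qext _ (LinearMap.ext fun α => ?_)
        simp [smulWeil_apply, add_smul]
      map_smul' := fun c f => by
        refine Submodule.linearMap_qext _ (LinearMap.ext fun α => ?_)
        simp [smulWeil_apply, smul_assoc] }
  set T := (dualityMap hφ N).coprod T₂ with hT
  haveI := hR.finite_H1 N
  haveI := hR.finite_space (D - N)
  haveI := hR.finite_space (E - N)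
  haveI := hR.finite_space N
  have hnotinj : ¬ Function.Injective T := by
    intro hinj
    have h1 := LinearMap.finrank_le_finrank_of_injective hinj
    rw [Module.finrank_prod, Subspace.dual_finrank_eq] at h1
    have e1 := hR.eq (D - N)
    have e2 := hR.eq (E - N)
    have e3 := hR.eq N
    haveI := hR.finite_H1 (D - N)
    haveI := hR.finite_H1 (E - N)
    haveI := hR.finite_space (0 : Divisor K F)
    have hmono : Module.finrank K ↥(riemannRochSpace N)
        ≤ Module.finrank K ↥(riemannRochSpace (0 : Divisor K F)) :=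
      Submodule.finrank_mono fun f hf v => (hf v).trans <| exp_le_exp.2 <| by
        classical
        simp only [hN, Finsupp.neg_apply, Finsupp.single_apply, Finsupp.coe_zero, Pi.zero_apply]
        split_ifs <;> omega
    have e0 := hR.eq (0 : Divisor K F)
    rw [map_zero] at e0
    have hg : Module.finrank K (H1 (0 : Divisor K F)) = genusFF K F := rfl
    rw [hg] at e0
    rw [map_sub, hdegN] at e1 e2
    rw [hdegN] at e3
    have := le_abs_self (Divisor.degree D)
    have := neg_abs_le (Divisor.degree D)
    have := neg_abs_le (Divisor.degree E)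
    omega
  rw [← LinearMap.ker_eq_bot, ← ne_eq, Submodule.ne_bot_iff] at hnotinj
  obtain ⟨⟨a, b⟩, hker, hne⟩ := hnotinj
  rw [LinearMap.mem_ker, hT, LinearMap.coprod_apply, add_eq_zero_iff_eq_neg] at hker
  have hab : ∀ α, φ ((a : F) • α) = -ψ (Submodule.Quotient.mk ((b : F) • α)) := fun α => by
    have := LinearMap.congr_fun hker (Submodule.Quotient.mk α)
    simpa [T₂, dualityMap_mk, smulWeil_apply] using this
  have hb : (b : F) ≠ 0 := by
    intro hb
    apply hne
    have ha : (a : F) = 0 := eq_zero_of_smulWeil_eq_zero hφ fun α => by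
      rw [smulWeil_apply, hab, hb, zero_smul, Submodule.Quotient.mk_zero, map_zero, neg_zero]
    exact Prod.ext (Subtype.ext ha) (Subtype.ext hb)
  refine ⟨-((a : F) * (b : F)⁻¹), fun α => ?_⟩
  have := hab ((b : F)⁻¹ • α)
  rw [smul_inv_smul₀ hb, smul_smul] at this
  rw [neg_smul, map_neg, this, neg_neg]

theorem dualityMap_surjective [Nonempty (Place K F)] (hdeg : ∀ v : Place K F, v.deg = 1)
    (E : Divisor K F) : Function.Surjective (dualityMap hφ E) := by
  classical
  intro ψ
  obtain ⟨f, hf⟩ := exists_smulWeil_eq hφ hR hdeg ψ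
  have hmem : f ∈ riemannRochSpace (D - E) := by
    intro v
    by_contra hlt
    rw [not_le] at hlt
    obtain ⟨α, hα, hα0⟩ := hφ.exists_ne_zero v
    have hf0 : f ≠ 0 := fun h => by simp [h] at hlt
    let β : ↥(repartitions K F) := ⟨Pi.single v ((α : Place K F → F) v),
      mem_repartitions_of_finite <| (Set.finite_singleton v).subset fun w hw => by
        by_contra hne
        exact hw (by rw [Pi.single_eq_of_ne (by simpa using hne)]; simp)⟩
    have hβ : φ β = φ α := by
      rw [← sub_eq_zero, ← map_sub]
      refine hφ.map_repartitionsOf _ fun w => ?_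
      show w.adicValuation (Pi.single (M := fun _ => F) v ((α : Place K F → F) v) w
        - (α : Place K F → F) w) ≤ _
      rcases eq_or_ne w v with rfl | hw
      · simp
      · rw [Pi.single_eq_of_ne hw, zero_sub, Valuation.map_neg]
        simpa [Finsupp.single_eq_of_ne hw] using hα w
    have h1 := hf (f⁻¹ • β)
    rw [smul_inv_smul₀ hf0, hβ] at h1
    apply hα0
    rw [← h1]
    convert map_zero ψ
    rw [Submodule.Quotient.mk_eq_zero]
    refine Submodule.mem_sup_left fun w => ?_
    show w.adicValuation (f⁻¹ * Pi.single (M := fun _ => F) v ((α : Place K F → F) v) w) ≤ _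
    rcases eq_or_ne w v with rfl | hw
    · rw [Pi.single_eq_same, map_mul, map_inv₀, w.adicValuation_eq_exp_neg_ord hf0, ← exp_neg]
      rw [w.adicValuation_eq_exp_neg_ord hf0, exp_lt_exp, Finsupp.sub_apply] at hlt
      refine (mul_le_mul' le_rfl (hα w)).trans ?_
      rw [← exp_add, exp_le_exp, Finsupp.add_apply, Finsupp.single_eq_same]
      omega
    · simp [Pi.single_eq_of_ne hw]
  exact ⟨⟨f, hmem⟩, Submodule.linearMap_qext _ (LinearMap.ext fun α => (hf α).symm)⟩

/-- `i(E) = l(D - E)`. -/
theorem finrank_H1_eq [Nonempty (Place K F)] (hdeg : ∀ v : Place K F, v.deg = 1)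
    (E : Divisor K F) :
    Module.finrank K (H1 E) = Module.finrank K ↥(riemannRochSpace (D - E)) := by
  haveI := hR.finite_H1 E
  rw [← Subspace.dual_finrank_eq]
  exact (LinearEquiv.ofBijective _
    ⟨dualityMap_injective hφ E, dualityMap_surjective hφ hR hdeg E⟩).finrank_eq.symm

/-- The divisor of a Weil differential is canonical. -/
theorem degree_eq_and_finrank_eq [Nonempty (Place K F)] (hdeg : ∀ v : Place K F, v.deg = 1) :
    Divisor.degree D = 2 * (genusFF K F : ℤ) - 2 ∧
      Module.finrank K ↥(riemannRochSpace D) = genusFF K F := by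
  have hg : Module.finrank K (H1 (0 : Divisor K F)) = genusFF K F := rfl
  have h0 := finrank_H1_eq hφ hR hdeg (0 : Divisor K F)
  rw [hg, sub_zero] at h0
  have h1 := finrank_H1_eq hφ hR hdeg D
  rw [sub_self] at h1
  have e0 := hR.eq (0 : Divisor K F)
  have eD := hR.eq D
  rw [map_zero, hg] at e0
  rw [h1, ← h0] at eD
  exact ⟨by omega, h0.symm⟩

end FermatLib.Curve
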