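import Fermat.Agent.Curve.Riemann
import Fermat.Agent.Curve.WeilDuality

/-!
The Riemann-Roch theorem for function fields of one variable over an algebraically closed field
(any characteristic): existence of a canonical divisor `W`, `l(D) - l(W - D) = deg D + 1 - g`,
`l(D) = deg D + 1 - g` for `deg D > 2g - 2`.
-/

set_option autoImplicit false

noncomputable section

open AlgebraicCurve

namespace FermatLib.Curve

variable {K F : Type*} [Field K] [Field F] [Algebra K F] [IsFunctionField K F] [IsAlgClosed K]

variable (K F) in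
theorem riemannEquation : RiemannEquation K F where
  finite_space := finite_riemannRochSpace
  finite_H1 := finite_H1
  eq := riemann_roch_H1

/-- A nonzero form killing `A(D) + F` forces `deg D ≤ 2g - 1`. -/
theorem degree_le_of_kills {D : Divisor K F} {φ : ↥(repartitions K F) →ₗ[K] K}
    (h1 : ∀ α ∈ repartitionsOf D, φ α = 0) (h2 : ∀ α ∈ principalRepartitions K F, φ α = 0)
    (hne : ∃ α, φ α ≠ 0) : Divisor.degree D ≤ 2 * (genusFF K F : ℤ) - 1 := by
  have hkill : ∀ f ∈ riemannRochSpace D,
      ∀ α ∈ repartitionsOf (0 : Divisor K F) ⊔ principalRepartitions K F, φ (f • α) = 0 := by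
    intro f hf α hα
    obtain ⟨a, ha, b, hb, rfl⟩ := Submodule.mem_sup.mp hα
    rw [smul_add, map_add, h1 _ ?_, h2 _ ?_, add_zero]
    · obtain ⟨g, hg⟩ := mem_principalRepartitions_iff.mp hb
      refine mem_principalRepartitions_iff.mpr ⟨f * g, funext fun w => ?_⟩
      show f * (b : Place K F → F) w = f * g
      rw [hg]
    · rw [mem_repartitionsOf]
      intro v
      refine ordGE_anti ?_
        (mul_mem_ordGE (mem_riemannRochSpace.mp hf v) (mem_repartitionsOf.mp ha v))
      simp
  let T : ↥(riemannRochSpace D) →ₗ[K] Module.Dual K (H1 (0 : Divisor K F)) :=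
    { toFun := fun f =>
        (repartitionsOf (0 : Divisor K F) ⊔ principalRepartitions K F).liftQ (smulWeil (f : F) φ)
          fun α hα => hkill f f.2 α hα
      map_add' := fun f g => by
        refine Submodule.linearMap_qext _ (LinearMap.ext fun α => ?_)
        simp [smulWeil_apply, add_smul]
      map_smul' := fun c f => by
        refine Submodule.linearMap_qext _ (LinearMap.ext fun α => ?_)
        simp [smulWeil_apply, smul_assoc] }
  have hinj : Function.Injective T := by
    rw [← LinearMap.ker_eq_bot, Submodule.eq_bot_iff]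
    intro f hf
    refine Subtype.ext ?_
    show (f : F) = 0
    by_contra hf0
    obtain ⟨α, hα⟩ := hne
    apply hα
    have h := LinearMap.congr_fun (LinearMap.mem_ker.mp hf)
      (Submodule.Quotient.mk ((f : F)⁻¹ • α))
    simp only [T, LinearMap.coe_mk, AddHom.coe_mk, Submodule.liftQ_apply, smulWeil_apply,
      smul_inv_smul₀ hf0, LinearMap.zero_apply] at h
    exact h
  haveI := finite_H1 (0 : Divisor K F)
  have h3 := LinearMap.finrank_le_finrank_of_injective hinj
  rw [Subspace.dual_finrank_eq] at h3
  have h4 := riemann_inequality D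
  have h5 : Module.finrank K (H1 (0 : Divisor K F)) = genusFF K F := rfl
  omega

variable (K F) in
/-- Nonzero Weil differentials exist and have a divisor. -/
theorem exists_isWeilDivisorOf : ∃ (D : Divisor K F) (φ : ↥(repartitions K F) →ₗ[K] K),
    IsWeilDivisorOf D φ := by
  obtain ⟨P⟩ := nonempty_place (K := K) (F := F)
  set E : Divisor K F := -Finsupp.single P 2 with hE
  have hdegE : Divisor.degree E = -2 := by
    rw [hE, map_neg, Divisor.degree_single, deg_eq_one]
    simp
  have hrr := riemann_roch_H1 E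
  rw [riemannRochSpace_eq_bot_of_degree_neg (D := E) (by omega), finrank_bot, hdegE] at hrr
  haveI := finite_H1 E
  haveI : Nontrivial (Module.Dual K (H1 E)) :=
    Module.nontrivial_of_finrank_pos (R := K) (by rw [Subspace.dual_finrank_eq]; omega)
  obtain ⟨ψ, hψ⟩ := exists_ne (0 : Module.Dual K (H1 E))
  set φ : ↥(repartitions K F) →ₗ[K] K := ψ ∘ₗ Submodule.mkQ _ with hφ
  have hz : ∀ α ∈ repartitionsOf E ⊔ principalRepartitions K F, φ α = 0 := fun α hα => by
    rw [hφ, LinearMap.comp_apply, Submodule.mkQ_apply, (Submodule.Quotient.mk_eq_zero _).mpr hα,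
      map_zero]
  have hne : ∃ α, φ α ≠ 0 := by
    by_contra h
    push Not at h
    exact hψ (Submodule.linearMap_qext _ (LinearMap.ext fun α => by simpa [hφ] using h α))
  have h2 : ∀ α ∈ principalRepartitions K F, φ α = 0 :=
    fun α hα => hz α (Submodule.mem_sup_right hα)
  obtain ⟨M, ⟨D, hD, hdD⟩, hmax⟩ := Int.exists_greatest_of_bdd
    (P := fun z => ∃ D : Divisor K F, (∀ α ∈ repartitionsOf D, φ α = 0) ∧ Divisor.degree D = z)
    ⟨2 * (genusFF K F : ℤ) - 1, fun z ⟨D, hD, hz'⟩ => hz' ▸ degree_le_of_kills hD h2 hne⟩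
    ⟨_, E, fun α hα => hz α (Submodule.mem_sup_left hα), rfl⟩
  refine ⟨D, φ, hD, h2, fun v => ?_⟩
  by_contra hcon
  push Not at hcon
  have := hmax _ ⟨D + Finsupp.single v 1, hcon, rfl⟩
  rw [map_add, Divisor.degree_single, deg_eq_one, hdD] at this
  simp at this

variable (K F) in
/-- Riemann-Roch. -/
theorem exists_canonical_riemann_roch : ∃ W : Divisor K F,
    Divisor.degree W = 2 * (genusFF K F : ℤ) - 2 ∧
    Module.finrank K ↥(riemannRochSpace W) = genusFF K F ∧
    ∀ D : Divisor K F, (Module.finrank K ↥(riemannRochSpace D) : ℤ) -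
      Module.finrank K ↥(riemannRochSpace (W - D)) = Divisor.degree D + 1 - genusFF K F := by
  obtain ⟨W, φ, hφ⟩ := exists_isWeilDivisorOf K F
  obtain ⟨h1, h2⟩ :=
    degree_eq_and_finrank_eq hφ (riemannEquation K F) (fun v => deg_eq_one v)
  refine ⟨W, h1, h2, fun D => ?_⟩
  rw [← finrank_H1_eq hφ (riemannEquation K F) (fun v => deg_eq_one v) D]
  exact riemann_roch_H1 D

/-- `l(D) = deg D + 1 - g` for `deg D > 2g - 2`. -/
theorem finrank_riemannRochSpace_of_lt_degree {D : Divisor K F}
    (hD : 2 * (genusFF K F : ℤ) - 2 < Divisor.degree D) :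
    (Module.finrank K ↥(riemannRochSpace D) : ℤ) = Divisor.degree D + 1 - genusFF K F := by
  obtain ⟨W, h1, -, h3⟩ := exists_canonical_riemann_roch K F
  have h := h3 D
  rw [riemannRochSpace_eq_bot_of_degree_neg (D := W - D) (by rw [map_sub]; omega),
    finrank_bot] at h
  simpa using h

variable (K F) in
theorem exists_finrank_riemannRochSpace_eq : ∃ N : ℤ, ∀ D : Divisor K F,
    N ≤ Divisor.degree D →
      (Module.finrank K ↥(riemannRochSpace D) : ℤ) = Divisor.degree D + 1 - genusFF K F :=
  ⟨2 * (genusFF K F : ℤ) - 1, fun _ hD =>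
    finrank_riemannRochSpace_of_lt_degree (by omega)⟩

end FermatLib.Curve

end
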