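import Fermat.Agent.Curve.PoleGrowth
import Fermat.Prelude.Def_AlgebraicCurve_IsCurveOver

/-!
The degree of the divisor of poles of `z` is `[F : K(z)]`; principal divisors have degree zero.
-/

set_option autoImplicit false

noncomputable section

open scoped IntermediateField

namespace FermatLib.Curve

open AlgebraicCurve

variable {K F : Type*} [Field K] [Field F] [Algebra K F] [IsFunctionField K F]

variable (K) in
/-- The poles of `z`. -/
def poles (z : F) : Finset (Place K F) := (finite_setOf_ord_neg z).toFinset

@[simp]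
theorem mem_poles {z : F} {v : Place K F} : v ∈ poles K z ↔ v.ord z < 0 :=
  Set.Finite.mem_toFinset _

theorem degree_polarDivisor {x : F} (hx : Transcendental K x) :
    Divisor.degree (polarDivisor K x) = Module.finrank K⟮x⟯ F := by
  refine le_antisymm (degree_polarDivisor_le hx) ?_
  by_contra hlt
  push Not at hlt
  obtain ⟨c, hc⟩ := exists_le_finrank_polarDivisor hx
  set n := Module.finrank K⟮x⟯ F
  set d := Divisor.degree (polarDivisor K x) with hd
  set l0 := Module.finrank K ↥(riemannRochSpace (0 : Divisor K F))
  set m : ℕ := n * c + l0 + 1 + c with hm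
  have h1 := hc m
  have h0 : (0 : Divisor K F) ≤ (m : ℤ) • polarDivisor K x :=
    smul_nonneg (Int.natCast_nonneg m) (polarDivisor_nonneg x)
  have h2 := finrank_riemannRochSpace_le_add h0
  rw [map_zero, map_zsmul, sub_zero, smul_eq_mul, ← hd] at h2
  have h3 : (n : ℤ) * ((m : ℤ) + 1 - c) ≤ (l0 : ℤ) + (m : ℤ) * d := by
    have : ((n * (m + 1 - c) : ℕ) : ℤ) = (n : ℤ) * ((m : ℤ) + 1 - c) := by
      rw [Nat.cast_mul, Nat.cast_sub (by omega)]
      push_cast
      ring
    omega
  have h4 : (m : ℤ) * d ≤ (m : ℤ) * ((n : ℤ) - 1) :=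
    mul_le_mul_of_nonneg_left (by omega) (Int.natCast_nonneg m)
  have h5 : (m : ℤ) = n * c + l0 + 1 + c := by rw [hm]; push_cast; ring
  nlinarith

/-- The degree of the polar divisor of `z` is `[F : K(z)]`. -/
theorem sum_poles_ord_mul_deg {z : F} (hz : Transcendental K z) :
    ∑ v ∈ poles K z, -v.ord z * (v.deg : ℤ) = (Module.finrank K⟮z⟯ F : ℤ) := by
  rw [← degree_polarDivisor hz,
    degree_eq_sum_of_support_subset (S := poles K z) fun v hv => by
      rw [Finsupp.mem_support_iff, polarDivisor_apply] at hv
      rw [mem_poles]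
      omega]
  refine Finset.sum_congr rfl fun v hv => ?_
  have := mem_poles.mp hv
  rw [polarDivisor_apply, max_eq_left (by omega)]

instance instFiniteResidueFieldOfIsFunctionFieldOne (v : Place K F) :
    Module.Finite K v.ResidueField :=
  finite_residueField_of_isFunctionField v

theorem deg_eq_one [IsAlgClosed K] (v : Place K F) : v.deg = 1 :=
  v.deg_eq_one_of_isAlgClosed_of_finite

theorem deg_eq_one_of_isFunctionFieldOne [IsAlgClosed K] (v : Place K F) : v.deg = 1 :=
  v.deg_eq_one_of_isAlgClosed_of_finite

theorem divOf_eq_polarDivisor_sub (f : F) :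
    (divOf f : Divisor K F) = polarDivisor K f⁻¹ - polarDivisor K f := by
  ext v
  simp [v.ord_inv]

theorem degree_divOf (f : F) : Divisor.degree (divOf f : Divisor K F) = 0 := by
  by_cases hf : IsAlgebraic K f
  · have : (divOf f : Divisor K F) = 0 := by
      ext v
      simp [ord_eq_zero_of_isAlgebraic v hf]
    simp [this]
  · rw [divOf_eq_polarDivisor_sub, map_sub,
      degree_polarDivisor (fun h => hf (IsAlgebraic.inv_iff.mp h)), degree_polarDivisor hf,
      congrArg (fun L : IntermediateField K F => Module.finrank L F) (adjoin_simple_inv f), sub_self]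

instance instHasPrincipalDivisorsOfIsFunctionFieldOne : HasPrincipalDivisors K F :=
  ⟨fun f _ => ⟨divOf f, fun _ => rfl, degree_divOf f⟩⟩

theorem riemannRochSpace_eq_bot_of_degree_neg {D : Divisor K F} (hD : Divisor.degree D < 0) :
    riemannRochSpace D = ⊥ := by
  rw [Submodule.eq_bot_iff]
  intro f hf
  by_contra hf0
  rw [mem_riemannRochSpace] at hf
  have h : 0 ≤ D + divOf f := Finsupp.le_def.mpr fun v => by
    have := le_ord_of_mem (hf v) hf0
    simp
    omega
  have := degree_nonneg h
  rw [map_add, degree_divOf, add_zero] at this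
  omega

end FermatLib.Curve

end
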