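import Fermat.Agent.Curve.FunctionFieldTower

/-!
Every proper valuation subring containing the constants of a function field is a place.
-/

set_option autoImplicit false

noncomputable section

namespace FermatLib.Curve

open AlgebraicCurve

variable {K F : Type*} [Field K] [Field F] [Algebra K F] [IsFunctionField K F]

theorem isPrincipalIdealRing_of_valuationSubring (W : ValuationSubring F)
    (hK : ∀ a : K, algebraMap K F a ∈ W) (hW : W ≠ ⊤) : IsPrincipalIdealRing W := by
  obtain ⟨f, hf⟩ : ∃ f : F, f ∉ W := by
    by_contra h
    push Not at h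
    exact hW (SetLike.ext fun f => ⟨fun _ => ValuationSubring.mem_top f, fun _ => h f⟩)
  have hf0 : f ≠ 0 := fun e => hf (e ▸ W.zero_mem)
  have htW : W.valuation f⁻¹ < 1 := by
    rw [map_inv₀, inv_lt_one₀ (zero_lt_iff.mpr (by simpa using hf0))]
    exact not_le.mp fun h => hf ((W.valuation_le_one_iff f).mp h)
  refine isPrincipalIdealRing_of_valuation_lt_one W hK (fun h => ?_) htW
  rw [IsAlgebraic.inv_iff] at h
  letI : Algebra K W := ((algebraMap K F).codRestrict W.toSubring hK).toAlgebra
  haveI : IsScalarTower K W F := IsScalarTower.of_algebraMap_eq fun _ => rfl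
  obtain ⟨y, hy⟩ := IsIntegrallyClosed.isIntegral_iff.mp (h.isIntegral.tower_top (A := W))
  exact hf (hy ▸ y.2)

/-- A proper valuation subring of a function field containing the constants is a place. -/
def placeOfValuationSubring (W : ValuationSubring F) (hK : ∀ a : K, algebraMap K F a ∈ W)
    (hW : W ≠ ⊤) : Place K F where
  toValuationSubring := W
  algebraMap_mem' := hK
  ne_top' := hW
  isPrincipalIdealRing' := isPrincipalIdealRing_of_valuationSubring W hK hW

@[simp]
theorem placeOfValuationSubring_toValuationSubring (W : ValuationSubring F)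
    (hK : ∀ a : K, algebraMap K F a ∈ W) (hW : W ≠ ⊤) :
    (placeOfValuationSubring W hK hW).toValuationSubring = W := rfl

theorem exists_ord_pos_of_transcendental {z : F} (hz : Transcendental K z) :
    ∃ v : Place K F, 0 < v.ord z :=
  exists_place_ord_pos hz

theorem isAlgebraic_iff_forall_ord_nonneg {z : F} :
    IsAlgebraic K z ↔ ∀ v : Place K F, 0 ≤ v.ord z :=
  ⟨fun h v => (ord_eq_zero_of_isAlgebraic v h).ge, isAlgebraic_of_forall_ord_nonneg⟩

end FermatLib.Curve
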