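import Fermat.Agent.Curve.JacChart
import Fermat.Agent.Curve.PlaceConstruction
import Mathlib.Analysis.Complex.AbsMax
import Mathlib.Analysis.Meromorphic.NormalForm
import Mathlib.Topology.Compactification.OnePoint.Basic

/-!
# Compactness of the space of places of a complex function field

Places embed by their values in the product of Riemann spheres indexed by the field; the image is
closed, so finitely many chart neighbourhoods cover all places. The maximum modulus principle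
gives connectedness once some function has a single pole.
-/

set_option autoImplicit false

noncomputable section

open Polynomial AlgebraicCurve Topology Filter OnePoint Metric Set

namespace FermatLib.Curve

variable {F : Type*} [Field F] [Algebra ℂ F] [IsCurveOver ℂ F] [Algebra.EssFiniteType ℂ F]

theorem jacIsFunctionFieldOne : IsFunctionFieldOne ℂ F := by
  obtain ⟨x, hx, hfin, -⟩ := exists_separating (K := ℂ) (F := F)
  exact ⟨⟨x, hx, hfin⟩⟩

omit [Algebra.EssFiniteType ℂ F] in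
theorem jacExists_sub_mem {w : Place ℂ F} {f : F} (hf : f ∈ ordGE w 0) :
    ∃ c : ℂ, f - algebraMap ℂ F c ∈ ordGE w 1 := by
  obtain ⟨c, hc⟩ := exists_sub_const_mem_maximalIdeal w
    (IsCurveOver.deg_eq_one_of_isAlgClosed w) ⟨f, (mem_valuationSubring_iff w).2 hf⟩
  refine ⟨c, (residueAt_eq_zero_iff w
    (f := ⟨f - algebraMap ℂ F c, sub_mem hf
      ((mem_valuationSubring_iff w).1 (w.algebraMap_mem' c))⟩)).1 ?_⟩
  exact (IsLocalRing.residue_eq_zero_iff _).2 hc

open Classical in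
/-- The value of `f` at the place `w`, in the Riemann sphere. -/
def jacValue (w : Place ℂ F) (f : F) : OnePoint ℂ :=
  if hf : f ∈ ordGE w 0 then ((jacExists_sub_mem hf).choose : ℂ) else ∞

omit [IsCurveOver ℂ F] [Algebra.EssFiniteType ℂ F] in
theorem jac_reg_of_sub_mem {w : Place ℂ F} {f : F} {c : ℂ}
    (h : f - algebraMap ℂ F c ∈ ordGE w 1) : f ∈ ordGE w 0 := by
  have := add_mem (ordGE_anti (m := 0) (by norm_num) h)
    ((mem_valuationSubring_iff w).1 (w.algebraMap_mem' c))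
  simpa using this

theorem jacValue_eq_coe_iff {w : Place ℂ F} {f : F} {c : ℂ} :
    jacValue w f = (c : OnePoint ℂ) ↔ f - algebraMap ℂ F c ∈ ordGE w 1 := by
  constructor
  · intro h
    by_cases hf : f ∈ ordGE w 0
    · rw [jacValue, dif_pos hf, coe_eq_coe] at h
      exact h ▸ (jacExists_sub_mem hf).choose_spec
    · rw [jacValue, dif_neg hf] at h
      exact absurd h (infty_ne_coe c)
  · intro h
    have hf := jac_reg_of_sub_mem h
    rw [jacValue, dif_pos hf, coe_eq_coe]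
    by_contra hne
    have h1 := (jacExists_sub_mem hf).choose_spec
    have h2 : algebraMap ℂ F (c - (jacExists_sub_mem hf).choose) ∈ ordGE w 1 := by
      have h3 := sub_mem h1 h
      rwa [sub_sub_sub_cancel_left, ← map_sub] at h3
    have h4 := le_ord_of_mem h2 (by simpa [sub_eq_zero] using Ne.symm hne)
    rw [ord_algebraMap] at h4
    omega

theorem jacValue_eq_infty_iff {w : Place ℂ F} {f : F} :
    jacValue w f = ∞ ↔ f ∉ ordGE w 0 := by
  rw [jacValue]
  split <;> simp [*]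

/-- The conditions on a point of `F → OnePoint ℂ` to be the value map of a place. -/
def jacValueSet (F : Type*) [Field F] [Algebra ℂ F] : Set (F → OnePoint ℂ) :=
  {x | (∀ c : ℂ, x (algebraMap ℂ F c) = c) ∧
    (∀ f g : F, x f = ∞ ∨ x g = ∞ ∨ ∃ a b : ℂ, x f = a ∧ x g = b ∧
      x (f + g) = ↑(a + b) ∧ x (f * g) = ↑(a * b)) ∧
    (∀ f : F, f ≠ 0 → x f ∈ ((↑) : ℂ → OnePoint ℂ) '' closedBall 0 1 ∨
      x f⁻¹ ∈ ((↑) : ℂ → OnePoint ℂ) '' closedBall 0 1)}

omit [Field F] [Algebra ℂ F] [IsCurveOver ℂ F] [Algebra.EssFiniteType ℂ F] in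
private theorem jacClosed_rel (op : ℂ → ℂ → ℂ) (hop : Continuous fun p : ℂ × ℂ => op p.1 p.2)
    (f g h : F) : IsClosed {x : F → OnePoint ℂ |
      x f = ∞ ∨ x g = ∞ ∨ ∃ a b : ℂ, x f = a ∧ x g = b ∧ x h = ↑(op a b)} := by
  rw [← isOpen_compl_iff, isOpen_iff_mem_nhds]
  intro x hx
  simp only [mem_compl_iff, mem_ofPred_eq, not_or, not_exists, not_and] at hx
  obtain ⟨h1, h2, h3⟩ := hx
  obtain ⟨a, ha⟩ := ne_infty_iff_exists.1 h1
  obtain ⟨b, hb⟩ := ne_infty_iff_exists.1 h2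
  have hne : x h ≠ ↑(op a b) := h3 a b ha.symm hb.symm
  obtain ⟨U, V, hU, hV, hxU, hxV, hUV⟩ := t2_separation hne
  obtain ⟨W, hW, hWsub⟩ := exists_mem_nhds_isClosed_subset
    (hop.continuousAt.preimage_mem_nhds
      ((continuous_coe.tendsto (op a b)).eventually_mem (hV.mem_nhds hxV)) :
      (fun p : ℂ × ℂ => op p.1 p.2) ⁻¹' ((↑) ⁻¹' V) ∈ 𝓝 (a, b))
  obtain ⟨A, hA, B, hB, hAB⟩ := mem_nhds_prod_iff.1 hW
  have nA : ((↑) '' A : Set (OnePoint ℂ)) ∈ 𝓝 (x f) := by
    rw [← ha, nhds_coe_eq]; exact image_mem_map hA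
  have nB : ((↑) '' B : Set (OnePoint ℂ)) ∈ 𝓝 (x g) := by
    rw [← hb, nhds_coe_eq]; exact image_mem_map hB
  filter_upwards [(continuous_apply f).continuousAt.preimage_mem_nhds nA,
    (continuous_apply g).continuousAt.preimage_mem_nhds nB,
    (continuous_apply h).continuousAt.preimage_mem_nhds (hU.mem_nhds hxU)] with y yf yg yh
  obtain ⟨a', ha', hya⟩ := yf
  obtain ⟨b', hb', hyb⟩ := yg
  simp only [mem_compl_iff, mem_ofPred_eq, not_or, not_exists, not_and]
  refine ⟨fun e => infty_ne_coe a' (e.symm.trans hya.symm),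
    fun e => infty_ne_coe b' (e.symm.trans hyb.symm), fun a'' b'' e1 e2 e3 => ?_⟩
  obtain rfl : a' = a'' := coe_eq_coe.1 (hya.trans e1)
  obtain rfl : b' = b'' := coe_eq_coe.1 (hyb.trans e2)
  have hy : y h ∈ U := yh
  rw [e3] at hy
  have hmem : (a', b') ∈ W := hAB ⟨ha', hb'⟩
  exact hUV.le_bot ⟨hy, hWsub.2 hmem⟩

omit [IsCurveOver ℂ F] [Algebra.EssFiniteType ℂ F] in
theorem isClosed_jacValueSet : IsClosed (jacValueSet F) := by
  have hpair : ∀ f g : F, IsClosed {x : F → OnePoint ℂ | x f = ∞ ∨ x g = ∞ ∨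
      ∃ a b : ℂ, x f = a ∧ x g = b ∧ x (f + g) = ↑(a + b) ∧ x (f * g) = ↑(a * b)} := fun f g => by
    convert (jacClosed_rel (· + ·) (continuous_fst.add continuous_snd) f g (f + g)).inter
      (jacClosed_rel (· * ·) (continuous_fst.mul continuous_snd) f g (f * g)) using 1
    ext x
    simp only [mem_ofPred_eq, mem_inter_iff]
    constructor
    · rintro (h | h | ⟨a, b, h1, h2, h3, h4⟩)
      · exact ⟨Or.inl h, Or.inl h⟩
      · exact ⟨Or.inr (Or.inl h), Or.inr (Or.inl h)⟩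
      · exact ⟨Or.inr (Or.inr ⟨a, b, h1, h2, h3⟩), Or.inr (Or.inr ⟨a, b, h1, h2, h4⟩)⟩
    · rintro ⟨h | h | ⟨a, b, h1, h2, h3⟩, h'⟩
      · exact Or.inl h
      · exact Or.inr (Or.inl h)
      · rcases h' with h | h | ⟨a', b', k1, k2, k3⟩
        · exact Or.inl h
        · exact Or.inr (Or.inl h)
        · obtain rfl : a' = a := coe_eq_coe.1 (k1.symm.trans h1)
          obtain rfl : b' = b := coe_eq_coe.1 (k2.symm.trans h2)
          exact Or.inr (Or.inr ⟨_, _, h1, h2, h3, k3⟩)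
  have hball : IsClosed (((↑) : ℂ → OnePoint ℂ) '' closedBall 0 1) :=
    ((isCompact_closedBall (0 : ℂ) 1).image continuous_coe).isClosed
  have h : jacValueSet F = (⋂ c : ℂ, {x : F → OnePoint ℂ | x (algebraMap ℂ F c) = (c : OnePoint ℂ)}) ∩
      (⋂ f : F, ⋂ g : F, {x : F → OnePoint ℂ | x f = ∞ ∨ x g = ∞ ∨
        ∃ a b : ℂ, x f = a ∧ x g = b ∧ x (f + g) = ↑(a + b) ∧ x (f * g) = ↑(a * b)}) ∩
      (⋂ f : F, ⋂ _ : f ≠ 0, ((fun x : F → OnePoint ℂ => x f) ⁻¹' (((↑) : ℂ → OnePoint ℂ) '' closedBall 0 1) ∪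
        (fun x : F → OnePoint ℂ => x f⁻¹) ⁻¹' (((↑) : ℂ → OnePoint ℂ) '' closedBall 0 1))) := by
    ext x
    simp only [jacValueSet, mem_ofPred_eq, mem_inter_iff, mem_iInter, mem_union, mem_preimage,
      and_assoc]
  rw [h]
  exact ((isClosed_iInter fun c => isClosed_eq (continuous_apply _) continuous_const).inter
    (isClosed_iInter fun f => isClosed_iInter fun g => hpair f g)).inter
    (isClosed_iInter fun f => isClosed_iInter fun _ =>
      (hball.preimage (continuous_apply f)).union (hball.preimage (continuous_apply f⁻¹)))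

theorem jacValue_const (w : Place ℂ F) (c : ℂ) : jacValue w (algebraMap ℂ F c) = c := by
  rw [jacValue_eq_coe_iff, sub_self]
  exact zero_mem _

theorem jacValue_mem (w : Place ℂ F) : jacValue w ∈ jacValueSet F := by
  refine ⟨jacValue_const w, fun f g => ?_, fun f hf => ?_⟩
  · by_cases hf : f ∈ ordGE w 0
    · by_cases hg : g ∈ ordGE w 0
      · obtain ⟨a, ha⟩ := jacExists_sub_mem hf
        obtain ⟨b, hb⟩ := jacExists_sub_mem hg
        refine Or.inr (Or.inr ⟨a, b, jacValue_eq_coe_iff.2 ha, jacValue_eq_coe_iff.2 hb,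
          jacValue_eq_coe_iff.2 ?_, jacValue_eq_coe_iff.2 ?_⟩)
        · rw [map_add, show f + g - (algebraMap ℂ F a + algebraMap ℂ F b) =
            (f - algebraMap ℂ F a) + (g - algebraMap ℂ F b) by ring]
          exact add_mem ha hb
        · rw [map_mul, show f * g - algebraMap ℂ F a * algebraMap ℂ F b =
            (f - algebraMap ℂ F a) * g + algebraMap ℂ F a * (g - algebraMap ℂ F b) by ring]
          exact add_mem (by simpa using mul_mem_ordGE ha hg)
            (by simpa using mul_mem_ordGE ((mem_valuationSubring_iff w).1 (w.algebraMap_mem' a)) hb)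
      · exact Or.inr (Or.inl (jacValue_eq_infty_iff.2 hg))
    · exact Or.inl (jacValue_eq_infty_iff.2 hf)
  · by_cases hreg : f ∈ ordGE w 0
    · obtain ⟨a, ha⟩ := jacExists_sub_mem hreg
      by_cases h1 : ‖a‖ ≤ 1
      · exact Or.inl ⟨a, mem_closedBall_zero_iff.2 h1, (jacValue_eq_coe_iff.2 ha).symm⟩
      · have ha0 : a ≠ 0 := fun h => h1 (by simp [h])
        have hinv : jacValue w f⁻¹ = (a⁻¹ : ℂ) := by
          rw [jacValue_eq_coe_iff, show f⁻¹ - algebraMap ℂ F a⁻¹ =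
            (-(algebraMap ℂ F a⁻¹ * f⁻¹)) * (f - algebraMap ℂ F a) by
              have : algebraMap ℂ F a ≠ 0 := by simpa using ha0
              rw [map_inv₀]; field_simp; ring]
          have hord := (jac_ord_eq_zero_of_sub_mem ha0 ha).2
          have hu : f⁻¹ ∈ ordGE w 0 := mem_ordGE_of_le (by rw [w.ord_inv, hord]; simp)
          simpa using mul_mem_ordGE (neg_mem (mul_mem_ordGE
            ((mem_valuationSubring_iff w).1 (w.algebraMap_mem' a⁻¹)) hu)) ha
        refine Or.inr ⟨a⁻¹, mem_closedBall_zero_iff.2 ?_, hinv.symm⟩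
        rw [norm_inv]
        exact inv_le_one_of_one_le₀ (le_of_not_ge h1)
    · refine Or.inr ⟨0, mem_closedBall_self zero_le_one, (jacValue_eq_coe_iff.2 ?_).symm⟩
      rw [map_zero, sub_zero]
      rw [mem_ordGE_of_ne_zero hf, not_le] at hreg
      exact mem_ordGE_of_le (by rw [w.ord_inv]; omega)

/-- The valuation ring of a point of `jacValueSet`. -/
def jacSubringOf {x : F → OnePoint ℂ} (hx : x ∈ jacValueSet F) : ValuationSubring F where
  carrier := {f | x f ≠ ∞}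
  zero_mem' := by rw [mem_ofPred_eq, ← map_zero (algebraMap ℂ F), hx.1]; exact coe_ne_infty _
  one_mem' := by rw [mem_ofPred_eq, ← map_one (algebraMap ℂ F), hx.1]; exact coe_ne_infty _
  add_mem' := fun {f g} hf hg => by
    obtain ⟨a, b, -, -, h, -⟩ := ((hx.2.1 f g).resolve_left hf).resolve_left hg
    rw [mem_ofPred_eq, h]; exact coe_ne_infty _
  mul_mem' := fun {f g} hf hg => by
    obtain ⟨a, b, -, -, -, h⟩ := ((hx.2.1 f g).resolve_left hf).resolve_left hg
    rw [mem_ofPred_eq, h]; exact coe_ne_infty _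
  neg_mem' := fun {f} hf => by
    have h1 : x (algebraMap ℂ F (-1)) ≠ ∞ := by rw [hx.1]; exact coe_ne_infty _
    obtain ⟨a, b, -, -, -, h⟩ :=
      ((hx.2.1 (algebraMap ℂ F (-1)) f).resolve_left h1).resolve_left hf
    rw [map_neg, map_one, neg_one_mul] at h
    rw [mem_ofPred_eq, h]; exact coe_ne_infty _
  mem_or_inv_mem' := fun f => by
    rcases eq_or_ne f 0 with rfl | hf
    · left
      rw [mem_ofPred_eq, ← map_zero (algebraMap ℂ F), hx.1]; exact coe_ne_infty _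
    · rcases hx.2.2 f hf with ⟨a, -, h⟩ | ⟨a, -, h⟩
      · left; rw [mem_ofPred_eq, ← h]; exact coe_ne_infty _
      · right; rw [mem_ofPred_eq, ← h]; exact coe_ne_infty _

theorem range_jacValue : Set.range (jacValue (F := F)) = jacValueSet F := by
  refine Subset.antisymm (range_subset_iff.2 jacValue_mem) fun x hx => ?_
  have : IsFunctionFieldOne ℂ F := jacIsFunctionFieldOne
  let S := jacSubringOf hx
  have hfin : ∀ {f : F}, f ∈ S ↔ x f ≠ ∞ := Iff.rfl
  have hconst : ∀ c : ℂ, algebraMap ℂ F c ∈ S := fun c => by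
    rw [hfin, hx.1]; exact coe_ne_infty _
  have hinv0 : ∀ {f : F}, f ∈ S → f⁻¹ ∈ S → f ≠ 0 → x f ≠ ((0 : ℂ) : OnePoint ℂ) := by
    intro f h1 h2 hf h0
    obtain ⟨a, b, ha, -, -, h⟩ :=
      ((hx.2.1 f f⁻¹).resolve_left (hfin.1 h1)).resolve_left (hfin.1 h2)
    rw [h0, coe_eq_coe] at ha
    rw [mul_inv_cancel₀ hf, ← map_one (algebraMap ℂ F), hx.1, coe_eq_coe, ← ha, zero_mul] at h
    exact one_ne_zero h
  have hsub : ∀ {f : F} {c : ℂ}, x f = c → x (f - algebraMap ℂ F c) = ((0 : ℂ) : OnePoint ℂ) := by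
    intro f c hc
    obtain ⟨a, b, ha, hb, h, -⟩ := ((hx.2.1 f (algebraMap ℂ F (-c))).resolve_left
      (by rw [hc]; exact coe_ne_infty _)).resolve_left (by rw [hx.1]; exact coe_ne_infty _)
    rw [hc, coe_eq_coe] at ha
    rw [hx.1, coe_eq_coe] at hb
    rw [map_neg, ← sub_eq_add_neg] at h
    rw [h, ← ha, ← hb, add_neg_cancel]
  have htop : S ≠ ⊤ := by
    obtain ⟨t, ht, -⟩ := (jacIsFunctionFieldOne (F := F)).exists_transcendental
    intro htop
    have hmem : ∀ f : F, f ∈ S := fun f => by rw [htop]; trivial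
    obtain ⟨c, hc⟩ := ne_infty_iff_exists.1 (hfin.1 (hmem t))
    have hne : t - algebraMap ℂ F c ≠ 0 := fun h => by
      rw [sub_eq_zero] at h
      exact ht (h ▸ isAlgebraic_algebraMap c)
    exact hinv0 (hmem _) (hmem _) hne (hsub hc.symm)
  let w := placeOfValuationSubring S hconst htop
  refine ⟨w, funext fun f => ?_⟩
  by_cases hf : f ∈ S
  · obtain ⟨c, hc⟩ := ne_infty_iff_exists.1 (hfin.1 hf)
    rw [← hc, jacValue_eq_coe_iff]
    rcases eq_or_ne (f - algebraMap ℂ F c) 0 with h0 | h0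
    · rw [h0]; exact zero_mem _
    have h1 : f - algebraMap ℂ F c ∈ ordGE w 0 :=
      (mem_valuationSubring_iff w).1 (sub_mem hf (hconst c) : f - algebraMap ℂ F c ∈ S)
    have h2 : (f - algebraMap ℂ F c)⁻¹ ∉ ordGE w 0 := fun h =>
      hinv0 (sub_mem hf (hconst c)) ((mem_valuationSubring_iff w).2 h) h0 (hsub hc.symm)
    rw [mem_ordGE_of_ne_zero (inv_ne_zero h0), not_le, w.ord_inv] at h2
    exact mem_ordGE_of_le (by omega)
  · have hinf : x f = ∞ := not_not.1 hf
    rw [hinf, jacValue_eq_infty_iff, ← mem_valuationSubring_iff]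
    exact hf

theorem isCompact_range_jacValue : IsCompact (Set.range (jacValue (F := F))) := by
  rw [range_jacValue]
  exact isClosed_jacValueSet.isCompact

/-! ### Chart neighbourhoods -/

/-- The places centred within `δ` of the centre of the chart. -/
def JacChart.near {v : Place ℂ F} (Φ : JacChart v) (δ : ℝ) : Set (Place ℂ F) :=
  {w | ∃ a b : ℂ, ‖a‖ < δ ∧ ‖b - Φ.model.c‖ < δ ∧ jacCentred Φ.model.t Φ.model.θ a b w}

/-- The open set of the product cutting out `JacChart.near`. -/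
def jacNearOpen {v : Place ℂ F} (Φ : JacChart v) (δ : ℝ) : Set (F → OnePoint ℂ) :=
  (fun x => x Φ.model.t) ⁻¹' (((↑) : ℂ → OnePoint ℂ) '' ball 0 δ) ∩
    (fun x => x Φ.model.θ) ⁻¹' (((↑) : ℂ → OnePoint ℂ) '' ball Φ.model.c δ)

omit [IsCurveOver ℂ F] [Algebra.EssFiniteType ℂ F] in
theorem isOpen_jacNearOpen {v : Place ℂ F} (Φ : JacChart v) (δ : ℝ) :
    IsOpen (jacNearOpen Φ δ) :=
  ((isOpen_image_coe.2 isOpen_ball).preimage (continuous_apply _)).inter
    ((isOpen_image_coe.2 isOpen_ball).preimage (continuous_apply _))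

theorem jacValue_mem_nearOpen {v : Place ℂ F} (Φ : JacChart v) (δ : ℝ) (w : Place ℂ F) :
    jacValue w ∈ jacNearOpen Φ δ ↔ w ∈ Φ.near δ := by
  constructor
  · rintro ⟨⟨a, ha, h1⟩, ⟨b, hb, h2⟩⟩
    exact ⟨a, b, mem_ball_zero_iff.1 ha, mem_ball_iff_norm.1 hb,
      jacValue_eq_coe_iff.1 h1.symm, jacValue_eq_coe_iff.1 h2.symm⟩
  · rintro ⟨a, b, ha, hb, h1, h2⟩
    exact ⟨⟨a, mem_ball_zero_iff.2 ha, (jacValue_eq_coe_iff.2 h1).symm⟩,
      ⟨b, mem_ball_iff_norm.2 hb, (jacValue_eq_coe_iff.2 h2).symm⟩⟩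

omit [IsCurveOver ℂ F] [Algebra.EssFiniteType ℂ F] in
theorem self_mem_near {v : Place ℂ F} (Φ : JacChart v) {δ : ℝ} (hδ : 0 < δ) : v ∈ Φ.near δ :=
  ⟨0, Φ.model.c, by simpa using hδ, by simpa using hδ,
    by simpa using mem_ordGE_of_le Φ.model.ord_t.ge, Φ.model.θ_sub⟩

omit [IsCurveOver ℂ F] [Algebra.EssFiniteType ℂ F] in
theorem eventually_pt_mem_near {v : Place ℂ F} (Φ : JacChart v) {δ : ℝ} (hδ : 0 < δ) :
    ∀ᶠ z in 𝓝 (0 : ℂ), Φ.pt z ∈ Φ.near δ := by
  have hy : ∀ᶠ z in 𝓝 (0 : ℂ), ‖Φ.y z - Φ.model.c‖ < δ :=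
    ((Φ.y_analytic 0 (by simpa using Φ.r_pos)).continuousAt.sub continuousAt_const).norm.eventually_lt
      continuousAt_const (by simpa [Φ.y_zero] using hδ)
  filter_upwards [hy, ball_mem_nhds (0 : ℂ) (lt_min hδ Φ.r_pos)] with z h1 h2
  rw [mem_ball_zero_iff, lt_min_iff] at h2
  exact ⟨z, Φ.y z, h2.1, h1, Φ.centred_pt h2.2⟩

/-- Finitely many chart neighbourhoods cover all places. -/
theorem jacExists_finite_cover (Φ : ∀ v : Place ℂ F, JacChart v) (δ : Place ℂ F → ℝ)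
    (hδ : ∀ v, 0 < δ v) :
    ∃ T : Finset (Place ℂ F), ∀ w, ∃ v ∈ T, w ∈ (Φ v).near (δ v) := by
  obtain ⟨T, hT⟩ := isCompact_range_jacValue.elim_finite_subcover
    (fun v => jacNearOpen (Φ v) (δ v)) (fun v => isOpen_jacNearOpen _ _) (by
      rintro x ⟨w, rfl⟩
      exact mem_iUnion.2 ⟨w, (jacValue_mem_nearOpen _ _ _).2 (self_mem_near _ (hδ w))⟩)
  refine ⟨T, fun w => ?_⟩
  obtain ⟨v, hvT, hv⟩ := mem_iUnion₂.1 (hT ⟨w, rfl⟩)
  exact ⟨v, hvT, (jacValue_mem_nearOpen _ _ _).1 hv⟩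

/-- A set of places containing, with each place, a neighbourhood of it, and whose complement has
the same property, is everything once it contains the only pole of a nonconstant function. -/
theorem jacEq_univ_of_clopen (Φ : ∀ v : Place ℂ F, JacChart v) (δ : Place ℂ F → ℝ)
    (hδ : ∀ v, 0 < δ v) {S : Set (Place ℂ F)} (hin : ∀ v ∈ S, (Φ v).near (δ v) ⊆ S)
    (hout : ∀ v ∉ S, (Φ v).near (δ v) ⊆ Sᶜ) {a : Place ℂ F} (ha : a ∈ S) {f : F}
    (hfa : f ∉ ordGE a 0) (hf : ∀ w, w ≠ a → f ∈ ordGE w 0) (w : Place ℂ F) : w ∈ S := by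
  by_contra hw
  have hK : IsCompact (jacValue '' Sᶜ : Set (F → OnePoint ℂ)) := by
    have h : (jacValue '' Sᶜ : Set (F → OnePoint ℂ)) =
        Set.range jacValue \ ⋃ v ∈ S, jacNearOpen (Φ v) (δ v) := by
      ext x
      constructor
      · rintro ⟨u, hu, rfl⟩
        refine ⟨⟨u, rfl⟩, fun h => ?_⟩
        obtain ⟨v, hv, hv'⟩ := mem_iUnion₂.1 h
        exact hu (hin v hv ((jacValue_mem_nearOpen _ _ _).1 hv'))
      · rintro ⟨⟨u, rfl⟩, h⟩
        exact ⟨u, fun hu => h (mem_iUnion₂.2 ⟨u, hu,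
          (jacValue_mem_nearOpen _ _ _).2 (self_mem_near _ (hδ u))⟩), rfl⟩
    rw [h]
    exact isCompact_range_jacValue.diff (isOpen_biUnion fun v _ => isOpen_jacNearOpen _ _)
  have hreg : ∀ u ∉ S, f ∈ ordGE u 0 := fun u hu => hf u (fun h => hu (h ▸ ha))
  have hK' : IsCompact {c : ℂ | ∃ u ∉ S, jacValue u f = (c : OnePoint ℂ)} := by
    rw [isOpenEmbedding_coe.isEmbedding.isCompact_iff]
    convert hK.image (continuous_apply f) using 1
    ext y
    constructor
    · rintro ⟨c, ⟨u, hu, h⟩, rfl⟩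
      exact ⟨jacValue u, ⟨u, hu, rfl⟩, h⟩
    · rintro ⟨-, ⟨u, hu, rfl⟩, rfl⟩
      obtain ⟨c, hc⟩ := jacExists_sub_mem (hreg u hu)
      exact ⟨c, ⟨u, hu, jacValue_eq_coe_iff.2 hc⟩, (jacValue_eq_coe_iff.2 hc).symm⟩
  obtain ⟨c₁, hc₁⟩ := jacExists_sub_mem (hreg w hw)
  obtain ⟨c₀, ⟨u, hu, hu0⟩, hmax⟩ := hK'.exists_isMaxOn
    ⟨c₁, w, hw, jacValue_eq_coe_iff.2 hc₁⟩ continuous_norm.continuousOn
  -- the function in the chart at `u`
  let g := toMeromorphicNFAt ((Φ u).hat f) 0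
  have h0r : ‖(0 : ℂ)‖ < (Φ u).r := by simpa using (Φ u).r_pos
  have hm := (Φ u).meromorphicAt_hat f h0r
  have hval : ∀ z, ‖z‖ < (Φ u).r → f ∈ ordGE ((Φ u).pt z) 0 → ∀ c : ℂ,
      jacValue ((Φ u).pt z) f = c → Tendsto ((Φ u).hat f) (𝓝[≠] z) (𝓝 c) := by
    intro z hz _ c hc
    have h1 := jacValue_eq_coe_iff.1 hc
    have he : (Φ u).hat (f - algebraMap ℂ F c) =ᶠ[𝓝[≠] z] fun x => (Φ u).hat f x - c := by
      rw [sub_eq_add_neg, ← map_neg]
      filter_upwards [(Φ u).hat_add f (algebraMap ℂ F (-c)) hz, (Φ u).hat_const (-c) hz] with x e1 e2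
      rw [e1, Pi.add_apply, e2, sub_eq_add_neg]
    have h2 : Tendsto ((Φ u).hat (f - algebraMap ℂ F c)) (𝓝[≠] z) (𝓝 0) := by
      rw [tendsto_zero_iff_meromorphicOrderAt_pos ((Φ u).meromorphicAt_hat _ hz)]
      rcases eq_or_ne (f - algebraMap ℂ F c) 0 with h0 | h0
      · have h3 := (Φ u).ordAt_zero hz
        rw [JacChart.ordAt, ← h0] at h3
        rw [h3]
        exact WithTop.coe_lt_top 0
      · rw [(Φ u).ord_pt hz h0]
        have := le_ord_of_mem h1 h0
        exact_mod_cast (show (0 : ℤ) < _ by omega)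
    simpa using ((h2.congr' he).add_const c)
  have hpt0 : (Φ u).pt 0 = u := (Φ u).pt_zero
  have hlim0 := hval 0 h0r (by rw [hpt0]; exact hreg u hu) c₀ (by rw [hpt0]; exact hu0)
  have hg : AnalyticAt ℂ g 0 :=
    hm.meromorphicOrderAt_nonneg_iff_analyticAt_toMeromorphicNFAt.1
      ((tendsto_nhds_iff_meromorphicOrderAt_nonneg hm).1 ⟨c₀, hlim0⟩)
  have hg0 : g 0 = c₀ :=
    tendsto_nhds_unique (hg.continuousAt.tendsto.mono_left nhdsWithin_le_nhds)
      (hlim0.congr' hm.eq_nhdsNE_toMeromorphicNFAt)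
  have hmaxg : IsLocalMax (norm ∘ g) 0 := by
    obtain ⟨ε, hε, hball⟩ := Metric.eventually_nhds_iff.1
      ((eventually_pt_mem_near (Φ u) (hδ u)).and (hg.eventually_analyticAt.and
        (continuous_norm.continuousAt.eventually_lt continuousAt_const h0r)))
    refine Metric.eventually_nhds_iff.2 ⟨ε, hε, fun z hz => ?_⟩
    show ‖g z‖ ≤ ‖g 0‖
    obtain ⟨hnear, hgz, hzr⟩ := hball hz
    rcases eq_or_ne z 0 with rfl | hz0
    · exact le_rfl
    have hS : (Φ u).pt z ∉ S := hout u hu hnear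
    obtain ⟨c, hc⟩ := jacExists_sub_mem (hreg _ hS)
    have hcl := hval z hzr (hreg _ hS) c (jacValue_eq_coe_iff.2 hc)
    have hgc : g z = c := by
      refine tendsto_nhds_unique (hgz.continuousAt.tendsto.mono_left nhdsWithin_le_nhds)
        (hcl.congr' ?_)
      filter_upwards [mem_nhdsWithin_of_mem_nhds (isOpen_compl_singleton.mem_nhds
        (show z ∈ ({0}ᶜ : Set ℂ) from hz0))] with y hy
      exact hm.eqOn_compl_singleton_toMeromorphicNFAt hy
    rw [hgc, hg0]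
    exact hmax ⟨_, hS, jacValue_eq_coe_iff.2 hc⟩
  have hconst := Complex.eventually_eq_of_isLocalMax_norm
    (hg.eventually_analyticAt.mono fun z hz => hz.differentiableAt) hmaxg
  have hfc : f = algebraMap ℂ F c₀ := by
    rw [← sub_eq_zero]
    by_contra hne
    apply (Φ u).ordAt_ne_top h0r hne
    rw [JacChart.ordAt, meromorphicOrderAt_eq_top_iff, sub_eq_add_neg, ← map_neg]
    filter_upwards [(Φ u).hat_add f (algebraMap ℂ F (-c₀)) h0r, (Φ u).hat_const (-c₀) h0r,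
      hm.eq_nhdsNE_toMeromorphicNFAt, nhdsWithin_le_nhds hconst] with x e1 e2 e3 e4
    rw [e1, Pi.add_apply, e2, e3]
    show g x + -c₀ = 0
    rw [e4, hg0, add_neg_cancel]
  exact hfa (hfc ▸ (mem_valuationSubring_iff a).1 (a.algebraMap_mem' c₀))

end FermatLib.Curve

end
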