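import Mathlib.Algebra.Module.ZLattice.Basic
import Mathlib.Analysis.Normed.Module.FiniteDimension
import Mathlib.LinearAlgebra.Dual.Lemmas
import Mathlib.SetTheory.Cardinal.Finite
import Mathlib.Data.ZMod.Basic

/-!
# Torsion of a compact quotient of a real vector space by a discrete subgroup
-/

set_option autoImplicit false

open Topology Filter Metric Set

namespace FermatLib.Curve

variable {E : Type*} [NormedAddCommGroup E] [NormedSpace ℝ E] [FiniteDimensional ℝ E]
  {A : Type*} [AddCommGroup A]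

omit [NormedSpace ℝ E] [FiniteDimensional ℝ E] in
private theorem jacKer_discrete (ψ : E →+ A) (hinj : ∃ W ∈ 𝓝 (0 : E), InjOn ψ W) :
    DiscreteTopology ↥(ψ.ker.toIntSubmodule) := by
  obtain ⟨W, hW, hinj⟩ := hinj
  refine discreteTopology_of_isOpen_singleton_zero ?_
  rw [isOpen_induced_iff]
  refine ⟨interior W, isOpen_interior, ?_⟩
  ext x
  simp only [mem_preimage, mem_singleton_iff]
  refine ⟨fun hx => ?_, ?_⟩
  · refine Subtype.ext (hinj (interior_subset hx) (mem_of_mem_nhds hW) ?_)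
    show ψ (x : E) = ψ ((0 : ψ.ker.toIntSubmodule) : E)
    rw [Submodule.coe_zero, map_zero]
    exact x.2
  · rintro rfl
    exact mem_interior_iff_mem_nhds.2 hW

private theorem jacKer_span_top (ψ : E →+ A) (hcov : ∃ R : ℝ, ∀ a : A, ∃ z : E, ‖z‖ ≤ R ∧ ψ z = a) :
    Submodule.span ℝ (ψ.ker.toIntSubmodule : Set E) = ⊤ := by
  obtain ⟨R, hcov⟩ := hcov
  by_contra hne
  obtain ⟨f, hf0, hf⟩ := Submodule.exists_le_ker_of_lt_top _ (lt_top_iff_ne_top.2 hne)
  obtain ⟨w, hw⟩ : ∃ w, f w ≠ 0 := by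
    by_contra h
    exact hf0 (LinearMap.ext fun w => not_not.1 fun hw => h ⟨w, hw⟩)
  let fc := LinearMap.toContinuousLinearMap f
  have hbd : ∀ z, |f z| ≤ ‖fc‖ * R := by
    intro z
    obtain ⟨z0, hz0, he⟩ := hcov (ψ z)
    have hker : f (z - z0) = 0 :=
      hf (Submodule.subset_span (show z - z0 ∈ ψ.ker by simp [AddMonoidHom.mem_ker, he]))
    rw [map_sub, sub_eq_zero] at hker
    rw [hker]
    exact (fc.le_opNorm z0).trans (mul_le_mul_of_nonneg_left hz0 (norm_nonneg _))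
  obtain ⟨k, hk⟩ := exists_nat_gt (‖fc‖ * R / |f w|)
  have := hbd ((k : ℝ) • w)
  rw [map_smul, smul_eq_mul, abs_mul, Nat.abs_cast] at this
  rw [div_lt_iff₀ (abs_pos.2 hw)] at hk
  linarith

/-- The `n`-torsion of a group covered compactly by a finite-dimensional real vector space, with
discrete kernel, has `n ^ dim` elements. -/
theorem jacTorus_card_torsion (ψ : E →+ A) (hinj : ∃ W ∈ 𝓝 (0 : E), InjOn ψ W)
    (hcov : ∃ R : ℝ, ∀ a : A, ∃ z : E, ‖z‖ ≤ R ∧ ψ z = a) {n : ℕ} (hn : n ≠ 0) :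
    Nat.card {a : A // n • a = 0} = n ^ Module.finrank ℝ E := by
  have : NeZero n := ⟨hn⟩
  have := jacKer_discrete ψ hinj
  have : IsZLattice ℝ ψ.ker.toIntSubmodule := ⟨jacKer_span_top ψ hcov⟩
  have : Module.Free ℤ ↥(ψ.ker.toIntSubmodule) := ZLattice.module_free ℝ _
  have : Module.Finite ℤ ↥(ψ.ker.toIntSubmodule) := ZLattice.module_finite ℝ _
  let b := Module.Free.chooseBasis ℤ ↥(ψ.ker.toIntSubmodule)
  have hnR : (n : ℝ) ≠ 0 := Nat.cast_ne_zero.2 hn
  let pt : (Module.Free.ChooseBasisIndex ℤ ↥(ψ.ker.toIntSubmodule) → ℤ) → E :=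
    fun c => (n : ℝ)⁻¹ • ((∑ i, c i • b i : ↥(ψ.ker.toIntSubmodule)) : E)
  have hmul : ∀ c, n • pt c = ((∑ i, c i • b i : ↥(ψ.ker.toIntSubmodule)) : E) := fun c => by
    rw [← Nat.cast_smul_eq_nsmul ℝ, smul_inv_smul₀ hnR]
  have hker : ∀ c : Module.Free.ChooseBasisIndex ℤ ↥(ψ.ker.toIntSubmodule) → ℤ,
      ψ ((∑ i, c i • b i : ↥(ψ.ker.toIntSubmodule)) : E) = 0 := fun c =>
    (∑ i, c i • b i : ↥(ψ.ker.toIntSubmodule)).2
  have hcoord : ∀ (c : Module.Free.ChooseBasisIndex ℤ ↥(ψ.ker.toIntSubmodule) → ℤ) i,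
      b.repr (∑ j, c j • b j) i = c i := fun c i => by
    rw [b.repr_sum_self]
  have hsub : ∀ c d, ψ (pt c) = ψ (pt d) ↔ ∀ i, (c i : ZMod n) = (d i : ZMod n) := by
    intro c d
    rw [← sub_eq_zero, ← map_sub, ← AddMonoidHom.mem_ker]
    constructor
    · intro h i
      let v : ↥(ψ.ker.toIntSubmodule) := ⟨pt c - pt d, h⟩
      have hv : (n : ℤ) • v = (∑ j, c j • b j) - ∑ j, d j • b j := by
        apply Subtype.ext
        rw [Submodule.coe_smul, Submodule.coe_sub, natCast_zsmul, smul_sub, hmul, hmul]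
      have hvi := congrArg (fun x => b.repr x i) hv
      simp only [map_smul, map_sub, Finsupp.smul_apply, Finsupp.sub_apply, hcoord, smul_eq_mul]
        at hvi
      rw [ZMod.intCast_eq_intCast_iff_dvd_sub]
      exact ⟨-b.repr v i, by linarith⟩
    · intro h
      choose e he using fun i => (ZMod.intCast_eq_intCast_iff_dvd_sub _ _ _).1 (h i)
      have hw : pt c - pt d = ((-(∑ i, e i • b i) : ↥(ψ.ker.toIntSubmodule)) : E) := by
        have h1 : (∑ i, c i • b i : ↥(ψ.ker.toIntSubmodule)) - ∑ i, d i • b i =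
            (n : ℤ) • (-(∑ i, e i • b i)) := by
          rw [smul_neg, Finset.smul_sum, ← Finset.sum_sub_distrib, ← Finset.sum_neg_distrib]
          refine Finset.sum_congr rfl fun i _ => ?_
          rw [smul_smul, ← he i, ← sub_smul, ← neg_smul, neg_sub]
        have h2 := congrArg Subtype.val h1
        rw [Submodule.coe_sub, Submodule.coe_smul, natCast_zsmul, ← hmul, ← hmul, ← smul_sub,
          ← Nat.cast_smul_eq_nsmul ℝ n, ← Nat.cast_smul_eq_nsmul ℝ n] at h2
        exact smul_right_injective E hnR h2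
      rw [hw]
      exact (-(∑ i, e i • b i) : ↥(ψ.ker.toIntSubmodule)).2
  let Φ : (Module.Free.ChooseBasisIndex ℤ ↥(ψ.ker.toIntSubmodule) → ZMod n) →
      {a : A // n • a = 0} :=
    fun c => ⟨ψ (pt fun i => ((c i).val : ℤ)), by rw [← map_nsmul, hmul]; exact hker _⟩
  have hΦ : Function.Bijective Φ := by
    refine ⟨fun c d h => funext fun i => ?_, fun a => ?_⟩
    · simpa using (hsub _ _).1 (congrArg Subtype.val h) i
    · obtain ⟨R, hcov⟩ := hcov
      obtain ⟨z, -, hz⟩ := hcov a.1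
      have hnz : n • z ∈ ψ.ker := by rw [AddMonoidHom.mem_ker, map_nsmul, hz, a.2]
      let x : ↥(ψ.ker.toIntSubmodule) := ⟨n • z, hnz⟩
      refine ⟨fun i => (b.repr x i : ZMod n), Subtype.ext ?_⟩
      have hzpt : pt (fun i => b.repr x i) = z := by
        simp only [pt, b.sum_repr]
        show (n : ℝ)⁻¹ • n • z = z
        rw [← Nat.cast_smul_eq_nsmul ℝ, inv_smul_smul₀ hnR]
      rw [← hz, ← hzpt]
      exact (hsub _ _).2 fun i => by simp
  rw [← Nat.card_eq_of_bijective Φ hΦ, Nat.card_fun, Nat.card_zmod, Nat.card_eq_fintype_card,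
    ← Module.finrank_eq_card_chooseBasisIndex, ZLattice.rank ℝ]

end FermatLib.Curve
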