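import Fermat.Agent.Curve.JacLocal
import Fermat.Agent.Curve.JacCompact
import Fermat.Agent.Curve.TorusTorsion

/-!
# `Pic0` of a complex function field is a complex torus

Connectedness and compactness of the space of places upgrade the local homomorphism to a covering
of `Pic0` by a bounded subset of `ℂ^g`; hence there are `n ^ (2 g)` classes killed by `n`.
-/

set_option autoImplicit false

noncomputable section

open AlgebraicCurve Topology Filter Metric

namespace FermatLib.Curve

variable {F : Type*} [Field F] [Algebra ℂ F] [IsCurveOver ℂ F] [Algebra.EssFiniteType ℂ F]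

omit [Algebra.EssFiniteType ℂ F] in
theorem jac_degree_pointDiff (v w : Place ℂ F) :
    Divisor.degree (Finsupp.single v (1 : ℤ) - Finsupp.single w 1) = 0 := by
  simp [IsCurveOver.deg_eq_one_of_isAlgClosed]

omit [Algebra.EssFiniteType ℂ F] in
theorem jacCls_sub_add_sub (u v w : Place ℂ F) :
    jacCls (Finsupp.single u (1 : ℤ) - Finsupp.single w 1) =
      jacCls (Finsupp.single u 1 - Finsupp.single v 1) +
        jacCls (Finsupp.single v 1 - Finsupp.single w 1) := by
  rw [← jacCls_add (jac_degree_pointDiff u v) (jac_degree_pointDiff v w)]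
  congr 1
  abel

/-- A function with a single pole. -/
theorem jacExists_single_pole (hR : RiemannEquation ℂ F) (a : Place ℂ F) :
    ∃ f : F, f ∉ ordGE a 0 ∧ ∀ w, w ≠ a → f ∈ ordGE w 0 := by
  classical
  have : IsFunctionField ℂ F := isFunctionField_of_isCurveOver ℂ F
  set D : Divisor ℂ F := Finsupp.single a ((genusFF ℂ F : ℤ) + 1) with hD
  have hl := jac_riemann hR D
  have hd : Divisor.degree D = (genusFF ℂ F : ℤ) + 1 := by
    simp [hD, IsCurveOver.deg_eq_one_of_isAlgClosed]
  rw [hd] at hl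
  have hone : (1 : F) ∈ riemannRochSpace D := mem_riemannRochSpace.2 fun v => mem_ordGE_of_le (by
    rw [v.ord_one, hD, Finsupp.single_apply]
    split <;> omega)
  have hne : ¬ riemannRochSpace D ≤ Submodule.span ℂ {(1 : F)} := fun h => by
    have := Submodule.finrank_mono h
    rw [finrank_span_singleton one_ne_zero] at this
    omega
  obtain ⟨f, hf, hfc⟩ := SetLike.not_le_iff_exists.1 hne
  have hreg : ∀ w, w ≠ a → f ∈ ordGE w 0 := fun w hw => by
    have := mem_riemannRochSpace.1 hf w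
    rwa [hD, Finsupp.single_eq_of_ne hw, neg_zero] at this
  refine ⟨f, fun ha => hfc ?_, hreg⟩
  have halg : IsAlgebraic ℂ f := isAlgebraic_of_forall_ord_nonneg (K := ℂ) fun w => by
    rcases eq_or_ne f 0 with rfl | hf0
    · simp
    by_cases hw : w = a
    · exact le_ord_of_mem (hw ▸ ha) hf0
    · exact le_ord_of_mem (hreg w hw) hf0
  obtain ⟨c, hc⟩ := (minpoly.degree_eq_one_iff (A := ℂ) (x := f)).1
    (IsAlgClosed.degree_eq_one_of_irreducible ℂ (minpoly.irreducible halg.isIntegral))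
  exact Submodule.mem_span_singleton.2 ⟨c, by rw [Algebra.smul_def, mul_one]; exact hc⟩

/-- **`Pic0` of a complex curve is `ℂ^g` modulo a lattice.** -/
theorem jacExists_uniformization (hR : RiemannEquation ℂ F) :
    ∃ ψ : (Fin (genusFF ℂ F) → ℂ) →+ Pic0 ℂ F,
      (∃ W ∈ 𝓝 (0 : Fin (genusFF ℂ F) → ℂ), Set.InjOn ψ W) ∧
      ∃ R : ℝ, ∀ c, ∃ z, ‖z‖ ≤ R ∧ ψ z = c := by
  classical
  have : IsFunctionField ℂ F := isFunctionField_of_isCurveOver ℂ F
  let Φ : ∀ v : Place ℂ F, JacChart v := fun v => (jacChart_nonempty v).some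
  obtain ⟨ψ, hψinj, hψ⟩ := jacLocalHom hR Φ
  refine ⟨ψ, hψinj, ?_⟩
  -- neighbourhoods consisting of small differences
  have hδ : ∀ v : Place ℂ F, ∃ δ : ℝ, 0 < δ ∧ ∀ w ∈ (Φ v).near δ,
      jacCls (Finsupp.single w (1 : ℤ) - Finsupp.single v 1) ∈ ψ '' ball 0 1 := by
    intro v
    obtain ⟨ε, hε, hb⟩ := Metric.eventually_nhds_iff.1 (hψ v)
    refine ⟨min ε (Φ v).r, lt_min hε (Φ v).r_pos, ?_⟩
    rintro w ⟨a, b, ha, hb', hw⟩
    rw [(Φ v).eq_pt_of_centred (ha.trans_le (min_le_right _ _))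
      (hb'.trans_le (min_le_right _ _)) hw]
    exact hb (by simpa using ha.trans_le (min_le_left _ _))
  choose δ hδpos hδ using hδ
  obtain ⟨a⟩ := nonempty_place (K := ℂ) (F := F)
  -- connectedness
  let S : Set (Place ℂ F) :=
    {w | jacCls (Finsupp.single w (1 : ℤ) - Finsupp.single a 1) ∈ ψ.range}
  obtain ⟨f, hfa, hf⟩ := jacExists_single_pole hR a
  have hrange : ∀ {c : Pic0 ℂ F}, c ∈ ψ '' ball 0 1 → c ∈ ψ.range := by
    rintro c ⟨z, -, rfl⟩; exact ⟨z, rfl⟩
  have hS : ∀ w, w ∈ S := jacEq_univ_of_clopen Φ δ hδpos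
    (fun v hv w hw => by
      show _ ∈ ψ.range
      rw [jacCls_sub_add_sub w v a]
      exact add_mem (hrange (hδ v w hw)) hv)
    (fun v hv w hw hwS => hv <| by
      show _ ∈ ψ.range
      have h1 := sub_mem (show _ ∈ ψ.range from hwS) (hrange (hδ v w hw))
      rwa [jacCls_sub_add_sub w v a, add_sub_cancel_left] at h1)
    (show a ∈ S from ⟨0, by rw [map_zero, sub_self, jacCls_zero]⟩) hfa hf
  -- compactness
  obtain ⟨T, hT⟩ := jacExists_finite_cover Φ δ hδpos
  choose z hz using hS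
  set C : ℝ := ∑ v ∈ T, ‖z v‖ + 1 with hC
  have hpoint : ∀ w : Place ℂ F, ∃ x, ‖x‖ ≤ C ∧
      ψ x = jacCls (Finsupp.single w (1 : ℤ) - Finsupp.single a 1) := by
    intro w
    obtain ⟨v, hvT, hw⟩ := hT w
    obtain ⟨x, hx, hxw⟩ := hδ v w hw
    refine ⟨x + z v, (norm_add_le _ _).trans ?_, by rw [map_add, hxw, hz v, ← jacCls_sub_add_sub]⟩
    have h1 : ‖z v‖ ≤ ∑ v ∈ T, ‖z v‖ :=
      Finset.single_le_sum (fun v _ => norm_nonneg (z v)) hvT
    have h2 := (mem_ball_zero_iff.1 hx).le
    rw [hC]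
    linarith
  refine ⟨genusFF ℂ F * C, fun c => ?_⟩
  obtain ⟨D, hD, rfl⟩ := jacCls_surjective c
  set D' : Divisor ℂ F := D + Finsupp.single a ((genusFF ℂ F) : ℤ) with hD'
  have hdeg' : Divisor.degree D' = (genusFF ℂ F) := by
    simp [hD', hD, IsCurveOver.deg_eq_one_of_isAlgClosed]
  have hl := jac_riemann hR D'
  rw [hdeg'] at hl
  obtain ⟨⟨h, hh⟩, hne⟩ := Module.finrank_pos_iff_exists_ne_zero.1
    (show 0 < Module.finrank ℂ ↥(riemannRochSpace D') by omega)
  have hh0 : h ≠ 0 := fun e => hne (Subtype.ext e)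
  obtain ⟨H, hH, hHdeg⟩ := HasPrincipalDivisors.exists_divisor (K := ℂ) h hh0
  set E : Divisor ℂ F := H + D' with hE
  have hEnn : ∀ w, 0 ≤ E w := fun w => by
    have := le_ord_of_mem (mem_riemannRochSpace.1 hh w) hh0
    rw [hE, Finsupp.add_apply, hH]
    omega
  have hEdeg : Divisor.degree E = (genusFF ℂ F) := by rw [hE, map_add, hHdeg, hdeg', zero_add]
  have hsum : Divisor.degree E = ∑ w ∈ E.support, E w := by
    rw [Divisor.degree, Finsupp.liftAddHom_apply, Finsupp.sum]
    simp [IsCurveOver.deg_eq_one_of_isAlgClosed]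
  choose x hx hxw using hpoint
  refine ⟨∑ w ∈ E.support, E w • x w, (norm_sum_le _ _).trans ?_, ?_⟩
  · calc ∑ w ∈ E.support, ‖E w • x w‖ ≤ ∑ w ∈ E.support, (E w : ℝ) * C :=
          Finset.sum_le_sum fun w _ => by
            rw [← Int.cast_smul_eq_zsmul ℝ, norm_smul, Real.norm_of_nonneg (by exact_mod_cast hEnn w)]
            exact mul_le_mul_of_nonneg_left (hx w) (by exact_mod_cast hEnn w)
      _ = ((genusFF ℂ F) : ℝ) * C := by
          rw [← Finset.sum_mul]
          congr 1
          exact_mod_cast (hsum.symm.trans hEdeg)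
  · have hcls : ∀ (S : Finset (Place ℂ F)),
        ψ (∑ w ∈ S, E w • x w) =
          jacCls (∑ w ∈ S, E w • (Finsupp.single w (1 : ℤ) - Finsupp.single a 1)) := by
      intro S
      rw [map_sum]
      induction S using Finset.induction_on with
      | empty => simp [jacCls_zero]
      | insert w S hw ih =>
        have hzs : ∀ (n : ℤ) (D : Divisor ℂ F), Divisor.degree D = 0 →
            jacCls (n • D) = n • jacCls D := fun n D hD0 => by
          rw [jacCls_of_deg (by rw [map_zsmul, hD0, smul_zero]), jacCls_of_deg hD0]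
          rfl
        have hdS : Divisor.degree (∑ w ∈ S, E w • (Finsupp.single w (1 : ℤ) - Finsupp.single a 1))
            = 0 := by simp [jac_degree_pointDiff]
        rw [Finset.sum_insert hw, Finset.sum_insert hw, ih, map_zsmul, hxw,
          jacCls_add (by rw [map_zsmul, jac_degree_pointDiff, smul_zero]) hdS,
          hzs _ _ (jac_degree_pointDiff w a)]
    have hsplit : ∑ w ∈ E.support, E w • (Finsupp.single w (1 : ℤ) - Finsupp.single a 1) =
        E - Finsupp.single a ((genusFF ℂ F) : ℤ) := by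
      simp only [smul_sub, Finsupp.smul_single, smul_eq_mul, mul_one, Finset.sum_sub_distrib]
      congr 1
      · exact E.sum_single
      · rw [← Finsupp.single_finsetSum, ← hsum, hEdeg]
    rw [hcls, hsplit, jacCls_eq_iff (by
      rw [map_sub, hEdeg, Divisor.degree_single, IsCurveOver.deg_eq_one_of_isAlgClosed]; simp) hD]
    rw [hE, hD', show H + (D + Finsupp.single a ((genusFF ℂ F) : ℤ)) - Finsupp.single a ((genusFF ℂ F) : ℤ) - D = H by abel]
    exact ⟨h, hh0, hH⟩

/-- **Torsion of `Pic0` over `ℂ`.** -/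
theorem jacCard_torsion_complex (hR : RiemannEquation ℂ F) {n : ℕ} (hn : n ≠ 0) :
    Nat.card {c : Pic0 ℂ F // n • c = 0} = n ^ (2 * genusFF ℂ F) := by
  obtain ⟨ψ, hinj, hcov⟩ := jacExists_uniformization hR
  rw [jacTorus_card_torsion ψ hinj hcov hn]
  congr 1
  rw [finrank_real_of_complex, Module.finrank_fintype_fun_eq_card, Fintype.card_fin]

end FermatLib.Curve

end
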