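import Fermat.Agent.Curve.PlaceExtras
import Mathlib.LinearAlgebra.Dimension.Finite
import Mathlib.LinearAlgebra.Matrix.Determinant.Basic

/-!
Elements of a finite extension adapted to finitely many places over a given place `v`:
they are linearly independent, and they detect integrality over `v`.
-/

set_option autoImplicit false

noncomputable section

namespace FermatLib.Curve

open AlgebraicCurve

variable {K F F' : Type*} [Field K] [Field F] [Field F'] [Algebra K F] [Algebra K F']
  [Algebra F F'] [IsScalarTower K F F'] [Algebra.IsIntegral F F']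

theorem algebraMap_mem_ordGE {w : Place K F'} {v : Place K F} (h : w.restrict F = v) {k : ℤ}
    {a : F} (ha : a ∈ ordGE v k) :
    algebraMap F F' a ∈ ordGE w (w.ramificationIndex F * k) := by
  rcases eq_or_ne a 0 with rfl | ha0
  · simp
  refine mem_ordGE_of_le ?_
  rw [w.ord_restrict a, h]
  exact mul_le_mul_of_nonneg_left (le_ord_of_mem ha ha0) (Int.natCast_nonneg _)

/-- A finite family regular at `w` whose residues are independent over the residue field of
`v`, in the form of a statement about orders. -/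
def IndepResidues (v : Place K F) (w : Place K F') {κ : Type*} [Fintype κ] (u : κ → F') : Prop :=
  (∀ j, u j ∈ ordGE w 0) ∧
    ∀ c : κ → F, (∀ j, c j ∈ ordGE v 0) →
      ∑ j, algebraMap F F' (c j) * u j ∈ ordGE w 1 → ∀ j, c j ∈ ordGE v 1

theorem exists_indepResidues_of_linearIndependent (w : Place K F') {κ : Type*} [Fintype κ]
    (r : κ → w.ResidueField) (hr : LinearIndependent (w.restrict F).ResidueField r) :
    ∃ u : κ → F', IndepResidues (w.restrict F) w u := by
  classical
  choose a ha using fun j => IsLocalRing.residue_surjective (r j)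
  refine ⟨fun j => (a j : F'), fun j => (mem_valuationSubring_iff w).mp (a j).2, ?_⟩
  intro c hc hsum j
  let c' : κ → (w.restrict F).toValuationSubring :=
    fun j => ⟨c j, (mem_valuationSubring_iff _).mpr (hc j)⟩
  have h0 : IsLocalRing.residue w.toValuationSubring
      (∑ j, w.restrictInclusion F (c' j) * a j) = 0 := by
    rw [residue_eq_zero_iff_mem_ordGE]
    push_cast
    exact hsum
  rw [map_sum] at h0
  have h1 : ∑ j, IsLocalRing.residue _ (c' j) • r j = 0 := by
    rw [← h0]
    refine Finset.sum_congr rfl fun j _ => ?_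
    rw [map_mul, ha, Algebra.smul_def, Place.algebraMap_residueField_eq,
      Place.restrictResidueMap_residue]
  exact (residue_eq_zero_iff_mem_ordGE _ (c' j)).mp
    (Fintype.linearIndependent_iff.mp hr _ h1 j)

/-- The truncated expansion at a single place. -/
theorem digits_mem_ordGE {v : Place K F} {w : Place K F'} (h : w.restrict F = v)
    {κ : Type*} [Fintype κ] {u : κ → F'} (hu : IndepResidues v w u) {e : ℕ}
    (he : (e : ℤ) ≤ w.ramificationIndex F) (a : Fin e → κ → F)
    (ha : ∀ i j, a i j ∈ ordGE v 0) (i₀ : Fin e)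
    (hsum : ∑ i : Fin e, unif w ^ (i : ℕ) * ∑ j, algebraMap F F' (a i j) * u j ∈
      ordGE w ((i₀ : ℕ) + 1)) (j : κ) :
    a i₀ j ∈ ordGE v 1 := by
  classical
  induction hn : (i₀ : ℕ) using Nat.strong_induction_on generalizing i₀ j with
  | _ n ih =>
  subst hn
  have hX : ∀ i, ∑ j, algebraMap F F' (a i j) * u j ∈ ordGE w 0 := fun i =>
    Submodule.sum_mem _ fun j _ => by
      simpa using mul_mem_ordGE (algebraMap_mem_ordGE h (ha i j)) (hu.1 j)
  rw [← Finset.add_sum_erase _ _ (Finset.mem_univ i₀)] at hsum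
  have hrest : ∀ i ∈ Finset.univ.erase i₀,
      unif w ^ (i : ℕ) * ∑ j, algebraMap F F' (a i j) * u j ∈ ordGE w ((i₀ : ℕ) + 1) := by
    intro i hi
    rcases lt_or_gt_of_ne (fun hc => Finset.ne_of_mem_erase hi (Fin.ext hc) :
        (i : ℕ) ≠ (i₀ : ℕ)) with hlt | hgt
    · have hm : ∀ j, a i j ∈ ordGE v 1 := fun j => by
        refine ih i hlt i ?_ j rfl
        refine ordGE_anti (by omega) (?_ : _ ∈ ordGE w ((i₀ : ℕ) + 1))
        rwa [← Finset.add_sum_erase _ _ (Finset.mem_univ i₀)]
      have h2 : ∑ j, algebraMap F F' (a i j) * u j ∈ ordGE w e :=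
        Submodule.sum_mem _ fun j _ =>
          ordGE_anti (by simpa using he) (mul_mem_ordGE (algebraMap_mem_ordGE h (hm j)) (hu.1 j))
      refine ordGE_anti ?_ (mul_mem_ordGE (mem_ordGE_of_le le_rfl) h2)
      rw [ord_pow, ord_unif, mul_one]
      omega
    · refine ordGE_anti ?_ (mul_mem_ordGE (mem_ordGE_of_le le_rfl) (hX i))
      rw [ord_pow, ord_unif, mul_one]
      omega
  have h1 := sub_mem hsum (Submodule.sum_mem _ hrest)
  rw [add_sub_cancel_right] at h1
  have h2 := mul_mem_ordGE (mem_ordGE_of_le (v := w) (f := (unif w ^ (i₀ : ℕ))⁻¹) le_rfl) h1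
  rw [← mul_assoc, inv_mul_cancel₀ (pow_ne_zero _ (unif_ne_zero w)), one_mul, w.ord_inv,
    ord_pow, ord_unif, mul_one, neg_add_cancel_left] at h2
  exact hu.2 (a i₀) (ha i₀) h2 j

section Family

variable (v : Place K F) (s : Finset (Place K F')) {m : Place K F' → ℕ}
  (u : ∀ w : Place K F', Fin (m w) → F')

/-- Index set of an adapted family: `(w, i, j)` with `i < e_w`, `j < m w`. -/
abbrev AdaptedIndex (F : Type*) [Field F] [Algebra F F'] (s : Finset (Place K F'))
    (m : Place K F' → ℕ) : Type _ :=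
  Σ w : s, Fin (w.1.ramificationIndex F) × Fin (m w.1)

/-- A family adapted to `s`: congruent at each place to `π^i u_j` or to `0`. -/
def IsAdapted (b : AdaptedIndex F s m → F') : Prop :=
  (∀ p : AdaptedIndex F s m,
    b p - unif p.1.1 ^ (p.2.1 : ℕ) * u p.1.1 p.2.2 ∈ ordGE p.1.1 (p.1.1.ramificationIndex F)) ∧
  ∀ (p : AdaptedIndex F s m) (w : Place K F'), w ∈ s → w ≠ p.1.1 →
    b p ∈ ordGE w (w.ramificationIndex F)

theorem exists_isAdapted :
    ∃ b : AdaptedIndex F s m → F', IsAdapted s u b := by
  classical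
  choose b hb using fun p : AdaptedIndex F s m => exists_approx s
    (Function.update (0 : Place K F' → F') p.1.1 (unif p.1.1 ^ (p.2.1 : ℕ) * u p.1.1 p.2.2))
    (fun w => (w.ramificationIndex F : ℤ))
  refine ⟨b, fun p => ?_, fun p w hw hne => ?_⟩
  · simpa using hb p p.1.1 p.1.2
  · simpa [Function.update_of_ne hne] using hb p w hw

variable {v s u} (hs : ∀ w ∈ s, w.restrict F = v) (hu : ∀ w ∈ s, IndepResidues v w (u w))
  {b : AdaptedIndex F s m → F'} (hb : IsAdapted s u b)

include hs hb in
theorem IsAdapted.sum_sub_mem {a : AdaptedIndex F s m → F} (ha : ∀ p, a p ∈ ordGE v 0)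
    (w : s) :
    ∑ p, algebraMap F F' (a p) * b p -
      ∑ i : Fin (w.1.ramificationIndex F), unif w.1 ^ (i : ℕ) *
        ∑ j, algebraMap F F' (a ⟨w, i, j⟩) * u w.1 j ∈ ordGE w.1 (w.1.ramificationIndex F) := by
  classical
  have ha' : ∀ p, algebraMap F F' (a p) ∈ ordGE w.1 0 := fun p => by
    simpa using algebraMap_mem_ordGE (hs w.1 w.2) (ha p)
  rw [Fintype.sum_sigma, ← Finset.add_sum_erase _ _ (Finset.mem_univ w), add_sub_right_comm]
  refine add_mem ?_ (Submodule.sum_mem _ fun w' hw' => Submodule.sum_mem _ fun q _ => ?_)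
  · rw [Fintype.sum_prod_type, ← Finset.sum_sub_distrib]
    refine Submodule.sum_mem _ fun i _ => ?_
    rw [Finset.mul_sum, ← Finset.sum_sub_distrib]
    refine Submodule.sum_mem _ fun j _ => ?_
    rw [mul_left_comm (unif w.1 ^ (i : ℕ)), ← mul_sub]
    simpa using mul_mem_ordGE (ha' _) (hb.1 ⟨w, i, j⟩)
  · have hne : w.1 ≠ w'.1 := fun h => Finset.ne_of_mem_erase hw' (Subtype.ext h.symm)
    simpa using mul_mem_ordGE (ha' _) (hb.2 ⟨w', q⟩ w.1 w.2 hne)

include hs hu hb in
/-- Integral coefficients of a combination of order `≥ e_w` at every `w` vanish at `v`. -/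
theorem IsAdapted.coeff_mem_one {a : AdaptedIndex F s m → F} (ha : ∀ p, a p ∈ ordGE v 0)
    (hsum : ∀ w ∈ s, ∑ p, algebraMap F F' (a p) * b p ∈ ordGE w (w.ramificationIndex F))
    (p : AdaptedIndex F s m) : a p ∈ ordGE v 1 := by
  obtain ⟨w, i, j⟩ := p
  have h := sub_mem (hsum w.1 w.2) (hb.sum_sub_mem hs ha w)
  rw [sub_sub_cancel] at h
  refine digits_mem_ordGE (hs w.1 w.2) (hu w.1 w.2) le_rfl (fun i j => a ⟨w, i, j⟩)
    (fun i j => ha _) i (ordGE_anti ?_ h) j
  have := i.2
  omega

include hs hu hb in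
/-- Integral coefficients of a combination vanishing at `w`: the leading ones vanish at `v`. -/
theorem IsAdapted.coeff_zero_mem_one {a : AdaptedIndex F s m → F} (ha : ∀ p, a p ∈ ordGE v 0)
    (w : s) (hsum : ∑ p, algebraMap F F' (a p) * b p ∈ ordGE w.1 1) (j : Fin (m w.1)) :
    a ⟨w, ⟨0, w.1.ramificationIndex_pos⟩, j⟩ ∈ ordGE v 1 := by
  have he : (1 : ℤ) ≤ w.1.ramificationIndex F := by
    have := w.1.ramificationIndex_pos (F := F)
    omega
  have h := sub_mem hsum (ordGE_anti he (hb.sum_sub_mem hs ha w))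
  rw [sub_sub_cancel] at h
  exact digits_mem_ordGE (hs w.1 w.2) (hu w.1 w.2) le_rfl (fun i j => a ⟨w, i, j⟩)
    (fun i j => ha _) ⟨0, w.1.ramificationIndex_pos⟩ (by simpa using h) j

include hs hu hb in
/-- Combinations of order `≥ c e_w` at every `w` have coefficients of order `≥ c`. -/
theorem IsAdapted.coeff_mem {a : AdaptedIndex F s m → F} {c : ℤ}
    (hsum : ∀ w ∈ s, ∑ p, algebraMap F F' (a p) * b p ∈
      ordGE w (w.ramificationIndex F * c)) (p : AdaptedIndex F s m) : a p ∈ ordGE v c := by
  classical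
  have key : ∀ (k : ℕ), (∀ p, a p ∈ ordGE v (c - k)) → ∀ p, a p ∈ ordGE v c := by
    intro k
    induction k with
    | zero => intro h p; simpa using h p
    | succ k ih =>
      intro h
      refine ih fun p => ?_
      set M : ℤ := c - (k + 1 : ℕ) with hM
      set t : F := unif v ^ (-M) with ht
      have ht0 : t ≠ 0 := zpow_ne_zero _ (unif_ne_zero v)
      have htm : t ∈ ordGE v (-M) := mem_ordGE_of_le (by rw [ht, ord_unif_zpow])
      have h1 := hb.coeff_mem_one hs hu (a := fun p => t * a p)
        (fun p => by simpa using mul_mem_ordGE htm (h p))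
        (fun w hw => by
          have heq : ∑ p, algebraMap F F' (t * a p) * b p
              = algebraMap F F' t * ∑ p, algebraMap F F' (a p) * b p := by
            rw [Finset.mul_sum]
            exact Finset.sum_congr rfl fun p _ => by rw [map_mul, mul_assoc]
          rw [heq]
          refine ordGE_anti ?_ (mul_mem_ordGE (algebraMap_mem_ordGE (hs w hw) htm) (hsum w hw))
          rw [← mul_add]
          exact le_mul_of_one_le_right (Int.natCast_nonneg _) (by rw [hM]; push_cast; omega))
        p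
      have h2 := mul_mem_ordGE (mem_ordGE_of_le (v := v) (f := t⁻¹) le_rfl) h1
      rw [← mul_assoc, inv_mul_cancel₀ ht0, one_mul, v.ord_inv, ht, ord_unif_zpow, neg_neg] at h2
      exact ordGE_anti (by rw [hM]; push_cast; omega) h2
  obtain ⟨k, hk⟩ : ∃ k : ℕ, ∀ p, c - (k : ℤ) ≤ v.ord (a p) :=
    ⟨∑ p, (c - v.ord (a p)).toNat, fun p => by
      have := Finset.single_le_sum (f := fun p => (c - v.ord (a p)).toNat)
        (fun i _ => Nat.zero_le _) (Finset.mem_univ p)
      omega⟩
  exact key k (fun p => mem_ordGE_of_le (hk p)) p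

include hs hu hb in
theorem IsAdapted.linearIndependent : LinearIndependent F b := by
  rw [Fintype.linearIndependent_iff]
  intro g hg p
  by_contra hne
  have h := hb.coeff_mem hs hu (a := g) (c := v.ord (g p) + 1) (fun w _ => by
    simp only [Algebra.smul_def] at hg
    rw [hg]
    exact zero_mem _) p
  have := le_ord_of_mem h hne
  omega

theorem card_adaptedIndex :
    Fintype.card (AdaptedIndex F s m) = ∑ w ∈ s, w.ramificationIndex F * m w := by
  rw [Fintype.card_sigma, ← Finset.sum_coe_sort s]
  simp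

include hs hu in
theorem sum_ramificationIndex_mul_card_le [Module.Finite F F'] :
    ∑ w ∈ s, w.ramificationIndex F * m w ≤ Module.finrank F F' := by
  obtain ⟨b, hb⟩ := exists_isAdapted (F := F) s u
  rw [← card_adaptedIndex (F := F)]
  exact (hb.linearIndependent hs hu).fintype_card_le_finrank

end Family

/-- A matrix whose rows have entries of order `≥ r` has determinant of order `≥ ∑ r`. -/
theorem det_mem_ordGE {ι : Type*} [Fintype ι] [DecidableEq ι] (v : Place K F) (r : ι → ℤ)
    (M : Matrix ι ι F) (hM : ∀ p q, M p q ∈ ordGE v (r p)) : M.det ∈ ordGE v (∑ p, r p) := by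
  classical
  rw [Matrix.det_apply]
  refine Submodule.sum_mem _ fun σ _ => ?_
  have key : ∀ t : Finset ι, ∏ q ∈ t, M (σ q) q ∈ ordGE v (∑ q ∈ t, r (σ q)) := by
    intro t
    induction t using Finset.induction with
    | empty => simpa using one_mem_ordGE (v := v)
    | insert a t ha ih =>
      rw [Finset.prod_insert ha, Finset.sum_insert ha]
      exact mul_mem_ordGE (hM _ _) ih
  have h := key Finset.univ
  rw [Equiv.sum_comp σ r] at h
  rcases Int.units_eq_one_or (Equiv.Perm.sign σ) with hσ | hσ
  · rwa [hσ, one_smul]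
  · rw [hσ, Units.neg_smul, one_smul]
    exact (ordGE v _).neg_mem h

end FermatLib.Curve
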