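import Fermat.Agent.Curve.PoleDegree
import Fermat.Agent.Curve.LocalBasis
import Fermat.Prelude.Def_AlgebraicCurve_Correspondence
import Mathlib.RingTheory.Norm.Basic

/-!
Finite extensions of function fields: fundamental identity `∑ e f = [F' : F]`, norm formula.
No separability is assumed.
-/

set_option autoImplicit false

noncomputable section

open scoped IntermediateField

namespace FermatLib.Curve

open AlgebraicCurve

variable {K F F' : Type*} [Field K] [Field F] [Field F'] [Algebra K F] [Algebra K F']
  [Algebra F F'] [IsScalarTower K F F'] [Module.Finite F F']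

theorem finite_restrictResidue (w : Place K F') :
    Module.Finite (w.restrict F).ResidueField w.ResidueField := by
  classical
  refine Module.rank_lt_aleph0_iff.mp (lt_of_le_of_lt
    (rank_le (n := Module.finrank F F') fun S hS => ?_) Cardinal.natCast_lt_aleph0)
  obtain ⟨u, hu⟩ := exists_indepResidues_of_linearIndependent (F := F) w
    (fun i : Fin S.card => (S.equivFin.symm i : w.ResidueField))
    (hS.comp _ S.equivFin.symm.injective)
  let mm : Place K F' → ℕ := fun w' => if w' = w then S.card else 0
  let uu : ∀ w', Fin (mm w') → F' := fun w' i =>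
    if h : w' = w then u (Fin.cast (if_pos h) i) else 0
  have h := sum_ramificationIndex_mul_card_le (v := w.restrict F) (s := {w}) (m := mm) (u := uu)
    (by simp) (fun w' hw' => by
      rw [Finset.mem_singleton] at hw'
      subst hw'
      have huu : uu w' = u ∘ Fin.cast (if_pos rfl) := by funext i; simp [uu]
      rw [huu]
      refine ⟨fun j => hu.1 _, fun c hc hsum j => ?_⟩
      have hm : mm w' = S.card := if_pos rfl
      have := hu.2 (c ∘ Fin.cast hm.symm) (fun j => hc _) (by
        rw [← Equiv.sum_comp (finCongr hm)]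
        simpa [Function.comp_def] using hsum) (Fin.cast hm j)
      simpa using this)
  rw [Finset.sum_singleton] at h
  have he := w.ramificationIndex_pos (F := F)
  have hm : mm w = S.card := if_pos rfl
  rw [hm] at h
  exact le_trans (Nat.le_mul_of_pos_left _ he) h

theorem exists_indepResidues_inertiaDeg {v : Place K F} {w : Place K F'}
    (h : w.restrict F = v) : ∃ u : Fin (w.inertiaDeg F) → F', IndepResidues v w u := by
  subst h
  haveI := finite_restrictResidue (F := F) w
  exact exists_indepResidues_of_linearIndependent w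
    (Module.finBasis (w.restrict F).ResidueField w.ResidueField)
    (Module.Basis.linearIndependent _)

theorem exists_indepResidues_family (v : Place K F) (s : Finset (Place K F'))
    (hs : ∀ w ∈ s, w.restrict F = v) :
    ∃ u : ∀ w : Place K F', Fin (w.inertiaDeg F) → F', ∀ w ∈ s, IndepResidues v w (u w) := by
  classical
  refine ⟨fun w => if h : w ∈ s then (exists_indepResidues_inertiaDeg (hs w h)).choose else 0,
    fun w hw => ?_⟩
  simp only [dif_pos hw]
  exact (exists_indepResidues_inertiaDeg (hs w hw)).choose_spec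

/-- For finitely many places over `v`, the sum of `e f` is at most `[F' : F]`. -/
theorem sum_ramificationIndex_mul_inertiaDeg_le (v : Place K F) (s : Finset (Place K F'))
    (hs : ∀ w ∈ s, w.restrict F = v) :
    ∑ w ∈ s, w.ramificationIndex F * w.inertiaDeg F ≤ Module.finrank F F' := by
  obtain ⟨u, hu⟩ := exists_indepResidues_family v s hs
  exact sum_ramificationIndex_mul_card_le hs hu

variable (F') in
theorem finrank_adjoin_algebraMap (z : F) :
    Module.finrank K⟮algebraMap F F' z⟯ F'
      = Module.finrank F F' * Module.finrank K⟮z⟯ F := by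
  have hmap : K⟮algebraMap F F' z⟯ = (K⟮z⟯).map (IsScalarTower.toAlgHom K F F') := by
    rw [IntermediateField.adjoin_map, Set.image_singleton]
    rfl
  rw [hmap]
  let e : K⟮z⟯ ≃ₐ[K] (K⟮z⟯).map (IsScalarTower.toAlgHom K F F') :=
    IntermediateField.equivMap _ _
  rw [← Algebra.finrank_eq_of_equiv_equiv e.toRingEquiv (RingEquiv.refl F')
    (RingHom.ext fun c => by simp [e, IsScalarTower.algebraMap_apply K⟮z⟯ F F']),
    ← Module.finrank_mul_finrank K⟮z⟯ F F', mul_comm]

instance instSumRamificationInertiaOfIsFunctionField [IsFunctionField K F]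
    [HasPrincipalDivisors K F'] : SumRamificationInertia K F F' where
  sum_ramificationIndex_mul_inertiaDeg v := by
    classical
    haveI : IsFunctionField K F' := IsFunctionField.of_finite F
    set z : F := (unif v)⁻¹ with hz_def
    have hvz : v.ord z = -1 := by rw [hz_def, v.ord_inv, ord_unif]
    have hz : Transcendental K z :=
      transcendental_of_ord_ne_zero (v := v) (by omega)
    have hz' : Transcendental K (algebraMap F F' z) :=
      (transcendental_algebraMap_iff (algebraMap F F').injective).mpr hz
    set n : ℤ := (Module.finrank F F' : ℤ) with hn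
    let S : Place K F → ℤ := fun v' =>
      ∑ w ∈ v'.fiber F', (w.ramificationIndex F : ℤ) * (w.inertiaDeg F : ℤ)
    have hle : ∀ v', S v' ≤ n := fun v' => by
      have h := Int.ofNat_le.mpr
        (sum_ramificationIndex_mul_inertiaDeg_le v' (v'.fiber F') fun w hw => Place.mem_fiber.mp hw)
      push_cast at h
      exact h
    have hiff : ∀ w : Place K F',
        w ∈ poles K (algebraMap F F' z) ↔ w.restrict F ∈ poles K z := by
      intro w
      have he := w.ramificationIndex_pos (F := F)
      rw [mem_poles, mem_poles, w.ord_restrict]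
      constructor <;> intro h <;> nlinarith
    have hfib : ∀ v' ∈ poles K z, ∑ w ∈ (poles K (algebraMap F F' z)).filter
          (fun w => w.restrict F = v'), -w.ord (algebraMap F F' z) * (w.deg : ℤ)
        = (-v'.ord z * v'.deg) * S v' := by
      intro v' hv'
      have hset : (poles K (algebraMap F F' z)).filter (fun w => w.restrict F = v')
          = v'.fiber F' := by
        ext w
        rw [Finset.mem_filter, Place.mem_fiber, hiff]
        exact ⟨fun h => h.2, fun h => ⟨h ▸ hv', h⟩⟩
      rw [hset, Finset.mul_sum]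
      refine Finset.sum_congr rfl fun w hw => ?_
      rw [w.ord_restrict, ← w.deg_restrict_mul_inertiaDeg (F := F), Place.mem_fiber.mp hw]
      push_cast
      ring
    have h1 := sum_poles_ord_mul_deg hz'
    rw [← Finset.sum_fiberwise_of_maps_to (g := fun w : Place K F' => w.restrict F)
      (t := poles K z) (fun w hw => (hiff w).mp hw), Finset.sum_congr rfl hfib,
      finrank_adjoin_algebraMap] at h1
    push_cast at h1
    rw [← sum_poles_ord_mul_deg hz, Finset.mul_sum] at h1
    have h2 := (Finset.sum_eq_sum_iff_of_le fun v' hv' => by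
      rw [mul_comm n]
      refine mul_le_mul_of_nonneg_left (hle v') ?_
      have := mem_poles.mp hv'
      exact mul_nonneg (by omega) (Int.natCast_nonneg _)).mp h1 v (mem_poles.mpr (by omega))
    rw [mul_comm n] at h2
    exact mul_left_cancel₀
      (by rw [hvz]; have := deg_pos v; simp; omega) h2

variable (F') in
/-- The fundamental identity `∑ e f = [F' : F]`. -/
theorem sum_ramificationIndex_mul_inertiaDeg_eq [IsFunctionField K F]
    [HasPrincipalDivisors K F'] (v : Place K F) :
    ∑ w ∈ v.fiber F', (w.ramificationIndex F : ℤ) * (w.inertiaDeg F : ℤ)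
      = (Module.finrank F F' : ℤ) :=
  (instSumRamificationInertiaOfIsFunctionField (K := K) (F := F) (F' := F')
    ).sum_ramificationIndex_mul_inertiaDeg v

variable (F') in
theorem exists_restrict_eq [IsFunctionField K F] (v : Place K F) :
    ∃ w : Place K F', w.restrict F = v := by
  haveI : IsFunctionField K F' := IsFunctionField.of_finite F
  have h := sum_ramificationIndex_mul_inertiaDeg_eq F' v
  by_contra hne
  push Not at hne
  rw [Finset.sum_eq_zero fun w hw => absurd (Place.mem_fiber.mp hw) (hne w)] at h
  have := Module.finrank_pos (R := F) (M := F')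
  omega

theorem inertiaDeg_eq_one [IsAlgClosed K] [IsFunctionField K F] (w : Place K F') :
    w.inertiaDeg F = 1 := by
  haveI : IsFunctionField K F' := IsFunctionField.of_finite F
  have h := w.deg_restrict_mul_inertiaDeg (F := F)
  rwa [deg_eq_one, deg_eq_one, one_mul] at h

/-- A function with nonnegative orders at all places over `v` has norm integral at `v`, with
order at least `f_w` if it vanishes at `w`. -/
theorem norm_mem_ordGE [IsFunctionField K F] [HasPrincipalDivisors K F'] (v : Place K F) (g : F')
    (hg : ∀ w ∈ v.fiber F', g ∈ ordGE w 0) :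
    Algebra.norm F g ∈ ordGE v 0 ∧
      ∀ w₀ ∈ v.fiber F', g ∈ ordGE w₀ 1 → Algebra.norm F g ∈ ordGE v (w₀.inertiaDeg F) := by
  classical
  have hs : ∀ w ∈ v.fiber F', w.restrict F = v := fun w hw => Place.mem_fiber.mp hw
  obtain ⟨u, hu⟩ := exists_indepResidues_family v (v.fiber F') hs
  obtain ⟨b, hb⟩ := exists_isAdapted (F := F) (v.fiber F') u
  have hcard : Fintype.card (AdaptedIndex F (v.fiber F') fun w => w.inertiaDeg F)
      = Module.finrank F F' := by
    rw [card_adaptedIndex]
    exact_mod_cast sum_ramificationIndex_mul_inertiaDeg_eq F' v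
  haveI : Nonempty (AdaptedIndex F (v.fiber F') fun w => w.inertiaDeg F) :=
    Fintype.card_pos_iff.mp (hcard ▸ Module.finrank_pos)
  set B := basisOfLinearIndependentOfCardEqFinrank (hb.linearIndependent hs hu) hcard
  have hB : ∀ p, B p = b p := fun p => by
    simp [B, coe_basisOfLinearIndependentOfCardEqFinrank]
  have hrepr : ∀ x : F', ∑ p, algebraMap F F' (B.repr x p) * b p = x := fun x => by
    conv_rhs => rw [← B.sum_repr x]
    exact Finset.sum_congr rfl fun p _ => by rw [Algebra.smul_def, hB]
  have hb0 : ∀ (w : Place K F'), w ∈ v.fiber F' → ∀ p, b p ∈ ordGE w 0 := by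
    intro w hw p
    by_cases hwp : w = p.1.1
    · subst hwp
      have h1 : unif p.1.1 ^ (p.2.1 : ℕ) * u p.1.1 p.2.2 ∈ ordGE p.1.1 0 :=
        ordGE_anti (by rw [ord_pow, ord_unif]; omega)
          (mul_mem_ordGE (mem_ordGE_of_le le_rfl) ((hu p.1.1 hw).1 p.2.2))
      simpa using add_mem (ordGE_anti (Int.natCast_nonneg _) (hb.1 p)) h1
    · exact ordGE_anti (Int.natCast_nonneg _) (hb.2 p w hw hwp)
  have hint : ∀ x : F', (∀ w ∈ v.fiber F', x ∈ ordGE w 0) → ∀ p, B.repr x p ∈ ordGE v 0 :=
    fun x hx => hb.coeff_mem hs hu (c := 0) fun w hw => by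
      rw [hrepr x, mul_zero]
      exact hx w hw
  have hM : ∀ p q, B.repr (g * B q) p ∈ ordGE v 0 := fun p q => by
    rw [hB]
    exact hint (g * b q) (fun w hw => by simpa using mul_mem_ordGE (hg w hw) (hb0 w hw q)) p
  rw [Algebra.norm_eq_matrix_det B]
  refine ⟨?_, fun w₀ hw₀ hg₀ => ?_⟩
  · have h := det_mem_ordGE v (fun _ => (0 : ℤ)) (Algebra.leftMulMatrix B g) fun p q => by
      rw [Algebra.leftMulMatrix_eq_repr_mul]
      exact hM p q
    simpa using h
  · have h := det_mem_ordGE v
      (fun p => if p.1.1 = w₀ ∧ (p.2.1 : ℕ) = 0 then (1 : ℤ) else 0)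
      (Algebra.leftMulMatrix B g) fun p q => by
        rw [Algebra.leftMulMatrix_eq_repr_mul]
        split_ifs with hp
        · obtain ⟨⟨w, hw⟩, i, j⟩ := p
          obtain ⟨hw1, hi⟩ := hp
          simp only at hw1 hi
          subst hw1
          have hi' : i = ⟨0, w.ramificationIndex_pos⟩ := Fin.ext hi
          subst hi'
          exact hb.coeff_zero_mem_one hs hu (a := fun p => B.repr (g * B q) p)
            (fun p => hM p q) ⟨w, hw⟩ (by
              rw [hrepr, hB]
              simpa using mul_mem_ordGE hg₀ (hb0 w hw q)) j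
        · exact hM p q
    refine ordGE_anti (le_of_eq ?_) h
    rw [Fintype.sum_sigma, Finset.sum_eq_single (⟨w₀, hw₀⟩ : v.fiber F')]
    · rw [Fintype.sum_prod_type, Finset.sum_eq_single (⟨0, w₀.ramificationIndex_pos⟩ :
        Fin (w₀.ramificationIndex F))]
      · simp
      · intro i _ hi
        have hi0 : (i : ℕ) ≠ 0 := fun h => hi (Fin.ext h)
        simp [hi0]
      · simp
    · intro w _ hw
      have : w.1 ≠ w₀ := fun h => hw (Subtype.ext h)
      simp [this]
    · simp

/-- Order of the norm at `v` of a nonzero element. -/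
theorem ord_norm [IsFunctionField K F] [HasPrincipalDivisors K F'] (v : Place K F) {f : F'}
    (hf : f ≠ 0) :
    v.ord (Algebra.norm F f) = ∑ w ∈ v.fiber F', w.ord f * (w.inertiaDeg F : ℤ) := by
  classical
  let N : F'ˣ →* Fˣ := Units.map (Algebra.norm F : F' →* F)
  let Φ : Additive F'ˣ →+ ℤ :=
    { toFun := fun x => v.ord ((N x.toMul : Fˣ) : F)
      map_zero' := by simp
      map_add' := fun x y => by
        rw [toMul_add, map_mul, Units.val_mul]
        exact v.ord_mul (Units.ne_zero _) (Units.ne_zero _) }
  have hΦ : ∀ x : F'ˣ, Φ (Additive.ofMul x) = v.ord (Algebra.norm F (x : F')) := fun x => rfl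
  have hnn : ∀ x : F'ˣ, (∀ w ∈ v.fiber F', 0 ≤ w.ord (x : F')) → 0 ≤ Φ (Additive.ofMul x) :=
    fun x hx => by
      rw [hΦ]
      exact le_ord_of_mem (norm_mem_ordGE v (x : F') fun w hw => mem_ordGE_of_le (hx w hw)).1
        (Algebra.norm_ne_zero_iff.mpr x.ne_zero)
  have hunit : ∀ x : F'ˣ, (∀ w ∈ v.fiber F', w.ord (x : F') = 0) → Φ (Additive.ofMul x) = 0 := by
    intro x hx
    have h1 := hnn x fun w hw => (hx w hw).ge
    have h2 := hnn x⁻¹ fun w hw => by rw [Units.val_inv_eq_inv_val, w.ord_inv, hx w hw, neg_zero]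
    rw [ofMul_inv, map_neg] at h2
    omega
  choose π hπ0 hπ using fun w : Place K F' =>
    exists_ord_eq_on (v.fiber F') (fun w' => if w' = w then (1 : ℤ) else 0)
  let p : Place K F' → Additive F'ˣ := fun w => Additive.ofMul (Units.mk0 (π w) (hπ0 w))
  have hdecomp : ∀ x : F'ˣ,
      Φ (Additive.ofMul x) = ∑ w ∈ v.fiber F', w.ord (x : F') * Φ (p w) := by
    intro x
    let G : F'ˣ := ∏ w ∈ v.fiber F', Units.mk0 (π w) (hπ0 w) ^ w.ord (x : F')
    have hG : ∀ w' ∈ v.fiber F', w'.ord (G : F') = w'.ord (x : F') := by
      intro w' hw'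
      simp only [G, Units.coe_prod, Units.val_zpow_eq_zpow_val, Units.val_mk0]
      rw [ord_prod _ _ _ fun w _ => zpow_ne_zero _ (hπ0 w), Finset.sum_eq_single w']
      · rw [w'.ord_zpow, hπ w' w' hw', if_pos rfl, mul_one]
      · intro w _ hne
        rw [w'.ord_zpow, hπ w w' hw', if_neg (Ne.symm hne), mul_zero]
      · exact fun h => absurd hw' h
    have h0 := hunit (x * G⁻¹) fun w hw => by
      rw [Units.val_mul, w.ord_mul x.ne_zero (Units.ne_zero _), Units.val_inv_eq_inv_val,
        w.ord_inv, hG w hw, add_neg_cancel]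
    rw [ofMul_mul, ofMul_inv, map_add, map_neg, add_neg_eq_zero] at h0
    rw [h0]
    simp only [G, ofMul_prod, ofMul_zpow, map_sum, map_zsmul, smul_eq_mul]
    rfl
  have hge : ∀ w ∈ v.fiber F', (w.inertiaDeg F : ℤ) ≤ Φ (p w) := by
    intro w hw
    show _ ≤ v.ord (Algebra.norm F (π w))
    refine le_ord_of_mem ((norm_mem_ordGE v (π w) fun w' hw' => mem_ordGE_of_le ?_).2 w hw
      (mem_ordGE_of_le ?_)) (Algebra.norm_ne_zero_iff.mpr (hπ0 w))
    · rw [hπ w w' hw']; split_ifs <;> simp
    · rw [hπ w w hw, if_pos rfl]
  -- the value on the uniformiser of `v` forces equality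
  have ht0 : algebraMap F F' (unif v) ≠ 0 := by
    simpa using unif_ne_zero v
  have h1 := hdecomp (Units.mk0 _ ht0)
  rw [hΦ, Units.val_mk0, Algebra.norm_algebraMap, ord_pow, ord_unif, mul_one,
    ← sum_ramificationIndex_mul_inertiaDeg_eq F' v] at h1
  have h1' : ∑ w ∈ v.fiber F', (w.ramificationIndex F : ℤ) * (w.inertiaDeg F : ℤ)
      = ∑ w ∈ v.fiber F', (w.ramificationIndex F : ℤ) * Φ (p w) := by
    rw [h1]
    refine Finset.sum_congr rfl fun w hw => ?_
    rw [w.ord_restrict, Place.mem_fiber.mp hw, ord_unif, mul_one]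
  have h2 := (Finset.sum_eq_sum_iff_of_le fun w hw =>
    mul_le_mul_of_nonneg_left (hge w hw) (Int.natCast_nonneg _)).mp h1'
  have h3 := hdecomp (Units.mk0 f hf)
  rw [hΦ, Units.val_mk0] at h3
  rw [h3]
  refine Finset.sum_congr rfl fun w hw => ?_
  rw [← mul_left_cancel₀ (by have := w.ramificationIndex_pos (F := F); omega) (h2 w hw)]

variable (K F F') in
theorem pushforwardNormFormula [IsFunctionField K F] :
    Divisor.PushforwardNormFormula K F F' := by
  classical
  haveI : IsFunctionField K F' := IsFunctionField.of_finite F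
  intro f hf D hD v
  rw [ord_norm v hf, Divisor.pushforward_apply, ← Finset.sum_filter]
  refine Finset.sum_bij_ne_zero (fun w _ _ => w) ?_ ?_ ?_ ?_
  · intro w hw _
    exact Place.mem_fiber.mpr (Finset.mem_filter.mp hw).2
  · intro a _ _ b _ _ h
    exact h
  · intro w hw hne
    refine ⟨w, Finset.mem_filter.mpr ⟨?_, Place.mem_fiber.mp hw⟩, by rwa [hD w], rfl⟩
    rw [Finsupp.mem_support_iff, hD w]
    exact left_ne_zero_of_mul hne
  · intro w _ _
    rw [hD w]

section Along

omit [Algebra F F'] [IsScalarTower K F F'] [Module.Finite F F']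

theorem finiteAlong [IsFunctionField K F] [IsFunctionField K F'] (φ : F →ₐ[K] F') :
    FiniteAlong K φ := by
  letI := algebraAlong φ
  haveI := isScalarTower_along φ
  exact finite_of_isFunctionField K F F'

theorem isIntegral_of_finiteAlong (φ : F →ₐ[K] F') (h : FiniteAlong K φ) :
    φ.toRingHom.IsIntegral := by
  letI := algebraAlong φ
  haveI : Module.Finite F F' := h
  exact (Algebra.IsIntegral.of_finite F F').isIntegral

theorem fundamentalIdentityAlong [IsFunctionField K F] [HasPrincipalDivisors K F']
    (φ : F →ₐ[K] F') (hfin : FiniteAlong K φ) (hφ : φ.toRingHom.IsIntegral) :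
    FundamentalIdentityAlong K φ hφ := by
  letI := algebraAlong φ
  haveI := isScalarTower_along φ
  haveI := isIntegral_along φ hφ
  haveI : Module.Finite F F' := hfin
  show FundamentalIdentity K F F'
  infer_instance

theorem normFormulaAlong [IsFunctionField K F] (φ : F →ₐ[K] F') (hfin : FiniteAlong K φ) :
    NormFormulaAlong K φ hfin := by
  letI := algebraAlong φ
  haveI := isScalarTower_along φ
  haveI : Module.Finite F F' := hfin
  exact pushforwardNormFormula K F F'

end Along

end FermatLib.Curve
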