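import Mathlib

/-!
A linear algebra lemma: for `d : W → V` and submodules `P ≤ P'` of `V`, the exact sequence
`0 → d⁻¹P → d⁻¹P' → P'/P → V/(P + im d) → V/(P' + im d) → 0`.
-/

set_option autoImplicit false

namespace FermatLib.Curve

variable {K V W : Type*} [DivisionRing K] [AddCommGroup V] [Module K V] [AddCommGroup W]
  [Module K W] (d : W →ₗ[K] V) {P P' : Submodule K V}

/-- `d⁻¹ P' → P'/P`. -/
def comapToQuot (P P' : Submodule K V) : ↥(P'.comap d) →ₗ[K] ↥P' ⧸ P.submoduleOf P' :=
  (P.submoduleOf P').mkQ ∘ₗ d.restrict fun _ hw => hw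

theorem comapToQuot_eq_zero_iff {w : ↥(P'.comap d)} :
    comapToQuot d P P' w = 0 ↔ (w : W) ∈ P.comap d := by
  rw [comapToQuot, LinearMap.comp_apply, Submodule.mkQ_apply, Submodule.Quotient.mk_eq_zero]
  rfl

/-- The kernel of `d⁻¹P' → P'/P` is `d⁻¹P`. -/
noncomputable def kerComapToQuotEquiv (h : P ≤ P') :
    ↥(P.comap d) ≃ₗ[K] ↥(LinearMap.ker (comapToQuot d P P')) where
  toFun w := ⟨⟨(w : W), h w.2⟩, LinearMap.mem_ker.mpr ((comapToQuot_eq_zero_iff d).mpr w.2)⟩
  invFun w := ⟨((w : ↥(P'.comap d)) : W), (comapToQuot_eq_zero_iff d).mp w.2⟩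
  left_inv _ := rfl
  right_inv _ := rfl
  map_add' _ _ := rfl
  map_smul' _ _ := rfl

theorem finite_comap_of_finite (h : P ≤ P') [Module.Finite K ↥(P.comap d)]
    [Module.Finite K (↥P' ⧸ P.submoduleOf P')] : Module.Finite K ↥(P'.comap d) := by
  haveI : Module.Finite K ↥(LinearMap.ker (comapToQuot d P P')) :=
    Module.Finite.equiv (kerComapToQuotEquiv d h)
  haveI : Module.Finite K (↥(P'.comap d) ⧸ LinearMap.ker (comapToQuot d P P')) :=
    Module.Finite.equiv (LinearMap.quotKerEquivRange (comapToQuot d P P')).symm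
  exact Module.Finite.of_submodule_quotient (LinearMap.ker (comapToQuot d P P'))

theorem finrank_comap_eq (h : P ≤ P') [Module.Finite K ↥(P'.comap d)] :
    Module.finrank K ↥(LinearMap.range (comapToQuot d P P')) + Module.finrank K ↥(P.comap d) =
      Module.finrank K ↥(P'.comap d) := by
  rw [(kerComapToQuotEquiv d h).finrank_eq]
  exact LinearMap.finrank_range_add_finrank_ker _

theorem finrank_comap_le (h : P ≤ P') [Module.Finite K ↥(P'.comap d)]
    [Module.Finite K (↥P' ⧸ P.submoduleOf P')] :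
    Module.finrank K ↥(P'.comap d) ≤
      Module.finrank K ↥(P.comap d) + Module.finrank K (↥P' ⧸ P.submoduleOf P') := by
  have h1 := finrank_comap_eq d h
  have h2 := Submodule.finrank_le (LinearMap.range (comapToQuot d P P'))
  omega

/-- If the ranks add up, `P' ≤ P + im d`. -/
theorem le_sup_range_of_finrank_eq (h : P ≤ P') [Module.Finite K ↥(P'.comap d)]
    [Module.Finite K (↥P' ⧸ P.submoduleOf P')]
    (heq : Module.finrank K ↥(P.comap d) + Module.finrank K (↥P' ⧸ P.submoduleOf P') ≤
      Module.finrank K ↥(P'.comap d)) :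
    P' ≤ P ⊔ LinearMap.range d := by
  have h1 := finrank_comap_eq d h
  have htop : LinearMap.range (comapToQuot d P P') = ⊤ :=
    Submodule.eq_top_of_finrank_eq (le_antisymm (Submodule.finrank_le _) (by omega))
  intro x hx
  obtain ⟨w, hw⟩ := LinearMap.range_eq_top.mp htop (Submodule.Quotient.mk ⟨x, hx⟩)
  rw [comapToQuot, LinearMap.comp_apply, Submodule.mkQ_apply, Submodule.Quotient.eq] at hw
  have hw' : d w - x ∈ P := hw
  refine Submodule.mem_sup.mpr ⟨-(d w - x), neg_mem hw', d w, ⟨w, rfl⟩, ?_⟩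
  abel

/-- `P'/P → V/(P + im d)`. -/
def quotToCoker (P P' : Submodule K V) :
    (↥P' ⧸ P.submoduleOf P') →ₗ[K] V ⧸ (P ⊔ LinearMap.range d) :=
  (P.submoduleOf P').liftQ ((P ⊔ LinearMap.range d).mkQ ∘ₗ P'.subtype) fun x hx => by
    rw [LinearMap.mem_ker, LinearMap.comp_apply, Submodule.mkQ_apply,
      Submodule.Quotient.mk_eq_zero]
    exact Submodule.mem_sup_left hx

theorem ker_quotToCoker (h : P ≤ P') :
    LinearMap.ker (quotToCoker d P P') = LinearMap.range (comapToQuot d P P') := by
  ext x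
  obtain ⟨x, rfl⟩ := Submodule.Quotient.mk_surjective _ x
  rw [LinearMap.mem_ker, quotToCoker, Submodule.liftQ_apply, LinearMap.comp_apply,
    Submodule.mkQ_apply, Submodule.Quotient.mk_eq_zero, LinearMap.mem_range]
  constructor
  · intro hx
    obtain ⟨p, hp, _, ⟨w, rfl⟩, hpw⟩ := Submodule.mem_sup.mp hx
    have hw : d w ∈ P' := by
      have : d w = (x : V) - p := by rw [eq_sub_iff_add_eq', hpw]; rfl
      rw [this]
      exact sub_mem x.2 (h hp)
    refine ⟨⟨w, hw⟩, ?_⟩
    rw [comapToQuot, LinearMap.comp_apply, Submodule.mkQ_apply, Submodule.Quotient.eq]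
    show d w - (x : V) ∈ P
    have : d w - (x : V) = -p := by
      rw [sub_eq_iff_eq_add, eq_neg_add_iff_add_eq, hpw]; rfl
    exact this ▸ neg_mem hp
  · rintro ⟨w, hw⟩
    rw [comapToQuot, LinearMap.comp_apply, Submodule.mkQ_apply, Submodule.Quotient.eq] at hw
    have hw' : d w - (x : V) ∈ P := hw
    refine Submodule.mem_sup.mpr ⟨-(d w - x), neg_mem hw', d w, ⟨w, rfl⟩, ?_⟩
    show -(d w - (x : V)) + d w = (x : V)
    abel

theorem range_quotToCoker (h : P ≤ P') :
    LinearMap.range (quotToCoker d P P') =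
      LinearMap.ker (Submodule.factor (sup_le_sup_right h (LinearMap.range d))) := by
  ext x
  obtain ⟨x, rfl⟩ := Submodule.Quotient.mk_surjective _ x
  rw [LinearMap.mem_ker, Submodule.factor, Submodule.mapQ_apply, LinearMap.id_apply,
    Submodule.Quotient.mk_eq_zero, LinearMap.mem_range]
  constructor
  · rintro ⟨y, hy⟩
    obtain ⟨y, rfl⟩ := Submodule.Quotient.mk_surjective _ y
    rw [quotToCoker, Submodule.liftQ_apply, LinearMap.comp_apply, Submodule.mkQ_apply,
      Submodule.Quotient.eq] at hy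
    have h2 := sub_mem (Submodule.mem_sup_left (T := LinearMap.range d) y.2)
      (sup_le_sup_right h _ hy)
    simpa using h2
  · intro hx
    obtain ⟨p, hp, w, hw, rfl⟩ := Submodule.mem_sup.mp hx
    refine ⟨Submodule.Quotient.mk ⟨p, hp⟩, ?_⟩
    rw [quotToCoker, Submodule.liftQ_apply, LinearMap.comp_apply, Submodule.mkQ_apply,
      Submodule.Quotient.eq]
    show p - (p + w) ∈ _
    rw [sub_add_cancel_left]
    exact neg_mem (Submodule.mem_sup_right hw)

theorem finite_coker_of_finite (h : P ≤ P') [Module.Finite K (↥P' ⧸ P.submoduleOf P')]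
    [Module.Finite K (V ⧸ (P' ⊔ LinearMap.range d))] :
    Module.Finite K (V ⧸ (P ⊔ LinearMap.range d)) := by
  set f := Submodule.factor (sup_le_sup_right h (LinearMap.range d))
  haveI : Module.Finite K ↥(LinearMap.ker f) := by
    rw [← range_quotToCoker d h]; infer_instance
  haveI : Module.Finite K ((V ⧸ (P ⊔ LinearMap.range d)) ⧸ LinearMap.ker f) :=
    Module.Finite.equiv (LinearMap.quotKerEquivRange f).symm
  exact Module.Finite.of_submodule_quotient (LinearMap.ker f)

theorem finrank_sub_finrank (h : P ≤ P') [Module.Finite K ↥(P'.comap d)]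
    [Module.Finite K (↥P' ⧸ P.submoduleOf P')]
    [Module.Finite K (V ⧸ (P ⊔ LinearMap.range d))] :
    (Module.finrank K ↥(P'.comap d) : ℤ) - Module.finrank K (V ⧸ (P' ⊔ LinearMap.range d)) =
      Module.finrank K ↥(P.comap d) - Module.finrank K (V ⧸ (P ⊔ LinearMap.range d)) +
        Module.finrank K (↥P' ⧸ P.submoduleOf P') := by
  set f := Submodule.factor (sup_le_sup_right h (LinearMap.range d)) with hf
  have h1 := finrank_comap_eq d h
  have h2 := LinearMap.finrank_range_add_finrank_ker (quotToCoker d P P')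
  have h3 := LinearMap.finrank_range_add_finrank_ker f
  rw [ker_quotToCoker d h, range_quotToCoker d h, ← hf] at h2
  rw [LinearMap.range_eq_top.mpr (Submodule.factor_surjective _), finrank_top] at h3
  omega

end FermatLib.Curve
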