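import Fermat.Agent.Curve.PlaceConstruction
import Fermat.Agent.Curve.ExactLemma

/-!
The spaces `A(D')/A(D)` and the bound `l(D') ≤ l(D) + deg (D' - D)`.
-/

set_option autoImplicit false

noncomputable section

open AlgebraicCurve
open scoped IntermediateField

namespace FermatLib.Curve

variable {K F : Type*} [Field K] [Field F] [Algebra K F]

/-- Shortcut instance: it is needed to form quotients of the `repartitionsOf D`. -/
instance (priority := high) instAddCommGroupRepartitions : AddCommGroup ↥(repartitions K F) :=
  inferInstance

theorem mem_repartitionsOf {D : Divisor K F} {α : ↥(repartitions K F)} :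
    α ∈ repartitionsOf D ↔ ∀ v : Place K F, (α : Place K F → F) v ∈ ordGE v (-D v) := by
  show (∀ v : Place K F, v.adicValuation _ ≤ WithZero.exp (D v)) ↔
    ∀ v : Place K F, v.adicValuation _ ≤ WithZero.exp (- -D v)
  simp only [neg_neg]

/-- Diagonal embedding `F → repartitions`, `K`-linear. -/
def diagRep (K F : Type*) [Field K] [Field F] [Algebra K F] : F →ₗ[K] ↥(repartitions K F) :=
  (Algebra.linearMap F ↥(repartitions K F)).restrictScalars K

@[simp]
theorem diagRep_apply (f : F) (v : Place K F) :
    (diagRep K F f : Place K F → F) v = f := rfl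

theorem range_diagRep : LinearMap.range (diagRep K F) = principalRepartitions K F :=
  rfl

theorem comap_diagRep (D : Divisor K F) :
    (repartitionsOf D).comap (diagRep K F) = riemannRochSpace D := by
  ext f
  rw [Submodule.mem_comap, mem_repartitionsOf, mem_riemannRochSpace]
  rfl

/-- The repartition supported at one place. -/
def singleRep (v : Place K F) (f : F) : ↥(repartitions K F) :=
  letI := Classical.decEq (Place K F)
  ⟨Pi.single v f, mem_repartitions_of_finite ((Set.finite_singleton v).subset fun w hw => by
    by_contra hne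
    exact hw (by simp [Pi.single_eq_of_ne (by simpa using hne : w ≠ v)]))⟩

@[simp]
theorem singleRep_same (v : Place K F) (f : F) : (singleRep v f : Place K F → F) v = f := by
  classical
  simp [singleRep]

theorem singleRep_of_ne {v w : Place K F} (h : w ≠ v) (f : F) :
    (singleRep v f : Place K F → F) w = 0 := by
  classical
  simp [singleRep, Pi.single_eq_of_ne h]

theorem singleRep_mem {v : Place K F} {f : F} {D : Divisor K F}
    (h : f ∈ ordGE v (-D v)) : singleRep v f ∈ repartitionsOf D := by
  rw [mem_repartitionsOf]
  intro w
  rcases eq_or_ne w v with rfl | hne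
  · rwa [singleRep_same]
  · simp [singleRep_of_ne hne]

theorem le_add_single_one (D : Divisor K F) (v : Place K F) : D ≤ D + Finsupp.single v 1 :=
  le_add_of_nonneg_right (Finsupp.single_nonneg.mpr one_pos.le)

/-- `A(D + v)/A(D) ≅ k(v)`. -/
theorem quot_single_equiv (D : Divisor K F) (v : Place K F) :
    Nonempty ((↥(repartitionsOf (D + Finsupp.single v 1)) ⧸
        (repartitionsOf D).submoduleOf (repartitionsOf (D + Finsupp.single v 1)))
      ≃ₗ[K] v.ResidueField) := by
  classical
  set D' := D + Finsupp.single v 1
  have hv : ∀ α : ↥(repartitionsOf D'),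
      ((α : ↥(repartitions K F)) : Place K F → F) v ∈ ordGE v (-(D v + 1)) := fun α => by
    have := mem_repartitionsOf.mp α.2 v
    simpa [D'] using this
  let ev : ↥(repartitionsOf D') →ₗ[K] ↥(ordGE v (-(D v + 1))) :=
    { toFun := fun α => ⟨_, hv α⟩
      map_add' := fun _ _ => rfl
      map_smul' := fun _ _ => rfl }
  let φ := leadCoeff v (-(D v + 1)) ∘ₗ ev
  have hker : LinearMap.ker φ = (repartitionsOf D).submoduleOf (repartitionsOf D') := by
    ext α
    simp only [φ, LinearMap.mem_ker, LinearMap.comp_apply, leadCoeff_eq_zero_iff]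
    rw [show -(D v + 1) + 1 = -D v by omega]
    show _ ↔ (α : ↥(repartitions K F)) ∈ repartitionsOf D
    rw [mem_repartitionsOf]
    refine ⟨fun h w => ?_, fun h => h v⟩
    rcases eq_or_ne w v with rfl | hne
    · exact h
    · have := mem_repartitionsOf.mp α.2 w
      simpa [D', Finsupp.single_eq_of_ne hne] using this
  have hsurj : Function.Surjective φ := fun r => by
    obtain ⟨f, rfl⟩ := leadCoeff_surjective v (-(D v + 1)) r
    refine ⟨⟨singleRep v (f : F), singleRep_mem (by simpa [D'] using f.2)⟩, ?_⟩
    simp only [φ, LinearMap.comp_apply]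
    congr 1
    exact Subtype.ext (singleRep_same v (f : F))
  rw [← hker]
  exact ⟨φ.quotKerEquivOfSurjective hsurj⟩

variable [IsFunctionField K F]

theorem finrank_quot_repartitionsOf_aux (E : Place K F →₀ ℕ) (D : Divisor K F) :
    Module.Finite K (↥(repartitionsOf (D + E.mapRange (↑) Nat.cast_zero)) ⧸
        (repartitionsOf D).submoduleOf (repartitionsOf (D + E.mapRange (↑) Nat.cast_zero))) ∧
      (Module.finrank K (↥(repartitionsOf (D + E.mapRange (↑) Nat.cast_zero)) ⧸
        (repartitionsOf D).submoduleOf (repartitionsOf (D + E.mapRange (↑) Nat.cast_zero))) : ℤ) =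
        Divisor.degree (E.mapRange (↑) Nat.cast_zero : Divisor K F) := by
  classical
  induction hn : E.sum (fun _ k => k) using Nat.strong_induction_on generalizing E D with
  | _ n ih =>
    rcases eq_or_ne E 0 with rfl | hE
    · have h0 : D + (0 : Place K F →₀ ℕ).mapRange (↑) Nat.cast_zero = D := by simp
      rw [h0]
      haveI : Subsingleton (↥(repartitionsOf D) ⧸
          (repartitionsOf D).submoduleOf (repartitionsOf D)) :=
        Submodule.Quotient.subsingleton_iff.mpr (Submodule.submoduleOf_self _)
      exact ⟨inferInstance, by simp [Module.finrank_zero_of_subsingleton]⟩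
    · obtain ⟨v, hv⟩ := Finsupp.support_nonempty_iff.mpr hE
      rw [Finsupp.mem_support_iff] at hv
      set E₀ := E - Finsupp.single v 1
      have hadd : E = Finsupp.single v 1 + E₀ := by
        ext w
        rcases eq_or_ne w v with rfl | hne
        · simp [E₀]; omega
        · simp [E₀, Finsupp.single_eq_of_ne hne]
      have hcast : (E.mapRange (↑) Nat.cast_zero : Divisor K F) =
          Finsupp.single v 1 + E₀.mapRange (↑) Nat.cast_zero := by
        conv_lhs => rw [hadd]
        rw [Finsupp.mapRange_add (by simp), Finsupp.mapRange_single, Nat.cast_one]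
      have hlt : E₀.sum (fun _ k => k) < n := by
        rw [← hn]
        conv_rhs => rw [hadd]
        rw [Finsupp.sum_add_index' (by simp) (by simp), Finsupp.sum_single_index rfl]
        omega
      obtain ⟨hfin, hrk⟩ := ih _ hlt E₀ (D + Finsupp.single v 1) rfl
      rw [hcast, ← add_assoc]
      set D₁ := D + Finsupp.single v 1
      set D₂ := D₁ + E₀.mapRange (↑) Nat.cast_zero
      have h01 : repartitionsOf D ≤ repartitionsOf D₁ := repartitionsOf_mono (le_add_single_one D v)
      have h12 : repartitionsOf D₁ ≤ repartitionsOf D₂ :=
        repartitionsOf_mono (le_add_of_nonneg_right (Finsupp.le_def.mpr fun w => by simp))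
      let W := ↥(repartitionsOf D₂)
      let Q := (repartitionsOf D₁).submoduleOf (repartitionsOf D₂)
      let Q₀ := (repartitionsOf D).submoduleOf (repartitionsOf D₂)
      have hQ : Q₀ ≤ Q := Submodule.comap_mono h01
      let g := Submodule.factor hQ
      obtain ⟨e1⟩ := quot_single_equiv D v
      haveI := finite_residueField v
      let ι : (↥(repartitionsOf D₁) ⧸ (repartitionsOf D).submoduleOf (repartitionsOf D₁)) →ₗ[K]
          W ⧸ Q₀ :=
        Submodule.mapQ _ Q₀ (Submodule.inclusion h12) fun _ hx => hx
      have hinj : Function.Injective ι := by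
        rw [← LinearMap.ker_eq_bot, Submodule.eq_bot_iff]
        intro x hx
        obtain ⟨x, rfl⟩ := Submodule.Quotient.mk_surjective _ x
        rw [LinearMap.mem_ker, Submodule.mapQ_apply, Submodule.Quotient.mk_eq_zero] at hx
        rw [Submodule.Quotient.mk_eq_zero]
        exact hx
      have hexact : LinearMap.range ι = LinearMap.ker g := by
        ext x
        obtain ⟨x, rfl⟩ := Submodule.Quotient.mk_surjective _ x
        simp only [g, LinearMap.mem_ker, Submodule.factor, Submodule.mapQ_apply, LinearMap.id_apply, Submodule.Quotient.mk_eq_zero]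
        refine ⟨?_, fun hx => ⟨Submodule.Quotient.mk ⟨x, hx⟩, by simp [ι]; rfl⟩⟩
        rintro ⟨y, hy⟩
        obtain ⟨y, rfl⟩ := Submodule.Quotient.mk_surjective _ y
        rw [Submodule.mapQ_apply, Submodule.Quotient.eq] at hy
        have := sub_mem (show Submodule.inclusion h12 y ∈ Q from y.2) (hQ hy)
        simpa using this
      haveI : Module.Finite K (↥(repartitionsOf D₁) ⧸
          (repartitionsOf D).submoduleOf (repartitionsOf D₁)) := Module.Finite.equiv e1.symm
      haveI : Module.Finite K ↥(LinearMap.ker g) := by rw [← hexact]; infer_instance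
      haveI : Module.Finite K (W ⧸ Q) := hfin
      haveI : Module.Finite K ((W ⧸ Q₀) ⧸ LinearMap.ker g) :=
        Module.Finite.equiv (LinearMap.quotKerEquivRange g).symm
      haveI hres : Module.Finite K (W ⧸ Q₀) := Module.Finite.of_submodule_quotient (LinearMap.ker g)
      refine ⟨hres, ?_⟩
      have h2 := LinearMap.finrank_range_add_finrank_ker g
      rw [LinearMap.range_eq_top.mpr (Submodule.factor_surjective _), finrank_top, ← hexact,
        LinearMap.finrank_range_of_inj hinj, e1.finrank_eq] at h2
      rw [← h2, map_add, Divisor.degree_single, ← hrk, one_mul]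
      push_cast
      rw [add_comm]
      rfl

theorem finite_quot_repartitionsOf {D D' : Divisor K F} (h : D ≤ D') :
    Module.Finite K (↥(repartitionsOf D') ⧸ (repartitionsOf D).submoduleOf (repartitionsOf D')) ∧
      (Module.finrank K (↥(repartitionsOf D') ⧸
        (repartitionsOf D).submoduleOf (repartitionsOf D')) : ℤ) =
        Divisor.degree D' - Divisor.degree D := by
  have hE : D + ((D' - D).mapRange Int.toNat rfl).mapRange (↑) Nat.cast_zero = D' := by
    ext v
    have := Finsupp.le_def.mp h v
    simp
    omega
  have := finrank_quot_repartitionsOf_aux ((D' - D).mapRange Int.toNat rfl) D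
  rw [hE] at this
  refine ⟨this.1, this.2.trans ?_⟩
  rw [← map_sub]
  congr 1
  rw [eq_sub_iff_add_eq', hE]

theorem riemannRochSpace_mono {D D' : Divisor K F} (h : D ≤ D') :
    riemannRochSpace D ≤ riemannRochSpace D' := by
  rw [← comap_diagRep, ← comap_diagRep]
  exact Submodule.comap_mono (repartitionsOf_mono h)

theorem riemannRochSpace_neg_single (v : Place K F) :
    riemannRochSpace (-Finsupp.single v (1 : ℤ)) = ⊥ := by
  rw [Submodule.eq_bot_iff]
  intro f hf
  rw [mem_riemannRochSpace] at hf
  by_contra hf0
  have h0 : ∀ w : Place K F, 0 ≤ w.ord f := fun w => by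
    have := le_ord_of_mem (hf w) hf0
    rcases eq_or_ne w v with rfl | hne
    · simp at this; omega
    · simpa [Finsupp.single_eq_of_ne hne] using this
  have h1 := le_ord_of_mem (hf v) hf0
  simp at h1
  exact transcendental_of_ord_pos (v := v) (by omega) (isAlgebraic_of_forall_ord_nonneg h0)

theorem finite_riemannRochSpace (D : Divisor K F) : Module.Finite K ↥(riemannRochSpace D) := by
  classical
  obtain ⟨v⟩ := nonempty_place (K := K) (F := F)
  set N : Divisor K F := -Finsupp.single v 1
  haveI h0 : Module.Finite K ↥((repartitionsOf N).comap (diagRep K F)) := by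
    rw [comap_diagRep, riemannRochSpace_neg_single]; infer_instance
  haveI := (finite_quot_repartitionsOf (le_sup_right : N ≤ D ⊔ N)).1
  haveI h1 : Module.Finite K ↥((repartitionsOf (D ⊔ N)).comap (diagRep K F)) :=
    finite_comap_of_finite _ (repartitionsOf_mono le_sup_right)
  rw [comap_diagRep] at h1
  exact Submodule.finiteDimensional_of_le (riemannRochSpace_mono (le_sup_left : D ≤ D ⊔ N))

instance instFiniteRiemannRochSpace (D : Divisor K F) : Module.Finite K ↥(riemannRochSpace D) :=
  finite_riemannRochSpace D

theorem finite_comap_diagRep (D : Divisor K F) :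
    Module.Finite K ↥((repartitionsOf D).comap (diagRep K F)) := by
  rw [comap_diagRep]; infer_instance

theorem finrank_riemannRochSpace_le_add {D D' : Divisor K F} (h : D ≤ D') :
    (Module.finrank K ↥(riemannRochSpace D') : ℤ) ≤
      Module.finrank K ↥(riemannRochSpace D) + (Divisor.degree D' - Divisor.degree D) := by
  haveI := finite_comap_diagRep D'
  haveI := (finite_quot_repartitionsOf h).1
  have h1 := finrank_comap_le (diagRep K F) (repartitionsOf_mono h)
  rw [comap_diagRep, comap_diagRep] at h1
  have h2 := (finite_quot_repartitionsOf h).2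
  omega

end FermatLib.Curve

end
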