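import Fermat.Agent.Curve.Approximation
import Fermat.Prelude.Def_AlgebraicCurve_DivisorPushPull
import Mathlib.RingTheory.Algebraic.Integral

/-!
Further elementary lemmas on places: integrality, residue criterion, prescribed orders.
-/

set_option autoImplicit false

noncomputable section

namespace FermatLib.Curve

open AlgebraicCurve

variable {K F : Type*} [Field K] [Field F] [Algebra K F] (v : Place K F)

theorem mem_iff_ord_nonneg {f : F} (hf : f ≠ 0) : f ∈ v.toValuationSubring ↔ 0 ≤ v.ord f := by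
  rw [mem_valuationSubring_iff, mem_ordGE_of_ne_zero hf]

theorem mem_iff_eq_zero_or_ord_nonneg {f : F} :
    f ∈ v.toValuationSubring ↔ f = 0 ∨ 0 ≤ v.ord f := by
  rw [mem_valuationSubring_iff, mem_ordGE]

theorem ord_nonneg_of_mem_place {f : F} (hf : f ∈ v.toValuationSubring) : 0 ≤ v.ord f := by
  rcases (mem_iff_eq_zero_or_ord_nonneg v).mp hf with rfl | h
  · simp
  · exact h

theorem notMem_iff_ord_neg {f : F} : f ∉ v.toValuationSubring ↔ v.ord f < 0 := by
  refine ⟨fun h => ?_, fun h hf => ?_⟩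
  · by_contra hge
    exact h ((mem_iff_eq_zero_or_ord_nonneg v).mpr (Or.inr (not_lt.mp hge)))
  · have := ord_nonneg_of_mem_place v hf
    omega

theorem ord_prod {ι : Type*} (s : Finset ι) (f : ι → F) (h : ∀ i ∈ s, f i ≠ 0) :
    v.ord (∏ i ∈ s, f i) = ∑ i ∈ s, v.ord (f i) := by
  classical
  induction s using Finset.induction with
  | empty => simp
  | insert a s ha ih =>
    have h' : ∀ i ∈ s, f i ≠ 0 := fun i hi => h i (Finset.mem_insert_of_mem hi)
    rw [Finset.prod_insert ha, Finset.sum_insert ha,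
      v.ord_mul (h a (Finset.mem_insert_self a s)) (Finset.prod_ne_zero_iff.mpr h'), ih h']

/-- If `g` has order at least `v.ord f + 1`, then `f + g` is nonzero of the order of `f`. -/
theorem ord_add_eq_left_of_mem {f g : F} (hf : f ≠ 0) (hg : g ∈ ordGE v (v.ord f + 1)) :
    f + g ≠ 0 ∧ v.ord (f + g) = v.ord f := by
  refine ⟨fun h => ?_, ord_add_eq_left v hf ((mem_ordGE.mp hg).imp_right fun h => by omega)⟩
  have hmem : f ∈ ordGE v (v.ord f + 1) := by
    have h2 : f = -g := eq_neg_of_add_eq_zero_left h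
    have h3 := (ordGE v _).neg_mem hg
    rwa [← h2] at h3
  have := le_ord_of_mem hmem hf
  omega

theorem exists_ord_eq_int (n : ℤ) : ∃ f : F, f ≠ 0 ∧ v.ord f = n :=
  ⟨unif v ^ n, zpow_ne_zero n (unif_ne_zero v), ord_unif_zpow v n⟩

theorem mem_of_isIntegral {R : Type*} [CommRing R] [Algebra R F]
    (hR : ∀ r : R, algebraMap R F r ∈ v.toValuationSubring) {f : F} (hf : IsIntegral R f) :
    f ∈ v.toValuationSubring := by
  letI : Algebra R v.toValuationSubring :=
    ((algebraMap R F).codRestrict v.toValuationSubring.toSubring hR).toAlgebra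
  haveI : IsScalarTower R v.toValuationSubring F := IsScalarTower.of_algebraMap_eq fun _ => rfl
  obtain ⟨y, hy⟩ :=
    IsIntegrallyClosed.isIntegral_iff.mp (hf.tower_top (A := v.toValuationSubring))
  exact hy ▸ y.2

theorem ord_eq_zero_of_isAlgebraic {f : F} (hf : IsAlgebraic K f) : v.ord f = 0 := by
  have h1 := ord_nonneg_of_mem_place v (mem_of_isIntegral v v.algebraMap_mem' hf.isIntegral)
  have h2 := ord_nonneg_of_mem_place v
    (mem_of_isIntegral v v.algebraMap_mem' (IsAlgebraic.inv_iff.mpr hf).isIntegral)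
  rw [v.ord_inv] at h2
  omega

theorem residue_eq_zero_iff_mem_ordGE (a : v.toValuationSubring) :
    IsLocalRing.residue v.toValuationSubring a = 0 ↔ (a : F) ∈ ordGE v 1 :=
  residueAt_eq_zero_iff v (f := ⟨(a : F), (mem_valuationSubring_iff v).mp a.2⟩)

/-- An element with prescribed orders at finitely many places. -/
theorem exists_ord_eq_on (s : Finset (Place K F)) (m : Place K F → ℤ) :
    ∃ x : F, x ≠ 0 ∧ ∀ v ∈ s, v.ord x = m v := by
  rcases s.eq_empty_or_nonempty with rfl | ⟨v₀, hv₀⟩
  · exact ⟨1, one_ne_zero, by simp⟩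
  choose a ha0 ha using fun v : Place K F => exists_ord_eq_int v (m v)
  obtain ⟨x, hx⟩ := exists_approx s a (fun v => m v + 1)
  have key : ∀ v ∈ s, x ≠ 0 ∧ v.ord x = m v := by
    intro v hv
    have h := ord_add_eq_left_of_mem v (f := a v) (g := x - a v) (ha0 v) (by rw [ha]; exact hx v hv)
    rwa [add_sub_cancel, ha] at h
  exact ⟨x, (key v₀ hv₀).1, fun v hv => (key v hv).2⟩

end FermatLib.Curve
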