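import Fermat.Agent.Curve.PoleDegree

/-!
Riemann's inequality, finiteness of `H¹(D)` and the Riemann-Roch equation
`l(D) - dim H¹(D) = deg D + l(0) - g`.
-/

set_option autoImplicit false

noncomputable section

open AlgebraicCurve
open scoped IntermediateField

namespace FermatLib.Curve

variable {K F : Type*} [Field K] [Field F] [Algebra K F] [IsFunctionField K F]

omit [IsFunctionField K F] in
theorem mem_range_of_isAlgebraic [IsAlgClosed K] {f : F} (h : IsAlgebraic K f) :
    f ∈ LinearMap.range (Algebra.linearMap K F) :=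
  minpoly.mem_range_of_degree_eq_one K f
    (IsAlgClosed.degree_eq_one_of_irreducible _ (minpoly.irreducible h.isIntegral))

theorem riemannRochSpace_zero [IsAlgClosed K] :
    riemannRochSpace (0 : Divisor K F) = LinearMap.range (Algebra.linearMap K F) := by
  ext f
  constructor
  · intro hf
    rw [mem_riemannRochSpace] at hf
    rcases eq_or_ne f 0 with rfl | hf0
    · exact zero_mem _
    refine mem_range_of_isAlgebraic (isAlgebraic_iff_forall_ord_nonneg.mpr fun v => ?_)
    simpa using le_ord_of_mem (hf v) hf0
  · rintro ⟨c, rfl⟩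
    rw [mem_riemannRochSpace]
    intro v
    exact mem_ordGE_of_le (by simp)

theorem finrank_riemannRochSpace_zero [IsAlgClosed K] :
    Module.finrank K ↥(riemannRochSpace (0 : Divisor K F)) = 1 := by
  rw [riemannRochSpace_zero, LinearMap.finrank_range_of_inj, Module.finrank_self]
  exact (algebraMap K F).injective

/-- Multiplication by `z` identifies `L(D + div z)` with `L(D)`. -/
theorem finrank_riemannRochSpace_add_divOf (D : Divisor K F) {z : F} (hz : z ≠ 0) :
    Module.finrank K ↥(riemannRochSpace (D + divOf z)) =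
      Module.finrank K ↥(riemannRochSpace D) := by
  have key : riemannRochSpace D = (riemannRochSpace (D + divOf z)).map (LinearMap.mulLeft K z) := by
    ext f
    rw [Submodule.mem_map, mem_riemannRochSpace]
    constructor
    · intro hf
      refine ⟨z⁻¹ * f, ?_, by simp [hz]⟩
      rw [mem_riemannRochSpace]
      intro v
      have h := mul_mem_ordGE (mem_ordGE_of_le (v := v) (f := z⁻¹) le_rfl) (hf v)
      refine ordGE_anti ?_ h
      simp [v.ord_inv]
    · rintro ⟨g, hg, rfl⟩ v
      rw [mem_riemannRochSpace] at hg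
      have h := mul_mem_ordGE (mem_ordGE_of_le (v := v) (f := z) le_rfl) (hg v)
      refine ordGE_anti ?_ h
      simp
  rw [key]
  exact (Submodule.equivMapOfInjective _ (mul_right_injective₀ hz) _).finrank_eq

/-- Riemann: `deg D - l(D)` is bounded above. -/
theorem exists_bound_degree_sub_finrank :
    ∃ C : ℤ, ∀ D : Divisor K F,
      Divisor.degree D - Module.finrank K ↥(riemannRochSpace D) ≤ C := by
  classical
  obtain ⟨x, hx, hfin⟩ := IsFunctionField.exists_transcendental (K := K) (F := F)
  obtain ⟨c, hc⟩ := exists_le_finrank_polarDivisor hx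
  set n := Module.finrank K⟮x⟯ F with hn
  have hn0 : 0 < n := Module.finrank_pos
  set B := polarDivisor K x
  refine ⟨(n : ℤ) * c, fun D => ?_⟩
  set P : Divisor K F := D ⊔ 0
  have hP : 0 ≤ Divisor.degree P := degree_nonneg le_sup_right
  set m : ℕ := c + (Divisor.degree P).toNat with hm
  have hdegB : Divisor.degree ((m : ℤ) • B) = (m : ℤ) * n := by
    rw [map_zsmul, smul_eq_mul, degree_polarDivisor hx]
  have hlB : (n : ℤ) * ((m : ℤ) + 1 - c) ≤
      Module.finrank K ↥(riemannRochSpace ((m : ℤ) • B)) := by
    have h := Int.ofNat_le.mpr (hc m)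
    rwa [Nat.cast_mul, Nat.cast_sub (by omega), Nat.cast_add, Nat.cast_one] at h
  have hbig : Divisor.degree P < Module.finrank K ↥(riemannRochSpace ((m : ℤ) • B)) := by
    have h1 : (1 : ℤ) * ((m : ℤ) + 1 - c) ≤ (n : ℤ) * ((m : ℤ) + 1 - c) :=
      mul_le_mul_of_nonneg_right (by omega) (by omega)
    have h2 : (m : ℤ) = c + Divisor.degree P := by
      rw [hm, Nat.cast_add, Int.toNat_of_nonneg hP]
    omega
  have hstep := finrank_riemannRochSpace_le_add
    (sub_le_self ((m : ℤ) • B) (show 0 ≤ P from le_sup_right))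
  rw [map_sub, sub_sub_cancel] at hstep
  obtain ⟨z, hz, hz0⟩ : ∃ z ∈ riemannRochSpace ((m : ℤ) • B - P), z ≠ 0 := by
    refine (Submodule.ne_bot_iff _).mp fun hbot => ?_
    rw [hbot, finrank_bot] at hstep
    omega
  have hle : D ≤ (m : ℤ) • B + divOf z := by
    refine le_trans (show D ≤ P from le_sup_left) (Finsupp.le_def.mpr fun v => ?_)
    have := le_ord_of_mem (mem_riemannRochSpace.mp hz v) hz0
    simp at this ⊢
    omega
  have h3 := finrank_riemannRochSpace_le_add hle
  rw [finrank_riemannRochSpace_add_divOf _ hz0, map_add, degree_divOf, add_zero, hdegB] at h3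
  linarith

theorem finite_poles_of_mem_repartitions {α : Place K F → F} (hα : α ∈ repartitions K F) :
    {v : Place K F | ¬v.adicValuation (α v) ≤ 1}.Finite := by
  refine Algebra.adjoin_induction (p := fun β _ =>
    {v : Place K F | ¬ v.adicValuation (β v) ≤ 1}.Finite) (fun _ h => h) ?_ ?_ ?_ hα
  · intro f
    refine (finite_setOf_ord_neg (K := K) f).subset fun v hv => ?_
    exact (v.not_adicValuation_le_one_iff).1 hv
  · intro a b _ _ ha hb
    refine (ha.union hb).subset fun v hv => ?_
    by_contra h
    simp only [Set.mem_union, Set.mem_ofPred_eq, not_or, not_not] at h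
    exact hv ((Valuation.map_add _ _ _).trans (max_le h.1 h.2))
  · intro a b _ _ ha hb
    refine (ha.union hb).subset fun v hv => ?_
    by_contra h
    simp only [Set.mem_union, Set.mem_ofPred_eq, not_or, not_not] at h
    exact hv (by rw [Pi.mul_apply, map_mul]; exact mul_le_one' h.1 h.2)

theorem exists_le_mem_repartitionsOf (D : Divisor K F) (α : ↥(repartitions K F)) :
    ∃ D' : Divisor K F, D ≤ D' ∧ α ∈ repartitionsOf D' := by
  classical
  set S := (finite_poles_of_mem_repartitions α.2).toFinset
  refine ⟨D ⊔ (∑ v ∈ S, Finsupp.single v (-v.ord ((α : Place K F → F) v))) ⊔ 0,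
    le_sup_left.trans le_sup_left, ?_⟩
  rw [mem_repartitionsOf]
  intro w
  simp only [Finsupp.sup_apply, Finsupp.coe_zero, Pi.zero_apply, Finset.sum_apply']
  by_cases hw : w ∈ S
  · rw [Finset.sum_eq_single w (fun v _ hv => Finsupp.single_eq_of_ne hv.symm)
      (fun h => absurd hw h), Finsupp.single_eq_same]
    exact mem_ordGE_of_le (by omega)
  · have h : w.adicValuation ((α : Place K F → F) w) ≤ 1 := by
      simpa [S] using hw
    refine ordGE_anti ?_ (show (α : Place K F → F) w ∈ ordGE w 0 from ?_)
    · omega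
    · show _ ≤ WithZero.exp (-(0 : ℤ))
      simpa using h

/-- There is a divisor `D₀` with `A(D₀) + F` everything. -/
theorem exists_repartitionsOf_sup_eq_top :
    ∃ D₀ : Divisor K F, repartitionsOf D₀ ⊔ LinearMap.range (diagRep K F) = ⊤ := by
  classical
  obtain ⟨C, hC⟩ := exists_bound_degree_sub_finrank (K := K) (F := F)
  obtain ⟨M, ⟨D₀, hD₀⟩, hM⟩ := Int.exists_greatest_of_bdd
    (P := fun z => ∃ D : Divisor K F,
      Divisor.degree D - Module.finrank K ↥(riemannRochSpace D) = z)
    ⟨C, fun z ⟨D, hD⟩ => hD ▸ hC D⟩ ⟨_, 0, rfl⟩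
  refine ⟨D₀, eq_top_iff.mpr fun α _ => ?_⟩
  obtain ⟨D', hle, hα⟩ := exists_le_mem_repartitionsOf D₀ α
  haveI := finite_comap_diagRep D'
  haveI := (finite_quot_repartitionsOf hle).1
  refine le_sup_range_of_finrank_eq (diagRep K F) (repartitionsOf_mono hle) ?_ hα
  rw [comap_diagRep, comap_diagRep]
  have h1 := (finite_quot_repartitionsOf hle).2
  have h2 := hM _ ⟨D', rfl⟩
  omega

theorem finite_coker (D : Divisor K F) :
    Module.Finite K (↥(repartitions K F) ⧸ (repartitionsOf D ⊔ LinearMap.range (diagRep K F))) := by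
  classical
  obtain ⟨D₀, hD₀⟩ := exists_repartitionsOf_sup_eq_top (K := K) (F := F)
  haveI : Subsingleton (↥(repartitions K F) ⧸
      (repartitionsOf (D ⊔ D₀) ⊔ LinearMap.range (diagRep K F))) := by
    refine Submodule.Quotient.subsingleton_iff.mpr (eq_top_iff.mpr ?_)
    rw [← hD₀]
    exact sup_le_sup_right (repartitionsOf_mono le_sup_right) _
  haveI := (finite_quot_repartitionsOf (le_sup_left : D ≤ D ⊔ D₀)).1
  exact finite_coker_of_finite _ (repartitionsOf_mono (le_sup_left : D ≤ D ⊔ D₀))

theorem finite_H1 (D : Divisor K F) : Module.Finite K (H1 D) := by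
  have := finite_coker D
  rwa [range_diagRep] at this

/-- Riemann-Roch for any constant field: `l(D) - dim H¹(D) = deg D + l(0) - g`. -/
theorem riemann_roch_H1_general (D : Divisor K F) :
    (Module.finrank K ↥(riemannRochSpace D) : ℤ) - Module.finrank K (H1 D) =
      Divisor.degree D + Module.finrank K ↥(riemannRochSpace (0 : Divisor K F)) -
        genusFF K F := by
  classical
  have key : ∀ {A B : Divisor K F}, A ≤ B →
      (Module.finrank K ↥(riemannRochSpace B) : ℤ) - Module.finrank K (H1 B) =
      Module.finrank K ↥(riemannRochSpace A) - Module.finrank K (H1 A) +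
        (Divisor.degree B - Divisor.degree A) := by
    intro A B h
    haveI := finite_comap_diagRep B
    haveI := (finite_quot_repartitionsOf h).1
    haveI := finite_coker A
    have h1 := finrank_sub_finrank (diagRep K F) (repartitionsOf_mono h)
    rw [comap_diagRep, comap_diagRep, (finite_quot_repartitionsOf h).2, range_diagRep] at h1
    exact h1
  have h1 := key (le_sup_left : D ≤ D ⊔ 0)
  have h2 := key (le_sup_right : (0 : Divisor K F) ≤ D ⊔ 0)
  rw [map_zero] at h2
  unfold genusFF
  linarith

theorem riemann_roch_H1 [IsAlgClosed K] (D : Divisor K F) :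
    (Module.finrank K ↥(riemannRochSpace D) : ℤ) - Module.finrank K (H1 D) =
      Divisor.degree D + 1 - genusFF K F := by
  rw [riemann_roch_H1_general, finrank_riemannRochSpace_zero, Nat.cast_one]

theorem riemann_inequality [IsAlgClosed K] (D : Divisor K F) :
    Divisor.degree D + 1 - genusFF K F ≤ Module.finrank K ↥(riemannRochSpace D) := by
  have := riemann_roch_H1 D
  omega

end FermatLib.Curve

end
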