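import Fermat.Agent.Curve.FunctionField
import Fermat.Agent.Curve.PlaceExtras
import Mathlib.FieldTheory.RatFunc.IntermediateField

/-!
Function fields and extensions: finite extensions of function fields are function fields and
extensions of function fields are finite.
-/

set_option autoImplicit false

noncomputable section

open scoped IntermediateField

namespace FermatLib.Curve

open AlgebraicCurve

variable {K : Type*} [Field K]

/-- A finite extension of a function field is a function field. -/
theorem IsFunctionField.of_finite (F : Type*) {F' : Type*} [Field F] [Field F'] [Algebra K F]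
    [Algebra K F'] [Algebra F F'] [IsScalarTower K F F'] [h : IsFunctionField K F]
    [Module.Finite F F'] : IsFunctionField K F' := by
  obtain ⟨x, hx, hfin⟩ := h.exists_transcendental
  refine ⟨⟨algebraMap F F' x,
    (transcendental_algebraMap_iff (algebraMap F F').injective).mpr hx, ?_⟩⟩
  haveI : Module.Finite K⟮x⟯ F' := Module.Finite.trans F F'
  have hmap : K⟮algebraMap F F' x⟯ = (K⟮x⟯).map (IsScalarTower.toAlgHom K F F') := by
    rw [IntermediateField.adjoin_map, Set.image_singleton]
    rfl
  rw [hmap]
  let e : K⟮x⟯ ≃ₐ[K] (K⟮x⟯).map (IsScalarTower.toAlgHom K F F') :=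
    IntermediateField.equivMap _ _
  exact Module.Finite.of_equiv_equiv e.toRingEquiv (RingEquiv.refl F')
    (RingHom.ext fun c => by simp [e, IsScalarTower.algebraMap_apply K⟮x⟯ F F'])

/-- An extension of function fields is finite. -/
theorem finite_of_isFunctionField (K F F' : Type*) [Field K] [Field F] [Field F']
    [Algebra K F] [Algebra K F'] [Algebra F F'] [IsScalarTower K F F']
    [h : IsFunctionField K F] [IsFunctionField K F'] : Module.Finite F F' := by
  obtain ⟨x, hx, hfin⟩ := h.exists_transcendental
  haveI := finiteDimensional_adjoin_of_transcendental (K := K)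
    ((transcendental_algebraMap_iff (algebraMap F F').injective).mpr hx :
      Transcendental K (algebraMap F F' x))
  have hmap : K⟮algebraMap F F' x⟯ = (K⟮x⟯).map (IsScalarTower.toAlgHom K F F') := by
    rw [IntermediateField.adjoin_map, Set.image_singleton]
    rfl
  haveI : Module.Finite ((K⟮x⟯).map (IsScalarTower.toAlgHom K F F')) F' := hmap ▸ ‹_›
  let e : K⟮x⟯ ≃ₐ[K] (K⟮x⟯).map (IsScalarTower.toAlgHom K F F') :=
    IntermediateField.equivMap _ _
  haveI : Module.Finite K⟮x⟯ F' :=
    Module.Finite.of_equiv_equiv e.symm.toRingEquiv (RingEquiv.refl F')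
      (RingHom.ext fun c => by
        obtain ⟨d, rfl⟩ := e.surjective c
        simp [e, IsScalarTower.algebraMap_apply K⟮x⟯ F F'])
  exact Module.Finite.of_restrictScalars_finite K⟮x⟯ F F'

instance instIsFunctionFieldRatFunc : IsFunctionField K (RatFunc K) := by
  have htop : K⟮(RatFunc.X : RatFunc K)⟯ = ⊤ := RatFunc.adjoin_X
  refine ⟨⟨RatFunc.X, RatFunc.transcendental_X, ?_⟩⟩
  rw [htop]
  exact Module.Finite.of_surjective (Algebra.linearMap (⊤ : IntermediateField K (RatFunc K)) _)
    fun f => ⟨⟨f, IntermediateField.mem_top⟩, rfl⟩

/-- Temporary alias of `IsFunctionField`, for consumers that used the earlier name. -/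
abbrev IsFunctionFieldOne (K F : Type*) [Field K] [Field F] [Algebra K F] : Prop :=
  IsFunctionField K F

theorem IsFunctionFieldOne.of_transcendental {F : Type*} [Field F] [Algebra K F] {t : F}
    (ht : Transcendental K t) [FiniteDimensional K⟮t⟯ F] : IsFunctionFieldOne K F :=
  IsFunctionField.of_transcendental ht

theorem IsFunctionFieldOne.exists_transcendental {F : Type*} [Field F] [Algebra K F]
    [h : IsFunctionFieldOne K F] : ∃ x : F, Transcendental K x ∧ FiniteDimensional K⟮x⟯ F :=
  IsFunctionField.exists_transcendental

end FermatLib.Curve
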