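import Fermat.Agent.Curve.KaehlerPlace
import Fermat.Prelude.Def_AlgebraicCurve_CanonicalDivisor

/-!
# The degree of a canonical divisor does not depend on the differential
-/

set_option autoImplicit false

noncomputable section

open AlgebraicCurve KaehlerDifferential

namespace FermatLib.Curve

variable {K F : Type*} [Field K] [Field F] [Algebra K F] [IsAlgClosed K] [IsCurveOver K F]

/-- Two divisors of nonzero differentials differ by a principal divisor. -/
theorem exists_ord_eq_sub_ordDifferential {ω ω' : Ω[F⁄K]} (hω : ω ≠ 0) (hω' : ω' ≠ 0)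
    {D D' : Divisor K F} (hD : ∀ v, D v = v.ordDifferential ω)
    (hD' : ∀ v, D' v = v.ordDifferential ω') :
    ∃ f : F, f ≠ 0 ∧ ω' = f • ω ∧ ∀ v, (D' - D) v = v.ord f := by
  obtain ⟨f, hf⟩ := (finrank_eq_one_iff_of_nonzero' ω hω).1 IsCurveOver.finrank_kaehler ω'
  have hf0 : f ≠ 0 := fun h => hω' (by rw [← hf, h, zero_smul])
  refine ⟨f, hf0, hf.symm, fun v => ?_⟩
  rw [Finsupp.sub_apply, hD', hD, ← hf, ordDifferential_smul_of_ne v hf0 hω]
  ring

theorem degree_eq_of_ordDifferential {ω ω' : Ω[F⁄K]} (hω : ω ≠ 0) (hω' : ω' ≠ 0)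
    {D D' : Divisor K F} (hD : ∀ v, D v = v.ordDifferential ω)
    (hD' : ∀ v, D' v = v.ordDifferential ω') : Divisor.degree D' = Divisor.degree D := by
  obtain ⟨f, hf0, -, hf⟩ := exists_ord_eq_sub_ordDifferential hω hω' hD hD'
  obtain ⟨E, hE, hE0⟩ := HasPrincipalDivisors.exists_divisor (K := K) f hf0
  have : D' - D = E := Finsupp.ext fun v => by rw [hf v, hE v]
  rwa [← this, map_sub, sub_eq_zero] at hE0

/-- The genus read off from the degree of the divisor of any nonzero differential. -/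
theorem genus_eq_of_degree_eq [HasCanonicalDivisor (K := K) (F := F)] {ω : Ω[F⁄K]} (hω : ω ≠ 0)
    {D : Divisor K F} (hD : ∀ v, D v = v.ordDifferential ω) {g : ℕ}
    (hdeg : Divisor.degree D = 2 * (g : ℤ) - 2) : genus K F = g := by
  have h : ∃ ω : Ω[F⁄K], ω ≠ 0 := ⟨ω, hω⟩
  rw [genus, dif_pos h, degree_eq_of_ordDifferential hω h.choose_spec hD
    (canonicalDivisorOf_apply h.choose_spec), hdeg]
  omega

end FermatLib.Curve
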