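import Fermat.Prelude.Def_AlgebraicCurve_Repartitions

/-!
# Weil differentials with a prescribed divisor
-/

set_option autoImplicit false

noncomputable section

open AlgebraicCurve

namespace FermatLib.Curve

/-- A linear form on repartitions is a Weil differential with divisor `D`: it kills `A(D) + F` and
`D` is maximal with this property. -/
structure IsWeilDivisorOf {K F : Type*} [Field K] [Field F] [Algebra K F] (D : Divisor K F)
    (φ : ↥(repartitions K F) →ₗ[K] K) : Prop where
  map_repartitionsOf : ∀ α ∈ repartitionsOf D, φ α = 0
  map_principal : ∀ α ∈ principalRepartitions K F, φ α = 0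
  exists_ne_zero : ∀ v : Place K F, ∃ α ∈ repartitionsOf (D + Finsupp.single v 1), φ α ≠ 0

end FermatLib.Curve
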