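import Fermat.Agent.Curve.TraceResidue
import Fermat.Agent.Curve.WeilDivisorDef

/-!
# The cotrace of a Weil differential

Let `F'/F` be a finite tame extension of function fields with residue degrees one.  A linear form
on the repartitions of `F` with divisor `D₀` pulls back, along the trace, to a linear form on the
repartitions of `F'` with divisor `pullback D₀ + ∑ (e_w - 1) w`: the Riemann-Hurwitz formula.
-/

set_option autoImplicit false

noncomputable section

open AlgebraicCurve WithZero

namespace FermatLib.Curve

theorem cotrace_finite_not_le_one {K F : Type*} [Field K] [Field F] [Algebra K F]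
    [HasPrincipalDivisors K F] {α : Place K F → F} (hα : α ∈ repartitions K F) :
    {v : Place K F | ¬ v.adicValuation (α v) ≤ 1}.Finite := by
  refine Algebra.adjoin_induction (p := fun β _ =>
    {v : Place K F | ¬ v.adicValuation (β v) ≤ 1}.Finite) (fun _ h => h) ?_ ?_ ?_ hα
  · intro f
    rcases eq_or_ne f 0 with rfl | hf
    · simp
    obtain ⟨E, hE, -⟩ := HasPrincipalDivisors.exists_divisor (K := K) f hf
    refine E.support.finite_toSet.subset fun v hv => ?_
    have hlt : v.ord f < 0 := (v.not_adicValuation_le_one_iff).1 hv
    simp only [Finset.mem_coe, Finsupp.mem_support_iff, hE v]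
    exact hlt.ne
  · intro a b _ _ ha hb
    refine (ha.union hb).subset fun v hv => ?_
    by_contra h
    simp only [Set.mem_union, Set.mem_ofPred_eq, not_or, not_not] at h
    exact hv ((Valuation.map_add _ _ _).trans (max_le h.1 h.2))
  · intro a b _ _ ha hb
    refine (ha.union hb).subset fun v hv => ?_
    by_contra h
    simp only [Set.mem_union, Set.mem_ofPred_eq, not_or, not_not] at h
    exact hv (by rw [Pi.mul_apply, map_mul]; exact mul_le_one' h.1 h.2)

namespace IsWeilDivisorOf

variable {K F : Type*} [Field K] [Field F] [Algebra K F] {D : Divisor K F}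
  {φ : ↥(repartitions K F) →ₗ[K] K}

/-- A Weil differential does not kill any repartition supported at one place with a pole just
beyond its divisor, provided that place has degree one. -/
theorem ne_zero_of_exact (hφ : IsWeilDivisorOf D φ) (v : Place K F) (hv : v.deg = 1)
    (β : ↥(repartitions K F)) (hβ : v.adicValuation ((β : Place K F → F) v) = exp (D v + 1))
    (hβ' : ∀ w, w ≠ v → v ≠ w → w.adicValuation ((β : Place K F → F) w) ≤ exp (D w)) :
    φ β ≠ 0 := by
  classical
  obtain ⟨α, hα, hα0⟩ := hφ.exists_ne_zero v
  have hb0 : (β : Place K F → F) v ≠ 0 := fun h => by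
    rw [h, map_zero] at hβ
    exact exp_ne_zero hβ.symm
  obtain ⟨c, hc⟩ := exists_algebraMap_sub_lt_one v hv
    (f := (α : Place K F → F) v / (β : Place K F → F) v) (by
      rw [map_div₀, hβ, div_le_one₀ (exp_pos)]
      have := hα v
      simpa using this)
  intro h0
  apply hα0
  have hmem : α - c • β ∈ repartitionsOf D := by
    intro w
    show w.adicValuation ((α : Place K F → F) w - c • (β : Place K F → F) w) ≤ exp (D w)
    rw [Algebra.smul_def]
    rcases eq_or_ne w v with rfl | hw
    · have h1 : (α : Place K F → F) w - algebraMap K F c * (β : Place K F → F) w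
          = ((α : Place K F → F) w / (β : Place K F → F) w - algebraMap K F c)
            * (β : Place K F → F) w := by
        field_simp
      rw [h1, map_mul, hβ]
      refine (mul_le_mul' (trLe_exp_neg_one_of_lt_one hc) le_rfl).trans ?_
      rw [← exp_add, exp_le_exp]
      omega
    · refine (Valuation.map_sub _ _ _).trans (max_le ?_ ?_)
      · simpa [Finsupp.single_eq_of_ne hw] using hα w
      · rw [map_mul]
        exact (mul_le_of_le_one_left' (w.adicValuation_algebraMap_le_one c)).trans
          (hβ' w hw hw.symm)
  have := hφ.map_repartitionsOf _ hmem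
  simpa [h0] using this

end IsWeilDivisorOf

section Cotrace

variable {K F F' : Type*} [Field K] [Field F] [Field F'] [Algebra K F] [Algebra K F']
  [Algebra F F'] [IsScalarTower K F F'] [Algebra.IsIntegral F F']
  [HasPrincipalDivisors K F']

/-- `a` approximates the repartition `α` at all places over `P` up to `A(D)`. -/
def IsApproxAt (D : Divisor K F') (α : Place K F' → F') (P : Place K F) (a : F') : Prop :=
  ∀ w ∈ P.fiber F', w.adicValuation (α w - a) ≤ exp (D w)

theorem exists_isApproxAt (D : Divisor K F') (α : Place K F' → F') (P : Place K F) :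
    ∃ a, IsApproxAt D α P a := by
  exact exists_fibre_approx P α D

open Classical in
/-- A choice of approximation, equal to zero at almost all places. -/
def approxAt (D : Divisor K F') (α : Place K F' → F') (P : Place K F) : F' :=
  if IsApproxAt D α P 0 then 0 else (exists_isApproxAt D α P).choose

theorem isApproxAt_approxAt (D : Divisor K F') (α : Place K F' → F') (P : Place K F) :
    IsApproxAt D α P (approxAt D α P) := by
  rw [approxAt]
  split_ifs with h
  · exact h
  · exact (exists_isApproxAt D α P).choose_spec

variable [Module.Finite F F']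

/-- The trace of a repartition, as a repartition of the base. -/
def traceRepartition (D : Divisor K F') (α : ↥(repartitions K F')) : ↥(repartitions K F) :=
  ⟨fun P => Algebra.trace F F' (approxAt D (α : Place K F' → F') P), by
    classical
    refine mem_repartitions_of_finite ?_
    refine Set.Finite.subset (((cotrace_finite_not_le_one α.2).union D.support.finite_toSet).image
      (fun w : Place K F' => w.restrict F)) ?_
    intro P hP
    by_contra hni
    apply hP
    have h0 : IsApproxAt D (α : Place K F' → F') P 0 := by
      intro w hw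
      by_contra hbad
      refine hni ⟨w, ?_, Place.mem_fiber.1 hw⟩
      by_cases hD : D w = 0
      · left
        simpa [hD] using hbad
      · right
        simpa using hD
    simp [approxAt, h0]⟩

variable [FundamentalIdentity K F F'] {D₀ : Divisor K F} {D : Divisor K F'}
  (hdeg : ∀ v : Place K F, v.deg = 1) (hdeg' : ∀ w : Place K F', w.deg = 1)
  (hD : ∀ w : Place K F', D w
    = w.ramificationIndex F * D₀ (w.restrict F) + w.ramificationIndex F - 1)

include hdeg hdeg' hD

theorem trace_sub_mem_repartitionsOf {α : Place K F' → F'} (P : Place K F) {a a' : F'}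
    (ha : IsApproxAt D α P a) (ha' : IsApproxAt D α P a') :
    P.adicValuation (Algebra.trace F F' a - Algebra.trace F F' a') ≤ exp (D₀ P) := by
  rw [← map_sub]
  refine adicValuation_trace_le P (hdeg P) hdeg' (D₀ P) _ fun w hw => ?_
  have h := (Valuation.map_sub w.adicValuation (α w - a') (α w - a)).trans
    (max_le (ha' w hw) (ha w hw))
  rw [sub_sub_sub_cancel_left, hD w, Place.mem_fiber.1 hw] at h
  exact h

variable {φ : ↥(repartitions K F) →ₗ[K] K} (hφ : IsWeilDivisorOf D₀ φ)
include hφ

theorem map_traceRepartition_eq {α : ↥(repartitions K F')} {β : ↥(repartitions K F)}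
    (a : Place K F → F') (ha : ∀ P, IsApproxAt D (α : Place K F' → F') P (a P))
    (hβ : ∀ P, (β : Place K F → F) P = Algebra.trace F F' (a P)) :
    φ (traceRepartition D α) = φ β := by
  rw [← sub_eq_zero, ← map_sub]
  refine hφ.map_repartitionsOf _ fun P => ?_
  show P.adicValuation (Algebra.trace F F' _ - (β : Place K F → F) P) ≤ _
  rw [hβ]
  exact trace_sub_mem_repartitionsOf hdeg hdeg' hD P (isApproxAt_approxAt _ _ _) (ha P)

/-- The cotrace of a Weil differential. -/
def cotrace : ↥(repartitions K F') →ₗ[K] K where
  toFun α := φ (traceRepartition D α)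
  map_add' α α' := by
    rw [← map_add]
    refine map_traceRepartition_eq hdeg hdeg' hD hφ
      (fun P => approxAt D (α : Place K F' → F') P + approxAt D (α' : Place K F' → F') P)
      (fun P w hw => ?_) fun P => (map_add _ _ _).symm
    show w.adicValuation ((α : Place K F' → F') w + (α' : Place K F' → F') w - _) ≤ _
    rw [add_sub_add_comm]
    exact (Valuation.map_add _ _ _).trans
      (max_le (isApproxAt_approxAt _ _ P w hw) (isApproxAt_approxAt _ _ P w hw))
  map_smul' c α := by
    rw [RingHom.id_apply, ← map_smul]
    refine map_traceRepartition_eq hdeg hdeg' hD hφ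
      (fun P => c • approxAt D (α : Place K F' → F') P)
      (fun P w hw => ?_) fun P => (LinearMap.map_smul_of_tower _ _ _).symm
    show w.adicValuation (c • (α : Place K F' → F') w - _) ≤ _
    rw [← smul_sub, Algebra.smul_def, map_mul]
    exact (mul_le_of_le_one_left' (w.adicValuation_algebraMap_le_one c)).trans
      (isApproxAt_approxAt _ _ P w hw)

theorem cotrace_apply (α : ↥(repartitions K F')) :
    cotrace hdeg hdeg' hD hφ α = φ (traceRepartition D α) := rfl

/-- **Riemann-Hurwitz for Weil differentials.** -/
theorem isWeilDivisorOf_cotrace (htame : ∀ w : Place K F', (w.ramificationIndex F : K) ≠ 0) :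
    IsWeilDivisorOf D (cotrace hdeg hdeg' hD hφ) := by
  classical
  refine ⟨fun α hα => ?_, fun α hα => ?_, fun w₀ => ?_⟩
  · rw [cotrace_apply, map_traceRepartition_eq hdeg hdeg' hD hφ (β := 0) (fun _ => 0)
      (fun P w hw => by simpa using hα w) (fun P => (map_zero _).symm), map_zero]
  · obtain ⟨f, hf⟩ := mem_principalRepartitions_iff.1 hα
    rw [cotrace_apply, map_traceRepartition_eq hdeg hdeg' hD hφ
      (β := algebraMap F ↥(repartitions K F) (Algebra.trace F F' f)) (fun _ => f)
      (fun P w hw => by simp [hf]) (fun P => rfl)]
    exact hφ.map_principal _ (mem_principalRepartitions_iff.2 ⟨_, rfl⟩)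
  · set P := w₀.restrict F with hP
    have hw₀ : w₀ ∈ P.fiber F' := Place.mem_fiber.2 hP.symm
    obtain ⟨y, hy⟩ := exists_fibre_approx P
      (fun w : Place K F' => if w = w₀ then (1 : F') else 0) (fun _ => -1)
    obtain ⟨t, ht⟩ := exists_adicValuation_eq_exp P (D₀ P + 1)
    set h := algebraMap F F' t * y with hh
    have hy1 : ∀ w ∈ P.fiber F', w.adicValuation y ≤ 1 := by
      intro w hw
      have := Valuation.map_sub w.adicValuation (if w = w₀ then (1 : F') else 0)
        ((if w = w₀ then (1 : F') else 0) - y)
      rw [sub_sub_cancel] at this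
      refine this.trans (max_le ?_ ((hy w hw).trans ?_))
      · split_ifs <;> simp
      · rw [← exp_zero, exp_le_exp]; omega
    have htw : ∀ w ∈ P.fiber F', w.adicValuation (algebraMap F F' t)
        = exp (w.ramificationIndex F * (D₀ P + 1)) := fun w hw => by
      rw [adicValuation_algebraMap_restrict, Place.mem_fiber.1 hw, ht, ← exp_nsmul, nsmul_eq_mul]
    have hhne : ∀ w ∈ P.fiber F', w ≠ w₀ → w.adicValuation h ≤ exp (D w) := by
      intro w hw hne
      have hy' : w.adicValuation y ≤ exp (-1 : ℤ) := by simpa [if_neg hne] using hy w hw
      rw [hh, map_mul, htw w hw]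
      refine (mul_le_mul' le_rfl hy').trans ?_
      rw [← exp_add, hD, Place.mem_fiber.1 hw, exp_le_exp, mul_add]
      omega
    have hh₀ : w₀.adicValuation h ≤ exp (D w₀ + 1) := by
      rw [hh, map_mul, htw w₀ hw₀]
      refine (mul_le_mul' le_rfl (hy1 w₀ hw₀)).trans ?_
      rw [mul_one, hD, ← hP, exp_le_exp, mul_add]
      omega
    have htr : P.adicValuation (Algebra.trace F F' h) = exp (D₀ P + 1) := by
      have hcong := adicValuation_trace_sub_lt_one P (hdeg P) hdeg' y
        (fun w => if w = w₀ then 1 else 0) fun w hw => by
          rw [Valuation.map_sub_swap]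
          have : algebraMap K F' (if w = w₀ then 1 else 0) = if w = w₀ then 1 else 0 := by
            split_ifs <;> simp
          rw [this]
          refine (hy w hw).trans_lt ?_
          rw [← exp_zero, exp_lt_exp]
          omega
      simp only [mul_ite, mul_one, mul_zero, Finset.sum_ite_eq', hw₀, if_true] at hcong
      have h1 := adicValuation_algebraMap_eq_one P (htame w₀)
      rw [hh, ← Algebra.smul_def, map_smul, smul_eq_mul, map_mul, ht]
      rw [← h1] at hcong
      rw [Valuation.map_eq_of_sub_lt _ hcong, h1, mul_one]
    let α : ↥(repartitions K F') := ⟨Pi.single w₀ h, mem_repartitions_of_finite <|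
      (Set.finite_singleton w₀).subset fun w hw => by
        by_contra hne
        exact hw (by rw [Pi.single_eq_of_ne (by simpa using hne)]; simp)⟩
    let β : ↥(repartitions K F) := ⟨Pi.single P (Algebra.trace F F' h),
      mem_repartitions_of_finite <| (Set.finite_singleton P).subset fun v hv => by
        by_contra hne
        exact hv (by rw [Pi.single_eq_of_ne (by simpa using hne)]; simp)⟩
    refine ⟨α, fun w => ?_, ?_⟩
    · show w.adicValuation (Pi.single (M := fun _ => F') w₀ h w) ≤ _
      rcases eq_or_ne w w₀ with rfl | hne
      · simpa using hh₀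
      · simp [Pi.single_eq_of_ne hne, Finsupp.single_eq_of_ne hne]
    · rw [cotrace_apply, map_traceRepartition_eq hdeg hdeg' hD hφ (β := β) (Pi.single P h)
        (fun Q w hw => ?_) (fun Q => ?_)]
      · exact hφ.ne_zero_of_exact P (hdeg P) β (by simpa [β] using htr) fun v hv _ => by
          simp [β, Pi.single_eq_of_ne hv]
      · show w.adicValuation (Pi.single (M := fun _ => F') w₀ h w
          - Pi.single (M := fun _ => F') P h Q) ≤ _
        rcases eq_or_ne Q P with rfl | hQ
        · rcases eq_or_ne w w₀ with rfl | hne
          · simp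
          · rw [Pi.single_eq_same, Pi.single_eq_of_ne hne, zero_sub, Valuation.map_neg]
            exact hhne w hw hne
        · have hne : w ≠ w₀ := fun e => hQ (by rw [← Place.mem_fiber.1 hw, e])
          simp [Pi.single_eq_of_ne hne, Pi.single_eq_of_ne hQ]
      · show Pi.single (M := fun _ => F) P _ Q = Algebra.trace F F' (Pi.single (M := fun _ => F') P h Q)
        rcases eq_or_ne Q P with rfl | hQ
        · simp
        · simp [Pi.single_eq_of_ne hQ]

end Cotrace

end FermatLib.Curve
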