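import Fermat.Agent.Curve.Cotrace
import Fermat.Agent.Curve.KaehlerPlace

/-!
# Pullback of differentials and Riemann-Hurwitz

The divisor of the pullback of a differential along a finite tame extension, and the consequence
that a differential whose divisor belongs to a Weil differential pulls back to another one.
-/

set_option autoImplicit false

noncomputable section

open AlgebraicCurve KaehlerDifferential

namespace FermatLib.Curve

variable {K F F' : Type*} [Field K] [Field F] [Field F'] [Algebra K F] [Algebra K F']
  [Algebra F F'] [IsScalarTower K F F'] [Algebra.IsIntegral F F']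
  [IsAlgClosed K] [IsCurveOver K F] [IsCurveOver K F']

/-- The divisor of the pullback of a differential at a tame place. -/
theorem ordDifferential_pullback (w : Place K F') (he : (w.ramificationIndex F : K) ≠ 0)
    {ω : Ω[F⁄K]} (hω : ω ≠ 0) :
    KaehlerDifferential.map K K F F' ω ≠ 0 ∧
      w.ordDifferential (KaehlerDifferential.map K K F F' ω)
        = w.ramificationIndex F * (w.restrict F).ordDifferential ω
          + w.ramificationIndex F - 1 := by
  set v := w.restrict F
  obtain ⟨π, hπ, hd⟩ := exists_dCoord_eq v
  have hg : v.differentialCoeff ω ≠ 0 := differentialCoeff_ne_zero v hω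
  have hmap : KaehlerDifferential.map K K F F' ω
      = algebraMap F F' (v.differentialCoeff ω) • D K F' (algebraMap F F' (π : F)) := by
    conv_lhs => rw [← v.differentialCoeff_smul_dCoord ω, hd, map_smul, KaehlerDifferential.map_D]
    rw [algebraMap_smul]
  have hπord : w.ord (algebraMap F F' (π : F)) = w.ramificationIndex F := by
    rw [w.ord_restrict, v.ord_coe_irreducible hπ, mul_one]
  have hcast : (w.ord (algebraMap F F' (π : F)) : K) ≠ 0 := by
    rw [hπord, Int.cast_natCast]; exact he
  obtain ⟨hD, hord⟩ := ordDifferential_D_of_deg_eq_one w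
    (IsCurveOver.deg_eq_one_of_isAlgClosed w) IsCurveOver.finrank_kaehler hcast
  have hg' : algebraMap F F' (v.differentialCoeff ω) ≠ 0 := by simpa using hg
  refine ⟨hmap ▸ smul_ne_zero hg' hD, ?_⟩
  rw [hmap, ordDifferential_smul_of_ne w hg' hD, hord, w.ord_restrict, hπord]
  rw [Place.ordDifferential]
  ring

variable [Module.Finite F F'] [FundamentalIdentity K F F']

/-- If the divisor of a differential on the base belongs to a Weil differential, so does the
divisor of its pullback. -/
theorem exists_isWeilDivisorOf_pullback
    (htame : ∀ w : Place K F', (w.ramificationIndex F : K) ≠ 0)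
    {ω : Ω[F⁄K]} (hω : ω ≠ 0) {D₀ : Divisor K F} (hD₀ : ∀ v, D₀ v = v.ordDifferential ω)
    {φ : ↥(repartitions K F) →ₗ[K] K} (hφ : IsWeilDivisorOf D₀ φ)
    {D : Divisor K F'}
    (hD : ∀ w, D w = w.ordDifferential (KaehlerDifferential.map K K F F' ω)) :
    ∃ ψ : ↥(repartitions K F') →ₗ[K] K, IsWeilDivisorOf D ψ := by
  have h : ∀ w, D w
      = w.ramificationIndex F * D₀ (w.restrict F) + w.ramificationIndex F - 1 := fun w => by
    rw [hD, (ordDifferential_pullback w (htame w) hω).2, hD₀]
  exact ⟨_, isWeilDivisorOf_cotrace IsCurveOver.deg_eq_one_of_isAlgClosed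
    IsCurveOver.deg_eq_one_of_isAlgClosed h hφ htame⟩

end FermatLib.Curve
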