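import Fermat.Agent.Curve.Cotrace

/-!
# The Weil differential of a rational function field

If `x` has a single simple pole `P` and every other place is the single simple pole of some
`(x - c)⁻¹`, then the linear form "residue sum" exists: a Weil differential with divisor `-2 P`.
-/

set_option autoImplicit false

noncomputable section

open AlgebraicCurve WithZero

namespace FermatLib.Curve

variable {K F : Type*} [Field K] [Field F] [Algebra K F]

open Classical in
/-- The repartition supported at one place. -/
def singleRepartition (v : Place K F) (f : F) : ↥(repartitions K F) :=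
  ⟨Pi.single v f, mem_repartitions_of_finite <| (Set.finite_singleton v).subset fun w hw => by
    by_contra hne
    exact hw (by rw [Pi.single_eq_of_ne (by simpa using hne)]; simp)⟩

@[simp]
theorem singleRepartition_apply_self (v : Place K F) (f : F) :
    (singleRepartition v f : Place K F → F) v = f := by
  simp [singleRepartition]

theorem singleRepartition_apply_ne {v w : Place K F} (h : w ≠ v) (f : F) :
    (singleRepartition v f : Place K F → F) w = 0 := by
  classical
  simp [singleRepartition, h]

/-- At a place of degree one a function of order `≥ -n` agrees with a multiple of any given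
function of order exactly `-n` up to order `-n + 1`. -/
theorem exists_smul_sub_le {v : Place K F} (hv : v.deg = 1) {f g : F} {n : ℤ}
    (hf : v.adicValuation f ≤ exp n) (hg : v.adicValuation g = exp n) :
    ∃ c : K, v.adicValuation (f - c • g) ≤ exp (n - 1) := by
  have hg0 : g ≠ 0 := fun h => by rw [h, map_zero] at hg; exact exp_ne_zero hg.symm
  obtain ⟨c, hc⟩ := exists_algebraMap_sub_lt_one v hv (f := f / g) (by
    rw [map_div₀, hg, div_le_one₀ exp_pos]; exact hf)
  refine ⟨c, ?_⟩
  have h1 : f - c • g = (f / g - algebraMap K F c) * g := by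
    rw [Algebra.smul_def]; field_simp
  rw [h1, map_mul, hg]
  refine (mul_le_mul' (trLe_exp_neg_one_of_lt_one hc) le_rfl).trans ?_
  rw [← exp_add, exp_le_exp]
  omega

theorem le_one_of_ord_nonneg {v : Place K F} {f : F} (h : 0 ≤ v.ord f) :
    v.adicValuation f ≤ 1 :=
  v.adicValuation_le_one_iff.2 (Or.inr h)

/-- A nonzero function whose order is nowhere negative has no zero. -/
theorem ord_eq_zero_of_forall_nonneg [HasPrincipalDivisors K F] (hdeg : ∀ v : Place K F, v.deg = 1)
    {f : F} (hf : f ≠ 0) (h : ∀ v : Place K F, 0 ≤ v.ord f) (v : Place K F) : v.ord f = 0 := by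
  obtain ⟨E, hE, hE0⟩ := HasPrincipalDivisors.exists_divisor (K := K) f hf
  by_contra hne
  have hv : v ∈ E.support := by simpa [Finsupp.mem_support_iff, hE v] using hne
  rw [Divisor.degree, Finsupp.liftAddHom_apply, Finsupp.sum] at hE0
  have h1 := Finset.single_le_sum (f := fun w => E w * (w.deg : ℤ))
    (fun w _ => by simpa [hdeg w, hE w] using h w) hv
  simp only [AddMonoidHom.mulRight_apply] at hE0
  rw [hE0, hdeg v, hE v] at h1
  have := h v
  push_cast at h1
  omega

variable [HasPrincipalDivisors K F] (hdeg : ∀ v : Place K F, v.deg = 1)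
  {x : F} {P : Place K F} (hxP : P.ord x = -1) (hx : ∀ w, w ≠ P → 0 ≤ w.ord x)
  (hfin : ∀ v : Place K F, v ≠ P → ∃ y : F, v.ord y = -1 ∧ P.ord y = 1 ∧
    ∀ w, w ≠ v → w ≠ P → 0 ≤ w.ord y)

include hdeg hxP hx hfin

theorem exists_isWeilDivisorOf_rational :
    ∃ φ : ↥(repartitions K F) →ₗ[K] K, IsWeilDivisorOf (Finsupp.single P (-2)) φ := by
  classical
  have hx0 : x ≠ 0 := fun h => by simp [h] at hxP
  have hval : ∀ (v : Place K F) {f : F} {n : ℤ}, f ≠ 0 → v.ord f = -n →
      v.adicValuation f = exp n := fun v f n hf h => by
    rw [v.adicValuation_eq_exp_neg_ord hf, h, neg_neg]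
  set D₀ : Divisor K F := Finsupp.single P (-2)
  set D₁ : Divisor K F := Finsupp.single P (-1)
  set S : Submodule K ↥(repartitions K F) := repartitionsOf D₀ ⊔ principalRepartitions K F
  set e := singleRepartition P x⁻¹
  have hePv : P.adicValuation ((e : Place K F → F) P) = exp (-1 : ℤ) := by
    rw [singleRepartition_apply_self]
    exact hval P (inv_ne_zero hx0) (by rw [P.ord_inv, hxP])
  have hbase : ∀ α ∈ repartitionsOf D₁, ∃ c : K, α - c • e ∈ repartitionsOf D₀ ∧
      (P.adicValuation ((α : Place K F → F) P) = exp (-1 : ℤ) → c ≠ 0) := by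
    intro α hα
    obtain ⟨c, hc⟩ := exists_smul_sub_le (hdeg P)
      (f := (α : Place K F → F) P) (by simpa [D₁] using hα P) hePv
    refine ⟨c, fun v => ?_, fun h h0 => ?_⟩
    · show v.adicValuation ((α : Place K F → F) v - c • (e : Place K F → F) v) ≤ _
      rcases eq_or_ne v P with rfl | hv
      · simpa [D₀] using hc
      · simpa [D₀, D₁, e, singleRepartition_apply_ne hv, Finsupp.single_eq_of_ne hv] using hα v
    · rw [h0, zero_smul, sub_zero, h, exp_le_exp] at hc
      omega
  have heS : e ∉ S := by
    intro h
    obtain ⟨a, ha, b, hb, hab⟩ := Submodule.mem_sup.1 h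
    obtain ⟨f, hf⟩ := mem_principalRepartitions_iff.1 hb
    have hco : ∀ v, f = (e : Place K F → F) v - (a : Place K F → F) v := fun v => by
      rw [← hab]
      show f = (a : Place K F → F) v + (b : Place K F → F) v - (a : Place K F → F) v
      rw [hf, add_sub_cancel_left]
    have hP : P.adicValuation f = exp (-1 : ℤ) := by
      rw [hco P, Valuation.map_sub_eq_of_lt_left, hePv]
      rw [hePv]
      exact lt_of_le_of_lt (ha P) (exp_lt_exp.2 (by simp [D₀]))
    have hf0 : f ≠ 0 := fun h0 => by rw [h0, map_zero] at hP; exact exp_ne_zero hP.symm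
    rw [P.adicValuation_eq_exp_neg_ord hf0, exp_inj] at hP
    have := ord_eq_zero_of_forall_nonneg hdeg hf0 (fun v => by
      rcases eq_or_ne v P with rfl | hv
      · omega
      · have hle : v.adicValuation f ≤ 1 := by
          rw [hco v, singleRepartition_apply_ne hv, zero_sub, Valuation.map_neg]
          simpa [D₀, Finsupp.single_eq_of_ne hv] using ha v
        exact (v.adicValuation_le_one_iff.1 hle).resolve_left hf0) P
    omega
  set G := S ⊔ K ∙ e
  have hG : ∀ (m : ℕ) (D : Divisor K F), D₁ ≤ D → Divisor.degree (D - D₁) = m →
      repartitionsOf D ≤ G := by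
    intro m
    induction m with
    | zero =>
      intro D hle hm α hα
      have hD : D = D₁ := by
        ext v
        by_contra hne
        have hv : v ∈ (D - D₁).support := by
          rw [Finsupp.mem_support_iff, Finsupp.sub_apply]
          omega
        rw [Divisor.degree, Finsupp.liftAddHom_apply, Finsupp.sum] at hm
        have h1 := Finset.single_le_sum (f := fun w => (D - D₁) w * (w.deg : ℤ))
          (fun w _ => by
            rw [hdeg w]
            have := hle w
            simp only [Finsupp.sub_apply]
            omega) hv
        simp only [AddMonoidHom.mulRight_apply] at hm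
        rw [hm, hdeg v, Finsupp.sub_apply] at h1
        have := hle v
        omega
      subst hD
      obtain ⟨c, hc, -⟩ := hbase α hα
      have : α = (α - c • e) + c • e := (sub_add_cancel _ _).symm
      rw [this]
      exact Submodule.add_mem_sup (Submodule.mem_sup_left hc)
        (Submodule.smul_mem _ c (Submodule.mem_span_singleton_self e))
    | succ m ih =>
      intro D hle hm α hα
      obtain ⟨v, hv⟩ : ∃ v, D₁ v < D v := by
        by_contra! h
        have : D = D₁ := Finsupp.ext fun v => le_antisymm (h v) (hle v)
        rw [this, sub_self, map_zero] at hm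
        omega
      set D' := D - Finsupp.single v 1
      obtain ⟨f, hf0, hfv, hfD⟩ : ∃ f : F, f ≠ 0 ∧ v.ord f = -D v ∧
          ∀ w, w.adicValuation f ≤ exp (D w) := by
        rcases eq_or_ne v P with rfl | hvP
        · have hn : 0 ≤ D v := by
            have : D₁ v = -1 := by simp [D₁]
            omega
          refine ⟨x ^ (D v), zpow_ne_zero _ hx0, by rw [v.ord_zpow, hxP, mul_neg_one], fun w => ?_⟩
          rw [w.adicValuation_le_exp_iff, w.ord_zpow]
          right
          rcases eq_or_ne w v with rfl | hw
          · rw [hxP, mul_neg_one]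
          · have h1 := hle w
            simp only [D₁, Finsupp.single_eq_of_ne hw] at h1
            have := mul_nonneg hn (hx w hw)
            omega
        · obtain ⟨y, hy, hyP, hyw⟩ := hfin v hvP
          have hy0 : y ≠ 0 := fun h => by simp [h] at hy
          have hn : 1 ≤ D v := by
            simp only [D₁, Finsupp.single_eq_of_ne hvP] at hv
            omega
          refine ⟨y ^ (D v), zpow_ne_zero _ hy0, by rw [v.ord_zpow, hy, mul_neg_one], fun w => ?_⟩
          rw [w.adicValuation_le_exp_iff, w.ord_zpow]
          right
          have h1 := hle w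
          rcases eq_or_ne w v with rfl | hw
          · rw [hy, mul_neg_one]
          rcases eq_or_ne w P with rfl | hwP
          · have : D₁ w = -1 := by simp [D₁]
            rw [hyP, mul_one]
            omega
          · simp only [D₁, Finsupp.single_eq_of_ne hwP] at h1
            have := mul_nonneg (show (0 : ℤ) ≤ D v by omega) (hyw w hw hwP)
            omega
      obtain ⟨c, hc⟩ := exists_smul_sub_le (hdeg v) (hα v) (hval v hf0 hfv)
      set p := algebraMap F ↥(repartitions K F) f
      have hα' : α - c • p ∈ repartitionsOf D' := fun w => by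
        show w.adicValuation ((α : Place K F → F) w - c • f) ≤ _
        rcases eq_or_ne w v with rfl | hw
        · simpa [D'] using hc
        · rw [show D' w = D w by simp [D', Finsupp.single_eq_of_ne hw]]
          refine (Valuation.map_sub _ _ _).trans (max_le (hα w) ?_)
          rw [Algebra.smul_def, map_mul]
          exact (mul_le_of_le_one_left' (w.adicValuation_algebraMap_le_one c)).trans (hfD w)
      have hle' : D₁ ≤ D' := fun w => by
        rcases eq_or_ne w v with rfl | hw
        · simp [D']; omega
        · simpa [D', Finsupp.single_eq_of_ne hw] using hle w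
      have hm' : Divisor.degree (D' - D₁) = m := by
        simp only [D']
        rw [sub_right_comm, map_sub, hm, Divisor.degree_single, hdeg v]
        push_cast
        ring
      have : α = (α - c • p) + c • p := (sub_add_cancel _ _).symm
      rw [this]
      refine G.add_mem (ih D' hle' hm' hα') (G.smul_mem c ?_)
      exact Submodule.mem_sup_left (Submodule.mem_sup_right
        (mem_principalRepartitions_iff.2 ⟨f, rfl⟩))
  obtain ⟨φ, hφe, hφS⟩ := Submodule.exists_dual_map_eq_bot_of_notMem heS inferInstance
  have hφ0 : ∀ α ∈ S, φ α = 0 := fun α hα => by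
    have : φ α ∈ S.map φ := Submodule.mem_map_of_mem hα
    rwa [hφS, Submodule.mem_bot] at this
  refine ⟨φ, fun α hα => hφ0 α (Submodule.mem_sup_left hα),
    fun α hα => hφ0 α (Submodule.mem_sup_right hα), fun v => ?_⟩
  rcases eq_or_ne v P with rfl | hv
  · refine ⟨e, fun w => ?_, hφe⟩
    rcases eq_or_ne w v with rfl | hw
    · rw [hePv]
      simp [D₀]
    · simp [e, singleRepartition_apply_ne hw]
  · obtain ⟨y, hy, hyP, hyw⟩ := hfin v hv
    have hy0 : y ≠ 0 := fun h => by simp [h] at hy
    set β := singleRepartition v y
    refine ⟨β, fun w => ?_, ?_⟩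
    · rcases eq_or_ne w v with rfl | hw
      · simp [β, D₀, Finsupp.single_eq_of_ne hv, hval w hy0 hy]
      · simp [β, singleRepartition_apply_ne hw]
    · set r := algebraMap F ↥(repartitions K F) y - β
      have hr : r ∈ repartitionsOf D₁ := fun w => by
        show w.adicValuation (y - (β : Place K F → F) w) ≤ _
        rcases eq_or_ne w v with rfl | hw
        · simp [β]
        rw [singleRepartition_apply_ne hw, sub_zero]
        rcases eq_or_ne w P with rfl | hwP
        · rw [hval w hy0 (n := -1) (by rw [hyP]; norm_num)]
          simp [D₁]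
        · simpa [D₁, Finsupp.single_eq_of_ne hwP] using le_one_of_ord_nonneg (hyw w hw hwP)
      obtain ⟨c, hc, hc0⟩ := hbase r hr
      have hc' : c ≠ 0 := hc0 (by
        show P.adicValuation (y - (β : Place K F → F) P) = _
        rw [singleRepartition_apply_ne (Ne.symm hv), sub_zero]
        exact hval P hy0 (by rw [hyP]; norm_num))
      have h1 := hφ0 _ (Submodule.mem_sup_left hc)
      have h2 : φ (algebraMap F ↥(repartitions K F) y) = 0 :=
        hφ0 _ (Submodule.mem_sup_right (mem_principalRepartitions_iff.2 ⟨y, rfl⟩))
      simp only [r, map_sub, map_smul, h2, zero_sub, sub_eq_zero, smul_eq_mul] at h1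
      intro h3
      rw [h3, neg_zero, eq_comm, mul_eq_zero] at h1
      exact h1.elim hc' hφe

end FermatLib.Curve
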