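import Fermat.Agent.Curve.FiniteExtension
import Fermat.Agent.Curve.HurwitzDifferential
import Fermat.Agent.Curve.RationalWeil
import Fermat.Agent.Curve.KaehlerBasic

/-!
# Divisors of differentials belong to Weil differentials

In characteristic zero the divisor of any nonzero Kähler differential `f dx` of a function field
over an algebraically closed field is the divisor of a Weil differential.
-/

set_option autoImplicit false

noncomputable section

open AlgebraicCurve KaehlerDifferential IntermediateField WithZero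
open scoped IntermediateField

namespace FermatLib.Curve

variable {K F : Type*} [Field K] [Field F] [Algebra K F]

theorem adjoin_gen_eq_top (x : F) : K⟮AdjoinSimple.gen K x⟯ = ⊤ := by
  apply IntermediateField.map_injective K⟮x⟯.val
  rw [IntermediateField.adjoin_map, Set.image_singleton, ← AlgHom.fieldRange_eq_map,
    IntermediateField.fieldRange_val]
  rfl

theorem transcendental_gen {x : F} (hx : Transcendental K x) :
    Transcendental K (AdjoinSimple.gen K x) :=
  (transcendental_algebraMap_iff (A := F) (algebraMap K⟮x⟯ F).injective).1 hx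

theorem finiteDimensional_of_adjoin_eq_top {y : F} (h : K⟮y⟯ = ⊤) : FiniteDimensional K⟮y⟯ F :=
  Module.Finite.of_surjective (Algebra.linearMap K⟮y⟯ F) fun f => ⟨⟨f, h ▸ mem_top⟩, rfl⟩

theorem finrank_adjoin_eq_one_of_eq_top {y : F} (h : K⟮y⟯ = ⊤) : Module.finrank K⟮y⟯ F = 1 := by
  rw [h]
  exact IntermediateField.finrank_top

section rational

variable [IsAlgClosed K] [IsFunctionField K F]

/-- A generator of a rational function field has a single simple pole. -/
theorem exists_unique_simple_pole {y : F} (hy : Transcendental K y) (h : K⟮y⟯ = ⊤) :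
    ∃ P : Place K F, P.ord y = -1 ∧ ∀ w, w ≠ P → 0 ≤ w.ord y := by
  classical
  have hs := sum_poles_ord_mul_deg hy
  rw [finrank_adjoin_eq_one_of_eq_top h] at hs
  simp only [deg_eq_one, Nat.cast_one, mul_one] at hs
  have hne : (poles K y).Nonempty := by
    by_contra h0
    rw [Finset.not_nonempty_iff_eq_empty.1 h0, Finset.sum_empty] at hs
    exact zero_ne_one hs
  obtain ⟨P, hP⟩ := hne
  have hP' : P.ord y < 0 := mem_poles.1 hP
  rw [← Finset.add_sum_erase _ _ hP] at hs
  have hge : 0 ≤ ∑ v ∈ (poles K y).erase P, -v.ord y := Finset.sum_nonneg fun v hv => by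
    have := mem_poles.1 (Finset.mem_of_mem_erase hv); omega
  refine ⟨P, by omega, fun w hw => ?_⟩
  by_contra hneg
  rw [not_le] at hneg
  have h1 := Finset.single_le_sum (f := fun v : Place K F => -v.ord y)
    (fun v hv => by have := mem_poles.1 (Finset.mem_of_mem_erase hv); omega)
    (Finset.mem_erase.2 ⟨hw, mem_poles.2 hneg⟩ : w ∈ (poles K y).erase P)
  omega

/-- The hypotheses of `exists_isWeilDivisorOf_rational`. -/
theorem exists_simple_pole_data {x : F} (hx : Transcendental K x) (htop : K⟮x⟯ = ⊤) :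
    ∃ P : Place K F, P.ord x = -1 ∧ (∀ w, w ≠ P → 0 ≤ w.ord x) ∧
      ∀ v : Place K F, v ≠ P → ∃ (c : K) (y : F), v.ord (x - algebraMap K F c) = 1 ∧
        v.ord y = -1 ∧ P.ord y = 1 ∧ ∀ w, w ≠ v → w ≠ P → 0 ≤ w.ord y := by
  obtain ⟨P, hP, hxw⟩ := exists_unique_simple_pole hx htop
  refine ⟨P, hP, hxw, fun v hv => ?_⟩
  obtain ⟨c, hc | hc⟩ := exists_const_sub v (deg_eq_one v) (Or.inr (hxw v hv))
  · exact absurd (hc ▸ isAlgebraic_algebraMap c) hx
  set z := x - algebraMap K F c
  have hxmem : x ∈ K⟮z⁻¹⟯ := by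
    have h1 : z ∈ K⟮z⁻¹⟯ := by simpa using inv_mem (mem_adjoin_simple_self K z⁻¹)
    simpa [z] using add_mem h1 (IntermediateField.algebraMap_mem _ c)
  have htop' : K⟮z⁻¹⟯ = ⊤ :=
    top_le_iff.1 (htop ▸ IntermediateField.adjoin_simple_le_iff.2 hxmem)
  have hz : Transcendental K z⁻¹ := by
    intro halg
    have hzalg : IsAlgebraic K z := by simpa using halg.inv
    exact hx (by simpa [z] using hzalg.add (isAlgebraic_algebraMap c))
  obtain ⟨Q, hQ, hQw⟩ := exists_unique_simple_pole hz htop'
  have hvQ : v = Q := by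
    by_contra hne
    have := hQw v hne
    rw [v.ord_inv] at this
    omega
  subst hvQ
  have hPz : P.ord z = -1 := by
    have hx0 : x ≠ 0 := fun h => by simp [h] at hP
    show -(log (P.adicValuation (x - algebraMap K F c))) = -1
    rw [Valuation.map_sub_eq_of_lt_left _
      (lt_of_le_of_lt (P.adicValuation_algebraMap_le_one c) ?_),
      P.adicValuation_eq_exp_neg_ord hx0, log_exp, hP, neg_neg]
    rw [P.adicValuation_eq_exp_neg_ord hx0, hP, ← exp_zero]
    exact exp_lt_exp.2 (by norm_num)
  refine ⟨c, z⁻¹, ?_, hQ, by rw [P.ord_inv, hPz, neg_neg], fun w hwv _ => hQw w hwv⟩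
  rw [v.ord_inv] at hQ
  show v.ord z = 1
  omega

end rational

section main

variable [IsAlgClosed K] [CharZero K] [IsCurveOver K F] [IsFunctionField K F]

/-- The divisor of `dx` is the divisor of a Weil differential. -/
theorem exists_isWeilDivisorOf_D {x : F} (hx : Transcendental K x) {D : Divisor K F}
    (hD : ∀ w, D w = w.ordDifferential (KaehlerDifferential.D K F x)) :
    ∃ ψ : ↥(repartitions K F) →ₗ[K] K, IsWeilDivisorOf D ψ := by
  classical
  set g := AdjoinSimple.gen K x
  have hg : Transcendental K g := transcendental_gen hx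
  have htop : K⟮g⟯ = ⊤ := adjoin_gen_eq_top x
  have : FiniteDimensional K⟮g⟯ K⟮x⟯ := finiteDimensional_of_adjoin_eq_top htop
  have : IsFunctionField K K⟮x⟯ := IsFunctionField.of_transcendental hg
  have : IsCurveOver K K⟮x⟯ := isCurveOver_of_separating hg finite_residueField_of_isFunctionField
  have : FiniteDimensional K⟮x⟯ F := finiteDimensional_adjoin_of_transcendental hx
  obtain ⟨P, hP, hgw, hfin⟩ := exists_simple_pole_data hg htop
  have hdeg : ∀ v : Place K K⟮x⟯, v.deg = 1 := fun v => deg_eq_one v
  obtain ⟨φ, hφ⟩ := exists_isWeilDivisorOf_rational hdeg hP hgw fun v hv => by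
    obtain ⟨c, y, -, hy⟩ := hfin v hv
    exact ⟨y, hy⟩
  have hDg : KaehlerDifferential.D K K⟮x⟯ g ≠ 0 :=
    (ordDifferential_D_of_deg_eq_one P (hdeg P) IsCurveOver.finrank_kaehler
      (by rw [hP]; simp)).1
  have hD₀ : ∀ v, (Finsupp.single P (-2) : Divisor K K⟮x⟯) v
      = v.ordDifferential (KaehlerDifferential.D K K⟮x⟯ g) := by
    intro v
    rcases eq_or_ne v P with rfl | hv
    · rw [ordDifferential_D_of_neg v (by rw [hP]; norm_num), hP, Finsupp.single_eq_same]
      norm_num
    · obtain ⟨c, y, hc, -⟩ := hfin v hv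
      rw [ordDifferential_D_of_pos v c (by rw [hc]; norm_num), hc, Finsupp.single_eq_of_ne hv,
        sub_self]
  refine exists_isWeilDivisorOf_pullback (F := K⟮x⟯) (fun w => ?_) hDg hD₀ hφ
    (fun w => by rw [hD w, KaehlerDifferential.map_D]; rfl)
  exact Nat.cast_ne_zero.2 (w.ramificationIndex_pos (F := K⟮x⟯)).ne'

end main

end FermatLib.Curve
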