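import Fermat.Agent.Curve.Cotrace

/-!
# Multiplying a Weil differential by a function

If `D` is the divisor of a Weil differential `φ`, then `D + div f` is the divisor of `f φ`.
-/

set_option autoImplicit false

noncomputable section

open AlgebraicCurve WithZero

namespace FermatLib.Curve

variable {K F : Type*} [Field K] [Field F] [Algebra K F]

/-- The product of a linear form on repartitions with a function. -/
def smulWeil (f : F) (φ : ↥(repartitions K F) →ₗ[K] K) : ↥(repartitions K F) →ₗ[K] K :=
  φ ∘ₗ (Algebra.lsmul K K ↥(repartitions K F) f)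

theorem smulWeil_apply (f : F) (φ : ↥(repartitions K F) →ₗ[K] K) (α : ↥(repartitions K F)) :
    smulWeil f φ α = φ (f • α) := rfl

theorem smul_mem_repartitionsOf {f : F} (hf : f ≠ 0) {E : Divisor K F}
    (hE : ∀ v : Place K F, E v = v.ord f) {D : Divisor K F} {α : ↥(repartitions K F)}
    (hα : α ∈ repartitionsOf (D + E)) : f • α ∈ repartitionsOf D := fun v => by
  show v.adicValuation (f * (α : Place K F → F) v) ≤ _
  rw [map_mul, v.adicValuation_eq_exp_neg_ord hf]
  refine (mul_le_mul' le_rfl (hα v)).trans ?_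
  rw [← exp_add, exp_le_exp, Finsupp.add_apply, hE]
  omega

theorem IsWeilDivisorOf.smul {D : Divisor K F} {φ : ↥(repartitions K F) →ₗ[K] K}
    (hφ : IsWeilDivisorOf D φ) {f : F} (hf : f ≠ 0) {E : Divisor K F}
    (hE : ∀ v : Place K F, E v = v.ord f) : IsWeilDivisorOf (D + E) (smulWeil f φ) := by
  refine ⟨fun α hα => ?_, fun α hα => ?_, fun v => ?_⟩
  · exact hφ.map_repartitionsOf _ (smul_mem_repartitionsOf hf hE hα)
  · obtain ⟨g, hg⟩ := mem_principalRepartitions_iff.1 hα
    refine hφ.map_principal _ (mem_principalRepartitions_iff.2 ⟨f * g, ?_⟩)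
    funext w
    show f * (α : Place K F → F) w = f * g
    rw [hg]
  · obtain ⟨α, hα, hα0⟩ := hφ.exists_ne_zero v
    refine ⟨f⁻¹ • α, ?_, ?_⟩
    · refine smul_mem_repartitionsOf (inv_ne_zero hf) (E := -E)
        (fun w => by rw [Finsupp.neg_apply, hE, w.ord_inv]) ?_
      rwa [show D + E + Finsupp.single v 1 + -E = D + Finsupp.single v 1 by abel]
    · rw [smulWeil_apply, smul_inv_smul₀ hf]
      exact hα0

end FermatLib.Curve
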