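import Fermat.Agent.Curve.HurwitzCanonical
import Fermat.Agent.Curve.WeilShift
import Fermat.Agent.Curve.CanonicalDegree

/-!
# The divisor of any nonzero differential belongs to a Weil differential
-/

set_option autoImplicit false

noncomputable section

open AlgebraicCurve KaehlerDifferential

namespace FermatLib.Curve

variable {K F : Type*} [Field K] [Field F] [Algebra K F] [IsAlgClosed K] [CharZero K]
  [IsCurveOver K F] [IsFunctionField K F] [HasCanonicalDivisor (K := K) (F := F)]

/-- **Canonical divisors are the divisors of Weil differentials.** -/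
theorem exists_isWeilDivisorOf_ordDifferential {ω : Ω[F⁄K]} (hω : ω ≠ 0) {D : Divisor K F}
    (hD : ∀ v, D v = v.ordDifferential ω) :
    ∃ ψ : ↥(repartitions K F) →ₗ[K] K, IsWeilDivisorOf D ψ := by
  obtain ⟨x, hx, -⟩ := IsFunctionField.exists_transcendental (K := K) (F := F)
  have : FiniteDimensional ↥(IntermediateField.adjoin K {x}) F :=
    finiteDimensional_adjoin_of_transcendental hx
  have hDx : KaehlerDifferential.D K F x ≠ 0 := D_ne_zero_of_separating hx
  have hD₀ := canonicalDivisorOf_apply (K := K) (F := F) hDx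
  obtain ⟨φ, hφ⟩ := exists_isWeilDivisorOf_D hx hD₀
  obtain ⟨f, hf0, -, hf⟩ := exists_ord_eq_sub_ordDifferential hDx hω hD₀ hD
  have hE := hφ.smul hf0 hf
  rw [add_sub_cancel] at hE
  exact ⟨_, hE⟩

end FermatLib.Curve
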