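import Fermat.Agent.Curve.HurwitzCanonicalGeneral
import Fermat.Agent.Curve.RiemannRoch
import Fermat.Agent.Curve.KaehlerDivisor

/-!
# `genus = genusFF`
-/

set_option autoImplicit false

noncomputable section

open AlgebraicCurve KaehlerDifferential

namespace FermatLib.Curve

theorem isFunctionField_of_isCurveOver (K F : Type*) [Field K] [Field F] [Algebra K F]
    [PerfectField K] [IsCurveOver K F] [Algebra.EssFiniteType K F] : IsFunctionField K F := by
  obtain ⟨x, hx, hfin, -⟩ := exists_separating (K := K) (F := F)
  exact IsFunctionField.of_transcendental hx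

variable {K F : Type*} [Field K] [Field F] [Algebra K F] [IsAlgClosed K] [CharZero K]
  [IsCurveOver K F] [IsFunctionField K F] [HasCanonicalDivisor (K := K) (F := F)]

section givenEquation

variable (hR : RiemannEquation K F)

include hR

/-- Canonical divisors have degree `2g - 2` and `l = g`. -/
theorem degree_ordDifferential_of_riemannEquation {ω : Ω[F⁄K]} (hω : ω ≠ 0) {D : Divisor K F}
    (hD : ∀ v, D v = v.ordDifferential ω) :
    Divisor.degree D = 2 * (genusFF K F : ℤ) - 2 ∧
      Module.finrank K ↥(riemannRochSpace D) = genusFF K F := by
  obtain ⟨ψ, hψ⟩ := exists_isWeilDivisorOf_ordDifferential hω hD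
  exact degree_eq_and_finrank_eq hψ hR fun v => deg_eq_one v

theorem genus_eq_genusFF_of_riemannEquation : genus K F = genusFF K F := by
  obtain ⟨x, hx, hfin⟩ := ‹IsFunctionField K F›
  have hDx : KaehlerDifferential.D K F x ≠ 0 := D_ne_zero_of_separating hx
  exact genus_eq_of_degree_eq hDx (canonicalDivisorOf_apply hDx)
    (degree_ordDifferential_of_riemannEquation hR hDx (canonicalDivisorOf_apply hDx)).1

end givenEquation

variable (K F) in
/-- The genus defined by differentials is the genus defined by repartitions. -/
theorem genus_eq_genusFF : genus K F = genusFF K F :=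
  genus_eq_genusFF_of_riemannEquation (riemannEquation K F)

end FermatLib.Curve
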