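import Fermat.Agent.Curve.JacSmoothModel

/-!
# Places centred at a smooth point of a plane model are unique
-/

set_option autoImplicit false

noncomputable section

open Polynomial AlgebraicCurve

namespace FermatLib.Curve

variable {K F : Type*} [Field K] [Field F] [Algebra K F]

/-- `w` is centred at the point `(a, y)` of the `(t, θ)`-plane. -/
def jacCentred (t θ : F) (a y : K) (w : Place K F) : Prop :=
  t - algebraMap K F a ∈ ordGE w 1 ∧ θ - algebraMap K F y ∈ ordGE w 1

variable {t θ : F} {a y : K} {Q : K[X][X]}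

private theorem jac_sub_ne_zero (ht : t ∉ Set.range (algebraMap K F)) : t - algebraMap K F a ≠ 0 :=
  fun h => ht ⟨a, (sub_eq_zero.1 h).symm⟩

theorem jacCentred_ord_pos (ht : t ∉ Set.range (algebraMap K F)) {w : Place K F}
    (hw : jacCentred t θ a y w) : 1 ≤ w.ord (t - algebraMap K F a) :=
  le_ord_of_mem hw.1 (jac_sub_ne_zero ht)

/-- At a smooth point all centred places see every polynomial expression with the same
multiplicity. -/
theorem jacCentred_exists_mult (ht : t ∉ Set.range (algebraMap K F)) (hroot : jacEv t θ Q = 0)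
    (hQ : jacVal a y Q = 0) (hder : jacVal a y (derivative Q) ≠ 0) {w₀ : Place K F}
    (hw₀ : jacCentred t θ a y w₀) (A : K[X][X]) (hA : jacEv t θ A ≠ 0) :
    ∃ n : ℕ, ∀ w : Place K F, jacCentred t θ a y w →
      w.ord (jacEv t θ A) = n * w.ord (t - algebraMap K F a) := by
  obtain ⟨γ, δ, hQdec⟩ := jacVal_decomp a y Q
  rw [hQ] at hQdec
  simp only [map_zero, zero_add] at hQdec
  have hδ : jacVal a y δ = jacVal a y (derivative Q) := by
    conv_rhs => rw [hQdec]
    simp [jacVal]
  have hreg : ∀ {f : F} {c : K} {w : Place K F}, f - algebraMap K F c ∈ ordGE w 1 →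
      f ∈ ordGE w 0 := by
    intro f c w h
    have := add_mem (ordGE_anti (m := 0) (by norm_num) h)
      ((mem_valuationSubring_iff w).1 (w.algebraMap_mem' c))
    simpa using this
  suffices H : ∀ (m : ℕ) (A : K[X][X]), jacEv t θ A ≠ 0 → w₀.ord (jacEv t θ A) = m →
      ∃ n : ℕ, ∀ w : Place K F, jacCentred t θ a y w →
        w.ord (jacEv t θ A) = n * w.ord (t - algebraMap K F a) by
    refine H _ A hA (Int.toNat_of_nonneg ?_).symm
    exact le_ord_of_mem (jacEv_mem_ordGE (hreg hw₀.1) (hreg hw₀.2) A) hA
  intro m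
  induction m using Nat.strong_induction_on with
  | _ m ih =>
    intro A hA hm
    by_cases hv : jacVal a y A = 0
    · obtain ⟨α, β, hdec⟩ := jacVal_decomp a y A
      rw [hv] at hdec
      simp only [map_zero, zero_add] at hdec
      let B : K[X][X] := α * δ - β * γ
      have key : jacEv t θ δ * jacEv t θ A = (t - algebraMap K F a) * jacEv t θ B := by
        have e1 := congrArg (jacEv t θ) hdec
        have e2 := congrArg (jacEv t θ) hQdec
        rw [hroot] at e2
        simp only [map_add, map_mul, map_sub, jacEv_C, jacEv_X, aeval_X, aeval_C] at e1 e2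
        simp only [B, map_sub, map_mul]
        linear_combination jacEv t θ δ * e1 - jacEv t θ β * e2
      have hδw : ∀ w : Place K F, jacCentred t θ a y w →
          jacEv t θ δ ≠ 0 ∧ w.ord (jacEv t θ δ) = 0 := fun w hw =>
        jac_ord_eq_zero_of_sub_mem (hδ ▸ hder) (jacEv_sub_val_mem hw.1 hw.2 δ)
      have hB : jacEv t θ B ≠ 0 := fun h => by
        rw [h, mul_zero] at key
        exact (mul_ne_zero (hδw w₀ hw₀).1 hA) key
      have hord : ∀ w : Place K F, jacCentred t θ a y w →
          w.ord (jacEv t θ A) = w.ord (t - algebraMap K F a) + w.ord (jacEv t θ B) := by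
        intro w hw
        have := congrArg w.ord key
        rw [w.ord_mul (hδw w hw).1 hA, w.ord_mul (jac_sub_ne_zero ht) hB, (hδw w hw).2,
          zero_add] at this
        exact this
      have h0 : 0 ≤ w₀.ord (jacEv t θ B) :=
        le_ord_of_mem (jacEv_mem_ordGE (hreg hw₀.1) (hreg hw₀.2) B) hB
      have hpos := jacCentred_ord_pos ht hw₀
      have hsum := hord w₀ hw₀
      obtain ⟨n, hn⟩ := ih (w₀.ord (jacEv t θ B)).toNat (by omega) B hB (by omega)
      refine ⟨n + 1, fun w hw => ?_⟩
      rw [hord w hw, hn w hw]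
      push_cast
      ring
    · refine ⟨0, fun w hw => ?_⟩
      rw [(jac_ord_eq_zero_of_sub_mem hv (jacEv_sub_val_mem hw.1 hw.2 A)).2]
      simp

/-- There is at most one place centred at a smooth point. -/
theorem jacCentred_unique (ht : t ∉ Set.range (algebraMap K F)) (hroot : jacEv t θ Q = 0)
    (hQ : jacVal a y Q = 0) (hder : jacVal a y (derivative Q) ≠ 0)
    (hgen : ∀ f : F, ∃ (A : K[X][X]) (d : K[X]), aeval t d ≠ 0 ∧ f * aeval t d = jacEv t θ A)
    {w w' : Place K F} (hw : jacCentred t θ a y w) (hw' : jacCentred t θ a y w') : w = w' := by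
  have key : ∀ f : F, f ≠ 0 → ∃ n : ℤ, ∀ u : Place K F, jacCentred t θ a y u →
      u.ord f = n * u.ord (t - algebraMap K F a) := by
    intro f hf
    obtain ⟨A, d, hd, hfd⟩ := hgen f
    obtain ⟨n, hn⟩ := jacCentred_exists_mult ht hroot hQ hder hw A
      (by rw [← hfd]; exact mul_ne_zero hf hd)
    obtain ⟨k, hk⟩ := jacCentred_exists_mult ht hroot hQ hder hw (C d) (by rwa [jacEv_C])
    refine ⟨(n : ℤ) - k, fun u hu => ?_⟩
    have := congrArg u.ord hfd
    rw [u.ord_mul hf hd, hn u hu] at this
    have h2 := hk u hu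
    rw [jacEv_C] at h2
    rw [sub_mul]
    omega
  have he : ∀ u : Place K F, jacCentred t θ a y u → u.ord (t - algebraMap K F a) = 1 := by
    intro u hu
    obtain ⟨n, hn⟩ := key (unif u) (unif_ne_zero u)
    have := hn u hu
    rw [ord_unif] at this
    have hpos := jacCentred_ord_pos ht hu
    rcases Int.eq_one_or_neg_one_of_mul_eq_one' this.symm with h | h <;> omega
  refine place_eq_of_le fun f hf => ?_
  rcases eq_or_ne f 0 with rfl | hf0
  · simp
  obtain ⟨n, hn⟩ := key f hf0
  rw [hn w' hw', he w' hw']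
  rw [hn w hw, he w hw] at hf
  exact hf

end FermatLib.Curve

end
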