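import Mathlib.Analysis.Calculus.ContDiff.RCLike
import Mathlib.Analysis.Calculus.InverseFunctionTheorem.ContDiff
import Mathlib.Analysis.Complex.CauchyIntegral

/-!
# A scalar implicit function theorem with uniqueness
-/

set_option autoImplicit false

open Topology Filter

namespace FermatLib.Curve

variable {H : Type*} [NormedAddCommGroup H] [NormedSpace ℂ H] [CompleteSpace H]

/-- Near a simple zero in `w` of a `C²` function `G (h, w)` the zero is a `C²` function of `h`. -/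
theorem jacImplicit {G : H × ℂ → ℂ} {p : H × ℂ} (hG : ContDiffAt ℂ 2 G p) (hG0 : G p = 0)
    {D : H × ℂ →L[ℂ] ℂ} (hD : HasFDerivAt G D p) (hne : D (0, 1) ≠ 0) :
    ∃ y : H → ℂ, ContDiffAt ℂ 2 y p.1 ∧ y p.1 = p.2 ∧
      (∀ᶠ h in 𝓝 p.1, G (h, y h) = 0) ∧ ∀ᶠ q in 𝓝 p, G q = 0 → q.2 = y q.1 := by
  let Φ : H × ℂ → H × ℂ := fun q => (q.1, G q)
  let e₁ : H × ℂ →L[ℂ] H × ℂ := (ContinuousLinearMap.fst ℂ H ℂ).prod D
  let e₂ : H × ℂ →L[ℂ] H × ℂ := (ContinuousLinearMap.fst ℂ H ℂ).prod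
    ((D (0, 1))⁻¹ • (ContinuousLinearMap.snd ℂ H ℂ -
      (D.comp (ContinuousLinearMap.inl ℂ H ℂ)).comp (ContinuousLinearMap.fst ℂ H ℂ)))
  have hsplit : ∀ q : H × ℂ, D q = D (q.1, 0) + q.2 * D (0, 1) := fun q => by
    rw [← smul_eq_mul, ← map_smul, ← map_add]
    simp
  have h12 : ∀ q, e₂ (e₁ q) = q := fun q => by
    refine Prod.ext rfl ?_
    simp only [e₁, e₂, ContinuousLinearMap.prod_apply, _root_.smul_apply, _root_.sub_apply,
      ContinuousLinearMap.comp_apply, ContinuousLinearMap.coe_fst', ContinuousLinearMap.coe_snd',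
      ContinuousLinearMap.inl_apply, smul_eq_mul]
    rw [hsplit q]
    field_simp
    ring
  have h21 : ∀ q, e₁ (e₂ q) = q := fun q => by
    refine Prod.ext rfl ?_
    simp only [e₁, e₂, ContinuousLinearMap.prod_apply, _root_.smul_apply, _root_.sub_apply,
      ContinuousLinearMap.comp_apply, ContinuousLinearMap.coe_fst', ContinuousLinearMap.coe_snd',
      ContinuousLinearMap.inl_apply, smul_eq_mul]
    rw [hsplit]
    simp only
    field_simp
    ring
  let e : (H × ℂ) ≃L[ℂ] H × ℂ := ContinuousLinearEquiv.equivOfInverse e₁ e₂ h12 h21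
  have hΦ2 : ContDiffAt ℂ 2 Φ p := contDiffAt_fst.prodMk hG
  have hΦd : HasFDerivAt Φ (e : H × ℂ →L[ℂ] H × ℂ) p := (hasFDerivAt_fst).prodMk hD
  have hΦp : Φ p = (p.1, 0) := by simp [Φ, hG0]
  have hs : HasStrictFDerivAt Φ (e : H × ℂ →L[ℂ] H × ℂ) p :=
    hΦ2.hasStrictFDerivAt' hΦd (by norm_num)
  let inv : H × ℂ → H × ℂ := hΦ2.localInverse hΦd (by norm_num)
  have hinv2 : ContDiffAt ℂ 2 inv (p.1, 0) := by
    rw [← hΦp]
    exact hΦ2.to_localInverse hΦd (by norm_num)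
  have hinvp : inv (p.1, 0) = p := by
    rw [← hΦp]
    exact hΦ2.localInverse_apply_image hΦd (by norm_num)
  have hin : Tendsto (fun h : H => (h, (0 : ℂ))) (𝓝 p.1) (𝓝 (p.1, 0)) :=
    (continuous_id.prodMk continuous_const).tendsto _
  refine ⟨fun h => (inv (h, 0)).2, ?_, by simp [hinvp], ?_, ?_⟩
  · exact (ContDiffAt.comp p.1 (g := inv) hinv2 (contDiffAt_id.prodMk contDiffAt_const)).snd
  · have hr := hs.eventually_right_inverse
    rw [hΦp] at hr
    filter_upwards [hin.eventually hr] with h hh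
    have hh' : Φ (inv (h, 0)) = (h, 0) := hh
    have h1 : (inv (h, 0)).1 = h := congrArg Prod.fst hh'
    have h2 : G (inv (h, 0)) = 0 := congrArg Prod.snd hh'
    rw [show (h, (inv (h, 0)).2) = inv (h, 0) from Prod.ext h1.symm rfl]
    exact h2
  · filter_upwards [hs.eventually_left_inverse] with q hq hq0
    have hq' : inv (Φ q) = q := hq
    have : Φ q = (q.1, 0) := by simp [Φ, hq0]
    rw [← this, hq']

/-- The one-variable case: the implicit function is analytic. -/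
theorem jacImplicit_analytic {G : ℂ × ℂ → ℂ} {p : ℂ × ℂ} (hG : ContDiffAt ℂ 2 G p) (hG0 : G p = 0)
    {D : ℂ × ℂ →L[ℂ] ℂ} (hD : HasFDerivAt G D p) (hne : D (0, 1) ≠ 0) :
    ∃ y : ℂ → ℂ, AnalyticAt ℂ y p.1 ∧ y p.1 = p.2 ∧
      (∀ᶠ z in 𝓝 p.1, G (z, y z) = 0) ∧ ∀ᶠ q in 𝓝 p, G q = 0 → q.2 = y q.1 := by
  obtain ⟨y, hy, h1, h2, h3⟩ := jacImplicit hG hG0 hD hne
  refine ⟨y, ?_, h1, h2, h3⟩
  rw [Complex.analyticAt_iff_eventually_differentiableAt]
  filter_upwards [hy.eventually (by simp)] with z hz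
  exact hz.differentiableAt (by norm_num)

end FermatLib.Curve
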