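import Fermat.Agent.Curve.JacCenter
import Fermat.Agent.Curve.JacImplicit
import Mathlib.Analysis.Meromorphic.Order
import Mathlib.Analysis.Calculus.FDeriv.Mul

/-!
# Analytic charts on the space of places of a complex function field

A smooth model at a place gives a meromorphic function on a small disc for every element of the
field, and the order of vanishing at a point of the disc gives a place.
-/

set_option autoImplicit false

noncomputable section

open Polynomial AlgebraicCurve Topology Filter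

namespace FermatLib.Curve

variable {F : Type*} [Field F] [Algebra ℂ F] {v : Place ℂ F}

theorem jacVal_C (a y : ℂ) (q : ℂ[X]) : jacVal a y (C q) = q.eval a := by simp [jacVal]

theorem jacPoly_analytic (q : ℂ[X]) (z₀ : ℂ) : AnalyticAt ℂ (fun z => q.eval z) z₀ :=
  q.differentiable.analyticAt z₀

theorem jacVal_analytic (A : ℂ[X][X]) {y : ℂ → ℂ} {z₀ : ℂ} (hy : AnalyticAt ℂ y z₀) :
    AnalyticAt ℂ (fun z => jacVal z (y z) A) z₀ := by
  induction A using Polynomial.induction_on' with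
  | add p q hp hq =>
    simp only [map_add]
    exact hp.fun_add hq
  | monomial n q =>
    simp only [jacVal, coe_eval₂RingHom, eval₂_monomial, coe_evalRingHom]
    exact (AnalyticAt.fun_mul (jacPoly_analytic q z₀) (hy.fun_pow n))

theorem jacVal_contDiffAt (A : ℂ[X][X]) (p : ℂ × ℂ) :
    ContDiffAt ℂ 2 (fun q : ℂ × ℂ => jacVal q.1 q.2 A) p := by
  induction A using Polynomial.induction_on' with
  | add p q hp hq =>
    simp only [map_add]
    exact hp.add hq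
  | monomial n q =>
    simp only [jacVal, coe_eval₂RingHom, eval₂_monomial, coe_evalRingHom]
    have hq : ContDiff ℂ 2 (fun z : ℂ => q.eval z) := by
      simpa [Polynomial.aeval_def, eval_eq_sum] using q.contDiff_aeval (𝕜 := ℂ) 2
    exact (hq.comp contDiff_fst).contDiffAt.mul (contDiffAt_snd.pow n)

theorem jacVal_deriv_snd (A : ℂ[X][X]) (p : ℂ × ℂ) :
    fderiv ℂ (fun q : ℂ × ℂ => jacVal q.1 q.2 A) p (0, 1) = jacVal p.1 p.2 (derivative A) := by
  have hd := ((jacVal_contDiffAt A p).differentiableAt (by norm_num)).hasFDerivAt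
  let line : ℂ → ℂ × ℂ := fun y => (p.1, y)
  have hl : HasDerivAt line (0, 1) p.2 := (hasDerivAt_const _ _).prodMk (hasDerivAt_id _)
  have h1 : HasDerivAt (fun y => jacVal p.1 y A)
      (fderiv ℂ (fun q : ℂ × ℂ => jacVal q.1 q.2 A) p (0, 1)) p.2 := by
    exact hd.comp_hasDerivAt (f := line) p.2 hl
  have h2 : HasDerivAt (fun y => jacVal p.1 y A) (jacVal p.1 p.2 (derivative A)) p.2 := by
    have := (A.map (evalRingHom p.1)).hasDerivAt p.2
    rw [derivative_map] at this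
    simpa [jacVal, eval_map] using this
  exact h1.unique h2

/-- An analytic chart at the place `v`: a smooth model together with the branch `y` through it. -/
structure JacChart (v : Place ℂ F) where
  model : JacModel v
  r : ℝ
  r_pos : 0 < r
  y : ℂ → ℂ
  y_analytic : ∀ z, ‖z‖ < r → AnalyticAt ℂ y z
  y_zero : y 0 = model.c
  y_root : ∀ z, ‖z‖ < r → jacVal z (y z) model.Q = 0
  y_simple : ∀ z, ‖z‖ < r → jacVal z (y z) (derivative model.Q) ≠ 0
  y_unique : ∀ z w, ‖z‖ < r → ‖w - model.c‖ < r → jacVal z w model.Q = 0 → w = y z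

theorem jacChart_nonempty [IsCurveOver ℂ F] [Algebra.EssFiniteType ℂ F] (v : Place ℂ F) :
    Nonempty (JacChart v) := by
  obtain ⟨M⟩ := jacModel_nonempty v
  have hQc : jacVal 0 M.c M.Q = 0 := by
    by_contra hne
    have h := jacEv_sub_val_mem (w := v) (a := 0) (y := M.c)
      (by simpa using mem_ordGE_of_le M.ord_t.ge) M.θ_sub M.Q
    exact (jac_ord_eq_zero_of_sub_mem hne h).1 M.root
  obtain ⟨y, hya, hy0, hyr, hyu⟩ := jacImplicit_analytic
    (G := fun q : ℂ × ℂ => jacVal q.1 q.2 M.Q) (p := (0, M.c)) (jacVal_contDiffAt _ _) hQc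
    ((jacVal_contDiffAt _ _).differentiableAt (by norm_num)).hasFDerivAt
    (by rw [jacVal_deriv_snd]; exact M.der _)
  have hs : ∀ᶠ z in 𝓝 (0 : ℂ), jacVal z (y z) (derivative M.Q) ≠ 0 :=
    (jacVal_analytic _ hya).continuousAt.eventually_ne (by
      show jacVal 0 (y 0) (derivative M.Q) ≠ 0
      rw [hy0]
      exact M.der _)
  obtain ⟨r₁, hr₁, h₁⟩ := Metric.eventually_nhds_iff.1
    ((hya.eventually_analyticAt).and (hyr.and hs))
  obtain ⟨r₂, hr₂, h₂⟩ := Metric.eventually_nhds_iff.1 hyu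
  refine ⟨⟨M, min r₁ r₂, lt_min hr₁ hr₂, y, fun z hz => ?_, hy0, fun z hz => ?_, fun z hz => ?_,
    fun z w hz hw h => ?_⟩⟩
  · exact (h₁ (by simpa using hz.trans_le (min_le_left _ _))).1
  · exact (h₁ (by simpa using hz.trans_le (min_le_left _ _))).2.1
  · exact (h₁ (by simpa using hz.trans_le (min_le_left _ _))).2.2
  · refine h₂ (y := (z, w)) ?_ h
    rw [dist_eq_norm, Prod.norm_def]
    simp only [Prod.fst_sub, Prod.snd_sub, sub_zero]
    exact max_lt (hz.trans_le (min_le_right _ _)) (hw.trans_le (min_le_right _ _))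

namespace JacChart

variable (Φ : JacChart v)

theorem t_notMem_range : Φ.model.t ∉ Set.range (algebraMap ℂ F) := by
  rintro ⟨c, hc⟩
  have := Φ.model.ord_t
  rw [← hc, ord_algebraMap] at this
  exact zero_ne_one this

theorem aeval_ne_zero {d : ℂ[X]} (hd : d ≠ 0) : aeval Φ.model.t d ≠ 0 :=
  (jacOrd_aeval Φ.model.ord_t hd).1

/-- The meromorphic function on the chart disc attached to `f`. -/
def hat (f : F) (z : ℂ) : ℂ :=
  jacVal z (Φ.y z) (Φ.model.gen f).choose / ((Φ.model.gen f).choose_spec.choose).eval z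

theorem eventually_eval_ne_zero {d : ℂ[X]} (hd : d ≠ 0) (z₀ : ℂ) :
    ∀ᶠ z in 𝓝[≠] z₀, d.eval z ≠ 0 := by
  rw [eventually_nhdsWithin_iff]
  have hfin : {z : ℂ | d.IsRoot z ∧ z ≠ z₀}.Finite :=
    (Polynomial.finite_setOfPred_isRoot hd).subset fun z hz => hz.1
  filter_upwards [hfin.isClosed.isOpen_compl.mem_nhds (x := z₀) (fun h => h.2 rfl)] with z hz hne h
  exact hz ⟨h, hne⟩

theorem eventually_lt {z₀ : ℂ} (hz : ‖z₀‖ < Φ.r) : ∀ᶠ z in 𝓝[≠] z₀, ‖z‖ < Φ.r :=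
  ((isOpen_lt continuous_norm continuous_const).eventually_mem hz).filter_mono nhdsWithin_le_nhds

/-- Relations in `F` hold for the values on the branch, outside finitely many points. -/
theorem eventually_val_eq {z₀ : ℂ} (hz : ‖z₀‖ < Φ.r) {A B : ℂ[X][X]}
    (h : jacEv Φ.model.t Φ.model.θ A = jacEv Φ.model.t Φ.model.θ B) :
    ∀ᶠ z in 𝓝[≠] z₀, jacVal z (Φ.y z) A = jacVal z (Φ.y z) B := by
  obtain ⟨a, ha, R, hR⟩ := Φ.model.ker (A - B) (by rw [map_sub, h, sub_self])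
  filter_upwards [eventually_eval_ne_zero ha z₀, Φ.eventually_lt hz] with z h1 h2
  have := congrArg (jacVal z (Φ.y z)) hR
  rw [map_mul, map_mul, map_sub, jacVal_C, Φ.y_root z h2, zero_mul, mul_eq_zero] at this
  exact sub_eq_zero.1 (this.resolve_left h1)

/-- The value of `hat f` may be computed from any representation of `f`. -/
theorem hat_eventuallyEq {z₀ : ℂ} (hz : ‖z₀‖ < Φ.r) {f : F} {A : ℂ[X][X]} {d : ℂ[X]} (hd : d ≠ 0)
    (h : f * aeval Φ.model.t d = jacEv Φ.model.t Φ.model.θ A) :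
    Φ.hat f =ᶠ[𝓝[≠] z₀] fun z => jacVal z (Φ.y z) A / d.eval z := by
  obtain ⟨hd', h'⟩ := (Φ.model.gen f).choose_spec.choose_spec
  set A' := (Φ.model.gen f).choose with hA'
  set d' := (Φ.model.gen f).choose_spec.choose with hd'def
  have he : jacEv Φ.model.t Φ.model.θ (A' * C d) = jacEv Φ.model.t Φ.model.θ (A * C d') := by
    rw [map_mul, map_mul, jacEv_C, jacEv_C, ← h, ← h']
    ring
  filter_upwards [Φ.eventually_val_eq hz he, eventually_eval_ne_zero hd z₀,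
    eventually_eval_ne_zero hd' z₀] with z h1 h2 h3
  rw [map_mul, map_mul, jacVal_C, jacVal_C] at h1
  show jacVal z (Φ.y z) A' / d'.eval z = _
  rw [div_eq_div_iff h3 h2]
  exact h1

theorem meromorphicAt_hat (f : F) {z₀ : ℂ} (hz : ‖z₀‖ < Φ.r) :
    MeromorphicAt (Φ.hat f) z₀ :=
  (jacVal_analytic _ (Φ.y_analytic z₀ hz)).meromorphicAt.div
    (jacPoly_analytic _ z₀).meromorphicAt

theorem hat_add (f g : F) {z₀ : ℂ} (hz : ‖z₀‖ < Φ.r) :
    Φ.hat (f + g) =ᶠ[𝓝[≠] z₀] Φ.hat f + Φ.hat g := by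
  obtain ⟨A, d, hd, hA⟩ := Φ.model.gen f
  obtain ⟨B, e, he, hB⟩ := Φ.model.gen g
  have h : (f + g) * aeval Φ.model.t (d * e) =
      jacEv Φ.model.t Φ.model.θ (A * C e + B * C d) := by
    rw [map_add (jacEv Φ.model.t Φ.model.θ), map_mul (jacEv Φ.model.t Φ.model.θ),
      map_mul (jacEv Φ.model.t Φ.model.θ), jacEv_C, jacEv_C, ← hA, ← hB, map_mul]
    ring
  filter_upwards [Φ.hat_eventuallyEq hz (mul_ne_zero hd he) h, Φ.hat_eventuallyEq hz hd hA,
    Φ.hat_eventuallyEq hz he hB, eventually_eval_ne_zero hd z₀, eventually_eval_ne_zero he z₀]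
    with z h1 h2 h3 h4 h5
  rw [Pi.add_apply, h1, h2, h3]
  simp only [map_add, map_mul, jacVal_C, eval_mul]
  field_simp

theorem hat_mul (f g : F) {z₀ : ℂ} (hz : ‖z₀‖ < Φ.r) :
    Φ.hat (f * g) =ᶠ[𝓝[≠] z₀] Φ.hat f * Φ.hat g := by
  obtain ⟨A, d, hd, hA⟩ := Φ.model.gen f
  obtain ⟨B, e, he, hB⟩ := Φ.model.gen g
  have h : (f * g) * aeval Φ.model.t (d * e) = jacEv Φ.model.t Φ.model.θ (A * B) := by
    rw [map_mul (jacEv Φ.model.t Φ.model.θ), ← hA, ← hB, map_mul]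
    ring
  filter_upwards [Φ.hat_eventuallyEq hz (mul_ne_zero hd he) h, Φ.hat_eventuallyEq hz hd hA,
    Φ.hat_eventuallyEq hz he hB] with z h1 h2 h3
  rw [Pi.mul_apply, h1, h2, h3]
  simp only [map_mul, eval_mul]
  rw [div_mul_div_comm]

theorem hat_const (c : ℂ) {z₀ : ℂ} (hz : ‖z₀‖ < Φ.r) :
    Φ.hat (algebraMap ℂ F c) =ᶠ[𝓝[≠] z₀] fun _ => c := by
  have h : algebraMap ℂ F c * aeval Φ.model.t (1 : ℂ[X]) =
      jacEv Φ.model.t Φ.model.θ (C (C c) : ℂ[X][X]) := by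
    simp [jacEv_C]
  filter_upwards [Φ.hat_eventuallyEq hz one_ne_zero h] with z h1
  simp [h1, jacVal_C]

theorem hat_t {z₀ : ℂ} (hz : ‖z₀‖ < Φ.r) : Φ.hat Φ.model.t =ᶠ[𝓝[≠] z₀] id := by
  have h : Φ.model.t * aeval Φ.model.t (1 : ℂ[X]) = jacEv Φ.model.t Φ.model.θ (C X : ℂ[X][X]) := by
    simp [jacEv_C]
  filter_upwards [Φ.hat_eventuallyEq hz one_ne_zero h] with z h1
  simp [h1, jacVal_C]

theorem hat_θ {z₀ : ℂ} (hz : ‖z₀‖ < Φ.r) : Φ.hat Φ.model.θ =ᶠ[𝓝[≠] z₀] Φ.y := by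
  have h : Φ.model.θ * aeval Φ.model.t (1 : ℂ[X]) = jacEv Φ.model.t Φ.model.θ (X : ℂ[X][X]) := by
    simp [jacEv_X]
  filter_upwards [Φ.hat_eventuallyEq hz one_ne_zero h] with z h1
  simp [h1, jacVal]

theorem hat_smul (c : ℂ) (f : F) {z₀ : ℂ} (hz : ‖z₀‖ < Φ.r) :
    Φ.hat (c • f) =ᶠ[𝓝[≠] z₀] c • Φ.hat f := by
  rw [Algebra.smul_def]
  filter_upwards [Φ.hat_mul (algebraMap ℂ F c) f hz, Φ.hat_const c hz] with z h1 h2
  rw [h1, Pi.mul_apply, h2, Pi.smul_apply, smul_eq_mul]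

/-- The order of `f` at the point `z` of the chart, as an extended integer. -/
def ordAt (z : ℂ) (f : F) : WithTop ℤ := meromorphicOrderAt (Φ.hat f) z

theorem ordAt_mul {z : ℂ} (hz : ‖z‖ < Φ.r) (f g : F) :
    Φ.ordAt z (f * g) = Φ.ordAt z f + Φ.ordAt z g := by
  rw [ordAt, meromorphicOrderAt_congr (Φ.hat_mul f g hz)]
  exact meromorphicOrderAt_mul (Φ.meromorphicAt_hat f hz) (Φ.meromorphicAt_hat g hz)

theorem ordAt_const {z : ℂ} (hz : ‖z‖ < Φ.r) {c : ℂ} (hc : c ≠ 0) :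
    Φ.ordAt z (algebraMap ℂ F c) = 0 := by
  rw [ordAt, meromorphicOrderAt_congr (Φ.hat_const c hz), analyticAt_const.meromorphicOrderAt_eq,
    analyticAt_const.analyticOrderAt_eq_zero.2 hc]
  rfl

theorem ordAt_zero {z : ℂ} (hz : ‖z‖ < Φ.r) : Φ.ordAt z 0 = ⊤ := by
  rw [ordAt, meromorphicOrderAt_eq_top_iff]
  filter_upwards [Φ.hat_const 0 hz] with w h
  rwa [map_zero] at h

theorem ordAt_ne_top {z : ℂ} (hz : ‖z‖ < Φ.r) {f : F} (hf : f ≠ 0) : Φ.ordAt z f ≠ ⊤ := by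
  intro h
  have := Φ.ordAt_mul hz f f⁻¹
  rw [mul_inv_cancel₀ hf, h, top_add, ← map_one (algebraMap ℂ F),
    Φ.ordAt_const hz one_ne_zero] at this
  exact WithTop.zero_ne_top this

theorem ordAt_add {z : ℂ} (hz : ‖z‖ < Φ.r) (f g : F) :
    min (Φ.ordAt z f) (Φ.ordAt z g) ≤ Φ.ordAt z (f + g) :=
  (meromorphicOrderAt_add (Φ.meromorphicAt_hat f hz) (Φ.meromorphicAt_hat g hz)).trans
    (meromorphicOrderAt_congr (Φ.hat_add f g hz)).ge

theorem ordAt_t_sub {z : ℂ} (hz : ‖z‖ < Φ.r) :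
    Φ.ordAt z (Φ.model.t - algebraMap ℂ F z) = 1 := by
  have h : Φ.hat (Φ.model.t - algebraMap ℂ F z) =ᶠ[𝓝[≠] z] fun w => w - z := by
    rw [sub_eq_add_neg, ← map_neg]
    filter_upwards [Φ.hat_add Φ.model.t (algebraMap ℂ F (-z)) hz, Φ.hat_t hz,
      Φ.hat_const (-z) hz] with w h1 h2 h3
    rw [h1, Pi.add_apply, h2, h3, id, sub_eq_add_neg]
  rw [ordAt, meromorphicOrderAt_congr h]
  exact meromorphicOrderAt_id_sub_const

/-- The valuation ring of the point `z` of the chart. -/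
def ptSubring (z : ℂ) (hz : ‖z‖ < Φ.r) : ValuationSubring F where
  carrier := {f | 0 ≤ Φ.ordAt z f}
  zero_mem' := by simp [Φ.ordAt_zero hz]
  one_mem' := by
    show 0 ≤ Φ.ordAt z 1
    rw [← map_one (algebraMap ℂ F), Φ.ordAt_const hz one_ne_zero]
  add_mem' := fun {f g} hf hg => le_trans (le_min hf hg) (Φ.ordAt_add hz f g)
  mul_mem' := fun {f g} hf hg => by
    show 0 ≤ Φ.ordAt z (f * g)
    rw [Φ.ordAt_mul hz]
    exact add_nonneg hf hg
  neg_mem' := fun {f} hf => by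
    show 0 ≤ Φ.ordAt z (-f)
    rw [← neg_one_mul, Φ.ordAt_mul hz, ← map_one (algebraMap ℂ F), ← map_neg,
      Φ.ordAt_const hz (neg_ne_zero.2 one_ne_zero), zero_add]
    exact hf
  mem_or_inv_mem' := fun f => by
    rcases eq_or_ne f 0 with rfl | hf
    · exact Or.inl (by simp [Φ.ordAt_zero hz])
    · have h := Φ.ordAt_mul hz f f⁻¹
      rw [mul_inv_cancel₀ hf, ← map_one (algebraMap ℂ F), Φ.ordAt_const hz one_ne_zero] at h
      rcases le_or_gt 0 (Φ.ordAt z f) with h0 | h0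
      · exact Or.inl h0
      · right
        show 0 ≤ Φ.ordAt z f⁻¹
        by_contra h1
        rw [not_le] at h1
        obtain ⟨m, hm⟩ := WithTop.ne_top_iff_exists.1 (Φ.ordAt_ne_top hz hf)
        obtain ⟨k, hk⟩ := WithTop.ne_top_iff_exists.1 (Φ.ordAt_ne_top hz (inv_ne_zero hf))
        rw [← hm] at h h0
        rw [← hk] at h h1
        norm_cast at h h0 h1
        omega

theorem mem_ptSubring {z : ℂ} {hz : ‖z‖ < Φ.r} {f : F} :
    f ∈ Φ.ptSubring z hz ↔ 0 ≤ Φ.ordAt z f := Iff.rfl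

/-- A unit of the point's valuation ring times a power of `t - z`. -/
theorem exists_eq_mul_zpow {z : ℂ} (hz : ‖z‖ < Φ.r) {f : F} (hf : f ≠ 0) :
    ∃ (n : ℤ) (u : (Φ.ptSubring z hz)ˣ), Φ.ordAt z f = n ∧
      f = ((u : Φ.ptSubring z hz) : F) * (Φ.model.t - algebraMap ℂ F z) ^ n := by
  obtain ⟨n, hn⟩ := WithTop.ne_top_iff_exists.1 (Φ.ordAt_ne_top hz hf)
  have hp : Φ.model.t - algebraMap ℂ F z ≠ 0 := fun h => by
    have := Φ.ordAt_t_sub hz
    rw [h, Φ.ordAt_zero hz] at this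
    exact WithTop.top_ne_one this
  have hzpow : ∀ k : ℤ, Φ.ordAt z ((Φ.model.t - algebraMap ℂ F z) ^ k) = k := by
    intro k
    induction k using Int.induction_on with
    | zero =>
      rw [zpow_zero, ← map_one (algebraMap ℂ F), Φ.ordAt_const hz one_ne_zero]
      rfl
    | succ i ih =>
      rw [zpow_add_one₀ hp, Φ.ordAt_mul hz, ih, Φ.ordAt_t_sub hz]
      norm_cast
    | pred i ih =>
      have h := Φ.ordAt_mul hz ((Φ.model.t - algebraMap ℂ F z) ^ (-(i : ℤ) - 1))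
        (Φ.model.t - algebraMap ℂ F z)
      rw [← zpow_add_one₀ hp, sub_add_cancel, ih, Φ.ordAt_t_sub hz] at h
      obtain ⟨m, hm⟩ := WithTop.ne_top_iff_exists.1
        (Φ.ordAt_ne_top hz (zpow_ne_zero (-(i : ℤ) - 1) hp))
      rw [← hm] at h ⊢
      norm_cast at h ⊢
      omega
  have h1 : Φ.ordAt z (f * (Φ.model.t - algebraMap ℂ F z) ^ (-n)) = 0 := by
    rw [Φ.ordAt_mul hz, hzpow, ← hn]
    norm_cast
    omega
  have h2 : Φ.ordAt z (f⁻¹ * (Φ.model.t - algebraMap ℂ F z) ^ n) = 0 := by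
    have h := Φ.ordAt_mul hz f f⁻¹
    rw [mul_inv_cancel₀ hf, ← map_one (algebraMap ℂ F), Φ.ordAt_const hz one_ne_zero, ← hn] at h
    obtain ⟨m, hm⟩ := WithTop.ne_top_iff_exists.1 (Φ.ordAt_ne_top hz (inv_ne_zero hf))
    rw [← hm] at h
    rw [Φ.ordAt_mul hz, hzpow, ← hm]
    norm_cast at h ⊢
    omega
  refine ⟨n, ⟨⟨_, h1.ge⟩, ⟨_, h2.ge⟩, Subtype.ext ?_, Subtype.ext ?_⟩, hn.symm, ?_⟩
  · show f * (Φ.model.t - algebraMap ℂ F z) ^ (-n) *
      (f⁻¹ * (Φ.model.t - algebraMap ℂ F z) ^ n) = 1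
    rw [zpow_neg]
    field_simp
  · show f⁻¹ * (Φ.model.t - algebraMap ℂ F z) ^ n *
      (f * (Φ.model.t - algebraMap ℂ F z) ^ (-n)) = 1
    rw [zpow_neg]
    field_simp
  · show f = f * (Φ.model.t - algebraMap ℂ F z) ^ (-n) * _
    rw [zpow_neg]
    field_simp

/-- `t - z` as an element of the valuation ring of the point `z`. -/
def ptUnif (z : ℂ) (hz : ‖z‖ < Φ.r) : Φ.ptSubring z hz :=
  ⟨Φ.model.t - algebraMap ℂ F z, by
    rw [mem_ptSubring, Φ.ordAt_t_sub hz]; exact zero_le_one⟩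

theorem irreducible_ptUnif {z : ℂ} (hz : ‖z‖ < Φ.r) : Irreducible (Φ.ptUnif z hz) := by
  have hu : ∀ a : Φ.ptSubring z hz, IsUnit a → Φ.ordAt z (a : F) = 0 := by
    rintro a ⟨u, rfl⟩
    have h := congrArg Subtype.val u.mul_inv
    have h' := Φ.ordAt_mul hz ((u : Φ.ptSubring z hz) : F) ((u⁻¹ : (Φ.ptSubring z hz)ˣ) : Φ.ptSubring z hz)
    rw [← MulMemClass.coe_mul, h, OneMemClass.coe_one, ← map_one (algebraMap ℂ F),
      Φ.ordAt_const hz one_ne_zero] at h'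
    have ha : 0 ≤ Φ.ordAt z ((u : Φ.ptSubring z hz) : F) := (u : Φ.ptSubring z hz).2
    have hb : 0 ≤ Φ.ordAt z (((u⁻¹ : (Φ.ptSubring z hz)ˣ) : Φ.ptSubring z hz) : F) :=
      ((u⁻¹ : (Φ.ptSubring z hz)ˣ) : Φ.ptSubring z hz).2
    exact le_antisymm ((le_add_of_nonneg_right hb).trans h'.ge) ha
  refine irreducible_iff.2 ⟨fun h => ?_, fun {a b} hab => ?_⟩
  · have := hu _ h
    rw [show ((Φ.ptUnif z hz : Φ.ptSubring z hz) : F) = Φ.model.t - algebraMap ℂ F z from rfl,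
      Φ.ordAt_t_sub hz] at this
    exact one_ne_zero this
  · have hunit : ∀ c : Φ.ptSubring z hz, Φ.ordAt z (c : F) = 0 → IsUnit c := by
      intro c hc
      have hc0 : (c : F) ≠ 0 := fun h => by
        rw [h, Φ.ordAt_zero hz] at hc; exact WithTop.top_ne_zero hc
      obtain ⟨n, u, hn, hcu⟩ := Φ.exists_eq_mul_zpow hz hc0
      rw [hc] at hn
      have : n = 0 := by exact_mod_cast hn.symm
      rw [this, zpow_zero, mul_one] at hcu
      exact ⟨u, Subtype.ext hcu.symm⟩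
    have h := Φ.ordAt_mul hz (a : F) (b : F)
    rw [← MulMemClass.coe_mul, ← hab] at h
    rw [show ((Φ.ptUnif z hz : Φ.ptSubring z hz) : F) = Φ.model.t - algebraMap ℂ F z from rfl,
      Φ.ordAt_t_sub hz] at h
    have ha : 0 ≤ Φ.ordAt z (a : F) := a.2
    have hb : 0 ≤ Φ.ordAt z (b : F) := b.2
    have hne : (a : F) ≠ 0 ∧ (b : F) ≠ 0 := by
      refine mul_ne_zero_iff.1 fun h0 => ?_
      have h1 := congrArg Subtype.val hab
      rw [MulMemClass.coe_mul, h0] at h1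
      have h2 := Φ.ordAt_t_sub hz
      rw [show Φ.model.t - algebraMap ℂ F z = 0 from h1, Φ.ordAt_zero hz] at h2
      exact WithTop.top_ne_one h2
    obtain ⟨m, hA⟩ := WithTop.ne_top_iff_exists.1 (Φ.ordAt_ne_top hz hne.1)
    obtain ⟨k, hB⟩ := WithTop.ne_top_iff_exists.1 (Φ.ordAt_ne_top hz hne.2)
    rw [← hA, ← hB] at h
    rw [← hA] at ha
    rw [← hB] at hb
    norm_cast at h ha hb
    rcases (by omega : m = 0 ∨ k = 0) with h0 | h0
    · exact Or.inl (hunit a (by rw [← hA, h0]; rfl))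
    · exact Or.inr (hunit b (by rw [← hB, h0]; rfl))

theorem isPrincipalIdealRing_ptSubring {z : ℂ} (hz : ‖z‖ < Φ.r) :
    IsPrincipalIdealRing (Φ.ptSubring z hz) := by
  have : IsDiscreteValuationRing (Φ.ptSubring z hz) := by
    refine IsDiscreteValuationRing.ofHasUnitMulPowIrreducibleFactorization
      ⟨Φ.ptUnif z hz, Φ.irreducible_ptUnif hz, fun {x} hx => ?_⟩
    have hx0 : (x : F) ≠ 0 := by simpa using hx
    obtain ⟨n, u, hn, hxu⟩ := Φ.exists_eq_mul_zpow hz hx0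
    have hn0 : 0 ≤ n := by
      have := x.2
      rw [mem_ptSubring, hn] at this
      exact_mod_cast this
    obtain ⟨k, rfl⟩ := Int.eq_ofNat_of_zero_le hn0
    refine ⟨k, u, Subtype.ext ?_⟩
    rw [MulMemClass.coe_mul, SubmonoidClass.coe_pow, hxu, zpow_natCast, mul_comm]
    rfl
  infer_instance

/-- The point `z` of the chart (the centre for `z` outside the disc). -/
def pt (z : ℂ) : Place ℂ F :=
  if hz : ‖z‖ < Φ.r then
    { toValuationSubring := Φ.ptSubring z hz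
      algebraMap_mem' := fun c => by
        rcases eq_or_ne c 0 with rfl | hc
        · simp
        · rw [mem_ptSubring, Φ.ordAt_const hz hc]
      ne_top' := fun h => by
        have h1 : (Φ.model.t - algebraMap ℂ F z)⁻¹ ∈ Φ.ptSubring z hz := by rw [h]; trivial
        rw [mem_ptSubring] at h1
        have h2 := Φ.ordAt_mul hz (Φ.model.t - algebraMap ℂ F z)
          (Φ.model.t - algebraMap ℂ F z)⁻¹
        rw [mul_inv_cancel₀ (fun h0 => by
            have := Φ.ordAt_t_sub hz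
            rw [h0, Φ.ordAt_zero hz] at this
            exact WithTop.top_ne_one this),
          ← map_one (algebraMap ℂ F), Φ.ordAt_const hz one_ne_zero, Φ.ordAt_t_sub hz] at h2
        exact not_lt.2 ((le_add_of_nonneg_right h1).trans h2.ge) zero_lt_one
      isPrincipalIdealRing' := Φ.isPrincipalIdealRing_ptSubring hz }
  else v

theorem mem_pt_iff {z : ℂ} (hz : ‖z‖ < Φ.r) {g : F} :
    g ∈ (Φ.pt z).toValuationSubring ↔ 0 ≤ Φ.ordAt z g := by
  rw [pt, dif_pos hz]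
  exact Iff.rfl

theorem ord_pt {z : ℂ} (hz : ‖z‖ < Φ.r) {f : F} (hf : f ≠ 0) :
    meromorphicOrderAt (Φ.hat f) z = ((Φ.pt z).ord f : ℤ) := by
  set p := Φ.model.t - algebraMap ℂ F z with hp
  have hp0 : p ≠ 0 := fun h => Φ.t_notMem_range ⟨z, (sub_eq_zero.1 h).symm⟩
  have hnonneg : ∀ {g : F}, g ≠ 0 → (0 ≤ (Φ.pt z).ord g ↔ 0 ≤ Φ.ordAt z g) := fun hg => by
    rw [← Φ.mem_pt_iff hz, mem_valuationSubring_iff, mem_ordGE_of_ne_zero hg]
  have key : ∀ {g : F}, g ≠ 0 → ∀ {n : ℤ}, Φ.ordAt z g = n →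
      (Φ.pt z).ord g = n * (Φ.pt z).ord p := by
    intro g hg n hn
    obtain ⟨n', u, hn', hgu⟩ := Φ.exists_eq_mul_zpow hz hg
    obtain rfl : n = n' := WithTop.coe_eq_coe.1 (hn.symm.trans hn')
    have hu0 : ((u : Φ.ptSubring z hz) : F) ≠ 0 := by simp
    have h1 : 0 ≤ (Φ.pt z).ord ((u : Φ.ptSubring z hz) : F) :=
      (hnonneg hu0).2 (u : Φ.ptSubring z hz).2
    have h2 : 0 ≤ (Φ.pt z).ord (((u⁻¹ : (Φ.ptSubring z hz)ˣ) : Φ.ptSubring z hz) : F) :=
      (hnonneg (by simp)).2 ((u⁻¹ : (Φ.ptSubring z hz)ˣ) : Φ.ptSubring z hz).2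
    have h3 := congrArg (fun a : Φ.ptSubring z hz => (Φ.pt z).ord (a : F)) u.mul_inv
    simp only [MulMemClass.coe_mul, OneMemClass.coe_one, Place.ord_one] at h3
    rw [(Φ.pt z).ord_mul hu0 (by simp)] at h3
    rw [hgu, (Φ.pt z).ord_mul hu0 (zpow_ne_zero _ hp0), (Φ.pt z).ord_zpow]
    omega
  have hone : (Φ.pt z).ord p = 1 := by
    obtain ⟨n, hn⟩ := WithTop.ne_top_iff_exists.1 (Φ.ordAt_ne_top hz (unif_ne_zero (Φ.pt z)))
    have h := key (unif_ne_zero _) hn.symm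
    rw [ord_unif] at h
    have hpos : 0 ≤ (Φ.pt z).ord p := (hnonneg hp0).2 (by
      rw [hp, Φ.ordAt_t_sub hz]
      exact zero_le_one)
    rcases Int.eq_one_or_neg_one_of_mul_eq_one' h.symm with h' | h' <;> omega
  obtain ⟨n, hn⟩ := WithTop.ne_top_iff_exists.1 (Φ.ordAt_ne_top hz hf)
  rw [key hf hn.symm, hone, mul_one]
  exact hn.symm

theorem centred_pt {z : ℂ} (hz : ‖z‖ < Φ.r) :
    jacCentred Φ.model.t Φ.model.θ z (Φ.y z) (Φ.pt z) := by
  refine ⟨mem_ordGE.2 (Or.inr ?_), mem_ordGE.2 ?_⟩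
  · have h := Φ.ord_pt hz (fun h => Φ.t_notMem_range ⟨z, (sub_eq_zero.1 h).symm⟩)
    have h1 := Φ.ordAt_t_sub hz
    rw [ordAt, h, ← WithTop.coe_one, WithTop.coe_eq_coe] at h1
    exact h1.ge
  · rcases eq_or_ne (Φ.model.θ - algebraMap ℂ F (Φ.y z)) 0 with h0 | h0
    · exact Or.inl h0
    · right
      have he : Φ.hat (Φ.model.θ - algebraMap ℂ F (Φ.y z)) =ᶠ[𝓝[≠] z]
          fun w => Φ.y w - Φ.y z := by
        rw [sub_eq_add_neg, ← map_neg]
        filter_upwards [Φ.hat_add Φ.model.θ (algebraMap ℂ F (-Φ.y z)) hz, Φ.hat_θ hz,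
          Φ.hat_const (-Φ.y z) hz] with w h1 h2 h3
        rw [h1, Pi.add_apply, h2, h3, sub_eq_add_neg]
      have hpos : 0 < meromorphicOrderAt (Φ.hat (Φ.model.θ - algebraMap ℂ F (Φ.y z))) z := by
        rw [← tendsto_zero_iff_meromorphicOrderAt_pos (Φ.meromorphicAt_hat _ hz),
          tendsto_congr' he]
        have hc : ContinuousAt (fun w => Φ.y w - Φ.y z) z :=
          (Φ.y_analytic z hz).continuousAt.sub continuousAt_const
        simpa using hc.tendsto.mono_left nhdsWithin_le_nhds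
      rw [Φ.ord_pt hz h0] at hpos
      have : (0 : ℤ) < (Φ.pt z).ord (Φ.model.θ - algebraMap ℂ F (Φ.y z)) := by exact_mod_cast hpos
      omega

/-- A place centred near the centre of the chart is a point of the chart. -/
theorem eq_pt_of_centred {a b : ℂ} (ha : ‖a‖ < Φ.r) (hb : ‖b - Φ.model.c‖ < Φ.r) {w : Place ℂ F}
    (hw : jacCentred Φ.model.t Φ.model.θ a b w) : w = Φ.pt a := by
  have hQ : jacVal a b Φ.model.Q = 0 := by
    by_contra hne
    exact (jac_ord_eq_zero_of_sub_mem hne (jacEv_sub_val_mem hw.1 hw.2 _)).1 Φ.model.root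
  obtain rfl := Φ.y_unique a b ha hb hQ
  refine jacCentred_unique Φ.t_notMem_range Φ.model.root hQ (Φ.y_simple a ha) (fun f => ?_) hw
    (Φ.centred_pt ha)
  obtain ⟨A, d, hd, h⟩ := Φ.model.gen f
  exact ⟨A, d, Φ.aeval_ne_zero hd, h⟩

theorem pt_zero : Φ.pt 0 = v :=
  (Φ.eq_pt_of_centred (by simpa using Φ.r_pos) (by simpa using Φ.r_pos)
    ⟨by simpa using mem_ordGE_of_le Φ.model.ord_t.ge, Φ.model.θ_sub⟩).symm

end JacChart

end FermatLib.Curve

end
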