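import Fermat.Agent.Curve.HurwitzGenus
import Fermat.Agent.Curve.KaehlerDivisor
import Fermat.Agent.Curve.RepartitionQuot

/-!
# Nonspecial sets of places

Riemann's inequality and the existence, avoiding any finite set, of `g` distinct places whose sum
has only the constants as Riemann-Roch space.
-/

set_option autoImplicit false

noncomputable section

open AlgebraicCurve

namespace FermatLib.Curve

variable {K F : Type*} [Field K] [Field F] [Algebra K F] [IsAlgClosed K] [CharZero K]
  [IsCurveOver K F] [Algebra.EssFiniteType K F]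

omit [IsAlgClosed K] [CharZero K] [IsCurveOver K F] [Algebra.EssFiniteType K F] in
theorem jac_riemann (hR : RiemannEquation K F) (E : Divisor K F) :
    Divisor.degree E + 1 - genusFF K F ≤ Module.finrank K ↥(riemannRochSpace E) := by
  have := hR.eq E
  omega

theorem jacExists_canonical (hR : RiemannEquation K F) :
    ∃ W : Divisor K F, Module.finrank K ↥(riemannRochSpace W) = genusFF K F ∧
      ∀ E, (Module.finrank K ↥(riemannRochSpace E) : ℤ) -
        Module.finrank K ↥(riemannRochSpace (W - E)) = Divisor.degree E + 1 - genusFF K F := by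
  have : IsFunctionField K F := isFunctionField_of_isCurveOver K F
  have : HasCanonicalDivisor (K := K) (F := F) := hasCanonicalDivisor_of_isCurveOver
  obtain ⟨x, hx, hfin⟩ := ‹IsFunctionField K F›
  have hDx : KaehlerDifferential.D K F x ≠ 0 := D_ne_zero_of_separating hx
  obtain ⟨ψ, hψ⟩ :=
    exists_isWeilDivisorOf_ordDifferential hDx (canonicalDivisorOf_apply hDx)
  refine ⟨canonicalDivisorOf hDx, (degree_eq_and_finrank_eq hψ hR fun v => deg_eq_one v).2,
    fun E => ?_⟩
  rw [← finrank_H1_eq hψ hR (fun v => deg_eq_one v) E]
  exact hR.eq E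

/-- `g` distinct places outside a finite set with `l = 1`. -/
theorem jacExists_nonspecial (hR : RiemannEquation K F) [Infinite (Place K F)]
    (S : Set (Place K F)) (hS : S.Finite) :
    ∃ P : Fin (genusFF K F) → Place K F, Function.Injective P ∧ (∀ i, P i ∉ S) ∧
      ∀ f ∈ riemannRochSpace (∑ i, Finsupp.single (P i) (1 : ℤ)),
        ∃ c : K, f = algebraMap K F c := by
  classical
  have : IsFunctionField K F := isFunctionField_of_isCurveOver K F
  obtain ⟨W, hW, hRR⟩ := jacExists_canonical hR
  have key : ∀ k ≤ genusFF K F, ∃ P : Fin k → Place K F, Function.Injective P ∧ (∀ i, P i ∉ S) ∧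
      Module.finrank K ↥(riemannRochSpace (W - ∑ i, Finsupp.single (P i) (1 : ℤ))) + k ≤
        genusFF K F := by
    intro k
    induction k with
    | zero =>
      refine fun _ => ⟨Fin.elim0, fun i => i.elim0, fun i => i.elim0, ?_⟩
      rw [Fin.sum_univ_zero, sub_zero, hW, Nat.add_zero]
    | succ k ih =>
      intro hk
      obtain ⟨P, hP, hPS, hl⟩ := ih (Nat.le_of_succ_le hk)
      set D := ∑ i, Finsupp.single (P i) (1 : ℤ) with hD
      by_cases h0 : Module.finrank K ↥(riemannRochSpace (W - D)) = 0
      · obtain ⟨v, hv⟩ := (hS.union (Set.finite_range P)).exists_notMem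
        rw [Set.mem_union, not_or, Set.mem_range, not_exists] at hv
        refine ⟨Fin.snoc P v, Fin.snoc_injective_iff.2 ⟨hP, fun ⟨i, hi⟩ => hv.2 i hi⟩,
          fun i => Fin.lastCases (by simpa using hv.1) (fun j => by simpa using hPS j) i, ?_⟩
        have hle : riemannRochSpace (W - ∑ i, Finsupp.single ((Fin.snoc P v : Fin (k + 1) → _) i) 1)
            ≤ riemannRochSpace (W - D) := by
          refine riemannRochSpace_mono ?_
          intro w
          simp only [Fin.sum_univ_castSucc, Fin.snoc_castSucc, Fin.snoc_last, ← hD,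
            Finsupp.coe_sub, Finsupp.coe_add, Pi.sub_apply, Pi.add_apply, Finsupp.single_apply]
          split <;> omega
        have := Submodule.finrank_mono hle
        omega
      · obtain ⟨⟨h, hh⟩, hne⟩ :=
          Module.finrank_pos_iff_exists_ne_zero.1 (Nat.pos_of_ne_zero h0)
        have hh0 : h ≠ 0 := fun e => hne (Subtype.ext e)
        obtain ⟨v, hv⟩ := (((hS.union (Set.finite_range P)).union W.support.finite_toSet).union
          (finite_setOf_ord_ne_zero (K := K) h)).exists_notMem
        simp only [Set.mem_union, not_or, Set.mem_range, not_exists, Finset.mem_coe,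
          Finsupp.mem_support_iff, not_not, Set.mem_ofPred_eq, ne_eq] at hv
        refine ⟨Fin.snoc P v, Fin.snoc_injective_iff.2 ⟨hP, fun ⟨i, hi⟩ => hv.1.1.2 i hi⟩,
          fun i => Fin.lastCases (by simpa using hv.1.1.1) (fun j => by simpa using hPS j) i, ?_⟩
        have hlt : riemannRochSpace (W - ∑ i, Finsupp.single ((Fin.snoc P v : Fin (k + 1) → _) i) 1)
            < riemannRochSpace (W - D) := by
          refine lt_of_le_of_ne (riemannRochSpace_mono ?_) fun e => ?_
          · intro w
            simp only [Fin.sum_univ_castSucc, Fin.snoc_castSucc, Fin.snoc_last, ← hD,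
              Finsupp.coe_sub, Finsupp.coe_add, Pi.sub_apply, Pi.add_apply, Finsupp.single_apply]
            split <;> omega
          · rw [← e] at hh
            have h1 := le_ord_of_mem (mem_riemannRochSpace.1 hh v) hh0
            have hDv : D v = 0 := by
              rw [hD, Finsupp.finsetSum_apply]
              exact Finset.sum_eq_zero fun i _ =>
                Finsupp.single_eq_of_ne (Ne.symm (hv.1.1.2 i))
            simp only [Fin.sum_univ_castSucc, Fin.snoc_castSucc, Fin.snoc_last, ← hD,
              Finsupp.coe_sub, Finsupp.coe_add, Pi.sub_apply, Pi.add_apply,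
              Finsupp.single_eq_same, hv.1.2, hv.2, hDv] at h1
            omega
        have := Submodule.finrank_lt_finrank_of_lt hlt
        omega
  obtain ⟨P, hP, hPS, hl⟩ := key _ le_rfl
  refine ⟨P, hP, hPS, fun f hf => ?_⟩
  set D := ∑ i, Finsupp.single (P i) (1 : ℤ) with hD
  have hdeg : Divisor.degree D = genusFF K F := by simp [hD, deg_eq_one]
  have h1 : Module.finrank K ↥(riemannRochSpace D) = 1 := by
    have := hRR D
    rw [hdeg] at this
    omega
  have hone : (1 : F) ∈ riemannRochSpace D := mem_riemannRochSpace.2 fun v => mem_ordGE_of_le (by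
    rw [v.ord_one, hD, Finsupp.finsetSum_apply]
    exact neg_nonpos.2 (Finset.sum_nonneg fun i _ => by
      rw [Finsupp.single_apply]; split <;> norm_num))
  obtain ⟨c, hc⟩ := (finrank_eq_one_iff_of_nonzero' (⟨1, hone⟩ : riemannRochSpace D)
    (fun e => one_ne_zero (congrArg Subtype.val e))).1 h1 ⟨f, hf⟩
  exact ⟨c, by simpa [Algebra.smul_def] using (congrArg Subtype.val hc).symm⟩

end FermatLib.Curve

end
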