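import Fermat.Agent.Curve.JacResidual
import Fermat.Agent.Curve.JacExistence

/-!
# The chart maps `u ↦ [P(u)] - [P]` into `Pic0`
-/

set_option autoImplicit false

noncomputable section

open AlgebraicCurve Topology Filter

namespace FermatLib.Curve

/-- The class in `Pic0` of a divisor (zero unless it has degree zero). -/
def jacCls {K F : Type*} [Field K] [Field F] [Algebra K F] (D : Divisor K F) : Pic0 K F :=
  if h : Divisor.degree D = 0 then Pic0.mk ⟨D, h⟩ else 0

section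

variable {K F : Type*} [Field K] [Field F] [Algebra K F] {D E : Divisor K F}

theorem jacCls_of_deg (hD : Divisor.degree D = 0) : jacCls D = Pic0.mk ⟨D, hD⟩ := by
  rw [jacCls, dif_pos hD]

theorem jacCls_add (hD : Divisor.degree D = 0) (hE : Divisor.degree E = 0) :
    jacCls (D + E) = jacCls D + jacCls E := by
  rw [jacCls_of_deg (by rw [map_add, hD, hE, add_zero] : Divisor.degree (D + E) = 0),
    jacCls_of_deg hD, jacCls_of_deg hE]
  rfl

theorem jacCls_zero : jacCls (0 : Divisor K F) = 0 := by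
  rw [jacCls_of_deg (map_zero _)]
  rfl

theorem jacCls_neg (hD : Divisor.degree D = 0) : jacCls (-D) = -jacCls D := by
  rw [eq_neg_iff_add_eq_zero, ← jacCls_add (by rw [map_neg, hD, neg_zero]) hD, neg_add_cancel,
    jacCls_zero]

theorem jacCls_eq_zero_iff (hD : Divisor.degree D = 0) :
    jacCls D = 0 ↔ D ∈ Divisor.principal (K := K) (F := F) := by
  rw [jacCls_of_deg hD]
  exact (QuotientAddGroup.eq_zero_iff _).trans AddSubgroup.mem_addSubgroupOf

theorem jacCls_eq_iff (hD : Divisor.degree D = 0) (hE : Divisor.degree E = 0) :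
    jacCls D = jacCls E ↔ D - E ∈ Divisor.principal (K := K) (F := F) := by
  rw [← jacCls_eq_zero_iff (by rw [map_sub, hD, hE, sub_zero] : Divisor.degree (D - E) = 0),
    sub_eq_add_neg, jacCls_add hD (by rw [map_neg, hE, neg_zero]), jacCls_neg hE,
    ← sub_eq_add_neg, sub_eq_zero]

theorem jacCls_surjective (c : Pic0 K F) : ∃ D : Divisor K F, Divisor.degree D = 0 ∧ jacCls D = c := by
  obtain ⟨⟨D, hD⟩, rfl⟩ := Pic0.mk_surjective c
  exact ⟨D, hD, jacCls_of_deg hD⟩

end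

variable {F : Type*} [Field F] [Algebra ℂ F]

/-- The base divisor of a tuple of places. -/
def jacBase {ι : Type*} [Fintype ι] (P : ι → Place ℂ F) : Divisor ℂ F :=
  ∑ i, Finsupp.single (P i) (1 : ℤ)

theorem jacPtsDiv_zero {ι : Type*} [Fintype ι] {P : ι → Place ℂ F} (Φ : ∀ i, JacChart (P i)) :
    jacPtsDiv Φ 0 = jacBase P :=
  Finset.sum_congr rfl fun i _ => by rw [Pi.zero_apply, (Φ i).pt_zero]

/-- The chart map at a tuple of places. -/
def jacPhi {ι : Type*} [Fintype ι] {P : ι → Place ℂ F} (Φ : ∀ i, JacChart (P i)) (u : ι → ℂ) :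
    Pic0 ℂ F :=
  jacCls (jacPtsDiv Φ u - jacBase P)

theorem jacPhi_zero {ι : Type*} [Fintype ι] {P : ι → Place ℂ F} (Φ : ∀ i, JacChart (P i)) :
    jacPhi Φ 0 = 0 := by
  rw [jacPhi, jacPtsDiv_zero, sub_self, jacCls_zero]

variable [IsCurveOver ℂ F]

theorem degree_jacBase {ι : Type*} [Fintype ι] (P : ι → Place ℂ F) :
    Divisor.degree (jacBase P) = Fintype.card ι := by
  simp [jacBase, IsCurveOver.deg_eq_one_of_isAlgClosed]

theorem degree_jacPhi_divisor {ι : Type*} [Fintype ι] {P : ι → Place ℂ F}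
    (Φ : ∀ i, JacChart (P i)) (u : ι → ℂ) :
    Divisor.degree (jacPtsDiv Φ u - jacBase P) = 0 := by
  rw [map_sub, degree_jacPtsDiv, degree_jacBase, sub_self]

/-- Chart maps on a disjoint union of tuples add. -/
theorem jacPhi_sum {ι κ : Type*} [Fintype ι] [Fintype κ] {P : ι → Place ℂ F} {P' : κ → Place ℂ F}
    (Φ : ∀ i, JacChart (P i)) (Φ' : ∀ k, JacChart (P' k)) (u : ι → ℂ) (u' : κ → ℂ) :
    jacPhi (P := Sum.elim P P')
        (fun s : ι ⊕ κ => Sum.rec (motive := fun s => JacChart (Sum.elim P P' s)) Φ Φ' s)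
        (Sum.elim u u') = jacPhi Φ u + jacPhi Φ' u' := by
  rw [jacPhi, jacPhi, jacPhi, ← jacCls_add (degree_jacPhi_divisor Φ u) (degree_jacPhi_divisor Φ' u')]
  congr 1
  simp only [jacPtsDiv, jacBase, Fintype.sum_sum_type, Sum.elim_inl, Sum.elim_inr]
  abel

variable [Algebra.EssFiniteType ℂ F]

/-- The residual map, as an identity in `Pic0`. -/
theorem jacResidual_phi (hR : RiemannEquation ℂ F) {ι : Type*} [Fintype ι]
    {PT : ι → Place ℂ F} {PY : Fin (genusFF ℂ F) → Place ℂ F} (ΦT : ∀ i, JacChart (PT i))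
    (ΦY : ∀ k, JacChart (PY k)) (hinj : Function.Injective (Sum.elim PT PY))
    (hY : ∀ f ∈ riemannRochSpace (jacBase PY), ∃ c : ℂ, f = algebraMap ℂ F c) :
    ∃ y : (ι → ℂ) → Fin (genusFF ℂ F) → ℂ, y 0 = 0 ∧ ContDiffAt ℂ 2 y 0 ∧ ∀ᶠ u in 𝓝 0,
      jacPhi ΦY (y u) = -jacPhi ΦT u ∧
      ∀ E : Divisor ℂ F, 0 ≤ E →
        E - jacPtsDiv ΦY (y u) ∈ Divisor.principal (K := ℂ) (F := F) →
          E = jacPtsDiv ΦY (y u) := by
  have hdim : Fintype.card ι + 1 ≤ Module.finrank ℂ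
      (riemannRochSpace (jacBase PT + jacBase PY)) := by
    have h := jac_riemann hR (jacBase PT + jacBase PY)
    rw [map_add, degree_jacBase, degree_jacBase, Fintype.card_fin] at h
    omega
  obtain ⟨y, hy0, hy2, hy⟩ := jacResidual ΦT ΦY hinj hY hdim
  refine ⟨y, hy0, hy2, hy.mono fun u hu => ⟨?_, hu.2⟩⟩
  rw [eq_neg_iff_add_eq_zero, jacPhi, jacPhi,
    ← jacCls_add (degree_jacPhi_divisor ΦY _) (degree_jacPhi_divisor ΦT _),
    jacCls_eq_zero_iff (by rw [map_add, degree_jacPhi_divisor, degree_jacPhi_divisor, add_zero])]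
  convert hu.1 using 1
  simp only [jacBase]
  abel

omit [IsCurveOver ℂ F] [Algebra.EssFiniteType ℂ F] in
/-- Nearby tuples with equal divisors are equal. -/
theorem jacPtsDiv_injective_near {ι : Type*} [Fintype ι] {P : ι → Place ℂ F}
    [IsCurveOver ℂ F] (Φ : ∀ i, JacChart (P i)) (hP : Function.Injective P) :
    ∀ᶠ p in 𝓝 (0 : (ι → ℂ) × (ι → ℂ)),
      jacPtsDiv Φ p.1 = jacPtsDiv Φ p.2 → p.1 = p.2 := by
  classical
  have hp1 : ∀ i, Tendsto (fun p : (ι → ℂ) × (ι → ℂ) => p.1 i) (𝓝 0) (𝓝 0) := fun i =>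
    ((continuous_apply i).comp continuous_fst).tendsto' 0 0 rfl
  have hp2 : ∀ i, Tendsto (fun p : (ι → ℂ) × (ι → ℂ) => p.2 i) (𝓝 0) (𝓝 0) := fun i =>
    ((continuous_apply i).comp continuous_snd).tendsto' 0 0 rfl
  have hne : ∀ᶠ p in 𝓝 (0 : (ι → ℂ) × (ι → ℂ)), ∀ i j, i ≠ j →
      (Φ i).pt (p.1 i) ≠ (Φ j).pt (p.2 j) := eventually_all.2 fun i => eventually_all.2 fun j => by
    by_cases h : i = j
    · simp [h]
    · filter_upwards [((hp1 i).prodMk_nhds (hp2 j)).eventually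
        ((Φ i).eventually_pt_ne (Φ j) (hP.ne h))] with p hp _ using hp
  have hr : ∀ᶠ p in 𝓝 (0 : (ι → ℂ) × (ι → ℂ)), ∀ i, ‖p.1 i‖ < (Φ i).r ∧ ‖p.2 i‖ < (Φ i).r :=
    eventually_all.2 fun i =>
      ((hp1 i).norm.eventually_lt_const (by simpa using (Φ i).r_pos)).and
        ((hp2 i).norm.eventually_lt_const (by simpa using (Φ i).r_pos))
  filter_upwards [hne, hr] with p h1 h2 heq
  funext i
  refine (Φ i).pt_injOn (h2 i).1 (h2 i).2 ?_
  by_contra hc
  have h := congrArg (fun D : Divisor ℂ F => D ((Φ i).pt (p.1 i))) heq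
  simp only [jacPtsDiv, Finsupp.finsetSum_apply, Finsupp.single_apply] at h
  rw [Finset.sum_eq_zero (s := Finset.univ) (f := fun j =>
    if (Φ j).pt (p.2 j) = (Φ i).pt (p.1 i) then (1 : ℤ) else 0) (fun j _ => if_neg fun e => by
      rcases eq_or_ne i j with rfl | hij
      · exact hc e.symm
      · exact h1 i j hij e.symm)] at h
  have : (1 : ℤ) ≤ ∑ j, if (Φ j).pt (p.1 j) = (Φ i).pt (p.1 i) then 1 else 0 := by
    refine le_trans ?_ (Finset.single_le_sum (fun j _ => ?_) (Finset.mem_univ i))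
    · rw [if_pos rfl]
    · split <;> norm_num
  omega

end FermatLib.Curve

end
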