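import Mathlib.Analysis.Calculus.ContDiff.Basic
import Mathlib.Analysis.Calculus.ContDiff.RCLike
import Mathlib.Analysis.Calculus.InverseFunctionTheorem.ContDiff
import Mathlib.Analysis.Calculus.MeanValue
import Mathlib.Analysis.SpecificLimits.Basic
import Mathlib.Analysis.Normed.Module.RCLike.Basic

/-!
# Linearisation of a commutative local group law

An abelian group `A` with a chart `φ : E → A` near `0` in which addition is given by a `C²` map
receives a homomorphism from the vector space `E` which is injective near `0` and covers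
every small chart neighbourhood. The linearising coordinate is the Koenigs limit of
`2 ^ n • h^[n]`, where `h` halves in the local group.
-/

set_option autoImplicit false

open Topology Filter Metric Set

namespace FermatLib.Curve

variable {E F : Type*} [NormedAddCommGroup E] [NormedSpace ℝ E]
  [NormedAddCommGroup F] [NormedSpace ℝ F]

/-- Quantitative strict differentiability of a `C²` map. -/
theorem jacExistsStrictBound {f : E → F} (hf : ContDiffAt ℝ 2 f 0) :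
    ∃ K r : ℝ, 0 ≤ K ∧ 0 < r ∧ ∀ u ∈ ball (0 : E) r, ∀ v ∈ ball (0 : E) r,
      ‖f u - f v - fderiv ℝ f 0 (u - v)‖ ≤ K * max ‖u‖ ‖v‖ * ‖u - v‖ := by
  have h1 : ContDiffAt ℝ 1 (fderiv ℝ f) 0 := hf.fderiv_right (by norm_num)
  obtain ⟨K, t, ht, hK⟩ := h1.exists_lipschitzOnWith
  obtain ⟨r, hr, hrt⟩ := Metric.mem_nhds_iff.1 (Filter.inter_mem ht (hf.eventually (by simp)))
  refine ⟨K, r, K.2, hr, fun u hu v hv => ?_⟩
  have hlt : max ‖u‖ ‖v‖ < r := max_lt (mem_ball_zero_iff.1 hu) (mem_ball_zero_iff.1 hv)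
  have hsub : closedBall (0 : E) (max ‖u‖ ‖v‖) ⊆ ball 0 r := closedBall_subset_ball hlt
  refine (convex_closedBall (0 : E) (max ‖u‖ ‖v‖)).norm_image_sub_le_of_norm_fderiv_le'
    (fun w hw => ?_) (fun w hw => ?_) (by simp) (by simp)
  · have hw2 : ContDiffAt ℝ 2 f w := (hrt (hsub hw)).2
    exact hw2.differentiableAt (by norm_num)
  · have h0 : (0 : E) ∈ t := (hrt (mem_ball_self hr)).1
    calc ‖fderiv ℝ f w - fderiv ℝ f 0‖ ≤ K * ‖w - 0‖ :=
          hK.norm_sub_le ((hrt (hsub hw)).1) h0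
      _ ≤ K * max ‖u‖ ‖v‖ := by
          rw [sub_zero]
          exact mul_le_mul_of_nonneg_left (mem_closedBall_zero_iff.1 hw) K.2

section

variable [CompleteSpace E] {A : Type*} [AddCommGroup A] {φ : E → A} {μ : E × E → E}

omit [NormedSpace ℝ E] [CompleteSpace E] in
private theorem eventually_mem_fst_snd {U : Set E} (hU : U ∈ 𝓝 (0 : E)) :
    ∀ᶠ p in 𝓝 (0 : E × E), p.1 ∈ U ∧ p.2 ∈ U :=
  ((continuous_fst.tendsto' (0 : E × E) 0 rfl).eventually hU).and
    ((continuous_snd.tendsto' (0 : E × E) 0 rfl).eventually hU)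

omit [CompleteSpace E] in
/-- A chart addition law has derivative `(a, b) ↦ a + b` at the origin. -/
theorem jacLocalLaw_fderiv (hμ : ContDiffAt ℝ 2 μ 0) (hμ0 : μ 0 = 0) (hφ0 : φ 0 = 0)
    (hinj : ∃ U ∈ 𝓝 (0 : E), InjOn φ U)
    (hadd : ∀ᶠ p in 𝓝 (0 : E × E), φ (μ p) = φ p.1 + φ p.2) :
    fderiv ℝ μ 0 = ContinuousLinearMap.fst ℝ E E + ContinuousLinearMap.snd ℝ E E := by
  obtain ⟨U, hU, hinj⟩ := hinj
  have hd := (hμ.differentiableAt (by norm_num)).hasFDerivAt
  have hμU : ∀ᶠ p in 𝓝 (0 : E × E), μ p ∈ U :=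
    hμ.continuousAt.preimage_mem_nhds (by rwa [hμ0])
  let il := ContinuousLinearMap.inl ℝ E E
  let ir := ContinuousLinearMap.inr ℝ E E
  have hl : (fun u => μ (il u)) =ᶠ[𝓝 0] id := by
    filter_upwards [(il.continuous.tendsto' (0 : E) 0 (map_zero _)).eventually (hadd.and hμU), hU]
      with u ⟨h1, h2⟩ h3
    exact hinj h2 h3 (by simpa [il, hφ0] using h1)
  have hr : (fun u => μ (ir u)) =ᶠ[𝓝 0] id := by
    filter_upwards [(ir.continuous.tendsto' (0 : E) 0 (map_zero _)).eventually (hadd.and hμU), hU]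
      with u ⟨h1, h2⟩ h3
    exact hinj h2 h3 (by simpa [ir, hφ0] using h1)
  have hd1 : HasFDerivAt (fun u => μ (il u)) ((fderiv ℝ μ 0).comp il) 0 :=
    HasFDerivAt.comp (0 : E) (g := μ) (by simpa using hd) il.hasFDerivAt
  have hd2 : HasFDerivAt (fun u => μ (ir u)) ((fderiv ℝ μ 0).comp ir) 0 :=
    HasFDerivAt.comp (0 : E) (g := μ) (by simpa using hd) ir.hasFDerivAt
  have e1 := hd1.unique ((hasFDerivAt_id (𝕜 := ℝ) (0 : E)).congr_of_eventuallyEq hl)
  have e2 := hd2.unique ((hasFDerivAt_id (𝕜 := ℝ) (0 : E)).congr_of_eventuallyEq hr)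
  refine ContinuousLinearMap.ext fun p => ?_
  obtain ⟨a, b⟩ := p
  have : (a, b) = il a + ir b := by simp [il, ir]
  rw [this, map_add, ← ContinuousLinearMap.comp_apply (fderiv ℝ μ 0) il,
    ← ContinuousLinearMap.comp_apply (fderiv ℝ μ 0) ir, e1, e2]
  simp [il, ir]

/-- The halving map of a chart addition law. -/
theorem jacLocalLaw_exists_half (hμ : ContDiffAt ℝ 2 μ 0) (hμ0 : μ 0 = 0) (hφ0 : φ 0 = 0)
    (hinj : ∃ U ∈ 𝓝 (0 : E), InjOn φ U)
    (hadd : ∀ᶠ p in 𝓝 (0 : E × E), φ (μ p) = φ p.1 + φ p.2) :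
    ∃ h : E → E, h 0 = 0 ∧ ContDiffAt ℝ 2 h 0 ∧
      fderiv ℝ h 0 = (2⁻¹ : ℝ) • ContinuousLinearMap.id ℝ E ∧
      (∀ᶠ u in 𝓝 0, φ u = φ (h u) + φ (h u)) ∧
      ∀ᶠ p in 𝓝 (0 : E × E), h (μ p) = μ (h p.1, h p.2) := by
  have hD := jacLocalLaw_fderiv hμ hμ0 hφ0 hinj hadd
  obtain ⟨U, hU, hinj⟩ := hinj
  let diag : E →L[ℝ] E × E := (ContinuousLinearMap.id ℝ E).prod (ContinuousLinearMap.id ℝ E)
  let d : E → E := fun u => μ (diag u)
  have hd2 : ContDiffAt ℝ 2 d 0 :=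
    ContDiffAt.comp (0 : E) (g := μ) (by simpa using hμ) diag.contDiff.contDiffAt
  let e : E ≃L[ℝ] E := ContinuousLinearEquiv.smulLeft (Units.mk0 (2 : ℝ) two_ne_zero)
  have hdd : HasFDerivAt d (e : E →L[ℝ] E) 0 := by
    have h1 : HasFDerivAt d ((fderiv ℝ μ 0).comp diag) 0 :=
      HasFDerivAt.comp (0 : E) (g := μ)
        (by simpa using (hμ.differentiableAt (by norm_num)).hasFDerivAt) diag.hasFDerivAt
    convert h1 using 1
    refine ContinuousLinearMap.ext fun u => ?_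
    simp [hD, diag, e, two_smul, Units.smul_def]
  have hd0 : d 0 = 0 := by
    show μ (diag 0) = 0
    rw [map_zero]; exact hμ0
  have hstrict : HasStrictFDerivAt d (e : E →L[ℝ] E) 0 :=
    hd2.hasStrictFDerivAt' hdd (by norm_num)
  let h : E → E := hd2.localInverse hdd (by norm_num)
  have hh0 : h 0 = 0 := by
    have := hd2.localInverse_apply_image hdd (n := 2) (by norm_num)
    rwa [hd0] at this
  have hh2 : ContDiffAt ℝ 2 h 0 := by
    have := hd2.to_localInverse hdd (by norm_num : (2 : WithTop ℕ∞) ≠ 0)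
    rwa [hd0] at this
  have hht : Tendsto h (𝓝 0) (𝓝 0) := by
    simpa [ContinuousAt, hh0] using hh2.continuousAt
  have hright : ∀ᶠ u in 𝓝 (0 : E), d (h u) = u := by
    have := hstrict.eventually_right_inverse
    rw [hd0] at this
    exact this
  have hleft : ∀ᶠ u in 𝓝 (0 : E), h (d u) = u := hstrict.eventually_left_inverse
  have hhd : fderiv ℝ h 0 = (2⁻¹ : ℝ) • ContinuousLinearMap.id ℝ E := by
    have h1 : HasStrictFDerivAt h (e.symm : E →L[ℝ] E) 0 := by
      have h2 := hstrict.to_localInverse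
      rw [hd0] at h2
      exact h2
    rw [h1.hasFDerivAt.fderiv]
    refine ContinuousLinearMap.ext fun u => ?_
    apply e.injective
    simp [e, Units.smul_def, smul_smul]
  have hdbl : ∀ᶠ u in 𝓝 (0 : E), φ (d u) = φ u + φ u :=
    (diag.continuous.tendsto' (0 : E) 0 (map_zero _)).eventually hadd
  refine ⟨h, hh0, hh2, hhd, ?_, ?_⟩
  · filter_upwards [hright, hht.eventually hdbl] with u h1 h2
    rw [← h2, h1]
  · have hμt : Tendsto μ (𝓝 0) (𝓝 0) := by simpa [ContinuousAt, hμ0] using hμ.continuousAt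
    let pm : E × E → E × E := fun p => (h p.1, h p.2)
    have hpm : Tendsto pm (𝓝 0) (𝓝 0) := by
      have h1 := hht.comp (continuous_fst.tendsto' (0 : E × E) 0 rfl)
      have h2 := hht.comp (continuous_snd.tendsto' (0 : E × E) 0 rfl)
      exact h1.prodMk_nhds h2
    let m : E × E → E := fun p => μ (pm p)
    have hm : Tendsto m (𝓝 0) (𝓝 0) := hμt.comp hpm
    have hdt : Tendsto d (𝓝 0) (𝓝 0) := by
      simpa [ContinuousAt, hd0] using hd2.continuousAt
    have hdblp : ∀ᶠ u in 𝓝 (0 : E), φ u = φ (h u) + φ (h u) := by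
      filter_upwards [hright, hht.eventually hdbl] with u h1 h2
      rw [← h2, h1]
    filter_upwards [hadd, hpm.eventually hadd, hμt.eventually hright,
      hm.eventually hdbl, hm.eventually hleft, (hdt.comp hm).eventually hU,
      hμt.eventually hU,
      (continuous_fst.tendsto' (0 : E × E) 0 rfl).eventually hdblp,
      (continuous_snd.tendsto' (0 : E × E) 0 rfl).eventually hdblp]
      with p a1 a2 a3 a4 a5 a6 a7 a8 a9
    have key : d (m p) = μ p := by
      refine hinj a6 a7 ?_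
      have e2 : φ (m p) = φ (h p.1) + φ (h p.2) := a2
      show φ (d (m p)) = φ (μ p)
      rw [a4, e2, a1, a8, a9]
      abel
    rw [← key, a5]

/-- Koenigs linearisation of the halving map turns the local law into vector addition. -/
theorem jacLocalLaw_exists_linearization (hμ : ContDiffAt ℝ 2 μ 0) (hμ0 : μ 0 = 0)
    (hφ0 : φ 0 = 0) (hinj : ∃ U ∈ 𝓝 (0 : E), InjOn φ U)
    (hadd : ∀ᶠ p in 𝓝 (0 : E × E), φ (μ p) = φ p.1 + φ p.2) :
    ∃ L : E → E, L 0 = 0 ∧ HasStrictFDerivAt L (ContinuousLinearMap.id ℝ E) 0 ∧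
      ∀ᶠ p in 𝓝 (0 : E × E), L (μ p) = L p.1 + L p.2 := by
  have hD := jacLocalLaw_fderiv hμ hμ0 hφ0 hinj hadd
  obtain ⟨h, h0, h2, hhd, -, hcomm⟩ := jacLocalLaw_exists_half hμ hμ0 hφ0 hinj hadd
  obtain ⟨K, r, hK, hr, hb⟩ := jacExistsStrictBound h2
  obtain ⟨K', r', hK', hr', hb'⟩ := jacExistsStrictBound hμ
  simp only [hhd, _root_.smul_apply, ContinuousLinearMap.id_apply] at hb
  obtain ⟨ρ, hρ, hρr, hρK⟩ : ∃ ρ : ℝ, 0 < ρ ∧ ρ ≤ r ∧ K * ρ ≤ 1 / 8 := by
    refine ⟨min r (1 / (8 * (K + 1))), lt_min hr (by positivity), min_le_left _ _, ?_⟩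
    calc K * min r (1 / (8 * (K + 1))) ≤ K * (1 / (8 * (K + 1))) :=
          mul_le_mul_of_nonneg_left (min_le_right _ _) hK
      _ ≤ 1 / 8 := by
          rw [mul_one_div, div_le_iff₀ (by positivity)]
          linarith
  have hlip : ∀ u ∈ ball (0 : E) ρ, ∀ v ∈ ball (0 : E) ρ, ‖h u - h v‖ ≤ 5 / 8 * ‖u - v‖ := by
    intro u hu v hv
    have h1 := hb u (ball_subset_ball hρr hu) v (ball_subset_ball hρr hv)
    have h2 : K * max ‖u‖ ‖v‖ ≤ 1 / 8 :=
      le_trans (mul_le_mul_of_nonneg_left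
        (max_lt (mem_ball_zero_iff.1 hu) (mem_ball_zero_iff.1 hv)).le hK) hρK
    have h4 : ‖(2⁻¹ : ℝ) • (u - v)‖ = 2⁻¹ * ‖u - v‖ := by simp [norm_smul]
    have h5 := norm_le_norm_add_norm_sub' (h u - h v) ((2⁻¹ : ℝ) • (u - v))
    have h6 := mul_le_mul_of_nonneg_right h2 (norm_nonneg (u - v))
    linarith
  have hzero : ∀ n, h^[n] (0 : E) = 0 := fun n => Function.iterate_fixed h0 n
  have hshrink : ∀ n, ∀ u ∈ ball (0 : E) ρ, ∀ v ∈ ball (0 : E) ρ,
      ‖h^[n] u‖ ≤ (5 / 8) ^ n * ‖u‖ ∧ h^[n] u ∈ ball (0 : E) ρ ∧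
        ‖h^[n] u - h^[n] v‖ ≤ (5 / 8) ^ n * ‖u - v‖ := by
    intro n
    induction n with
    | zero => intro u hu v _; exact ⟨by simp, by simpa using hu, by simp⟩
    | succ n ih =>
      intro u hu v hv
      obtain ⟨a1, a2, a3⟩ := ih u hu v hv
      obtain ⟨-, b2, -⟩ := ih v hv v hv
      rw [Function.iterate_succ_apply', Function.iterate_succ_apply', pow_succ']
      have c1 : ‖h (h^[n] u)‖ ≤ 5 / 8 * ((5 / 8) ^ n * ‖u‖) := by
        have c0 := hlip _ a2 0 (mem_ball_self hρ)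
        rw [h0, sub_zero, sub_zero] at c0
        linarith [mul_le_mul_of_nonneg_left a1 (by norm_num : (0 : ℝ) ≤ 5 / 8)]
      refine ⟨by linarith, ?_, ?_⟩
      · rw [mem_ball_zero_iff] at a2 ⊢
        have c0 := hlip _ (mem_ball_zero_iff.2 a2) 0 (mem_ball_self hρ)
        rw [h0, sub_zero, sub_zero] at c0
        linarith [norm_nonneg (h^[n] u)]
      · have c3 := hlip _ a2 _ b2
        linarith [mul_le_mul_of_nonneg_left a3 (by norm_num : (0 : ℝ) ≤ 5 / 8)]
  let Ln : ℕ → E → E := fun n u => (2 : ℝ) ^ n • h^[n] u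
  have hstep : ∀ n, ∀ u ∈ ball (0 : E) ρ, ∀ v ∈ ball (0 : E) ρ,
      ‖(Ln (n + 1) u - Ln (n + 1) v) - (Ln n u - Ln n v)‖ ≤
        2 * K * max ‖u‖ ‖v‖ * ‖u - v‖ * (25 / 32) ^ n := by
    intro n u hu v hv
    obtain ⟨a1, a2, a3⟩ := hshrink n u hu v hv
    obtain ⟨b1, b2, -⟩ := hshrink n v hv v hv
    have heq : (Ln (n + 1) u - Ln (n + 1) v) - (Ln n u - Ln n v) =
        (2 : ℝ) ^ (n + 1) • (h (h^[n] u) - h (h^[n] v) - (2⁻¹ : ℝ) • (h^[n] u - h^[n] v)) := by
      simp only [Ln, Function.iterate_succ_apply', smul_sub, smul_smul]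
      rw [show (2 : ℝ) ^ (n + 1) * 2⁻¹ = 2 ^ n by rw [pow_succ]; ring]
    rw [heq, norm_smul, Real.norm_of_nonneg (by positivity : (0 : ℝ) ≤ (2 : ℝ) ^ (n + 1))]
    have hmax : max ‖h^[n] u‖ ‖h^[n] v‖ ≤ (5 / 8) ^ n * max ‖u‖ ‖v‖ := by
      refine max_le (a1.trans ?_) (b1.trans ?_) <;> gcongr
      · exact le_max_left _ _
      · exact le_max_right _ _
    calc (2 : ℝ) ^ (n + 1) * ‖h (h^[n] u) - h (h^[n] v) - (2⁻¹ : ℝ) • (h^[n] u - h^[n] v)‖
        ≤ 2 ^ (n + 1) * (K * ((5 / 8) ^ n * max ‖u‖ ‖v‖) * ((5 / 8) ^ n * ‖u - v‖)) := by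
          refine mul_le_mul_of_nonneg_left ?_ (by positivity)
          refine (hb _ (ball_subset_ball hρr a2) _ (ball_subset_ball hρr b2)).trans ?_
          gcongr
      _ = 2 * K * max ‖u‖ ‖v‖ * ‖u - v‖ * (25 / 32) ^ n := by
          rw [show (25 / 32 : ℝ) = 2 * (5 / 8) * (5 / 8) by norm_num, mul_pow, mul_pow, pow_succ]
          ring
  have hLn0 : ∀ n, Ln n 0 = 0 := fun n => by simp [Ln, hzero]
  let L : E → E := fun u => limUnder atTop fun n => Ln n u
  have hL : ∀ u ∈ ball (0 : E) ρ, Tendsto (fun n => Ln n u) atTop (𝓝 (L u)) := by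
    intro u hu
    refine (cauchySeq_of_le_geometric (25 / 32 : ℝ) (2 * K * ‖u‖ * ‖u‖) (by norm_num)
      fun n => ?_).tendsto_limUnder
    rw [dist_eq_norm, norm_sub_rev]
    simpa [hLn0] using hstep n u hu 0 (mem_ball_self hρ)
  have hLb : ∀ u ∈ ball (0 : E) ρ, ∀ v ∈ ball (0 : E) ρ,
      ‖L u - L v - (u - v)‖ ≤ 2 * K * max ‖u‖ ‖v‖ * ‖u - v‖ / (1 - 25 / 32) := by
    intro u hu v hv
    have := dist_le_of_le_geometric_of_tendsto₀ (25 / 32 : ℝ)
      (2 * K * max ‖u‖ ‖v‖ * ‖u - v‖) (by norm_num)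
      (f := fun n => Ln n u - Ln n v)
      (fun n => by rw [dist_eq_norm, norm_sub_rev]; exact hstep n u hu v hv)
      ((hL u hu).sub (hL v hv))
    rw [dist_eq_norm, norm_sub_rev] at this
    simpa [Ln] using this
  have hL0 : L 0 = 0 :=
    tendsto_nhds_unique (hL 0 (mem_ball_self hρ)) (by simp [hLn0])
  refine ⟨L, hL0, ?_, ?_⟩
  · rw [hasStrictFDerivAt_iff_isLittleO, Asymptotics.isLittleO_iff]
    intro c hc
    obtain ⟨δ, hδ, hδρ, hδc⟩ :
        ∃ δ : ℝ, 0 < δ ∧ δ ≤ ρ ∧ 2 * K * δ / (1 - 25 / 32) ≤ c := by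
      refine ⟨min ρ (c * (7 / 32) / (2 * K + 1)), lt_min hρ (by positivity), min_le_left _ _, ?_⟩
      rw [div_le_iff₀ (by norm_num)]
      calc 2 * K * min ρ (c * (7 / 32) / (2 * K + 1)) ≤
            2 * K * (c * (7 / 32) / (2 * K + 1)) :=
            mul_le_mul_of_nonneg_left (min_le_right _ _) (by positivity)
        _ ≤ c * (1 - 25 / 32) := by
            rw [show (1 : ℝ) - 25 / 32 = 7 / 32 by norm_num, ← mul_div_assoc,
              div_le_iff₀ (by positivity)]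
            linarith [hc]
    filter_upwards [eventually_mem_fst_snd (ball_mem_nhds (0 : E) hδ)] with p ⟨hp1, hp2⟩
    rw [ContinuousLinearMap.id_apply]
    refine (hLb _ (ball_subset_ball hδρ hp1) _ (ball_subset_ball hδρ hp2)).trans ?_
    rw [mul_div_right_comm]
    refine mul_le_mul_of_nonneg_right ?_ (norm_nonneg _)
    refine le_trans ?_ hδc
    gcongr
    exact (max_lt (mem_ball_zero_iff.1 hp1) (mem_ball_zero_iff.1 hp2)).le
  · obtain ⟨t, ht, htball⟩ := Metric.mem_nhds_iff.1 hcomm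
    let s := min t (min ρ r')
    have hs : 0 < s := lt_min ht (lt_min hρ hr')
    have hμt : Tendsto μ (𝓝 0) (𝓝 0) := by simpa [ContinuousAt, hμ0] using hμ.continuousAt
    filter_upwards [ball_mem_nhds (0 : E × E) hs, hμt.eventually (ball_mem_nhds (0 : E) hρ)]
      with p hp hμp
    have hp1 : ‖p.1‖ < s := (norm_fst_le p).trans_lt (mem_ball_zero_iff.1 hp)
    have hp2 : ‖p.2‖ < s := (norm_snd_le p).trans_lt (mem_ball_zero_iff.1 hp)
    have hρ1 : p.1 ∈ ball (0 : E) ρ :=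
      mem_ball_zero_iff.2 (hp1.trans_le ((min_le_right _ _).trans (min_le_left _ _)))
    have hρ2 : p.2 ∈ ball (0 : E) ρ :=
      mem_ball_zero_iff.2 (hp2.trans_le ((min_le_right _ _).trans (min_le_left _ _)))
    have hnorm : ∀ n, ‖(h^[n] p.1, h^[n] p.2)‖ ≤ (5 / 8) ^ n * ‖p‖ := fun n => by
      rw [Prod.norm_def]
      refine max_le ((hshrink n _ hρ1 _ hρ1).1.trans ?_) ((hshrink n _ hρ2 _ hρ2).1.trans ?_) <;>
        gcongr
      · exact norm_fst_le p
      · exact norm_snd_le p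
    have hmem : ∀ n, (h^[n] p.1, h^[n] p.2) ∈ ball (0 : E × E) s := fun n => by
      rw [mem_ball_zero_iff] at hp ⊢
      refine ((hnorm n).trans ?_).trans_lt hp
      exact mul_le_of_le_one_left (norm_nonneg _) (pow_le_one₀ (by norm_num) (by norm_num))
    have hiter : ∀ n, h^[n] (μ p) = μ (h^[n] p.1, h^[n] p.2) := by
      intro n
      induction n with
      | zero => simp
      | succ n ih =>
        simp only [Function.iterate_succ_apply']
        rw [ih]
        exact htball (ball_subset_ball (min_le_left _ _) (hmem n))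
    have hlim : Tendsto (fun n => Ln n (μ p) - (Ln n p.1 + Ln n p.2)) atTop (𝓝 0) := by
      have hgeo : Tendsto (fun n : ℕ => K' * ‖p‖ * ‖p‖ * (25 / 32) ^ n) atTop (𝓝 0) := by
        simpa using (tendsto_pow_atTop_nhds_zero_of_lt_one (by norm_num : (0 : ℝ) ≤ 25 / 32)
          (by norm_num)).const_mul (K' * ‖p‖ * ‖p‖)
      refine squeeze_zero_norm (fun n => ?_) hgeo
      set q := (h^[n] p.1, h^[n] p.2) with hq
      have hsr : s ≤ r' := (min_le_right _ _).trans (min_le_right _ _)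
      have hb2 := hb' q (ball_subset_ball hsr (hmem n)) 0 (mem_ball_self hr')
      simp only [hμ0, sub_zero, norm_zero, hD, _root_.add_apply,
        ContinuousLinearMap.coe_fst', ContinuousLinearMap.coe_snd',
        max_eq_left (norm_nonneg q)] at hb2
      have heq : Ln n (μ p) - (Ln n p.1 + Ln n p.2) = (2 : ℝ) ^ n • (μ q - (q.1 + q.2)) := by
        simp [Ln, hiter n, hq, smul_sub, smul_add]
      rw [heq, norm_smul, Real.norm_of_nonneg (by positivity : (0 : ℝ) ≤ (2 : ℝ) ^ n)]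
      calc (2 : ℝ) ^ n * ‖μ q - (q.1 + q.2)‖ ≤
            2 ^ n * (K' * ((5 / 8) ^ n * ‖p‖) * ((5 / 8) ^ n * ‖p‖)) := by
            refine mul_le_mul_of_nonneg_left (hb2.trans ?_) (by positivity)
            gcongr <;> exact hnorm n
        _ = K' * ‖p‖ * ‖p‖ * (25 / 32) ^ n := by
            rw [show (25 / 32 : ℝ) = 2 * (5 / 8) * (5 / 8) by norm_num, mul_pow, mul_pow]
            ring
    exact sub_eq_zero.1 (tendsto_nhds_unique
      ((hL _ hμp).sub ((hL _ hρ1).add (hL _ hρ2))) hlim)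

omit [CompleteSpace E] in
/-- A map additive on a ball extends to a homomorphism on the whole vector space. -/
theorem jacExtendLocalHom {δ : ℝ} (hδ : 0 < δ) (θ : E → A) (hθ0 : θ 0 = 0)
    (hθ : ∀ a ∈ ball (0 : E) δ, ∀ b ∈ ball (0 : E) δ,
      a + b ∈ ball (0 : E) δ → θ (a + b) = θ a + θ b) :
    ∃ ψ : E →+ A, ∀ a ∈ ball (0 : E) δ, ψ a = θ a := by
  have hsmul : ∀ (k : ℕ) (x : E), ((k : ℝ) • x) ∈ ball (0 : E) δ →
      θ ((k : ℝ) • x) = k • θ x := by
    intro k x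
    induction k with
    | zero => simp [hθ0]
    | succ k ih =>
      intro hk
      have hn : ((k : ℝ) + 1) * ‖x‖ < δ := by
        have := mem_ball_zero_iff.1 hk
        rwa [norm_smul, Nat.cast_succ, Real.norm_of_nonneg (by positivity)] at this
      have hx : x ∈ ball (0 : E) δ := by
        rw [mem_ball_zero_iff]
        nlinarith [norm_nonneg x, (Nat.cast_nonneg k : (0 : ℝ) ≤ k)]
      have hkx : (k : ℝ) • x ∈ ball (0 : E) δ := by
        rw [mem_ball_zero_iff, norm_smul, Real.norm_of_nonneg (Nat.cast_nonneg k)]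
        linarith [norm_nonneg x]
      have heq : ((k + 1 : ℕ) : ℝ) • x = (k : ℝ) • x + x := by
        rw [Nat.cast_succ, add_smul, one_smul]
      rw [heq] at hk ⊢
      rw [hθ _ hkx _ hx hk, ih hkx, succ_nsmul]
  have hmem : ∀ (z : E) (M : ℕ), ‖z‖ < δ * M → (M : ℝ)⁻¹ • z ∈ ball (0 : E) δ := by
    intro z M hM
    have hM0 : (0 : ℝ) < M := by nlinarith [norm_nonneg z]
    rw [mem_ball_zero_iff, norm_smul, Real.norm_of_nonneg (by positivity),
      inv_mul_lt_iff₀ hM0]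
    linarith
  have hindep : ∀ (z : E) (M N : ℕ), ‖z‖ < δ * M → ‖z‖ < δ * N →
      M • θ ((M : ℝ)⁻¹ • z) = N • θ ((N : ℝ)⁻¹ • z) := by
    intro z M N hM hN
    have hM0 : (M : ℝ) ≠ 0 := by intro h; rw [h, mul_zero] at hM; linarith [norm_nonneg z]
    have hN0 : (N : ℝ) ≠ 0 := by intro h; rw [h, mul_zero] at hN; linarith [norm_nonneg z]
    let y := ((M : ℝ) * N)⁻¹ • z
    have hy1 : (M : ℝ)⁻¹ • z = (N : ℝ) • y := by
      simp only [y, smul_smul]; congr 1; field_simp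
    have hy2 : (N : ℝ)⁻¹ • z = (M : ℝ) • y := by
      simp only [y, smul_smul]; congr 1; field_simp
    rw [hy1, hy2, hsmul N y (hy1 ▸ hmem z M hM), hsmul M y (hy2 ▸ hmem z N hN), smul_smul,
      smul_smul, Nat.mul_comm]
  let N : E → ℕ := fun z => ⌊‖z‖ / δ⌋₊ + 1
  have hN : ∀ z, ‖z‖ < δ * N z := fun z => by
    rw [mul_comm, ← div_lt_iff₀ hδ]
    exact_mod_cast Nat.lt_floor_add_one (‖z‖ / δ)
  refine ⟨AddMonoidHom.mk' (fun z => N z • θ ((N z : ℝ)⁻¹ • z)) fun z w => ?_, fun a ha => ?_⟩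
  · let M := N z + N w + N (z + w)
    have hz : ‖z‖ < δ * M := by
      refine (hN z).trans_le (mul_le_mul_of_nonneg_left ?_ hδ.le)
      exact_mod_cast le_add_right (le_add_right le_rfl)
    have hw : ‖w‖ < δ * M := by
      refine (hN w).trans_le (mul_le_mul_of_nonneg_left ?_ hδ.le)
      exact_mod_cast le_add_right (le_add_left le_rfl)
    have hzw : ‖z + w‖ < δ * M := by
      refine (hN (z + w)).trans_le (mul_le_mul_of_nonneg_left ?_ hδ.le)
      exact_mod_cast le_add_left le_rfl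
    simp only [hindep z (N z) M (hN z) hz, hindep w (N w) M (hN w) hw,
      hindep (z + w) (N (z + w)) M (hN _) hzw]
    rw [smul_add (M : ℝ)⁻¹ z w,
      hθ _ (hmem z M hz) _ (hmem w M hw) (by rw [← smul_add]; exact hmem _ M hzw), smul_add]
  · simp only [AddMonoidHom.mk'_apply]
    rw [hindep a (N a) 1 (hN a) (by simpa using mem_ball_zero_iff.1 ha)]
    simp

/-- **Linearisation.** An abelian group with a `C²` chart addition law near zero receives a
homomorphism from `E` that is injective near zero and covers chart neighbourhoods. -/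
theorem jacLocalGroupLaw_exists_hom (hμ : ContDiffAt ℝ 2 μ 0) (hμ0 : μ 0 = 0) (hφ0 : φ 0 = 0)
    (hinj : ∃ U ∈ 𝓝 (0 : E), InjOn φ U)
    (hadd : ∀ᶠ p in 𝓝 (0 : E × E), φ (μ p) = φ p.1 + φ p.2) :
    ∃ ψ : E →+ A, (∃ W ∈ 𝓝 (0 : E), InjOn ψ W) ∧
      ∀ W ∈ 𝓝 (0 : E), ∀ᶠ u in 𝓝 (0 : E), φ u ∈ ψ '' W := by
  obtain ⟨L, hL0, hLd, hLadd⟩ := jacLocalLaw_exists_linearization hμ hμ0 hφ0 hinj hadd
  obtain ⟨U, hU, hinj⟩ := hinj
  replace hLd : HasStrictFDerivAt L ((ContinuousLinearEquiv.refl ℝ E) : E →L[ℝ] E) 0 := by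
    simpa using hLd
  let G := hLd.localInverse L (ContinuousLinearEquiv.refl ℝ E) 0
  have hG0 : G 0 = 0 := by simpa [hL0] using hLd.localInverse_apply_image
  have hGt : Tendsto G (𝓝 0) (𝓝 0) := by simpa [hL0] using hLd.localInverse_tendsto
  have hμt : Tendsto μ (𝓝 0) (𝓝 0) := by simpa [ContinuousAt, hμ0] using hμ.continuousAt
  have hLt : Tendsto L (𝓝 0) (𝓝 0) := by simpa [hL0] using hLd.continuousAt.tendsto
  have hright : ∀ᶠ a in 𝓝 (0 : E), L (G a) = a := by
    simpa [hL0] using hLd.eventually_right_inverse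
  have hleft : ∀ᶠ u in 𝓝 (0 : E), G (L u) = u := hLd.eventually_left_inverse
  let Gp : E × E → E × E := fun q => (G q.1, G q.2)
  have hGp : Tendsto Gp (𝓝 0) (𝓝 0) :=
    (hGt.comp (continuous_fst.tendsto' (0 : E × E) 0 rfl)).prodMk_nhds
      (hGt.comp (continuous_snd.tendsto' (0 : E × E) 0 rfl))
  have hev : ∀ᶠ q in 𝓝 (0 : E × E), φ (G (q.1 + q.2)) = φ (G q.1) + φ (G q.2) := by
    filter_upwards [hGp.eventually hadd, hGp.eventually hLadd,
      (hμt.comp hGp).eventually hleft,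
      (continuous_fst.tendsto' (0 : E × E) 0 rfl).eventually hright,
      (continuous_snd.tendsto' (0 : E × E) 0 rfl).eventually hright] with q a1 a2 a3 a4 a5
    have : G (q.1 + q.2) = μ (Gp q) := by
      have e2 : L (μ (Gp q)) = q.1 + q.2 := by rw [a2, a4, a5]
      rw [← e2]; exact a3
    rw [this]
    exact a1
  obtain ⟨δ₁, hδ₁, hball⟩ := Metric.mem_nhds_iff.1 hev
  obtain ⟨δ₂, hδ₂, hball₂⟩ := Metric.mem_nhds_iff.1 (hright.and (hGt.eventually hU))
  let δ := min δ₁ δ₂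
  have hδ : 0 < δ := lt_min hδ₁ hδ₂
  obtain ⟨ψ, hψ⟩ := jacExtendLocalHom hδ (fun a => φ (G a)) (by simp [hG0, hφ0])
    fun a ha b hb _ => hball (mem_ball_zero_iff.2 (by
      rw [Prod.norm_def]
      exact max_lt ((mem_ball_zero_iff.1 ha).trans_le (min_le_left _ _))
        ((mem_ball_zero_iff.1 hb).trans_le (min_le_left _ _))) : (a, b) ∈ ball (0 : E × E) δ₁)
  refine ⟨ψ, ⟨ball 0 δ, ball_mem_nhds 0 hδ, fun a ha b hb hab => ?_⟩, fun W hW => ?_⟩
  · rw [hψ a ha, hψ b hb] at hab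
    have ha' := hball₂ (ball_subset_ball (min_le_right _ _) ha)
    have hb' := hball₂ (ball_subset_ball (min_le_right _ _) hb)
    rw [← ha'.1, ← hb'.1, hinj ha'.2 hb'.2 hab]
  · filter_upwards [hleft, hLt.eventually (Filter.inter_mem hW (ball_mem_nhds 0 hδ))] with u h1 h2
    refine ⟨L u, h2.1, ?_⟩
    rw [hψ _ h2.2, h1]

end

end FermatLib.Curve
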