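import Fermat.Agent.Curve.JacClass
import Fermat.Agent.Curve.LocalGroupLaw
import Mathlib.LinearAlgebra.Complex.FiniteDimensional

/-!
# The local group law on `Pic0` of a complex function field

Three disjoint nonspecial tuples give a `C²` addition law on the chart at the first, hence a
homomorphism `ψ : ℂ^g → Pic0`, injective near zero, whose image of any neighbourhood contains
every small difference `[Q] - [R]`.
-/

set_option autoImplicit false

noncomputable section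

open AlgebraicCurve Topology Filter Metric

namespace FermatLib.Curve

variable {F : Type*} [Field F] [Algebra ℂ F] [IsCurveOver ℂ F] [Algebra.EssFiniteType ℂ F]

theorem jacInfinite_place : Infinite (Place ℂ F) := by
  have : IsFunctionField ℂ F := isFunctionField_of_isCurveOver ℂ F
  obtain ⟨v⟩ := nonempty_place (K := ℂ) (F := F)
  obtain ⟨Φ⟩ := jacChart_nonempty v
  have hinf : (ball (0 : ℂ) Φ.r).Infinite :=
    infinite_of_mem_nhds 0 (ball_mem_nhds 0 Φ.r_pos)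
  have : Infinite (ball (0 : ℂ) Φ.r) := hinf.to_subtype
  exact Infinite.of_injective (fun z : ball (0 : ℂ) Φ.r => Φ.pt z) fun a b h =>
    Subtype.ext (Φ.pt_injOn (mem_ball_zero_iff.1 a.2) (mem_ball_zero_iff.1 b.2) h)

/-- **The local group law on `Pic0`.** -/
theorem jacLocalHom (hR : RiemannEquation ℂ F) (Φ : ∀ v : Place ℂ F, JacChart v) :
    ∃ ψ : (Fin (genusFF ℂ F) → ℂ) →+ Pic0 ℂ F,
      (∃ W ∈ 𝓝 (0 : Fin (genusFF ℂ F) → ℂ), Set.InjOn ψ W) ∧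
      ∀ R : Place ℂ F, ∀ᶠ z in 𝓝 (0 : ℂ),
        jacCls (Finsupp.single ((Φ R).pt z) 1 - Finsupp.single R 1) ∈
          ψ '' ball (0 : Fin (genusFF ℂ F) → ℂ) 1 := by
  classical
  have := jacInfinite_place (F := F)
  -- three disjoint nonspecial tuples
  obtain ⟨P₀, i₀, -, n₀⟩ := jacExists_nonspecial hR (∅ : Set (Place ℂ F)) Set.finite_empty
  obtain ⟨P₁, i₁, a₁, n₁⟩ := jacExists_nonspecial hR (Set.range P₀) (Set.finite_range _)
  obtain ⟨P₂, i₂, a₂, n₂⟩ := jacExists_nonspecial hR (Set.range P₀ ∪ Set.range P₁)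
    ((Set.finite_range _).union (Set.finite_range _))
  have h01 : ∀ i j, P₀ i ≠ P₁ j := fun i j h => a₁ j ⟨i, h⟩
  have h02 : ∀ i j, P₀ i ≠ P₂ j := fun i j h => a₂ j (Or.inl ⟨i, h⟩)
  have h12 : ∀ i j, P₁ i ≠ P₂ j := fun i j h => a₂ j (Or.inr ⟨i, h⟩)
  let Φ₀ : ∀ i, JacChart (P₀ i) := fun i => Φ (P₀ i)
  let Φ₁ : ∀ i, JacChart (P₁ i) := fun i => Φ (P₁ i)
  let Φ₂ : ∀ i, JacChart (P₂ i) := fun i => Φ (P₂ i)
  obtain ⟨y01, y01z, y01c, hy01⟩ := jacResidual_phi hR Φ₀ Φ₁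
    (i₀.sumElim i₁ h01) n₁
  obtain ⟨y02, y02z, y02c, hy02⟩ := jacResidual_phi hR Φ₀ Φ₂
    (i₀.sumElim i₂ h02) n₂
  obtain ⟨y10, y10z, y10c, hy10⟩ := jacResidual_phi hR Φ₁ Φ₀
    (i₁.sumElim i₀ fun i j h => h01 j i h.symm) n₀
  obtain ⟨y20, y20z, y20c, hy20⟩ := jacResidual_phi hR Φ₂ Φ₀
    (i₂.sumElim i₀ fun i j h => h02 j i h.symm) n₀
  obtain ⟨yR, yRz, yRc, hyR⟩ := jacResidual_phi hR (PT := Sum.elim P₁ P₂)
    (fun s => Sum.rec (motive := fun s => JacChart (Sum.elim P₁ P₂ s)) Φ₁ Φ₂ s) Φ₀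
    ((i₁.sumElim i₂ h12).sumElim i₀ fun s j h => by
      rcases s with s | s
      · exact h01 j s h.symm
      · exact h02 j s h.symm) n₀
  have tz : ∀ {X Y : Type} [NormedAddCommGroup X] [NormedSpace ℂ X] [NormedAddCommGroup Y]
      [NormedSpace ℂ Y] {f : X → Y}, ContDiffAt ℂ 2 f 0 → f 0 = 0 →
      Tendsto f (𝓝 0) (𝓝 0) := fun {X Y} _ _ _ _ {f} hf h0 => by
    have h : Tendsto f (𝓝 0) (𝓝 (f 0)) := hf.continuousAt
    rwa [h0] at h
  -- injectivity of the chart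
  let φ := jacPhi Φ₀
  have hinj : ∃ U ∈ 𝓝 (0 : Fin (genusFF ℂ F) → ℂ), Set.InjOn φ U := by
    let back : (Fin (genusFF ℂ F) → ℂ) → Fin (genusFF ℂ F) → ℂ := fun v => y10 (y01 v)
    have hback : Tendsto back (𝓝 0) (𝓝 0) := (tz y10c y10z).comp (tz y01c y01z)
    have hround : ∀ᶠ v in 𝓝 (0 : Fin (genusFF ℂ F) → ℂ), φ (back v) = φ v ∧
        ∀ E : Divisor ℂ F, 0 ≤ E →
          E - jacPtsDiv Φ₀ (back v) ∈ Divisor.principal (K := ℂ) (F := F) →
            E = jacPtsDiv Φ₀ (back v) := by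
      filter_upwards [hy01, (tz y01c y01z).eventually hy10] with v h1 h2
      refine ⟨?_, h2.2⟩
      show jacPhi Φ₀ (y10 (y01 v)) = jacPhi Φ₀ v
      rw [h2.1, h1.1, neg_neg]
    have hsep := jacPtsDiv_injective_near Φ₀ i₀
    rw [Prod.zero_eq_mk, nhds_prod_eq] at hsep
    obtain ⟨U₁, hU₁, U₂, hU₂, hsub⟩ := mem_prod_iff.1 hsep
    let U := U₁ ∩ U₂
    have hU : U ∈ 𝓝 (0 : Fin (genusFF ℂ F) → ℂ) := inter_mem hU₁ hU₂
    have hUsep : ∀ v ∈ U, ∀ w ∈ U, jacPtsDiv Φ₀ v = jacPtsDiv Φ₀ w → v = w :=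
      fun v hv w hw => hsub (Set.mk_mem_prod hv.1 hw.2)
    refine ⟨{v | v ∈ U ∧ φ (back v) = φ v ∧ ∀ E : Divisor ℂ F, 0 ≤ E →
        E - jacPtsDiv Φ₀ (back v) ∈ Divisor.principal (K := ℂ) (F := F) →
          E = jacPtsDiv Φ₀ (back v)}, inter_mem hU hround, ?_⟩
    rintro v ⟨hv, hv1, -⟩ w ⟨hw, hw1, hw2⟩ hvw
    have hnn : ∀ x : Fin (genusFF ℂ F) → ℂ, 0 ≤ jacPtsDiv Φ₀ x := fun x =>
      Finset.sum_nonneg fun i _ => Finsupp.single_nonneg.2 zero_le_one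
    have key : ∀ x, φ x = φ (back w) → jacPtsDiv Φ₀ x = jacPtsDiv Φ₀ (back w) := fun x hx => by
      refine hw2 _ (hnn x) ?_
      have h := (jacCls_eq_iff (degree_jacPhi_divisor Φ₀ x) (degree_jacPhi_divisor Φ₀ _)).1 hx
      simpa using h
    exact hUsep v hv w hw ((key v (hvw.trans hw1.symm)).trans (key w hw1.symm).symm)
  -- the addition law
  let pair : (Fin (genusFF ℂ F) → ℂ) × (Fin (genusFF ℂ F) → ℂ) →
      Fin (genusFF ℂ F) ⊕ Fin (genusFF ℂ F) → ℂ := fun p => Sum.elim (y01 p.1) (y02 p.2)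
  have hpair0 : pair 0 = 0 := by
    funext s
    rcases s with s | s <;> simp [pair, y01z, y02z]
  have hpairc : ContDiffAt ℂ 2 pair 0 := contDiffAt_pi.2 fun s => by
    rcases s with s | s
    · exact (contDiffAt_pi.1 (y01c.comp (0 : _ × _) contDiffAt_fst)) s
    · exact (contDiffAt_pi.1 (y02c.comp (0 : _ × _) contDiffAt_snd)) s
  let μ : (Fin (genusFF ℂ F) → ℂ) × (Fin (genusFF ℂ F) → ℂ) → Fin (genusFF ℂ F) → ℂ :=
    fun p => yR (pair p)
  have hμ0 : μ 0 = 0 := by simp [μ, hpair0, yRz]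
  have hμc : ContDiffAt ℂ 2 μ 0 := by
    refine ContDiffAt.comp (0 : _ × _) (g := yR) ?_ hpairc
    rw [hpair0]; exact yRc
  have hadd : ∀ᶠ p in 𝓝 (0 : (Fin (genusFF ℂ F) → ℂ) × (Fin (genusFF ℂ F) → ℂ)),
      φ (μ p) = φ p.1 + φ p.2 := by
    filter_upwards [(continuous_fst.tendsto' (0 : _ × _) 0 rfl).eventually hy01,
      (continuous_snd.tendsto' (0 : _ × _) 0 rfl).eventually hy02,
      (tz hpairc hpair0).eventually hyR] with p h1 h2 h3
    show jacPhi Φ₀ (yR (pair p)) = _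
    rw [h3.1, jacPhi_sum, h1.1, h2.1, neg_add, neg_neg, neg_neg]
  obtain ⟨ψ, hψinj, hψ⟩ := jacLocalGroupLaw_exists_hom (φ := φ) (μ := μ)
    (hμc.restrict_scalars ℝ) hμ0 (jacPhi_zero Φ₀) hinj hadd
  refine ⟨ψ, hψinj, fun R => ?_⟩
  have hball := hψ (ball 0 1) (ball_mem_nhds 0 one_pos)
  have hneg : ∀ c, c ∈ ψ '' ball (0 : Fin (genusFF ℂ F) → ℂ) 1 →
      -c ∈ ψ '' ball (0 : Fin (genusFF ℂ F) → ℂ) 1 := by
    rintro c ⟨z, hz, rfl⟩
    exact ⟨-z, by simpa using hz, map_neg ψ z⟩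
  have hb1 : ∀ᶠ u in 𝓝 0, jacPhi Φ₁ u ∈ ψ '' ball 0 1 := by
    filter_upwards [hy10, (tz y10c y10z).eventually hball] with u h1 h2
    have h := hneg _ h2
    rwa [show φ (y10 u) = -jacPhi Φ₁ u from h1.1, neg_neg] at h
  have hb2 : ∀ᶠ u in 𝓝 0, jacPhi Φ₂ u ∈ ψ '' ball 0 1 := by
    filter_upwards [hy20, (tz y20c y20z).eventually hball] with u h1 h2
    have h := hneg _ h2
    rwa [show φ (y20 u) = -jacPhi Φ₂ u from h1.1, neg_neg] at h
  -- `R` avoids two of the tuples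
  have key : ∀ (PA PB : Fin (genusFF ℂ F) → Place ℂ F) (ΦA : ∀ i, JacChart (PA i)),
      Function.Injective PA → Function.Injective PB → (∀ i j, PB i ≠ PA j) →
      (∀ i, R ≠ PA i) → (∀ i, R ≠ PB i) →
      (∀ f ∈ riemannRochSpace (jacBase PA), ∃ c : ℂ, f = algebraMap ℂ F c) →
      (∀ᶠ u in 𝓝 0, jacPhi ΦA u ∈ ψ '' ball 0 1) →
      ∀ᶠ z in 𝓝 (0 : ℂ), jacCls (Finsupp.single ((Φ R).pt z) 1 - Finsupp.single R 1) ∈
        ψ '' ball (0 : Fin (genusFF ℂ F) → ℂ) 1 := by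
    intro PA PB ΦA hA hB hAB hRA hRB hns hballA
    let PT : Unit ⊕ Fin (genusFF ℂ F) → Place ℂ F := Sum.elim (fun _ => R) PB
    obtain ⟨y, yz, yc, hy⟩ := jacResidual_phi hR (PT := PT)
      (fun s => Sum.rec (motive := fun s => JacChart (Sum.elim (fun _ : Unit => R) PB s))
        (fun _ => Φ R) (fun i => Φ (PB i)) s) ΦA
      (Function.Injective.sumElim ((Function.injective_of_subsingleton _).sumElim hB
        fun _ j => hRB j) hA fun s j => by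
          rcases s with s | s
          · exact hRA j
          · exact hAB s j) hns
    let emb : ℂ → Unit ⊕ Fin (genusFF ℂ F) → ℂ := fun z => Sum.elim (fun _ => z) 0
    have hemb : Tendsto emb (𝓝 0) (𝓝 0) := by
      refine tendsto_pi_nhds.2 fun s => ?_
      rcases s with s | s
      · exact tendsto_id
      · exact tendsto_const_nhds
    filter_upwards [hemb.eventually hy, ((tz yc yz).comp hemb).eventually hballA] with z h1 h2
    have h3 : jacPhi ΦA (y (emb z)) ∈ ψ '' ball 0 1 := h2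
    rw [h1.1] at h3
    have h4 := hneg _ h3
    rw [neg_neg] at h4
    convert h4 using 1
    show _ = jacPhi (P := Sum.elim (fun _ : Unit => R) PB) _ (Sum.elim (fun _ => z) 0)
    rw [jacPhi_sum, jacPhi_zero, add_zero]
    simp [jacPhi, jacPtsDiv, jacBase]
  by_cases h0 : ∃ i, R = P₀ i
  · obtain ⟨i, rfl⟩ := h0
    exact key P₁ P₂ Φ₁ i₁ i₂ (fun a b h => h12 b a h.symm) (h01 i) (h02 i) n₁ hb1
  · simp only [not_exists] at h0
    by_cases h1 : ∃ i, R = P₁ i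
    · obtain ⟨i, rfl⟩ := h1
      exact key P₀ P₂ Φ₀ i₀ i₂ (fun a b h => h02 b a h.symm) h0 (h12 i) n₀ hball
    · simp only [not_exists] at h1
      exact key P₀ P₁ Φ₀ i₀ i₁ (fun a b h => h01 b a h.symm) h0 h1 n₀ hball

end FermatLib.Curve

end
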