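import Fermat.Agent.Curve.JacChart
import Fermat.Agent.Curve.Approximation

/-!
# Charts at different places have disjoint small discs
-/

set_option autoImplicit false

noncomputable section

open Polynomial AlgebraicCurve Topology Filter

namespace FermatLib.Curve

variable {F : Type*} [Field F] [Algebra ℂ F] {v w : Place ℂ F}

theorem JacChart.tendsto_hat (Φ : JacChart v) {z : ℂ} (hz : ‖z‖ < Φ.r) {f : F} {c : ℂ}
    (h : f - algebraMap ℂ F c ∈ ordGE (Φ.pt z) 1) :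
    Tendsto (Φ.hat f) (𝓝[≠] z) (𝓝 c) := by
  have he : Φ.hat (f - algebraMap ℂ F c) =ᶠ[𝓝[≠] z] fun x => Φ.hat f x - c := by
    rw [sub_eq_add_neg, ← map_neg]
    filter_upwards [Φ.hat_add f (algebraMap ℂ F (-c)) hz, Φ.hat_const (-c) hz] with x e1 e2
    rw [e1, Pi.add_apply, e2, sub_eq_add_neg]
  have h2 : Tendsto (Φ.hat (f - algebraMap ℂ F c)) (𝓝[≠] z) (𝓝 0) := by
    rw [tendsto_zero_iff_meromorphicOrderAt_pos (Φ.meromorphicAt_hat _ hz)]
    rcases eq_or_ne (f - algebraMap ℂ F c) 0 with h0 | h0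
    · have h3 := Φ.ordAt_zero hz
      rw [JacChart.ordAt, ← h0] at h3
      rw [h3]
      exact WithTop.coe_lt_top 0
    · rw [Φ.ord_pt hz h0]
      have := le_ord_of_mem h h0
      exact_mod_cast (show (0 : ℤ) < _ by omega)
  simpa using (h2.congr' he).add_const c

variable [IsCurveOver ℂ F]

/-- A function regular at the centre is bounded, as a function on nearby places. -/
theorem JacChart.exists_bound (Φ : JacChart v) {f : F} (hf : f ∈ ordGE v 0) :
    ∃ C : ℝ, ∀ᶠ z in 𝓝 (0 : ℂ), ∃ c : ℂ, ‖c‖ ≤ C ∧ f - algebraMap ℂ F c ∈ ordGE (Φ.pt z) 1 := by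
  have h0r : ‖(0 : ℂ)‖ < Φ.r := by simpa using Φ.r_pos
  have hdeg := fun u : Place ℂ F => IsCurveOver.deg_eq_one_of_isAlgClosed u
  have hval : ∀ (u : Place ℂ F) {g : F}, g ∈ ordGE u 0 →
      ∃ c : ℂ, g - algebraMap ℂ F c ∈ ordGE u 1 := by
    intro u g hg
    obtain ⟨c, hc⟩ := exists_sub_const_mem_maximalIdeal u (hdeg u)
      ⟨g, (mem_valuationSubring_iff u).2 hg⟩
    exact ⟨c, (residueAt_eq_zero_iff u (f := ⟨g - algebraMap ℂ F c, sub_mem hg
      ((mem_valuationSubring_iff u).1 (u.algebraMap_mem' c))⟩)).1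
        ((IsLocalRing.residue_eq_zero_iff _).2 hc)⟩
  obtain ⟨c₀, hc₀⟩ := hval v hf
  have hlim := Φ.tendsto_hat h0r (f := f) (c := c₀) (by rw [Φ.pt_zero]; exact hc₀)
  have hm := Φ.meromorphicAt_hat f h0r
  refine ⟨‖c₀‖ + 1, ?_⟩
  have hb : ∀ᶠ z in 𝓝[≠] (0 : ℂ), ‖Φ.hat f z‖ < ‖c₀‖ + 1 :=
    hlim.norm.eventually (eventually_lt_nhds (lt_add_one _))
  have hne : ∀ᶠ z in 𝓝 (0 : ℂ), z ≠ 0 →
      ∃ c : ℂ, ‖c‖ ≤ ‖c₀‖ + 1 ∧ f - algebraMap ℂ F c ∈ ordGE (Φ.pt z) 1 := by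
    filter_upwards [eventually_nhdsWithin_iff.1 hb, eventually_nhdsWithin_iff.1
      hm.eventually_analyticAt, eventually_nhdsWithin_iff.1 (Φ.eventually_lt h0r)]
      with z h1 h2 h3 hz
    rcases eq_or_ne f 0 with rfl | hf0
    · exact ⟨0, by simp; positivity, by simp⟩
    have hreg : f ∈ ordGE (Φ.pt z) 0 := by
      refine mem_ordGE_of_le ?_
      have := (h2 hz).meromorphicOrderAt_nonneg
      rw [Φ.ord_pt (h3 hz) hf0] at this
      exact_mod_cast this
    obtain ⟨c, hc⟩ := hval _ hreg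
    refine ⟨c, ?_, hc⟩
    have hcz : Φ.hat f z = c :=
      tendsto_nhds_unique ((h2 hz).continuousAt.tendsto.mono_left nhdsWithin_le_nhds)
        (Φ.tendsto_hat (h3 hz) hc)
    rw [← hcz]
    exact (h1 hz).le
  filter_upwards [hne] with z hz
  rcases eq_or_ne z 0 with rfl | h
  · exact ⟨c₀, by linarith, by rw [Φ.pt_zero]; exact hc₀⟩
  · exact hz h

/-- Charts at different places have disjoint small discs. -/
theorem JacChart.eventually_pt_ne (Φ : JacChart v) (Ψ : JacChart w) (hne : v ≠ w) :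
    ∀ᶠ p in 𝓝 (0 : ℂ × ℂ), Φ.pt p.1 ≠ Ψ.pt p.2 := by
  obtain ⟨f, hv, hw⟩ := exists_ord_nonneg_neg hne
  have h0r : ‖(0 : ℂ)‖ < Ψ.r := by simpa using Ψ.r_pos
  have hf0 : f ≠ 0 := fun h => by simp [h] at hw
  obtain ⟨C, hC⟩ := Φ.exists_bound (mem_ordGE_of_le hv)
  have hm := Ψ.meromorphicAt_hat f h0r
  have hbig : ∀ᶠ z in 𝓝[≠] (0 : ℂ), C < ‖Ψ.hat f z‖ := by
    have hneg : meromorphicOrderAt (Ψ.hat f) 0 < 0 := by
      rw [Ψ.ord_pt h0r hf0, Ψ.pt_zero]
      exact_mod_cast hw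
    exact ((tendsto_norm_cobounded_atTop.comp
      (tendsto_cobounded_of_meromorphicOrderAt_neg hneg)).eventually_gt_atTop C)
  filter_upwards [(continuous_fst.tendsto' (0 : ℂ × ℂ) 0 rfl).eventually hC,
    (continuous_snd.tendsto' (0 : ℂ × ℂ) 0 rfl).eventually (eventually_nhdsWithin_iff.1 hbig),
    (continuous_snd.tendsto' (0 : ℂ × ℂ) 0 rfl).eventually
      (eventually_nhdsWithin_iff.1 hm.eventually_analyticAt),
    (continuous_snd.tendsto' (0 : ℂ × ℂ) 0 rfl).eventually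
      (eventually_nhdsWithin_iff.1 (Ψ.eventually_lt h0r))]
    with p ⟨c, hcC, hc⟩ h2 h3 h4 heq
  rw [heq] at hc
  rcases eq_or_ne p.2 0 with h0 | h0
  · rw [h0, Ψ.pt_zero] at hc
    have hreg : f ∈ ordGE w 0 := by
      have := add_mem (ordGE_anti (m := 0) (by norm_num) hc)
        ((mem_valuationSubring_iff w).1 (w.algebraMap_mem' c))
      simpa using this
    have := le_ord_of_mem hreg hf0
    omega
  · have hcz : Ψ.hat f p.2 = c :=
      tendsto_nhds_unique ((h3 h0).continuousAt.tendsto.mono_left nhdsWithin_le_nhds)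
        (Ψ.tendsto_hat (h4 h0) hc)
    have := h2 h0
    rw [hcz] at this
    linarith

omit [IsCurveOver ℂ F] in
theorem JacChart.pt_injOn (Φ : JacChart v) {a b : ℂ} (ha : ‖a‖ < Φ.r) (hb : ‖b‖ < Φ.r)
    (h : Φ.pt a = Φ.pt b) : a = b := by
  by_contra hne
  have h1 := (Φ.centred_pt ha).1
  have h2 := (Φ.centred_pt hb).1
  rw [h] at h1
  have h3 : algebraMap ℂ F (a - b) ∈ ordGE (Φ.pt b) 1 := by
    have := sub_mem h2 h1
    rwa [sub_sub_sub_cancel_left, ← map_sub] at this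
  have := le_ord_of_mem h3 (by simpa [sub_eq_zero] using hne)
  rw [ord_algebraMap] at this
  omega

end FermatLib.Curve

end
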