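import Fermat.Agent.Curve.JacSection
import Fermat.Agent.Curve.JacSeparation
import Mathlib.Analysis.Calculus.ContDiff.Operations

/-!
# The residual map

For disjoint simple sets of places `T` and `Y` with `l(Y) = 1`, moving the points of `T`
determines, analytically, moved points of `Y` with the same divisor class of `T + Y`.
-/

set_option autoImplicit false

noncomputable section

open Polynomial AlgebraicCurve Topology Filter

namespace FermatLib.Curve

variable {F : Type*} [Field F] [Algebra ℂ F]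

/-- The divisor of the moved points. -/
def jacPtsDiv {ι : Type*} [Fintype ι] {P : ι → Place ℂ F} (Φ : ∀ i, JacChart (P i)) (u : ι → ℂ) :
    Divisor ℂ F :=
  ∑ i, Finsupp.single ((Φ i).pt (u i)) 1

theorem jacPtsDiv_apply_eq_zero_or_one {ι : Type*} [Fintype ι] {P : ι → Place ℂ F}
    (Φ : ∀ i, JacChart (P i)) (u : ι → ℂ) (hinj : Function.Injective fun i => (Φ i).pt (u i))
    (w : Place ℂ F) :
    (jacPtsDiv Φ u w = 0 ∧ ∀ i, (Φ i).pt (u i) ≠ w) ∨
      (jacPtsDiv Φ u w = 1 ∧ ∃ i, (Φ i).pt (u i) = w) := by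
  classical
  simp only [jacPtsDiv, Finsupp.coe_finsetSum, Finset.sum_apply, Finsupp.single_apply]
  by_cases h : ∃ i, (Φ i).pt (u i) = w
  · obtain ⟨i, hi⟩ := h
    refine Or.inr ⟨?_, i, hi⟩
    rw [Finset.sum_eq_single_of_mem i (Finset.mem_univ _) fun j _ hj =>
      if_neg fun e => hj (hinj (e.trans hi.symm)), if_pos hi]
  · simp only [not_exists] at h
    exact Or.inl ⟨Finset.sum_eq_zero fun j _ => if_neg (h j), h⟩

variable [IsCurveOver ℂ F]

theorem degree_jacPtsDiv {ι : Type*} [Fintype ι] {P : ι → Place ℂ F} (Φ : ∀ i, JacChart (P i))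
    (u : ι → ℂ) : Divisor.degree (jacPtsDiv Φ u) = Fintype.card ι := by
  simp [jacPtsDiv, IsCurveOver.deg_eq_one_of_isAlgClosed]

theorem jacDivisor_eq_of_le {D E : Divisor ℂ F} (h : D ≤ E)
    (hd : Divisor.degree D = Divisor.degree E) : D = E := by
  by_contra hne
  have hED : E - D ≠ 0 := sub_ne_zero.2 (Ne.symm hne)
  have hnn : ∀ w, 0 ≤ (E - D) w := fun w => by simpa using h w
  obtain ⟨w, hw⟩ := Finsupp.support_nonempty_iff.2 hED
  have hpos : 0 < Divisor.degree (E - D) := by
    rw [Divisor.degree, Finsupp.liftAddHom_apply, Finsupp.sum]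
    refine Finset.sum_pos' (fun u _ => ?_) ⟨w, hw, ?_⟩ <;>
      simp only [AddMonoidHom.mulRight_apply, IsCurveOver.deg_eq_one_of_isAlgClosed, Nat.cast_one,
        mul_one]
    · exact hnn u
    · exact lt_of_le_of_ne (hnn w) (Ne.symm (Finsupp.mem_support_iff.1 hw))
  rw [map_sub, hd, sub_self] at hpos
  exact lt_irrefl _ hpos

/-- **The residual map.** -/
theorem jacResidual {ι κ : Type*} [Fintype ι] [Fintype κ] {PT : ι → Place ℂ F}
    {PY : κ → Place ℂ F} (ΦT : ∀ i, JacChart (PT i)) (ΦY : ∀ k, JacChart (PY k))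
    (hinj : Function.Injective (Sum.elim PT PY))
    (hY : ∀ f ∈ riemannRochSpace (∑ k, Finsupp.single (PY k) (1 : ℤ)),
      ∃ c : ℂ, f = algebraMap ℂ F c)
    (hdim : Fintype.card ι + 1 ≤ Module.finrank ℂ (riemannRochSpace
      (∑ i, Finsupp.single (PT i) (1 : ℤ) + ∑ k, Finsupp.single (PY k) (1 : ℤ)))) :
    ∃ y : (ι → ℂ) → κ → ℂ, y 0 = 0 ∧ ContDiffAt ℂ 2 y 0 ∧ ∀ᶠ u in 𝓝 0,
      (jacPtsDiv ΦT u + jacPtsDiv ΦY (y u) -
          (∑ i, Finsupp.single (PT i) (1 : ℤ) + ∑ k, Finsupp.single (PY k) (1 : ℤ)) ∈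
        Divisor.principal (K := ℂ) (F := F)) ∧
      ∀ E : Divisor ℂ F, 0 ≤ E →
        E - jacPtsDiv ΦY (y u) ∈ Divisor.principal (K := ℂ) (F := F) →
          E = jacPtsDiv ΦY (y u) := by
  classical
  set DT : Divisor ℂ F := ∑ i, Finsupp.single (PT i) (1 : ℤ) with hDT
  set DY : Divisor ℂ F := ∑ k, Finsupp.single (PY k) (1 : ℤ) with hDY
  set M := DT + DY with hM
  have hPTY : ∀ i k, PT i ≠ PY k := fun i k h => by
    simpa using hinj (a₁ := .inl i) (a₂ := .inr k) h
  have hPT : Function.Injective PT := fun a b h => by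
    simpa using hinj (a₁ := .inl a) (a₂ := .inl b) h
  have hPY : Function.Injective PY := fun a b h => by
    simpa using hinj (a₁ := .inr a) (a₂ := .inr b) h
  have hMT : ∀ i, M (PT i) = 1 := fun i => by
    simp [hM, hDT, hDY, Finsupp.coe_finsetSum, Finset.sum_apply, Finsupp.single_apply,
      hPT.eq_iff, fun k => (hPTY i k).symm]
  have hMY : ∀ k, M (PY k) = 1 := fun k => by
    simp [hM, hDT, hDY, Finsupp.coe_finsetSum, Finset.sum_apply, Finsupp.single_apply,
      hPY.eq_iff, fun i => hPTY i k]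
  have hM0 : ∀ w, (∀ i, PT i ≠ w) → (∀ k, PY k ≠ w) → M w = 0 := fun w h1 h2 => by
    simp [hM, hDT, hDY, Finsupp.coe_finsetSum, Finset.sum_apply, h1, h2]
  have hMnn : ∀ w, 0 ≤ M w := fun w => by
    simp only [hM, hDT, hDY, Finsupp.coe_add, Pi.add_apply, Finsupp.coe_finsetSum,
      Finset.sum_apply, Finsupp.single_apply]
    refine add_nonneg (Finset.sum_nonneg fun i _ => ?_) (Finset.sum_nonneg fun i _ => ?_) <;>
      split <;> norm_num
  have hLM : ∀ f : F, f ∈ riemannRochSpace M → ∀ w, f ∈ ordGE w (-M w) := fun f hf =>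
    mem_riemannRochSpace.1 hf
  have hLT : ∀ f : F, f ∈ riemannRochSpace M → ∀ i, f ∈ ordGE (PT i) (-1) := fun f hf i => by
    simpa [hMT i] using hLM f hf (PT i)
  have hLY : ∀ f : F, f ∈ riemannRochSpace M → ∀ k, f ∈ ordGE (PY k) (-1) := fun f hf k => by
    simpa [hMY k] using hLM f hf (PY k)
  have h1M : (1 : F) ∈ riemannRochSpace M := mem_riemannRochSpace.2 fun w =>
    mem_ordGE_of_le (by simpa using hMnn w)
  -- the evaluation map
  let ev : riemannRochSpace M →ₗ[ℂ] (ι → ℂ) :=
    { toFun := fun f i => (ΦT i).sec (f : F) 0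
      map_add' := fun f g => funext fun i => by
        have := (ΦT i).sec_zero_lincomb (J := Fin 2) ![1, 1] ![(f : F), (g : F)] (by
          intro j; fin_cases j <;> simp <;> [exact hLT f f.2 i; exact hLT g g.2 i])
        simpa [Fin.sum_univ_two] using this
      map_smul' := fun c f => funext fun i => by
        have := (ΦT i).sec_zero_lincomb (J := Fin 1) ![c] ![(f : F)] (by
          intro j; fin_cases j; simpa using hLT f f.2 i)
        simpa using this }
  have hker : LinearMap.ker ev ≤ Submodule.span ℂ {⟨1, h1M⟩} := by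
    intro f hf
    have hreg : ∀ i, (f : F) ∈ ordGE (PT i) 0 := fun i => by
      have h0 : (ΦT i).sec (f : F) 0 = 0 := congrFun (LinearMap.mem_ker.1 hf) i
      have h1 := ((ΦT i).sum_sec_eq_zero_iff (J := Fin 1) ![1] ![(f : F)]
        (ΦT i).r_norm_zero (fun j => by
          fin_cases j; exact (ΦT i).analyticAt_sec (hLT f f.2 i))).1 (by simpa using h0)
      simpa [(ΦT i).pt_zero] using h1
    obtain ⟨c, hc⟩ := hY f (mem_riemannRochSpace.2 fun w => by
      by_cases hw : ∃ i, PT i = w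
      · obtain ⟨i, rfl⟩ := hw
        simpa [hDY, Finsupp.coe_finsetSum, Finset.sum_apply, Finsupp.single_apply,
          fun k => (hPTY i k).symm] using hreg i
      · simp only [not_exists] at hw
        have h := hLM f f.2 w
        simpa [hM, hDT, Finsupp.coe_finsetSum, Finset.sum_apply, Finsupp.single_apply, hw]
          using h)
    exact Submodule.mem_span_singleton.2 ⟨c, Subtype.ext (by simp [hc, Algebra.smul_def])⟩
  have : Module.Finite ℂ (riemannRochSpace M) := Module.finite_of_finrank_pos (by omega)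
  have hsurj : Function.Surjective ev := by
    rw [← LinearMap.range_eq_top]
    apply Submodule.eq_top_of_finrank_eq
    have h1 := ev.finrank_range_add_finrank_ker
    have h2 := (Submodule.finrank_mono hker).trans (finrank_span_le_card _)
    have h3 := (LinearMap.range ev).finrank_le
    simp only [Module.finrank_fintype_fun_eq_card, Set.toFinset_singleton,
      Finset.card_singleton] at h2 h3 ⊢
    omega
  choose e he using fun j => hsurj (Pi.single j 1)
  let g : Option ι → F := fun o => o.elim 1 fun j => (e j : F)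
  have hgM : ∀ o, g o ∈ riemannRochSpace M := fun o => by
    cases o with
    | none => exact h1M
    | some j => exact (e j).2
  have hgT : ∀ i j, (ΦT i).sec (e j : F) 0 = if i = j then 1 else 0 := fun i j => by
    have h : (ΦT i).sec (e j : F) 0 = (Pi.single j 1 : ι → ℂ) i := congrFun (he j) i
    rw [h, Pi.single_apply]
  -- every element of `L(M)` is a combination of `1` and the `e j`
  have hspan : ∀ f ∈ riemannRochSpace M, ∃ a : Option ι → ℂ, f = ∑ o, a o • g o := by
    intro f hf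
    let r := ev ⟨f, hf⟩
    have hk : (⟨f, hf⟩ : riemannRochSpace M) - ∑ j, r j • e j ∈ LinearMap.ker ev := by
      rw [LinearMap.mem_ker, map_sub, map_sum, sub_eq_zero]
      simp only [map_smul, he]
      conv_lhs => rw [show ev ⟨f, hf⟩ = r from rfl, pi_eq_sum_univ' r]
    obtain ⟨c, hc⟩ := Submodule.mem_span_singleton.1 (hker hk)
    refine ⟨fun o => o.elim c r, ?_⟩
    have := congrArg Subtype.val hc
    simp only [Submodule.coe_smul, Submodule.coe_sub, Submodule.coe_sum] at this
    rw [Fintype.sum_option]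
    simp only [g, Option.elim_none, Option.elim_some]
    rw [this]
    abel
  -- the linear system
  let A : (ι → ℂ) → ((ι → ℂ) →L[ℂ] (ι → ℂ)) := fun u =>
    ∑ i, ∑ j, (ΦT i).sec (e j : F) (u i) •
      (ContinuousLinearMap.proj j).smulRight (Pi.single i (1 : ℂ) : ι → ℂ)
  have hAapp : ∀ u b i, A u b i = ∑ j, (ΦT i).sec (e j : F) (u i) * b j := fun u b i => by
    simp only [A, _root_.sum_apply, Finset.sum_apply, _root_.smul_apply, Pi.smul_apply,
      ContinuousLinearMap.smulRight_apply, ContinuousLinearMap.proj_apply, smul_eq_mul]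
    rw [Finset.sum_eq_single_of_mem i (Finset.mem_univ _)
      (fun i' _ hi' => by simp [Pi.single_eq_of_ne (Ne.symm hi')])]
    simp
  have hsecT : ∀ i j, AnalyticAt ℂ ((ΦT i).sec (e j : F)) 0 := fun i j =>
    (ΦT i).analyticAt_sec (hLT _ (e j).2 i)
  have hA2 : ContDiffAt ℂ 2 A 0 := ContDiffAt.sum fun i _ => ContDiffAt.sum fun j _ =>
    (((hsecT i j).contDiffAt).comp (0 : ι → ℂ) (contDiffAt_apply ℂ ℂ i 0)).smul contDiffAt_const
  have hA0 : A 0 = 1 := by
    ext b i
    simp [hAapp, hgT]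
  let B : (ι → ℂ) → ((ι → ℂ) →L[ℂ] (ι → ℂ)) := fun u => Ring.inverse (A u)
  have hunit : ∀ᶠ u in 𝓝 0, IsUnit (A u) := by
    have : IsUnit (A 0) := by rw [hA0]; exact isUnit_one
    exact hA2.continuousAt.eventually_mem (Units.isOpen.mem_nhds this)
  have hB2 : ContDiffAt ℂ 2 B 0 := by
    have h : ContDiffAt ℂ 2 (Ring.inverse : _ → ((ι → ℂ) →L[ℂ] (ι → ℂ))) (A 0) := by
      rw [hA0]
      exact contDiffAt_ringInverse ℂ (1 : ((ι → ℂ) →L[ℂ] (ι → ℂ))ˣ)
    exact h.comp (0 : ι → ℂ) hA2
  let c : (ι → ℂ) → ι → ℂ := fun u => -(B u u)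
  have hc2 : ContDiffAt ℂ 2 c 0 := (hB2.clm_apply contDiffAt_id).neg
  have hc0 : c 0 = 0 := by simp [c]
  have hsys : ∀ᶠ u in 𝓝 0, ∀ (a : ℂ) (b : ι → ℂ),
      (∀ i, a * u i + ∑ j, b j * (ΦT i).sec (e j : F) (u i) = 0) ↔ b = a • c u := by
    filter_upwards [hunit] with u hu a b
    have h1 : ∀ i, ∑ j, b j * (ΦT i).sec (e j : F) (u i) = A u b i := fun i => by
      rw [hAapp]
      exact Finset.sum_congr rfl fun j _ => mul_comm _ _
    simp only [h1]
    constructor
    · intro h
      have hb : A u b = -(a • u) := funext fun i => by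
        simp only [Pi.neg_apply, Pi.smul_apply, smul_eq_mul]
        linear_combination h i
      have := congrArg (B u) hb
      rw [show B u (A u b) = (B u * A u) b from rfl, Ring.inverse_mul_cancel _ hu] at this
      simpa [c] using this
    · rintro rfl i
      have h2 : A u (B u u) = u := by
        rw [show A u (B u u) = (A u * B u) u from rfl, Ring.mul_inverse_cancel _ hu]
        rfl
      simp [c, h2]
  -- the moving zeros
  have hsecY : ∀ k j, AnalyticAt ℂ ((ΦY k).sec (e j : F)) 0 := fun k j =>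
    (ΦY k).analyticAt_sec (hLY _ (e j).2 k)
  let G : κ → (ι → ℂ) × ℂ → ℂ := fun k p => p.2 + ∑ j, c p.1 j * (ΦY k).sec (e j : F) p.2
  have hG2 : ∀ k, ContDiffAt ℂ 2 (G k) 0 := fun k => contDiffAt_snd.add (ContDiffAt.sum fun j _ =>
    (((contDiffAt_pi.1 hc2) j).comp (0 : (ι → ℂ) × ℂ) contDiffAt_fst).mul
      ((hsecY k j).contDiffAt.comp (0 : (ι → ℂ) × ℂ) contDiffAt_snd))
  have hG0 : ∀ k, G k 0 = 0 := fun k => by simp [G, hc0]
  have hGd : ∀ k, fderiv ℂ (G k) 0 (0, 1) = 1 := fun k => by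
    have hd := ((hG2 k).differentiableAt (by norm_num)).hasFDerivAt
    have hl : HasDerivAt (fun z : ℂ => ((0 : ι → ℂ), z)) ((0 : ι → ℂ), (1 : ℂ)) 0 :=
      (hasDerivAt_const _ _).prodMk (hasDerivAt_id _)
    have h1 := hd.comp_hasDerivAt (f := fun z : ℂ => ((0 : ι → ℂ), z)) (0 : ℂ) hl
    have h2 : HasDerivAt (fun z : ℂ => G k (0, z)) 1 0 := by
      simpa [G, hc0] using hasDerivAt_id' (0 : ℂ)
    exact h1.unique h2
  choose y hy2 hy0 hyG _ using fun k =>
    jacImplicit (hG2 k) (hG0 k) ((hG2 k).differentiableAt (by norm_num)).hasFDerivAt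
      (by rw [hGd k]; exact one_ne_zero)
  let Y : (ι → ℂ) → κ → ℂ := fun u k => y k u
  have hY0 : Y 0 = 0 := funext fun k => hy0 k
  have hY2 : ContDiffAt ℂ 2 Y 0 := contDiffAt_pi.2 hy2
  refine ⟨Y, hY0, hY2, ?_⟩
  have htT : ∀ i, Tendsto (fun u : ι → ℂ => u i) (𝓝 0) (𝓝 0) := fun i =>
    (continuous_apply i).tendsto' 0 0 rfl
  have htY : ∀ k, Tendsto (y k) (𝓝 0) (𝓝 0) := fun k => by
    have h : Tendsto (y k) (𝓝 0) (𝓝 (y k 0)) := (hy2 k).continuousAt
    rwa [show y k 0 = 0 from hy0 k] at h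
  -- the moved points are distinct
  have hsep : ∀ᶠ u : ι → ℂ in 𝓝 0, Function.Injective
      (Sum.elim (fun i => (ΦT i).pt (u i)) (fun k => (ΦY k).pt (y k u))) := by
    have hTT : ∀ᶠ u : ι → ℂ in 𝓝 0, ∀ i i', i ≠ i' → (ΦT i).pt (u i) ≠ (ΦT i').pt (u i') :=
      eventually_all.2 fun i => eventually_all.2 fun i' => by
        by_cases h : i = i'
        · simp [h]
        · filter_upwards [((htT i).prodMk_nhds (htT i')).eventually
            ((ΦT i).eventually_pt_ne (ΦT i') (hPT.ne h))] with u hu _ using hu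
    have hTY : ∀ᶠ u : ι → ℂ in 𝓝 0, ∀ i k, (ΦT i).pt (u i) ≠ (ΦY k).pt (y k u) :=
      eventually_all.2 fun i => eventually_all.2 fun k =>
        ((htT i).prodMk_nhds (htY k)).eventually ((ΦT i).eventually_pt_ne (ΦY k) (hPTY i k))
    have hYY : ∀ᶠ u : ι → ℂ in 𝓝 0, ∀ k k', k ≠ k' → (ΦY k).pt (y k u) ≠ (ΦY k').pt (y k' u) :=
      eventually_all.2 fun k => eventually_all.2 fun k' => by
        by_cases h : k = k'
        · simp [h]
        · filter_upwards [((htY k).prodMk_nhds (htY k')).eventually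
            ((ΦY k).eventually_pt_ne (ΦY k') (hPY.ne h))] with u hu _ using hu
    filter_upwards [hTT, hTY, hYY] with u h1 h2 h3
    rintro (i | k) (i' | k') h
    · exact congrArg _ (not_not.1 fun hne => h1 i i' hne h)
    · exact absurd h (h2 i k')
    · exact absurd h.symm (h2 i' k)
    · exact congrArg _ (not_not.1 fun hne => h3 k k' hne h)
  -- near each base point the only point of `M` is the base point
  have hMnear : ∀ (v : Place ℂ F) (Φ : JacChart v), M v = 1 →
      ∀ᶠ z in 𝓝 (0 : ℂ), M (Φ.pt z) = (if z = 0 then 1 else 0) ∧ ‖z‖ < Φ.r := by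
    intro v Φ hv
    have h1 : ∀ᶠ z in 𝓝 (0 : ℂ), ∀ i, PT i ≠ v → Φ.pt z ≠ PT i := eventually_all.2 fun i => by
      by_cases h : PT i = v
      · simp [h]
      · filter_upwards [((continuous_id.prodMk continuous_const).tendsto' (0 : ℂ) (0, 0) rfl
          ).eventually (Φ.eventually_pt_ne (ΦT i) (Ne.symm h))] with z hz _
        simpa [(ΦT i).pt_zero] using hz
    have h2 : ∀ᶠ z in 𝓝 (0 : ℂ), ∀ k, PY k ≠ v → Φ.pt z ≠ PY k := eventually_all.2 fun k => by
      by_cases h : PY k = v
      · simp [h]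
      · filter_upwards [((continuous_id.prodMk continuous_const).tendsto' (0 : ℂ) (0, 0) rfl
          ).eventually (Φ.eventually_pt_ne (ΦY k) (Ne.symm h))] with z hz _
        simpa [(ΦY k).pt_zero] using hz
    filter_upwards [h1, h2, continuous_norm.continuousAt.eventually_lt continuousAt_const
      Φ.r_norm_zero] with z h1 h2 hr
    refine ⟨?_, hr⟩
    split
    · next h => rw [h, Φ.pt_zero, hv]
    · next h =>
      have hne : Φ.pt z ≠ v := fun e =>
        h (Φ.pt_injOn hr Φ.r_norm_zero (e.trans Φ.pt_zero.symm))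
      refine hM0 _ (fun i e => ?_) (fun k e => ?_)
      · by_cases hi : PT i = v
        · exact hne (e.symm.trans hi)
        · exact h1 i hi e.symm
      · by_cases hk : PY k = v
        · exact hne (e.symm.trans hk)
        · exact h2 k hk e.symm
  -- vanishing of sections at nearby points
  have hcrit : ∀ (v : Place ℂ F) (Φ : JacChart v), M v = 1 → ∀ᶠ z in 𝓝 (0 : ℂ),
      ∀ a : Option ι → ℂ,
        (a none * z + ∑ j, a (some j) * Φ.sec (e j : F) z = 0 ↔
          (∑ o, a o • g o) ∈ ordGE (Φ.pt z) (1 - M (Φ.pt z))) := by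
    intro v Φ hv
    have hg : ∀ o, g o ∈ ordGE v (-1) := fun o => by simpa [hv] using hLM _ (hgM o) v
    filter_upwards [hMnear v Φ hv, eventually_all.2 fun o : Option ι =>
      (Φ.analyticAt_sec (hg o)).eventually_analyticAt] with z ⟨hMz, hzr⟩ han a
    have h := Φ.sum_sec_eq_zero_iff a g hzr han
    rw [Fintype.sum_option] at h
    simp only [g, Option.elim_none, Option.elim_some] at h han
    rw [Φ.sec_one hzr (han none)] at h
    rw [h, hMz]
    have h10 : (1 : ℤ) - (if z = 0 then 1 else 0) = (if z = 0 then 0 else 1) := by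
      split <;> norm_num
    rw [h10]
  filter_upwards [hsep, hsys, eventually_all.2 fun k => hyG k,
    eventually_all.2 fun i => (htT i).eventually (hcrit (PT i) (ΦT i) (hMT i)),
    eventually_all.2 fun k => (htY k).eventually (hcrit (PY k) (ΦY k) (hMY k))]
    with u hinju hsysu hGu hcT hcY
  -- the function
  let a₀ : Option ι → ℂ := fun o => o.elim 1 (c u)
  let f := ∑ o, a₀ o • g o
  have hfM : f ∈ riemannRochSpace M := sum_mem fun o _ => Submodule.smul_mem _ _ (hgM o)
  have hfT : ∀ i, f ∈ ordGE ((ΦT i).pt (u i)) (1 - M ((ΦT i).pt (u i))) := fun i =>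
    (hcT i a₀).1 (by simpa [a₀] using (hsysu 1 (c u)).2 (one_smul _ _).symm i)
  have hfY : ∀ k, f ∈ ordGE ((ΦY k).pt (y k u)) (1 - M ((ΦY k).pt (y k u))) := fun k =>
    (hcY k a₀).1 (by simpa [a₀, G] using hGu k)
  have hf0 : f ≠ 0 := by
    intro h0
    have h1 : ((⟨1, h1M⟩ : riemannRochSpace M) + ∑ j, c u j • e j) = 0 := by
      apply Subtype.ext
      simpa [f, a₀, g, Fintype.sum_option, Submodule.coe_sum] using h0
    have h2 : ev ⟨1, h1M⟩ = 0 := funext fun i => by
      show (ΦT i).sec (1 : F) 0 = 0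
      exact (ΦT i).sec_one (ΦT i).r_norm_zero ((ΦT i).analyticAt_sec (hLT 1 h1M i))
    have h3 := congrArg ev h1
    rw [map_add, map_sum, map_zero, h2, zero_add] at h3
    simp only [map_smul, he] at h3
    have hcu : c u = 0 := by
      rw [← h3]
      ext i
      simp [Pi.single_apply]
    simp [f, a₀, g, Fintype.sum_option, hcu] at h0
  obtain ⟨D, hD, hDdeg⟩ := HasPrincipalDivisors.exists_divisor (K := ℂ) f hf0
  set S := jacPtsDiv ΦT u + jacPtsDiv ΦY (Y u) with hS
  have hTinj : Function.Injective fun i => (ΦT i).pt (u i) := fun a b h => by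
    simpa using hinju (a₁ := .inl a) (a₂ := .inl b) h
  have hYinj : Function.Injective fun k => (ΦY k).pt (Y u k) := fun a b h => by
    simpa using hinju (a₁ := .inr a) (a₂ := .inr b) h
  have heq : S = D + M := by
    refine jacDivisor_eq_of_le (fun w => ?_) ?_
    · have h0 : 0 ≤ D w + M w := by
        have := le_ord_of_mem (hLM f hfM w) hf0
        rw [hD w]
        omega
      rcases jacPtsDiv_apply_eq_zero_or_one ΦT u hTinj w with ⟨e1, h1⟩ | ⟨e1, i, rfl⟩
      · rcases jacPtsDiv_apply_eq_zero_or_one ΦY (Y u) hYinj w with ⟨e2, -⟩ | ⟨e2, k, rfl⟩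
        · simp [hS, e1, e2, h0]
        · have := le_ord_of_mem (hfY k) hf0
          simp only [hS, Finsupp.coe_add, Pi.add_apply, e1, e2, hD, Y]
          omega
      · rcases jacPtsDiv_apply_eq_zero_or_one ΦY (Y u) hYinj ((ΦT i).pt (u i))
          with ⟨e2, -⟩ | ⟨-, k, hk⟩
        · have := le_ord_of_mem (hfT i) hf0
          simp only [hS, Finsupp.coe_add, Pi.add_apply, e1, e2, hD]
          omega
        · exact absurd (hinju (a₁ := .inr k) (a₂ := .inl i) hk) (by simp)
    · rw [hS, map_add, map_add, hDdeg, degree_jacPtsDiv, degree_jacPtsDiv, hM, map_add, hDT, hDY,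
        map_sum, map_sum]
      simp [IsCurveOver.deg_eq_one_of_isAlgClosed]
  have hprin : S - M ∈ Divisor.principal (K := ℂ) (F := F) := by
    rw [heq, add_sub_cancel_right]
    exact ⟨f, hf0, hD⟩
  refine ⟨hprin, fun E hE hEY => ?_⟩
  have hTp : (E + jacPtsDiv ΦT u) - M ∈ Divisor.principal (K := ℂ) (F := F) := by
    have h := add_mem hEY hprin
    rwa [show E - jacPtsDiv ΦY (Y u) + (S - M) = E + jacPtsDiv ΦT u - M by rw [hS]; abel] at h
  obtain ⟨f', hf'0, hD'⟩ := hTp
  have hTnn : ∀ w, 0 ≤ jacPtsDiv ΦT u w := fun w => by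
    rcases jacPtsDiv_apply_eq_zero_or_one ΦT u hTinj w with ⟨h, -⟩ | ⟨h, -⟩ <;> omega
  have hf'M : f' ∈ riemannRochSpace M := mem_riemannRochSpace.2 fun w => mem_ordGE_of_le (by
    have h1 := hD' w
    have h2 := hTnn w
    have h3 : 0 ≤ E w := hE w
    simp only [Finsupp.coe_sub, Finsupp.coe_add, Pi.sub_apply, Pi.add_apply] at h1
    omega)
  obtain ⟨a, ha⟩ := hspan f' hf'M
  have hvan : ∀ i, f' ∈ ordGE ((ΦT i).pt (u i)) (1 - M ((ΦT i).pt (u i))) := fun i =>
    mem_ordGE_of_le (by
      have h1 := hD' ((ΦT i).pt (u i))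
      have h3 : 0 ≤ E ((ΦT i).pt (u i)) := hE _
      rcases jacPtsDiv_apply_eq_zero_or_one ΦT u hTinj ((ΦT i).pt (u i)) with ⟨-, h⟩ | ⟨h, -⟩
      · exact absurd rfl (h i)
      simp only [Finsupp.coe_sub, Finsupp.coe_add, Pi.sub_apply, Pi.add_apply, h] at h1
      omega)
  have hb := (hsysu (a none) (fun j => a (some j))).1 fun i => (hcT i a).2 (ha ▸ hvan i)
  have hfe : f' = a none • f := by
    rw [ha]
    simp only [f, Finset.smul_sum, smul_smul]
    refine Finset.sum_congr rfl fun o _ => ?_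
    cases o with
    | none => simp [a₀]
    | some j => rw [congrFun hb j]; rfl
  have ha0 : a none ≠ 0 := fun h => hf'0 (by rw [hfe, h, zero_smul])
  have hEw : E + jacPtsDiv ΦT u - M = D := Finsupp.ext fun w => by
    rw [hD' w, hD w, hfe, Algebra.smul_def, w.ord_mul (by simpa using ha0) hf0, ord_algebraMap,
      zero_add]
  have h5 : E + jacPtsDiv ΦT u = S := by rw [heq, ← hEw, sub_add_cancel]
  rw [hS, add_comm (jacPtsDiv ΦT u)] at h5
  exact add_right_cancel h5

end FermatLib.Curve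

end
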