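import Fermat.Agent.Curve.JacChart
import Mathlib.Analysis.Meromorphic.NormalForm

/-!
# Sections of a divisor with simple points, in analytic charts

For a chart centred at a point occurring once in `M`, the analytic function `z * hat f z`
vanishes at `z` exactly when the divisor `div f + M` contains the point `pt z`.
-/

set_option autoImplicit false

noncomputable section

open Polynomial AlgebraicCurve Topology Filter

namespace FermatLib.Curve

variable {F : Type*} [Field F] [Algebra ℂ F] {v : Place ℂ F}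

namespace JacChart

variable (Φ : JacChart v)

theorem hat_sum {J : Type*} (S : Finset J) (g : J → F) {z : ℂ} (hz : ‖z‖ < Φ.r) :
    Φ.hat (∑ j ∈ S, g j) =ᶠ[𝓝[≠] z] fun w => ∑ j ∈ S, Φ.hat (g j) w := by
  classical
  induction S using Finset.induction_on with
  | empty =>
    simp only [Finset.sum_empty]
    rw [← map_zero (algebraMap ℂ F)]
    exact Φ.hat_const 0 hz
  | insert a S ha ih =>
    rw [Finset.sum_insert ha]
    filter_upwards [Φ.hat_add (g a) (∑ j ∈ S, g j) hz, ih] with w h1 h2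
    rw [h1, Pi.add_apply, h2, Finset.sum_insert ha]

theorem hat_lincomb {J : Type*} [Fintype J] (a : J → ℂ) (g : J → F) {z : ℂ} (hz : ‖z‖ < Φ.r) :
    Φ.hat (∑ j, a j • g j) =ᶠ[𝓝[≠] z] fun w => ∑ j, a j * Φ.hat (g j) w := by
  have hsm : ∀ᶠ w in 𝓝[≠] z, ∀ j, Φ.hat (a j • g j) w = a j * Φ.hat (g j) w :=
    eventually_all.2 fun j => by
      filter_upwards [Φ.hat_smul (a j) (g j) hz] with w h
      rw [h, Pi.smul_apply, smul_eq_mul]
  filter_upwards [Φ.hat_sum Finset.univ (fun j => a j • g j) hz, hsm] with w h1 h2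
  rw [h1]
  exact Finset.sum_congr rfl fun j _ => h2 j

/-- The section of a divisor containing the centre once, attached to `f`. -/
def sec (f : F) : ℂ → ℂ := toMeromorphicNFAt (fun w => w * Φ.hat f w) 0

theorem r_norm_zero : ‖(0 : ℂ)‖ < Φ.r := by simpa using Φ.r_pos

theorem meromorphicAt_idMulHat (f : F) {z : ℂ} (hz : ‖z‖ < Φ.r) :
    MeromorphicAt (fun w => w * Φ.hat f w) z :=
  analyticAt_id.meromorphicAt.mul (Φ.meromorphicAt_hat f hz)

theorem sec_apply {f : F} {w : ℂ} (hw : w ≠ 0) : Φ.sec f w = w * Φ.hat f w :=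
  ((Φ.meromorphicAt_idMulHat f Φ.r_norm_zero).eqOn_compl_singleton_toMeromorphicNFAt hw).symm

theorem sec_eventuallyEq (f : F) (z : ℂ) :
    Φ.sec f =ᶠ[𝓝[≠] z] fun w => w * Φ.hat f w := by
  rcases eq_or_ne z 0 with rfl | hz
  · exact (Φ.meromorphicAt_idMulHat f Φ.r_norm_zero).eq_nhdsNE_toMeromorphicNFAt.symm
  · filter_upwards [mem_nhdsWithin_of_mem_nhds (isOpen_compl_singleton.mem_nhds
      (show z ∈ ({0}ᶜ : Set ℂ) from hz))] with w hw
    exact Φ.sec_apply hw

theorem order_idMulHat {f : F} (hf : f ≠ 0) {z : ℂ} (hz : ‖z‖ < Φ.r) :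
    meromorphicOrderAt (fun w => w * Φ.hat f w) z =
      (((if z = 0 then 1 else 0) + (Φ.pt z).ord f : ℤ) : WithTop ℤ) := by
  rw [show (fun w => w * Φ.hat f w) = id * Φ.hat f from rfl,
    meromorphicOrderAt_mul analyticAt_id.meromorphicAt (Φ.meromorphicAt_hat f hz), Φ.ord_pt hz hf,
    WithTop.coe_add]
  congr 1
  rcases eq_or_ne z 0 with rfl | h0
  · simp [meromorphicOrderAt_id]
  · rw [if_neg h0, analyticAt_id.meromorphicOrderAt_eq,
      analyticAt_id.analyticOrderAt_eq_zero.2 h0]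
    rfl

theorem analyticAt_sec {f : F} (hf : f ∈ ordGE v (-1)) : AnalyticAt ℂ (Φ.sec f) 0 := by
  refine (Φ.meromorphicAt_idMulHat f Φ.r_norm_zero).meromorphicOrderAt_nonneg_iff_analyticAt_toMeromorphicNFAt.1 ?_
  rcases eq_or_ne f 0 with rfl | hf0
  · have he : (fun w => w * Φ.hat 0 w) =ᶠ[𝓝[≠] (0 : ℂ)] fun _ => 0 := by
      rw [← map_zero (algebraMap ℂ F)]
      filter_upwards [Φ.hat_const 0 Φ.r_norm_zero] with w hw
      rw [hw, mul_zero]
    rw [meromorphicOrderAt_congr he]
    exact analyticAt_const.meromorphicOrderAt_nonneg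
  · have h := le_ord_of_mem hf hf0
    rw [Φ.order_idMulHat hf0 Φ.r_norm_zero, Φ.pt_zero, if_pos rfl]
    exact_mod_cast (show (0 : ℤ) ≤ 1 + v.ord f by omega)

/-- **Zeros of sections.** A linear combination of sections vanishes at `z` exactly when the
combination of the functions has order at least `1 - [z = 0]` at `pt z`. -/
theorem sum_sec_eq_zero_iff {J : Type*} [Fintype J] (a : J → ℂ) (g : J → F) {z : ℂ}
    (hz : ‖z‖ < Φ.r) (han : ∀ j, AnalyticAt ℂ (Φ.sec (g j)) z) :
    ∑ j, a j * Φ.sec (g j) z = 0 ↔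
      (∑ j, a j • g j) ∈ ordGE (Φ.pt z) (if z = 0 then 0 else 1) := by
  set S : ℂ → ℂ := fun w => ∑ j, a j * Φ.sec (g j) w with hS
  have hSa : AnalyticAt ℂ S z :=
    Finset.analyticAt_fun_sum _ fun j _ => analyticAt_const.fun_mul (han j)
  have he : S =ᶠ[𝓝[≠] z] fun w => w * Φ.hat (∑ j, a j • g j) w := by
    filter_upwards [eventually_all.2 fun j => Φ.sec_eventuallyEq (g j) z,
      Φ.hat_lincomb a g hz] with w h1 h2
    rw [hS, h2, Finset.mul_sum]
    refine Finset.sum_congr rfl fun j _ => ?_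
    rw [h1 j]
    ring
  have hiff : S z = 0 ↔ 0 < meromorphicOrderAt S z := by
    rw [← tendsto_zero_iff_meromorphicOrderAt_pos hSa.meromorphicAt]
    exact ⟨fun h => by simpa [h] using hSa.continuousAt.tendsto.mono_left nhdsWithin_le_nhds,
      fun h => tendsto_nhds_unique (hSa.continuousAt.tendsto.mono_left nhdsWithin_le_nhds) h⟩
  rw [show (∑ j, a j * Φ.sec (g j) z) = S z from rfl, hiff, meromorphicOrderAt_congr he]
  set f := ∑ j, a j • g j
  rcases eq_or_ne f 0 with hf | hf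
  · refine iff_of_true ?_ (by rw [hf]; exact zero_mem _)
    have h0 : meromorphicOrderAt (fun w => w * Φ.hat f w) z = ⊤ := by
      rw [meromorphicOrderAt_eq_top_iff, hf, ← map_zero (algebraMap ℂ F)]
      filter_upwards [Φ.hat_const 0 hz] with w hw
      rw [hw, mul_zero]
    rw [h0]
    exact WithTop.coe_lt_top 0
  · rw [Φ.order_idMulHat hf hz, mem_ordGE_of_ne_zero hf, ← WithTop.coe_zero, WithTop.coe_lt_coe]
    split <;> omega

/-- The value of the section at the centre is additive and homogeneous. -/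
theorem sec_zero_lincomb {J : Type*} [Fintype J] (a : J → ℂ) (g : J → F)
    (hg : ∀ j, g j ∈ ordGE v (-1)) :
    Φ.sec (∑ j, a j • g j) 0 = ∑ j, a j * Φ.sec (g j) 0 := by
  have hmem : (∑ j, a j • g j) ∈ ordGE v (-1) :=
    sum_mem fun j _ => Submodule.smul_mem _ _ (hg j)
  have han : ∀ j, AnalyticAt ℂ (Φ.sec (g j)) 0 := fun j => Φ.analyticAt_sec (hg j)
  have hSa : AnalyticAt ℂ (fun w => ∑ j, a j * Φ.sec (g j) w) 0 :=
    Finset.analyticAt_fun_sum _ fun j _ => analyticAt_const.fun_mul (han j)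
  refine tendsto_nhds_unique_of_eventuallyEq (l := 𝓝[≠] (0 : ℂ))
    ((Φ.analyticAt_sec hmem).continuousAt.tendsto.mono_left nhdsWithin_le_nhds)
    (hSa.continuousAt.tendsto.mono_left nhdsWithin_le_nhds) ?_
  filter_upwards [Φ.sec_eventuallyEq (∑ j, a j • g j) 0, Φ.hat_lincomb a g Φ.r_norm_zero,
    eventually_all.2 fun j => Φ.sec_eventuallyEq (g j) 0] with w h1 h2 h3
  rw [h1, h2, Finset.mul_sum]
  refine Finset.sum_congr rfl fun j _ => ?_
  rw [h3 j]
  ring

theorem sec_one {w : ℂ} (hw : ‖w‖ < Φ.r) (han : AnalyticAt ℂ (Φ.sec 1) w) : Φ.sec 1 w = w := by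
  refine tendsto_nhds_unique_of_eventuallyEq (l := 𝓝[≠] w)
    (han.continuousAt.tendsto.mono_left nhdsWithin_le_nhds)
    ((continuous_id.tendsto w).mono_left nhdsWithin_le_nhds) ?_
  have hc := Φ.hat_const 1 hw
  rw [map_one] at hc
  filter_upwards [Φ.sec_eventuallyEq 1 w, hc] with x h1 h2
  rw [h1, h2, mul_one, id]

end JacChart

end FermatLib.Curve

end
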