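import Fermat.Agent.Curve.PlaceBasics
import Fermat.Agent.Curve.Approximation
import Fermat.Agent.Curve.PlaceExpansion
import Fermat.Agent.Curve.KaehlerBasic

/-!
# Smooth plane models at a place

Around every place `v` of a one-variable function field (characteristic zero, algebraically closed
constants) there are `t` of order one and a generator `θ` with `Q (t, θ) = 0`, where `Q (0, Y)` has
degree one. Places centred at a smooth point of such a model are unique.
-/

set_option autoImplicit false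

noncomputable section

open Polynomial IntermediateField AlgebraicCurve

namespace FermatLib.Curve

variable {K F : Type*} [Field K] [Field F] [Algebra K F]

/-- Evaluation of `A : K[X][Y]` at `(t, θ)`. -/
def jacEv (t θ : F) : K[X][X] →+* F := eval₂RingHom (aeval t).toRingHom θ

theorem jacEv_C (t θ : F) (q : K[X]) : jacEv t θ (C q) = aeval t q := by simp [jacEv]

theorem jacEv_X (t θ : F) : jacEv t θ (X : K[X][X]) = θ := by simp [jacEv]

theorem jacEv_map (t θ : F) (A : K[X][X]) :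
    jacEv t θ A = (A.map (aeval t : K[X] →ₐ[K] F).toRingHom).eval θ := by
  simp [jacEv, eval_map]

/-- Value of `A : K[X][Y]` at a point of `K × K`. -/
def jacVal (a y : K) : K[X][X] →+* K := eval₂RingHom (evalRingHom a) y

theorem jacVal_eq (a y : K) (A : K[X][X]) : jacVal a y A = (A.eval (C y)).eval a := by
  show eval₂ (evalRingHom a) y A = _
  induction A using Polynomial.induction_on' with
  | add p q hp hq => simp [hp, hq]
  | monomial n c => simp

theorem jacVal_decomp (a y : K) (A : K[X][X]) :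
    ∃ α β : K[X][X], A = C (C (jacVal a y A)) + C (X - C a) * α + (X - C (C y)) * β := by
  obtain ⟨β, hβ⟩ := X_sub_C_dvd_sub_C_eval (a := C y) (p := A)
  obtain ⟨α, hα⟩ := X_sub_C_dvd_sub_C_eval (a := a) (p := A.eval (C y))
  refine ⟨C α, β, ?_⟩
  rw [jacVal_eq, ← hβ, ← C_mul, ← hα, map_sub]
  ring

/-- Regularity of polynomial expressions in regular elements. -/
theorem jacEv_mem_ordGE {w : Place K F} {t θ : F} (ht : t ∈ ordGE w 0) (hθ : θ ∈ ordGE w 0)
    (A : K[X][X]) : jacEv t θ A ∈ ordGE w 0 := by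
  rw [← mem_valuationSubring_iff] at ht hθ ⊢
  have hc : ∀ q : K[X], aeval t q ∈ w.toValuationSubring := fun q => by
    induction q using Polynomial.induction_on' with
    | add p q hp hq => rw [map_add]; exact add_mem hp hq
    | monomial n c => rw [aeval_monomial]; exact mul_mem (w.algebraMap_mem' c) (pow_mem ht n)
  induction A using Polynomial.induction_on' with
  | add p q hp hq => rw [map_add]; exact add_mem hp hq
  | monomial n c =>
    rw [← C_mul_X_pow_eq_monomial, map_mul, map_pow, jacEv_C, jacEv_X]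
    exact mul_mem (hc c) (pow_mem hθ n)

theorem jacEv_sub_val_mem {w : Place K F} {t θ : F} {a y : K}
    (ht : t - algebraMap K F a ∈ ordGE w 1) (hθ : θ - algebraMap K F y ∈ ordGE w 1)
    (A : K[X][X]) : jacEv t θ A - algebraMap K F (jacVal a y A) ∈ ordGE w 1 := by
  have hreg : ∀ {f : F} {c : K}, f - algebraMap K F c ∈ ordGE w 1 → f ∈ ordGE w 0 := by
    intro f c h
    have := add_mem (ordGE_anti (m := 0) (by norm_num) h)
      ((mem_valuationSubring_iff w).1 (w.algebraMap_mem' c))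
    simpa using this
  obtain ⟨α, β, h⟩ := jacVal_decomp a y A
  have hA := jacEv_mem_ordGE (hreg ht) (hreg hθ)
  have e : jacEv t θ A - algebraMap K F (jacVal a y A) =
      (t - algebraMap K F a) * jacEv t θ α + (θ - algebraMap K F y) * jacEv t θ β := by
    conv_lhs => arg 1; rw [h]
    simp [jacEv_C, jacEv_X]
    ring
  rw [e]
  exact add_mem (by simpa using mul_mem_ordGE ht (hA α)) (by simpa using mul_mem_ordGE hθ (hA β))

theorem jac_ord_eq_zero_of_sub_mem {w : Place K F} {f : F} {c : K} (hc : c ≠ 0)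
    (h : f - algebraMap K F c ∈ ordGE w 1) : f ≠ 0 ∧ w.ord f = 0 := by
  have hc' : algebraMap K F c ≠ 0 := by simpa using hc
  have he : f = algebraMap K F c + (f - algebraMap K F c) := by ring
  have hord : w.ord f = 0 := by
    rw [he, ord_add_eq_left w hc', ord_algebraMap]
    rcases mem_ordGE.1 h with h' | h'
    · exact Or.inl h'
    · exact Or.inr (by rw [ord_algebraMap]; omega)
  refine ⟨fun h0 => ?_, hord⟩
  rw [h0, zero_sub, neg_mem_iff] at h
  have := le_ord_of_mem h hc'
  rw [ord_algebraMap] at this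
  omega

/-- Order of a polynomial in an element of order one. -/
theorem jacOrd_aeval {v : Place K F} {t : F} (ht : v.ord t = 1) {q : K[X]} (hq : q ≠ 0) :
    aeval t q ≠ 0 ∧ v.ord (aeval t q) = q.rootMultiplicity 0 := by
  have ht0 : t ≠ 0 := fun h => by simp [h] at ht
  obtain ⟨r, hr, hndvd⟩ := exists_eq_pow_rootMultiplicity_mul_and_not_dvd q hq 0
  simp only [map_zero, sub_zero, X_dvd_iff] at hr hndvd
  have h1 : aeval t r - algebraMap K F (r.coeff 0) ∈ ordGE v 1 := by
    have he : aeval t r - algebraMap K F (r.coeff 0) = t * aeval t r.divX := by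
      conv_lhs => arg 1; rw [← X_mul_divX_add r]
      rw [map_add, map_mul, aeval_X, aeval_C, add_sub_cancel_right]
    rw [he]
    have hreg : aeval t r.divX ∈ ordGE v 0 := by
      rw [← jacEv_C t t]
      exact jacEv_mem_ordGE (mem_ordGE_of_le (by omega)) (mem_ordGE_of_le (by omega)) _
    simpa using mul_mem_ordGE (mem_ordGE_of_le ht.ge) hreg
  obtain ⟨h2, h3⟩ := jac_ord_eq_zero_of_sub_mem hndvd h1
  generalize q.rootMultiplicity 0 = n at hr
  rw [hr, map_mul, map_pow, aeval_X]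
  refine ⟨mul_ne_zero (pow_ne_zero _ ht0) h2, ?_⟩
  rw [v.ord_mul (pow_ne_zero _ ht0) h2, ord_pow, ht, h3]
  simp

theorem jacX_pow_dvd_of_mem {v : Place K F} {t : F} (ht : v.ord t = 1) {q : K[X]} {n : ℕ}
    (h : aeval t q ∈ ordGE v n) : X ^ n ∣ q := by
  rcases eq_or_ne q 0 with rfl | hq
  · simp
  obtain ⟨h0, he⟩ := jacOrd_aeval ht hq
  have := le_ord_of_mem h h0
  rw [he] at this
  have hd := pow_rootMultiplicity_dvd q 0
  rw [map_zero, sub_zero] at hd
  exact (pow_dvd_pow X (by omega)).trans hd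

/-- A smooth plane model centred at the place `v`: `t` has order one, `Q (t, θ) = 0` generates all
relations up to denominators in `K[t]`, and `Q (0, Y)` is linear with root `c`. -/
structure JacModel (v : Place K F) where
  t : F
  θ : F
  c : K
  Q : K[X][X]
  ord_t : v.ord t = 1
  θ_sub : θ - algebraMap K F c ∈ ordGE v 1
  root : jacEv t θ Q = 0
  gen : ∀ f : F, ∃ (A : K[X][X]) (d : K[X]), d ≠ 0 ∧ f * aeval t d = jacEv t θ A
  ker : ∀ A : K[X][X], jacEv t θ A = 0 → ∃ a : K[X], a ≠ 0 ∧ Q ∣ C a * A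
  der : ∀ y : K, jacVal 0 y (derivative Q) ≠ 0
  root_unique : ∀ y : K, jacVal 0 y Q = 0 → y = c

section Existence

variable [IsAlgClosed K] [CharZero K] [IsCurveOver K F] [Algebra.EssFiniteType K F]

omit [IsAlgClosed K] [CharZero K] [IsCurveOver K F] [Algebra.EssFiniteType K F] in
theorem jacClearDenom (t : F) (p : (K⟮t⟯)[X]) :
    ∃ (A : K[X][X]) (d : K[X]), aeval t d ≠ 0 ∧
      A.map (aeval t : K[X] →ₐ[K] F).toRingHom =
        C (aeval t d) * p.map (algebraMap K⟮t⟯ F) := by
  induction p using Polynomial.induction_on' with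
  | add p q hp hq =>
    obtain ⟨A, d, hd, hA⟩ := hp
    obtain ⟨B, e, he, hB⟩ := hq
    refine ⟨C e * A + C d * B, d * e, by rw [map_mul]; exact mul_ne_zero hd he, ?_⟩
    rw [Polynomial.map_add, Polynomial.map_mul, Polynomial.map_mul, map_C, map_C, hA, hB,
      Polynomial.map_add, show (aeval t : K[X] →ₐ[K] F).toRingHom e = aeval t e from rfl,
      show (aeval t : K[X] →ₐ[K] F).toRingHom d = aeval t d from rfl, map_mul, C_mul]
    ring
  | monomial n c =>
    obtain ⟨r, s, h⟩ := (IntermediateField.mem_adjoin_simple_iff K _).1 c.2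
    by_cases hs : aeval t s = 0
    · refine ⟨0, 1, by simp, ?_⟩
      have : (c : F) = 0 := by rw [h, hs, div_zero]
      simp [this, IntermediateField.algebraMap_apply]
    · refine ⟨monomial n r, s, hs, ?_⟩
      simp only [map_monomial, C_mul_monomial, IntermediateField.algebraMap_apply, h]
      rw [mul_div_cancel₀ _ hs]
      rfl

omit [IsAlgClosed K] [CharZero K] [IsCurveOver K F] [Algebra.EssFiniteType K F] in
theorem jacIrreducible_of_ord {v : Place K F} {t : F} (ht : v.ord t = 1)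
    (hmem : t ∈ v.toValuationSubring) : Irreducible (⟨t, hmem⟩ : v.toValuationSubring) := by
  obtain ⟨π, hπ⟩ := IsDiscreteValuationRing.exists_irreducible v.toValuationSubring
  obtain ⟨u, hu⟩ := v.exists_unit_mul_zpow (f := t) (fun h => by simp [h] at ht) hπ
  rw [ht, zpow_one] at hu
  have he : (⟨t, hmem⟩ : v.toValuationSubring) = u * π := Subtype.ext hu
  rw [he]
  exact (irreducible_units_mul u).2 hπ

theorem jacFinite_of_ord {v : Place K F} {t : F} (ht : v.ord t = 1) :
    Transcendental K t ∧ FiniteDimensional K⟮t⟯ F ∧ Algebra.IsSeparable K⟮t⟯ F := by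
  have hmem : t ∈ v.toValuationSubring :=
    (mem_valuationSubring_iff v).2 (mem_ordGE_of_le (by omega))
  have h := D_uniformizer_ne_zero v (IsCurveOver.deg_eq_one_of_isAlgClosed v)
    (jacIrreducible_of_ord ht hmem)
  exact finite_separable_of_D_ne_zero (x := t) h

/-- Any generator over `K(t)` satisfies a relation generating all relations. -/
theorem jacExistsRelation {v : Place K F} {t : F} (ht : v.ord t = 1) (θ : F)
    (hθ : K⟮t⟯⟮θ⟯ = ⊤) :
    (∀ f : F, ∃ (A : K[X][X]) (d : K[X]), d ≠ 0 ∧ f * aeval t d = jacEv t θ A) ∧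
    ∃ Q : K[X][X], jacEv t θ Q = 0 ∧ jacEv t θ (derivative Q) ≠ 0 ∧
      ∀ A : K[X][X], jacEv t θ A = 0 → ∃ a : K[X], a ≠ 0 ∧ Q ∣ C a * A := by
  obtain ⟨htr, hfin, hsep⟩ := jacFinite_of_ord ht
  have hne : ∀ d : K[X], aeval t d ≠ 0 ↔ d ≠ 0 := fun d =>
    ⟨fun h h0 => h (by simp [h0]), fun h => fun h0 => h (transcendental_iff.1 htr d h0)⟩
  have hint : IsIntegral K⟮t⟯ θ := Algebra.IsIntegral.isIntegral θ
  refine ⟨fun f => ?_, ?_⟩
  · obtain ⟨p, hp⟩ : ∃ p : (K⟮t⟯)[X], aeval θ p = f := by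
      have hf : f ∈ (K⟮t⟯⟮θ⟯).toSubalgebra := by rw [hθ]; trivial
      rw [IntermediateField.adjoin_simple_toSubalgebra_of_isAlgebraic hint.isAlgebraic,
        Algebra.adjoin_singleton_eq_range_aeval] at hf
      exact hf
    obtain ⟨A, d, hd, hA⟩ := jacClearDenom t p
    refine ⟨A, d, (hne d).1 hd, ?_⟩
    rw [jacEv_map, hA, eval_mul, eval_C, eval_map, ← hp, aeval_def, mul_comm]
  · let m := minpoly K⟮t⟯ θ
    obtain ⟨Q, d, hd, hQ⟩ := jacClearDenom t m
    refine ⟨Q, ?_, ?_, ?_⟩
    · rw [jacEv_map, hQ, eval_mul, eval_map, ← aeval_def, minpoly.aeval, mul_zero]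
    · rw [jacEv_map, ← derivative_map, hQ, derivative_C_mul, eval_mul, eval_C, derivative_map,
        eval_map, ← aeval_def]
      exact mul_ne_zero hd ((Algebra.IsSeparable.isSeparable K⟮t⟯ θ).aeval_derivative_ne_zero
        (minpoly.aeval _ _))
    · intro A hA
      let φ : K[X] →+* K⟮t⟯ := (aeval (AdjoinSimple.gen K t)).toRingHom
      have hφ : (algebraMap K⟮t⟯ F).comp φ = (aeval t : K[X] →ₐ[K] F).toRingHom := by
        apply Polynomial.ringHom_ext <;> simp [φ]
      obtain ⟨p, hp⟩ : m ∣ A.map φ := by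
        apply minpoly.dvd
        rw [aeval_def, eval₂_map, hφ]
        exact hA
      obtain ⟨B, e, he, hB⟩ := jacClearDenom t p
      refine ⟨d * e, mul_ne_zero ((hne d).1 hd) ((hne e).1 he), B, ?_⟩
      have hinj : Function.Injective (Polynomial.map (aeval t : K[X] →ₐ[K] F).toRingHom) :=
        map_injective _ (transcendental_iff_injective.1 htr)
      apply hinj
      have hAp := congrArg (Polynomial.map (algebraMap K⟮t⟯ F)) hp
      rw [Polynomial.map_map, hφ, Polynomial.map_mul] at hAp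
      rw [Polynomial.map_mul, Polynomial.map_mul, map_C, hAp, hQ, hB,
        show (aeval t : K[X] →ₐ[K] F).toRingHom (d * e) = aeval t (d * e) from rfl, map_mul, C_mul]
      ring

theorem jacModel_nonempty (v : Place K F) : Nonempty (JacModel v) := by
  have hdeg := IsCurveOver.deg_eq_one_of_isAlgClosed v
  obtain ⟨t, ht⟩ : ∃ t : F, v.ord t = 1 := ⟨unif v, ord_unif v⟩
  obtain ⟨htr, hfin, hsep⟩ := jacFinite_of_ord ht
  have ht0 : t ≠ 0 := fun h => by simp [h] at ht
  have htK : t ∈ K⟮t⟯ := mem_adjoin_simple_self K t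
  obtain ⟨θ₀, hθ₀⟩ := Field.exists_primitive_element K⟮t⟯ F
  -- affine change of generator over `K(t)`
  have hmove : ∀ (θ θ' : F) (a b : F), a ∈ K⟮t⟯ → b ∈ K⟮t⟯ → θ = a * θ' + b →
      K⟮t⟯⟮θ⟯ = ⊤ → K⟮t⟯⟮θ'⟯ = ⊤ := by
    intro θ θ' a b ha hb he htop
    refine eq_top_iff.2 (htop ▸ ?_)
    rw [adjoin_le_iff, Set.singleton_subset_iff, SetLike.mem_coe, he]
    exact add_mem (mul_mem ((K⟮t⟯⟮θ'⟯).algebraMap_mem ⟨a, ha⟩) (mem_adjoin_simple_self _ θ'))
      ((K⟮t⟯⟮θ'⟯).algebraMap_mem ⟨b, hb⟩)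
  obtain ⟨θ, hreg, hθ⟩ : ∃ θ : F, θ ∈ ordGE v 0 ∧ K⟮t⟯⟮θ⟯ = ⊤ := by
    let m : ℕ := (-(v.ord θ₀)).toNat
    refine ⟨t ^ m * θ₀, ?_, hmove θ₀ _ (t ^ m)⁻¹ 0 (inv_mem (pow_mem htK m)) (zero_mem _) ?_ hθ₀⟩
    · rcases eq_or_ne θ₀ 0 with h | h
      · simp [h]
      · refine mem_ordGE_of_le ?_
        rw [v.ord_mul (pow_ne_zero _ ht0) h, ord_pow, ht]
        omega
    · field_simp
      ring
  obtain ⟨hgen, Q, hQ, hQ', hker⟩ := jacExistsRelation ht θ hθ
  have htreg : t ∈ ordGE v 0 := mem_ordGE_of_le (by omega)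
  obtain ⟨k, hk⟩ : ∃ k : ℕ, v.ord (jacEv t θ (derivative Q)) = k :=
    ⟨_, (Int.toNat_of_nonneg (le_ord_of_mem (jacEv_mem_ordGE htreg hreg _) hQ')).symm⟩
  obtain ⟨s, hs⟩ : ∃ s : K[X], θ - aeval t s ∈ ordGE v (k + 1) := by
    have hmem : t ∈ v.toValuationSubring := (mem_valuationSubring_iff v).2 htreg
    have hirr := jacIrreducible_of_ord ht hmem
    obtain ⟨s, z, hz⟩ := exists_poly_approx v hdeg hirr (k + 1)
      ⟨θ, (mem_valuationSubring_iff v).2 hreg⟩
    refine ⟨s, ?_⟩
    have h1 := congrArg (fun z : v.toValuationSubring => (z : F)) hz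
    simp only [AddSubgroupClass.coe_sub, MulMemClass.coe_mul, SubmonoidClass.coe_pow] at h1
    have h2 : ((aeval (⟨t, hmem⟩ : v.toValuationSubring) s : v.toValuationSubring) : F) =
        aeval t s :=
      (aeval_algebraMap_apply F (⟨t, hmem⟩ : v.toValuationSubring) s).symm
    rw [h2] at h1
    rw [h1]
    have := mul_mem_ordGE (mem_ordGE_of_le (v := v) (n := ((k + 1 : ℕ) : ℤ)) (f := t ^ (k + 1))
      (by rw [ord_pow, ht]; simp)) ((mem_valuationSubring_iff v).1 z.2)
    simpa using this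
  set δ := θ - aeval t s with hδ
  set θ' := δ / t ^ (k + 1) with hθ'def
  have hδθ' : δ = t ^ (k + 1) * θ' := by rw [hθ'def, mul_div_cancel₀ _ (pow_ne_zero _ ht0)]
  have hθ' : θ' ∈ ordGE v 0 := by
    rw [hθ'def, div_eq_inv_mul]
    have := mul_mem_ordGE (mem_ordGE_of_le (v := v) (n := -((k : ℤ) + 1)) (f := (t ^ (k + 1))⁻¹)
      (by rw [v.ord_inv, ord_pow, ht]; simp)) hs
    rwa [neg_add_cancel] at this
  have hθ'top : K⟮t⟯⟮θ'⟯ = ⊤ :=
    hmove θ θ' (t ^ (k + 1)) (aeval t s) (pow_mem htK _)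
      ((IntermediateField.mem_adjoin_simple_iff K _).2 ⟨s, 1, by simp⟩) (by rw [← hδθ', hδ]; ring) hθ
  obtain ⟨hgen', -⟩ := jacExistsRelation ht θ' hθ'top
  -- the transformed relation
  let sub : K[X][X] := C (X ^ (k + 1)) * X + C s
  have hsub : ∀ A : K[X][X], jacEv t θ' (A.comp sub) = jacEv t θ A := fun A => by
    rw [jacEv_map, jacEv_map, Polynomial.map_comp, eval_comp]
    congr 1
    simp [sub, ← hδθ', hδ]
  let T := taylor s Q
  have hcomp : Q.comp sub = T.comp (C (X ^ (k + 1)) * X) := by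
    simp [T, taylor_apply, comp_assoc, sub]
  have hcoef : ∀ j, (Q.comp sub).coeff j = T.coeff j * (X ^ (k + 1)) ^ j := fun j => by
    rw [hcomp, comp_C_mul_X_coeff]
  have hT0 : T.coeff 0 = Q.eval s := taylor_coeff_zero ..
  have hT1 : T.coeff 1 = (derivative Q).eval s := taylor_coeff_one ..
  have hev : ∀ A : K[X][X], jacEv t (aeval t s) A = aeval t (A.eval s) := fun A => by
    rw [jacEv_map, eval_map]
    exact eval₂_at_apply (aeval t : K[X] →ₐ[K] F).toRingHom s
  have hsreg : aeval t s ∈ ordGE v 0 := by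
    rw [← jacEv_C t θ]; exact jacEv_mem_ordGE htreg hreg _
  have hd1 : jacEv t θ (derivative Q) - aeval t (T.coeff 1) ∈ ordGE v (k + 1) := by
    obtain ⟨B, hB⟩ := X_sub_C_dvd_sub_C_eval (a := s) (p := derivative Q)
    have e : jacEv t θ (derivative Q) - aeval t (T.coeff 1) = δ * jacEv t θ B := by
      have := congrArg (jacEv t θ) hB
      simpa [jacEv_C, jacEv_X, hT1, hδ] using this
    rw [e]
    simpa using mul_mem_ordGE hs (jacEv_mem_ordGE htreg hreg B)
  have hord1 : aeval t (T.coeff 1) ≠ 0 ∧ v.ord (aeval t (T.coeff 1)) = k := by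
    have he : aeval t (T.coeff 1) = jacEv t θ (derivative Q) +
        -(jacEv t θ (derivative Q) - aeval t (T.coeff 1)) := by ring
    have hlt := ord_add_eq_left v hQ'
      (g := -(jacEv t θ (derivative Q) - aeval t (T.coeff 1))) (by
        rcases mem_ordGE.1 hd1 with h | h
        · exact Or.inl (by rw [h, neg_zero])
        · exact Or.inr (by rw [ord_neg]; omega))
    rw [← he, hk] at hlt
    refine ⟨fun h0 => ?_, hlt⟩
    rw [h0, sub_zero] at hd1
    have := le_ord_of_mem hd1 hQ'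
    omega
  obtain ⟨w, hw, hw0⟩ : ∃ w : K[X], T.coeff 1 = X ^ k * w ∧ w.coeff 0 ≠ 0 := by
    have hne : T.coeff 1 ≠ 0 := fun h => hord1.1 (by rw [h, map_zero])
    obtain ⟨w, hw, hndvd⟩ := exists_eq_pow_rootMultiplicity_mul_and_not_dvd (T.coeff 1) hne 0
    have hmul := (jacOrd_aeval ht hne).2
    rw [hord1.2, Nat.cast_inj] at hmul
    rw [← hmul, map_zero, sub_zero] at hw
    rw [map_zero, sub_zero, X_dvd_iff] at hndvd
    exact ⟨w, hw, hndvd⟩
  have hT0dvd : (X : K[X]) ^ (2 * k + 1) ∣ T.coeff 0 := by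
    apply jacX_pow_dvd_of_mem ht
    obtain ⟨z, hz⟩ := (Q.map (aeval t : K[X] →ₐ[K] F).toRingHom).binomExpansion (aeval t s) δ
    rw [add_sub_cancel, ← jacEv_map, hQ, derivative_map, ← jacEv_map, ← jacEv_map, hev, hev,
      ← hT0, ← hT1] at hz
    have hzδ : z * δ ^ 2 = -(aeval t (T.coeff 0)) - aeval t (T.coeff 1) * δ := by
      linear_combination -hz
    obtain ⟨B, hB⟩ : (X - C s) ^ 2 ∣ Q - C (Q.eval s) - C ((derivative Q).eval s) * (X - C s) := by
      obtain ⟨b, hb⟩ := X_sub_C_dvd_sub_C_eval (a := s) (p := Q)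
      have hb0 : b.eval s = (derivative Q).eval s := by
        have := congrArg (fun p => (derivative p).eval s) hb
        simpa using this.symm
      obtain ⟨b', hb'⟩ := X_sub_C_dvd_sub_C_eval (a := s) (p := b)
      refine ⟨b', ?_⟩
      rw [hb, ← hb0, pow_two, mul_assoc, ← hb']
      ring
    have e := congrArg (jacEv t θ) hB
    simp only [map_sub, map_mul, map_pow, jacEv_C, jacEv_X, hQ, ← hT0, ← hT1, ← hδ] at e
    have e' : aeval t (T.coeff 0) = -(aeval t (T.coeff 1) * δ + δ ^ 2 * jacEv t θ B) := by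
      linear_combination -e
    rw [e']
    refine neg_mem (add_mem ?_ ?_)
    · exact ordGE_anti (by push_cast; omega)
        (mul_mem_ordGE (mem_ordGE_of_le hord1.2.ge) hs)
    · rw [pow_two]
      exact ordGE_anti (by push_cast; omega)
        (mul_mem_ordGE (mul_mem_ordGE hs hs) (jacEv_mem_ordGE htreg hreg B))
  have hall : ∀ j, (X : K[X]) ^ (2 * k + 1) ∣ (Q.comp sub).coeff j := fun j => by
    rw [hcoef]
    match j with
    | 0 => exact hT0dvd.mul_right _
    | 1 => exact ⟨w, by rw [hw]; ring⟩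
    | j + 2 =>
      refine Dvd.dvd.mul_left ?_ _
      rw [← pow_mul]
      refine pow_dvd_pow _ ?_
      rw [Nat.mul_add]
      omega
  obtain ⟨Q', hQ'eq⟩ := (C_dvd_iff_dvd_coeff _ _).2 hall
  have hpow : (X : K[X]) ^ (2 * k + 1) ≠ 0 := pow_ne_zero _ X_ne_zero
  have hc1 : Q'.coeff 1 = w := mul_left_cancel₀ hpow (by
    rw [← coeff_C_mul, ← hQ'eq, hcoef, hw]; ring)
  have hc2 : ∀ j, (Q'.coeff (j + 2)).coeff 0 = 0 := fun j => by
    have h : (X : K[X]) ^ (2 * k + 1) * Q'.coeff (j + 2) =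
        X ^ (2 * k + 1) * (X ^ ((k + 1) * (j + 2) - (2 * k + 1)) * T.coeff (j + 2)) := by
      rw [← coeff_C_mul, ← hQ'eq, hcoef, ← mul_assoc, ← pow_add, ← pow_mul, mul_comm]
      congr 2
      rw [Nat.mul_add]
      omega
    rw [mul_left_cancel₀ hpow h, coeff_X_pow_mul', if_neg]
    rw [Nat.mul_add]
    omega
  have hlin : Q'.map (evalRingHom 0) = C ((Q'.coeff 0).coeff 0) + C (w.coeff 0) * X := by
    ext j
    match j with
    | 0 => simp [coeff_zero_eq_eval_zero]
    | 1 => simp [hc1, coeff_zero_eq_eval_zero]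
    | j + 2 => simp [← coeff_zero_eq_eval_zero, hc2]
  have hval : ∀ (y : K) (A : K[X][X]), jacVal 0 y A = (A.map (evalRingHom 0)).eval y :=
    fun y A => (eval_map _ _).symm
  have hroot : jacEv t θ' Q' = 0 := by
    have := congrArg (jacEv t θ') hQ'eq
    rw [hsub, hQ, map_mul, jacEv_C, map_pow, aeval_X] at this
    exact (mul_eq_zero.1 this.symm).resolve_left (pow_ne_zero _ ht0)
  obtain ⟨c, hc⟩ : ∃ c : K, θ' - algebraMap K F c ∈ ordGE v 1 := by
    obtain ⟨c, hc⟩ := exists_sub_const_mem_maximalIdeal v hdeg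
      ⟨θ', (mem_valuationSubring_iff v).2 hθ'⟩
    refine ⟨c, (residueAt_eq_zero_iff v
      (f := ⟨θ' - algebraMap K F c, sub_mem hθ'
        ((mem_valuationSubring_iff v).1 (v.algebraMap_mem' c))⟩)).1 ?_⟩
    exact IsLocalRing.residue_eq_zero_iff _ |>.2 hc
  have hcval : jacVal 0 c Q' = 0 := by
    by_contra hne
    have h := jacEv_sub_val_mem (w := v) (t := t) (θ := θ') (a := 0) (y := c)
      (by simpa using mem_ordGE_of_le ht.ge) hc Q'
    exact (jac_ord_eq_zero_of_sub_mem hne h).1 hroot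
  refine ⟨⟨t, θ', c, Q', ht, hc, hroot, hgen', fun A hA => ?_, fun y => ?_, fun y hy => ?_⟩⟩
  · let D := A.natDegree
    let A₁ : K[X][X] :=
      ∑ j ∈ Finset.range (D + 1), C (A.coeff j * X ^ ((k + 1) * (D - j))) * (X - C s) ^ j
    have hA₁ : A₁.comp sub = C (X ^ ((k + 1) * D)) * A := by
      conv_rhs => rw [A.as_sum_range_C_mul_X_pow]
      simp only [A₁, D, sum_comp, mul_comp, pow_comp, sub_comp, X_comp, C_comp, Finset.mul_sum]
      refine Finset.sum_congr rfl fun j hj => ?_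
      have hj' : (k + 1) * A.natDegree = (k + 1) * (A.natDegree - j) + (k + 1) * j := by
        rw [← Nat.mul_add, Nat.sub_add_cancel (Nat.lt_succ_iff.1 (Finset.mem_range.1 hj))]
      simp only [sub, add_sub_cancel_right, mul_pow, hj', pow_add, pow_mul, map_mul, map_pow]
      ring
    have h1 : jacEv t θ A₁ = 0 := by
      rw [← hsub, hA₁, map_mul, hA, mul_zero]
    obtain ⟨a, ha, B, hB⟩ := hker A₁ h1
    refine ⟨a * X ^ ((k + 1) * D), mul_ne_zero ha (pow_ne_zero _ X_ne_zero),
      C (X ^ (2 * k + 1)) * B.comp sub, ?_⟩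
    have := congrArg (fun p : K[X][X] => p.comp sub) hB
    simp only [mul_comp, C_comp, hA₁, hQ'eq] at this
    rw [C_mul, mul_assoc, this]
    ring
  · rw [hval, ← derivative_map, hlin]
    simp [hw0]
  · rw [hval, hlin] at hy hcval
    simp only [eval_add, eval_C, eval_mul, eval_X] at hy hcval
    exact mul_left_cancel₀ hw0 (add_left_cancel (hy.trans hcval.symm))

end Existence

end FermatLib.Curve

end
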