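import Fermat.Agent.Curve.JacUniformization
import Fermat.Agent.Curve.RiemannRoch
import Fermat.Agent.Curve.ConstExt.ComplexTransfer
import Mathlib.FieldTheory.IntermediateField.Adjoin.Algebra

/-!
# Torsion of `Pic0` of a function field over an algebraically closed field of characteristic zero
-/

set_option autoImplicit false

noncomputable section

open AlgebraicCurve IntermediateField

namespace FermatLib.Curve

theorem essFiniteType_of_isFunctionField (K F : Type*) [Field K] [Field F] [Algebra K F]
    [h : IsFunctionField K F] : Algebra.EssFiniteType K F := by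
  obtain ⟨x, -, hfin⟩ := h.exists_transcendental
  have : Algebra.EssFiniteType K K⟮x⟯ := essFiniteType_iff.2 (fg_adjoin_finset {x} |> fun h => by
    simpa using h)
  exact Algebra.EssFiniteType.comp K K⟮x⟯ F

/-- The torsion of `Pic0`, as a subgroup, is the set of classes killed by `n`. -/
theorem jacTorsion_equiv {K F : Type*} [Field K] [Field F] [Algebra K F] (n : ℕ) :
    Nat.card (Pic0.torsion K F n) = Nat.card {c : Pic0 K F // n • c = 0} :=
  Nat.card_congr (Equiv.subtypeEquivRight fun c => by rw [Pic0.mem_torsion, natCast_zsmul])

/-- Over `ℂ`. -/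
theorem natCard_torsion_complex (E : Type*) [Field E] [Algebra ℂ E] [IsFunctionField ℂ E] {n : ℕ}
    (hn : n ≠ 0) : Nat.card (Pic0.torsion ℂ E n) = n ^ (2 * genusFF ℂ E) := by
  have := isCurveOver_of_isFunctionField (K := ℂ) (F := E)
  have := essFiniteType_of_isFunctionField ℂ E
  rw [jacTorsion_equiv]
  exact jacCard_torsion_complex (riemannEquation ℂ E) hn

/-- **`#Pic0[n] = n ^ (2 g)`** over any algebraically closed field of characteristic zero. -/
theorem natCard_torsion_eq_pow (K F : Type*) [Field K] [Field F] [Algebra K F] [IsAlgClosed K]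
    [CharZero K] [IsFunctionField K F] {n : ℕ} (hn : n ≠ 0) :
    Nat.card (Pic0.torsion K F n) = n ^ (2 * genusFF K F) :=
  natCard_torsion_eq_pow_of_complex hn fun E _ _ _ => natCard_torsion_complex E hn

end FermatLib.Curve

end
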