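import Fermat.Agent.Curve.RepartitionQuot
import Mathlib.RingTheory.AlgebraTower

/-!
Growth of `l(m·B)` for the polar divisor `B` of a transcendental function `x`:
`l(m·B) ≥ [F : K(x)] · (m - c + 1)`.
-/

set_option autoImplicit false

noncomputable section

open AlgebraicCurve Polynomial
open scoped IntermediateField

namespace FermatLib.Curve

variable {K F : Type*} [Field K] [Field F] [Algebra K F] [IsFunctionField K F]

theorem finite_setOf_ord_neg (z : F) : {v : Place K F | v.ord z < 0}.Finite :=
  (finite_setOf_ord_ne_zero z).subset fun v hv => by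
    simp only [Set.mem_ofPred_eq] at hv ⊢
    omega

variable (K) in
/-- The polar divisor of a function. -/
def polarDivisor (x : F) : Divisor K F :=
  (divOf (K := K) x).mapRange (fun n => max (-n) 0) (by simp)

@[simp]
theorem polarDivisor_apply (x : F) (v : Place K F) :
    polarDivisor K x v = max (-v.ord x) 0 := by
  simp [polarDivisor]

theorem polarDivisor_nonneg (x : F) : 0 ≤ polarDivisor K x :=
  Finsupp.le_def.mpr fun v => by simp

omit [IsFunctionField K F] in
theorem degree_eq_sum_of_support_subset {D : Divisor K F} {S : Finset (Place K F)}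
    (h : D.support ⊆ S) : Divisor.degree D = ∑ v ∈ S, D v * v.deg := by
  simp only [Divisor.degree, Finsupp.liftAddHom_apply, AddMonoidHom.coe_mulRight]
  exact Finsupp.sum_of_support_subset D h _ (fun v _ => zero_mul _)

omit [IsFunctionField K F] in
theorem degree_nonneg {D : Divisor K F} (h : 0 ≤ D) : 0 ≤ Divisor.degree D := by
  rw [degree_eq_sum_of_support_subset (Finset.Subset.refl _)]
  exact Finset.sum_nonneg fun v _ => mul_nonneg (Finsupp.le_def.mp h v) (by positivity)

omit [IsFunctionField K F] in
theorem degree_mono {D D' : Divisor K F} (h : D ≤ D') : Divisor.degree D ≤ Divisor.degree D' := by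
  have := degree_nonneg (sub_nonneg.mpr h)
  rw [map_sub] at this
  omega

omit [IsFunctionField K F] in
theorem adjoin_simple_inv (x : F) : (K⟮x⁻¹⟯ : IntermediateField K F) = K⟮x⟯ :=
  le_antisymm
    (IntermediateField.adjoin_simple_le_iff.mpr
      (inv_mem (IntermediateField.mem_adjoin_simple_self K x)))
    (IntermediateField.adjoin_simple_le_iff.mpr (by
      simpa using inv_mem (IntermediateField.mem_adjoin_simple_self K x⁻¹)))

theorem degree_polarDivisor_le {x : F} (hx : Transcendental K x) :
    Divisor.degree (polarDivisor K x) ≤ Module.finrank K⟮x⟯ F := by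
  classical
  set S : Finset (Place K F) := (polarDivisor K x).support
  have hneg : ∀ v ∈ S, v.ord x < 0 := fun v hv => by
    by_contra hge
    rw [Finsupp.mem_support_iff, polarDivisor_apply] at hv
    omega
  have h := sum_ord_mul_deg_le S (t := x⁻¹) (fun h => hx (IsAlgebraic.inv_iff.mp h))
    (fun v hv => by have := hneg v hv; rw [v.ord_inv]; omega)
  rw [congrArg (fun L : IntermediateField K F => Module.finrank L F) (adjoin_simple_inv x)] at h
  rw [degree_eq_sum_of_support_subset (Finset.Subset.refl _)]
  refine le_trans (le_of_eq (Finset.sum_congr rfl fun v hv => ?_)) h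
  have := hneg v hv
  rw [polarDivisor_apply, v.ord_inv, max_eq_left (by omega)]

omit [IsFunctionField K F] in
theorem aeval_mem_valuationSubring {v : Place K F} {x : F} (hx : x ∈ v.toValuationSubring)
    (p : K[X]) : aeval x p ∈ v.toValuationSubring :=
  (mem_valuationSubring_iff v).mpr (aeval_mem_ordGE ((mem_valuationSubring_iff v).mp hx) p)

/-- A polynomial in `x` vanishing at a given non-pole of `x`. -/
theorem exists_poly_ord_pos {x : F} (hx : Transcendental K x) {v : Place K F} (hv : 0 ≤ v.ord x) :
    ∃ p : K[X], p ≠ 0 ∧ 0 < v.ord (aeval x p) := by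
  have hx0 : x ≠ 0 := fun e => hx (e ▸ isAlgebraic_zero)
  have hmem : x ∈ v.toValuationSubring := (mem_iff_ord_nonneg v hx0).mpr hv
  set x' : v.toValuationSubring := ⟨x, hmem⟩
  set r : v.ResidueField := IsLocalRing.residue _ x'
  haveI := finite_residueField v
  have hint : IsIntegral K r := IsIntegral.of_finite K r
  refine ⟨minpoly K r, minpoly.ne_zero hint, ?_⟩
  have hcoe : ((aeval x' (minpoly K r) : v.toValuationSubring) : F) = aeval x (minpoly K r) :=
    (aeval_algHom_apply (IsScalarTower.toAlgHom K v.toValuationSubring F) x' _).symm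
  have hres : IsLocalRing.residue _ (aeval x' (minpoly K r) : v.toValuationSubring) = 0 := by
    have h := aeval_algHom_apply (IsScalarTower.toAlgHom K v.toValuationSubring v.ResidueField) x'
      (minpoly K r)
    simp only [IsScalarTower.coe_toAlgHom', IsLocalRing.ResidueField.algebraMap_eq] at h
    rw [← h]
    exact minpoly.aeval K r
  have hmem1 := (residue_eq_zero_iff_mem_ordGE v _).mp hres
  rw [hcoe] at hmem1
  have hne : aeval x (minpoly K r) ≠ 0 := fun e =>
    minpoly.ne_zero hint (transcendental_iff.mp hx _ e)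
  have := le_ord_of_mem hmem1 hne
  omega

/-- Clear the poles of `u` off the poles of `x` by a polynomial in `x`. -/
theorem exists_poly_clear_poles {x : F} (hx : Transcendental K x) (u : F) :
    ∃ p : K[X], p ≠ 0 ∧ ∀ v : Place K F, 0 ≤ v.ord x → 0 ≤ v.ord (u * aeval x p) := by
  classical
  rcases eq_or_ne u 0 with rfl | hu
  · exact ⟨1, one_ne_zero, fun v _ => by simp⟩
  let S := (finite_setOf_ord_neg (K := K) u).toFinset.filter fun v => 0 ≤ v.ord x
  choose p hp0 hp using fun v : S =>
    exists_poly_ord_pos hx (v := v.1) (Finset.mem_filter.mp v.2).2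
  let N : S → ℕ := fun v => (-v.1.ord u).toNat
  refine ⟨∏ v : S, p v ^ N v, Finset.prod_ne_zero_iff.mpr fun v _ => pow_ne_zero _ (hp0 v), ?_⟩
  intro v hv
  have hx0 : x ≠ 0 := fun e => hx (e ▸ isAlgebraic_zero)
  have hxmem := (mem_iff_ord_nonneg v hx0).mpr hv
  have hne : ∀ w : S, aeval x (p w) ^ N w ≠ 0 := fun w =>
    pow_ne_zero _ fun e => hp0 w (transcendental_iff.mp hx _ e)
  have hprod : aeval x (∏ w : S, p w ^ N w) = ∏ w : S, aeval x (p w) ^ N w := by simp
  rw [hprod, v.ord_mul hu (Finset.prod_ne_zero_iff.mpr fun w _ => hne w),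
    ord_prod v _ _ fun w _ => hne w]
  have hnn : ∀ w : S, 0 ≤ v.ord (aeval x (p w) ^ N w) := fun w =>
    ord_nonneg_of_mem_place v (pow_mem (aeval_mem_valuationSubring hxmem _) _)
  by_cases hvu : 0 ≤ v.ord u
  · have := Finset.sum_nonneg fun w (_ : w ∈ (Finset.univ : Finset S)) => hnn w
    omega
  · have hvS : v ∈ S := Finset.mem_filter.mpr ⟨(Set.Finite.mem_toFinset _).mpr (not_le.mp hvu), hv⟩
    have h1 := Finset.single_le_sum (f := fun w : S => v.ord (aeval x (p w) ^ N w))
      (fun w _ => hnn w) (Finset.mem_univ ⟨v, hvS⟩)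
    have h2 : (N ⟨v, hvS⟩ : ℤ) ≤ v.ord (aeval x (p ⟨v, hvS⟩) ^ N ⟨v, hvS⟩) := by
      rw [ord_pow]
      have := hp ⟨v, hvS⟩
      nlinarith
    have h3 : -v.ord u ≤ (N ⟨v, hvS⟩ : ℤ) := Int.self_le_toNat _
    omega

/-- `l(m·B) ≥ [F : K(x)] (m + 1 - c)`. -/
theorem exists_le_finrank_polarDivisor {x : F} (hx : Transcendental K x) :
    ∃ c : ℕ, ∀ m : ℕ,
      Module.finrank K⟮x⟯ F * (m + 1 - c) ≤
        Module.finrank K ↥(riemannRochSpace ((m : ℤ) • polarDivisor K x)) := by
  classical
  haveI := finiteDimensional_adjoin_of_transcendental hx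
  let b := Module.finBasis K⟮x⟯ F
  choose q hq0 hq using fun i => exists_poly_clear_poles hx (b i)
  let u : Fin (Module.finrank K⟮x⟯ F) → F := fun i => b i * aeval x (q i)
  have hx0 : x ≠ 0 := fun e => hx (e ▸ isAlgebraic_zero)
  have hu : LinearIndependent K⟮x⟯ u := by
    let w : Fin (Module.finrank K⟮x⟯ F) → (K⟮x⟯)ˣ := fun i =>
      Units.mk0 (aeval (IntermediateField.AdjoinSimple.gen K x) (q i)) (fun e => by
        refine hq0 i (transcendental_iff.mp hx _ ?_)
        rw [← IntermediateField.AdjoinSimple.coe_aeval_gen_apply, e]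
        rfl)
    have h2 := b.linearIndependent.units_smul w
    have : u = w • (b : Fin (Module.finrank K⟮x⟯ F) → F) := funext fun i => by
      show b i * aeval x (q i) =
        ((aeval (IntermediateField.AdjoinSimple.gen K x) (q i) : K⟮x⟯) : F) * b i
      rw [IntermediateField.AdjoinSimple.coe_aeval_gen_apply, mul_comm]
    exact this ▸ h2
  let S := (polarDivisor K x).support
  refine ⟨∑ i, ∑ v ∈ S, (v.ord (u i)).natAbs, fun m => ?_⟩
  set c := ∑ i, ∑ v ∈ S, (v.ord (u i)).natAbs with hc
  let M := m + 1 - c
  let g : K⟮x⟯ := IntermediateField.AdjoinSimple.gen K x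
  have hpow : LinearIndependent K fun j : Fin M => g ^ (j : ℕ) := by
    rw [Fintype.linearIndependent_iff]
    intro a ha j
    have hp : aeval x (∑ j : Fin M, C (a j) * X ^ (j : ℕ)) = 0 := by
      have := congrArg (fun y : K⟮x⟯ => (y : F)) ha
      simp only [g, IntermediateField.coe_sum, IntermediateField.coe_smul,
        IntermediateField.coe_pow, IntermediateField.AdjoinSimple.coe_gen,
        IntermediateField.coe_zero] at this
      rw [map_sum, ← this]
      exact Finset.sum_congr rfl fun j _ => by simp [Algebra.smul_def]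
    have := congrArg (fun p : K[X] => p.coeff (j : ℕ)) (transcendental_iff.mp hx _ hp)
    simp only [finsetSum_coeff, coeff_C_mul_X_pow, coeff_zero] at this
    rw [Finset.sum_eq_single j] at this
    · simpa using this
    · intro k _ hk
      rw [if_neg (fun e => hk (Fin.ext e.symm))]
    · simp
  have hli := linearIndependent_smul hpow hu
  have hmemv : ∀ (j : Fin M) i, g ^ (j : ℕ) • u i ∈
      riemannRochSpace ((m : ℤ) • polarDivisor K x) := by
    intro j i
    rw [mem_riemannRochSpace]
    intro v
    rw [Algebra.smul_def, map_pow]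
    show x ^ (j : ℕ) * u i ∈ _
    rcases eq_or_ne (u i) 0 with hui | hui
    · simp [hui]
    refine mem_ordGE_of_le ?_
    rw [v.ord_mul (pow_ne_zero _ hx0) hui, ord_pow, Finsupp.smul_apply, polarDivisor_apply,
      smul_eq_mul]
    rcases le_or_gt 0 (v.ord x) with hxv | hxv
    · rw [max_eq_right (by omega)]
      have h1 : 0 ≤ v.ord (u i) := hq i v hxv
      nlinarith
    · have hvS : v ∈ S := by
        rw [Finsupp.mem_support_iff, polarDivisor_apply, max_eq_left (by omega)]
        omega
      have h1 := Finset.single_le_sum (f := fun v : Place K F => (v.ord (u i)).natAbs)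
        (fun _ _ => Nat.zero_le _) hvS
      have h2 := Finset.single_le_sum (f := fun i => ∑ v ∈ S, (v.ord (u i)).natAbs)
        (fun _ _ => Nat.zero_le _) (Finset.mem_univ i)
      have h3 : ((v.ord (u i)).natAbs : ℤ) ≤ c := by
        rw [hc]
        exact_mod_cast le_trans h1 h2
      have h4 : (j : ℤ) + c ≤ m := by
        have := j.2
        simp only [M] at this
        omega
      rw [max_eq_left (by omega)]
      have h5 : 0 ≤ ((m : ℤ) - j - c) * (-v.ord x) := mul_nonneg (by omega) (by omega)
      have h6 : (c : ℤ) * 1 ≤ (c : ℤ) * (-v.ord x) :=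
        mul_le_mul_of_nonneg_left (by omega) (by omega)
      have h7 : -v.ord (u i) ≤ c := by omega
      nlinarith
  have hli' : LinearIndependent K fun p : Fin M × Fin (Module.finrank K⟮x⟯ F) =>
      (⟨g ^ (p.1 : ℕ) • u p.2, hmemv p.1 p.2⟩ :
        ↥(riemannRochSpace ((m : ℤ) • polarDivisor K x))) :=
    LinearIndependent.of_comp (riemannRochSpace ((m : ℤ) • polarDivisor K x)).subtype hli
  have := hli'.fintype_card_le_finrank
  simpa [M, mul_comm] using this

end FermatLib.Curve

end
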