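import Fermat.Agent.Curve.Approximation
import Fermat.Prelude.Def_AlgebraicCurve_DivisorPushPull
import Fermat.Prelude.Def_AlgebraicCurve_Repartitions
import Mathlib.RingTheory.Trace.Basic

/-!
# The trace near the fibre over a place

For a finite extension `F'/F` of function fields with residue degree one, a basis adapted to the
fibre over a place `P` computes the trace of an element modulo the maximal ideal of `P`.
This gives both the bound and the sharpness needed for the cotrace of Weil differentials.
-/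

set_option autoImplicit false

noncomputable section

open AlgebraicCurve WithZero

namespace FermatLib.Curve

section single

variable {K F : Type*} [Field K] [Field F] [Algebra K F]

theorem trLe_exp_neg_one_of_lt_one {x : ℤᵐ⁰} (h : x < 1) : x ≤ exp (-1 : ℤ) := by
  rcases eq_or_ne x 0 with rfl | hx
  · exact zero_le
  · obtain ⟨n, rfl⟩ : ∃ n : ℤ, x = exp n := ⟨log x, (exp_log hx).symm⟩
    rw [← exp_zero, exp_lt_exp] at h
    exact exp_le_exp.2 (by omega)

theorem exists_adicValuation_eq_exp (P : Place K F) (n : ℤ) :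
    ∃ t : F, P.adicValuation t = exp n := by
  obtain ⟨π, hπ⟩ := IsDiscreteValuationRing.exists_irreducible P.toValuationSubring
  refine ⟨(π : F) ^ (-n), ?_⟩
  rw [map_zpow₀, P.adicValuation_coe_irreducible hπ, ← exp_zsmul]
  simp

theorem adicValuation_algebraMap_eq_one (P : Place K F) {c : K} (hc : c ≠ 0) :
    P.adicValuation (algebraMap K F c) = 1 := by
  refine le_antisymm (P.adicValuation_algebraMap_le_one c) ?_
  have h := P.adicValuation_algebraMap_le_one c⁻¹
  rw [map_inv₀, map_inv₀] at h
  by_contra hlt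
  rw [not_le] at hlt
  have h0 : P.adicValuation (algebraMap K F c) ≠ 0 :=
    P.adicValuation_ne_zero (by simpa using hc)
  have h1 : (1 : ℤᵐ⁰) < (P.adicValuation (algebraMap K F c))⁻¹ :=
    (one_lt_inv₀ (zero_lt_iff.2 h0)).2 hlt
  exact absurd h (not_le.2 h1)

/-- If a place has degree one, every integral element is congruent to a constant. -/
theorem exists_algebraMap_sub_lt_one (P : Place K F) (hP : P.deg = 1) {f : F}
    (hf : P.adicValuation f ≤ 1) :
    ∃ c : K, P.adicValuation (f - algebraMap K F c) < 1 := by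
  have hmem : f ∈ P.toValuationSubring := by
    rcases eq_or_ne f 0 with rfl | hf0
    · exact zero_mem _
    rcases P.toValuationSubring.mem_or_inv_mem f with h | h
    · exact h
    · obtain ⟨π, hπ⟩ := IsDiscreteValuationRing.exists_irreducible P.toValuationSubring
      have hle := P.adicValuation_le_one_of_mem h
      rw [map_inv₀] at hle
      have h1 : P.adicValuation f = 1 :=
        le_antisymm hf ((inv_le_one₀ (zero_lt_iff.2 (P.adicValuation_ne_zero hf0))).1 hle)
      have hu : IsUnit (⟨f⁻¹, h⟩ : P.toValuationSubring) :=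
        (P.adicValuation_coe_eq_one_iff _).1 (by simp [map_inv₀, h1])
      obtain ⟨b, hb⟩ := isUnit_iff_exists_inv.1 hu
      have hb' : f⁻¹ * (b : F) = 1 := congrArg Subtype.val hb
      have : (b : F) = f := by field_simp at hb'; exact hb'
      exact this ▸ b.2
  obtain ⟨c, hc⟩ : ∃ c : K, algebraMap K P.ResidueField c = IsLocalRing.residue _ ⟨f, hmem⟩ := by
    obtain ⟨c, hc⟩ := (finrank_eq_one_iff_of_nonzero' (1 : P.ResidueField) one_ne_zero).1 hP
      (IsLocalRing.residue _ ⟨f, hmem⟩)
    exact ⟨c, by rw [← hc, Algebra.smul_def, mul_one]⟩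
  refine ⟨c, ?_⟩
  set d : P.toValuationSubring := ⟨f, hmem⟩ - algebraMap K P.toValuationSubring c with hd
  have hres : IsLocalRing.residue _ d = 0 := by
    rw [hd, map_sub, ← hc]
    exact sub_self _
  have hnu : ¬ IsUnit d := by
    have := (IsLocalRing.residue_eq_zero_iff _).1 hres
    exact (IsLocalRing.mem_maximalIdeal _).1 this
  have hle := P.adicValuation_le_one_of_mem d.2
  have hne : P.adicValuation (d : F) ≠ 1 := fun h => hnu ((P.adicValuation_coe_eq_one_iff d).1 h)
  exact lt_of_le_of_ne hle hne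

end single

section extension

variable {K F F' : Type*} [Field K] [Field F] [Field F'] [Algebra K F] [Algebra K F']
  [Algebra F F'] [IsScalarTower K F F'] [Algebra.IsIntegral F F']

theorem adicValuation_algebraMap_restrict (w : Place K F') (f : F) :
    w.adicValuation (algebraMap F F' f)
      = (w.restrict F).adicValuation f ^ w.ramificationIndex F := by
  rcases eq_or_ne f 0 with rfl | hf
  · have := w.ramificationIndex_pos (F := F)
    simp [this.ne']
  rw [w.adicValuation_eq_exp_neg_ord (by simpa using hf),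
    (w.restrict F).adicValuation_eq_exp_neg_ord hf, w.ord_restrict, ← exp_nsmul]
  simp

variable [HasPrincipalDivisors K F'] (P : Place K F)

variable (F') in
/-- Index type of a basis adapted to the fibre over `P`. -/
abbrev FibreIndex : Type _ := Σ w : {w // w ∈ P.fiber F'}, Fin (w.1.ramificationIndex F)

/-- A family adapted to the fibre over `P`. -/
def IsFibreAdapted (b : FibreIndex F' P → F') : Prop :=
  ∀ j : FibreIndex F' P, j.1.1.adicValuation (b j) = exp (-(j.2.1 : ℤ)) ∧
    ∀ w ∈ P.fiber F', w ≠ j.1.1 →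
      w.adicValuation (b j) ≤ exp (-(w.ramificationIndex F : ℤ))

/-- Approximation at the fibre over `P`. -/
theorem exists_fibre_approx (a : Place K F' → F') (n : Place K F' → ℤ) :
    ∃ y : F', ∀ w ∈ P.fiber F', w.adicValuation (a w - y) ≤ exp (n w) := by
  obtain ⟨y, hy⟩ := exists_approx (P.fiber F') a fun w => -n w
  refine ⟨y, fun w hw => ?_⟩
  have h : w.adicValuation (y - a w) ≤ exp (- -n w) := hy w hw
  rwa [neg_neg, Valuation.map_sub_swap] at h

theorem exists_isFibreAdapted : ∃ b : FibreIndex F' P → F', IsFibreAdapted P b := by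
  classical
  have key : ∀ j : FibreIndex F' P, ∃ y : F', j.1.1.adicValuation y = exp (-(j.2.1 : ℤ)) ∧
      ∀ w ∈ P.fiber F', w ≠ j.1.1 →
        w.adicValuation y ≤ exp (-(w.ramificationIndex F : ℤ)) := by
    intro j
    obtain ⟨t, ht⟩ := exists_adicValuation_eq_exp j.1.1 (-(j.2.1 : ℤ))
    obtain ⟨y, hy⟩ := exists_fibre_approx P (fun w => if w = j.1.1 then t else 0)
      (fun w => -(w.ramificationIndex F : ℤ))
    refine ⟨y, ?_, fun w hw hne => by simpa [if_neg hne] using hy w hw⟩
    have h := hy j.1.1 j.1.2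
    rw [if_pos rfl] at h
    have hlt : j.1.1.adicValuation (t - y) < j.1.1.adicValuation t := by
      rw [ht]
      exact h.trans_lt (exp_lt_exp.2 (by have := j.2.2; omega))
    rw [← ht, ← Valuation.map_sub_eq_of_lt_left _ hlt, sub_sub_cancel]
  choose b hb using key
  exact ⟨b, hb⟩

variable {P} {b : FibreIndex F' P → F'} (hb : IsFibreAdapted P b)
include hb

theorem adicValuation_sum_fibreAdapted (c : FibreIndex F' P → F) (j : FibreIndex F' P)
    (hle : ∀ k, P.adicValuation (c k) ≤ P.adicValuation (c j)) (hj : c j ≠ 0)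
    (hmin : ∀ i : Fin (j.1.1.ramificationIndex F), i < j.2 →
      P.adicValuation (c ⟨j.1, i⟩) < P.adicValuation (c j)) :
    j.1.1.adicValuation (∑ k, algebraMap F F' (c k) * b k)
      = P.adicValuation (c j) ^ j.1.1.ramificationIndex F * exp (-(j.2.1 : ℤ)) := by
  classical
  have hres : j.1.1.restrict F = P := Place.mem_fiber.1 j.1.2
  set e := j.1.1.ramificationIndex F with he
  set M := P.adicValuation (c j) with hM
  have hM0 : 0 < M := zero_lt_iff.2 (P.adicValuation_ne_zero hj)
  have hterm : ∀ k, j.1.1.adicValuation (algebraMap F F' (c k) * b k)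
      = P.adicValuation (c k) ^ e * j.1.1.adicValuation (b k) := fun k => by
    rw [map_mul, adicValuation_algebraMap_restrict, hres]
  have hjval : j.1.1.adicValuation (algebraMap F F' (c j) * b j)
      = M ^ e * exp (-(j.2.1 : ℤ)) := by rw [hterm, (hb j).1]
  rw [Valuation.map_sum_eq_of_lt _ (Finset.mem_univ j) ?_, hjval]
  intro k hk
  have hkj : k ≠ j := by simpa using hk
  rw [hterm, hjval]
  obtain ⟨w, i⟩ := k
  by_cases hw : w = j.1
  · subst hw
    have hij : i ≠ j.2 := fun h => hkj (by subst h; rfl)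
    rw [(hb ⟨j.1, i⟩).1]
    rcases lt_or_gt_of_ne hij with hlt | hgt
    · have h1 : P.adicValuation (c ⟨j.1, i⟩) ≤ M * exp (-1 : ℤ) := by
        have h2 := hmin i hlt
        have h3 : P.adicValuation (c ⟨j.1, i⟩) / M < 1 := (div_lt_one₀ hM0).2 h2
        have h4 := trLe_exp_neg_one_of_lt_one h3
        rwa [div_le_iff₀ hM0, mul_comm] at h4
      calc P.adicValuation (c ⟨j.1, i⟩) ^ e * exp (-(i.1 : ℤ))
          ≤ (M * exp (-1 : ℤ)) ^ e * exp (-(i.1 : ℤ)) :=
            mul_le_mul' (pow_le_pow_left₀ zero_le h1 e) le_rfl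
        _ = M ^ e * exp (-(e : ℤ) - i.1) := by
            rw [mul_pow, ← exp_nsmul, mul_assoc, ← exp_add]
            congr 2
            simp [sub_eq_add_neg]
        _ < M ^ e * exp (-(j.2.1 : ℤ)) :=
            mul_lt_mul_of_pos_left (exp_lt_exp.2 (by have := j.2.2; omega)) (pow_pos hM0 e)
    · calc P.adicValuation (c ⟨j.1, i⟩) ^ e * exp (-(i.1 : ℤ))
          ≤ M ^ e * exp (-(i.1 : ℤ)) :=
            mul_le_mul' (pow_le_pow_left₀ zero_le (hle _) e) le_rfl
        _ < M ^ e * exp (-(j.2.1 : ℤ)) :=
            mul_lt_mul_of_pos_left (exp_lt_exp.2 (by have := (show j.2.1 < i.1 from hgt); omega))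
              (pow_pos hM0 e)
  · calc P.adicValuation (c ⟨w, i⟩) ^ e * j.1.1.adicValuation (b ⟨w, i⟩)
        ≤ M ^ e * exp (-(e : ℤ)) :=
          mul_le_mul' (pow_le_pow_left₀ zero_le (hle _) e)
            ((hb ⟨w, i⟩).2 j.1.1 j.1.2 fun h => hw (Subtype.ext h.symm))
      _ < M ^ e * exp (-(j.2.1 : ℤ)) :=
          mul_lt_mul_of_pos_left (exp_lt_exp.2 (by have := j.2.2; omega)) (pow_pos hM0 e)

/-- At every place carrying a coefficient of maximal valuation the sum has no cancellation. -/
theorem exists_adicValuation_sum_fibreAdapted (c : FibreIndex F' P → F)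
    (w : {w // w ∈ P.fiber F'}) (i₀ : Fin (w.1.ramificationIndex F))
    (hle : ∀ k, P.adicValuation (c k) ≤ P.adicValuation (c ⟨w, i₀⟩)) (hne : c ⟨w, i₀⟩ ≠ 0) :
    ∃ i, i ≤ i₀ ∧ P.adicValuation (c ⟨w, i₀⟩) ^ w.1.ramificationIndex F * exp (-(i.1 : ℤ))
      = w.1.adicValuation (∑ k, algebraMap F F' (c k) * b k) := by
  classical
  obtain ⟨i, hi, hmin⟩ : ∃ i : Fin (w.1.ramificationIndex F),
      P.adicValuation (c ⟨w, i⟩) = P.adicValuation (c ⟨w, i₀⟩) ∧
      ∀ k, P.adicValuation (c ⟨w, k⟩) = P.adicValuation (c ⟨w, i₀⟩) → i ≤ k := by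
    obtain ⟨i, hi, hmin⟩ := WellFounded.has_min (wellFounded_lt (α := Fin _))
      {i | P.adicValuation (c ⟨w, i⟩) = P.adicValuation (c ⟨w, i₀⟩)} ⟨i₀, rfl⟩
    exact ⟨i, hi, fun k hk => not_lt.1 (hmin k hk)⟩
  refine ⟨i, hmin i₀ rfl, ?_⟩
  have hne0 : c ⟨w, i⟩ ≠ 0 := by
    rw [← Valuation.ne_zero_iff P.adicValuation] at hne ⊢
    rwa [hi]
  rw [← hi]
  exact (adicValuation_sum_fibreAdapted hb c ⟨w, i⟩ (fun k => hi ▸ hle k) hne0 fun k hk =>
    lt_of_le_of_ne (hi ▸ hle _) fun h => absurd (hmin k (h.trans hi)) (not_le.2 hk)).symm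

theorem linearIndependent_fibreAdapted : LinearIndependent F b := by
  classical
  rw [Fintype.linearIndependent_iff]
  intro c hc
  by_contra hne
  push Not at hne
  obtain ⟨k0, hk0⟩ := hne
  obtain ⟨⟨w, i0⟩, -, hmax⟩ := Finset.exists_max_image Finset.univ
    (fun k => P.adicValuation (c k)) ⟨k0, Finset.mem_univ _⟩
  have hne0 : c ⟨w, i0⟩ ≠ 0 := by
    intro h
    have := hmax k0 (Finset.mem_univ _)
    rw [h, map_zero, le_zero_iff, Valuation.zero_iff] at this
    exact hk0 this
  obtain ⟨i, -, hval⟩ :=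
    exists_adicValuation_sum_fibreAdapted hb c w i0 (fun k => hmax k (Finset.mem_univ _)) hne0
  simp only [Algebra.smul_def] at hc
  rw [hc, map_zero, mul_eq_zero] at hval
  rcases hval with h | h
  · exact P.adicValuation_ne_zero hne0 (pow_eq_zero_iff'.1 h).1
  · exact exp_ne_zero h

/-- Coefficient bound: the coefficients at a place below the order of vanishing are in the
maximal ideal. -/
theorem coeff_lt_one_fibreAdapted (c : FibreIndex F' P → F) (w : {w // w ∈ P.fiber F'})
    (i : Fin (w.1.ramificationIndex F))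
    (hall : ∀ w' : {w // w ∈ P.fiber F'},
      w'.1.adicValuation (∑ k, algebraMap F F' (c k) * b k) ≤ 1)
    (hw : w.1.adicValuation (∑ k, algebraMap F F' (c k) * b k) ≤ exp (-(i.1 + 1 : ℤ))) :
    P.adicValuation (c ⟨w, i⟩) < 1 := by
  classical
  have key := exists_adicValuation_sum_fibreAdapted hb c
  have : Nonempty (FibreIndex F' P) := ⟨⟨w, i⟩⟩
  obtain ⟨j0, -, hmax⟩ := Finset.exists_max_image Finset.univ
    (fun k => P.adicValuation (c k)) ⟨⟨w, i⟩, Finset.mem_univ _⟩
  obtain ⟨w0, i0⟩ := j0
  have hM : P.adicValuation (c ⟨w0, i0⟩) ≤ 1 := by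
    by_contra h
    have hne : c ⟨w0, i0⟩ ≠ 0 := fun h0 => h (by simp [h0])
    obtain ⟨i1, -, hval⟩ := key w0 i0 (fun k => hmax k (Finset.mem_univ _)) hne
    have h2 := hall w0
    rw [← hval, P.adicValuation_eq_exp_neg_ord hne, ← exp_nsmul, ← exp_add, ← exp_zero,
      exp_le_exp, nsmul_eq_mul] at h2
    rw [P.adicValuation_eq_exp_neg_ord hne, ← exp_zero, exp_le_exp, not_le] at h
    have hi1 := i1.2
    have hmul : (w0.1.ramificationIndex F : ℤ) * 1
        ≤ (w0.1.ramificationIndex F : ℤ) * (-P.ord (c ⟨w0, i0⟩)) :=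
      mul_le_mul_of_nonneg_left (by omega) (by omega)
    omega
  refine lt_of_le_of_ne ((hmax _ (Finset.mem_univ _)).trans hM) fun h1 => ?_
  have hne : c ⟨w, i⟩ ≠ 0 := fun h0 => by simp [h0] at h1
  obtain ⟨i1, hi1, hval⟩ := key w i
    (fun k => h1 ▸ (hmax k (Finset.mem_univ _)).trans hM) hne
  rw [← hval, h1, one_pow, one_mul, exp_le_exp] at hw
  have : i1.1 ≤ i.1 := hi1
  omega

omit hb

variable (P) [Module.Finite F F'] [FundamentalIdentity K F F']

omit [Module.Finite F F'] in
theorem card_fibreIndex (hP : P.deg = 1) (hdeg : ∀ w : Place K F', w.deg = 1) :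
    Fintype.card (FibreIndex F' P) = Module.finrank F F' := by
  classical
  have h := FundamentalIdentity.sum_ramificationIndex_mul_deg (K := K) (F := F) (F' := F') P
  simp only [hP, hdeg, Nat.cast_one, mul_one] at h
  rw [Fintype.card_sigma]
  simp only [Fintype.card_fin, Finset.univ_eq_attach]
  rw [Finset.sum_attach (P.fiber F') fun w => w.ramificationIndex F]
  exact_mod_cast h

/-- The trace of an element that is congruent to `c w` at each place `w` over `P` is congruent to
`∑ e_w c_w` modulo the maximal ideal of `P`. -/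
theorem adicValuation_trace_sub_lt_one (hP : P.deg = 1) (hdeg : ∀ w : Place K F', w.deg = 1)
    (y : F') (c : Place K F' → K)
    (hy : ∀ w ∈ P.fiber F', w.adicValuation (y - algebraMap K F' (c w)) < 1) :
    P.adicValuation (Algebra.trace F F' y
      - algebraMap K F (∑ w ∈ P.fiber F', (w.ramificationIndex F : K) * c w)) < 1 := by
  classical
  obtain ⟨b, hb⟩ := exists_isFibreAdapted (F' := F') P
  have hcard := card_fibreIndex (F' := F') P hP hdeg
  have : Nonempty (FibreIndex F' P) := by
    rw [← Fintype.card_pos_iff, hcard]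
    exact Module.finrank_pos
  set B := basisOfLinearIndependentOfCardEqFinrank (linearIndependent_fibreAdapted hb) hcard
    with hB
  have hBb : ⇑B = b := coe_basisOfLinearIndependentOfCardEqFinrank _ _
  have hsum : ∀ h : F', ∑ k, algebraMap F F' (B.repr h k) * b k = h := fun h => by
    conv_rhs => rw [← B.sum_repr h]
    simp [Algebra.smul_def, hBb]
  have hy1 : ∀ w ∈ P.fiber F', w.adicValuation y ≤ 1 := fun w hw => by
    have h := Valuation.map_add w.adicValuation (y - algebraMap K F' (c w)) (algebraMap K F' (c w))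
    rw [sub_add_cancel] at h
    exact h.trans (max_le (hy w hw).le (w.adicValuation_algebraMap_le_one _))
  have hdiag : ∀ j : FibreIndex F' P,
      P.adicValuation (Algebra.leftMulMatrix B y j j - algebraMap K F (c j.1.1)) < 1 := by
    intro j
    set h := y * b j - algebraMap F F' (algebraMap K F (c j.1.1)) * b j with hh
    have hrepr : B.repr h j = Algebra.leftMulMatrix B y j j - algebraMap K F (c j.1.1) := by
      rw [hh, ← Algebra.smul_def, map_sub, map_smul, Finsupp.sub_apply,
        Finsupp.smul_apply, Algebra.leftMulMatrix_eq_repr_mul, ← hBb, B.repr_self,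
        Finsupp.single_eq_same, smul_eq_mul, mul_one]
    rw [← hrepr]
    have hval : ∀ w ∈ P.fiber F', w.adicValuation h ≤ 1 := fun w hw => by
      rw [hh, ← sub_mul, map_mul, ← IsScalarTower.algebraMap_apply]
      refine mul_le_one' ((Valuation.map_sub _ _ _).trans
        (max_le (hy1 w hw) (w.adicValuation_algebraMap_le_one _))) ?_
      rw [← exp_zero]
      by_cases hwj : w = j.1.1
      · subst hwj
        rw [(hb j).1]
        exact exp_le_exp.2 (by omega)
      · exact ((hb j).2 w hw hwj).trans (exp_le_exp.2 (by omega))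
    refine coeff_lt_one_fibreAdapted hb (fun k => B.repr h k) j.1 j.2
      (fun w' => by rw [hsum]; exact hval w'.1 w'.2) ?_
    rw [hsum, hh, ← sub_mul, map_mul, ← IsScalarTower.algebraMap_apply, (hb j).1,
      neg_add, add_comm, exp_add]
    exact mul_le_mul' (trLe_exp_neg_one_of_lt_one (hy j.1.1 j.1.2)) le_rfl
  have hcnt : ∑ j : FibreIndex F' P, c j.1.1
      = ∑ w ∈ P.fiber F', (w.ramificationIndex F : K) * c w := by
    rw [Fintype.sum_sigma, ← Finset.sum_attach (P.fiber F')
      fun w => (w.ramificationIndex F : K) * c w, Finset.univ_eq_attach]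
    simp
  have hrw : Algebra.trace F F' y
      - algebraMap K F (∑ w ∈ P.fiber F', (w.ramificationIndex F : K) * c w)
      = ∑ j : FibreIndex F' P, (Algebra.leftMulMatrix B y j j - algebraMap K F (c j.1.1)) := by
    rw [Finset.sum_sub_distrib, Algebra.trace_eq_matrix_trace B, ← map_sum, hcnt]
    rfl
  rw [hrw]
  exact Valuation.map_sum_lt _ one_ne_zero fun j _ => hdiag j

/-- The inverse different contains the functions of pole order at most `e - 1`. -/
theorem adicValuation_trace_le (hP : P.deg = 1) (hdeg : ∀ w : Place K F', w.deg = 1)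
    (n : ℤ) (h : F')
    (hh : ∀ w ∈ P.fiber F', w.adicValuation h
      ≤ exp (w.ramificationIndex F * n + w.ramificationIndex F - 1)) :
    P.adicValuation (Algebra.trace F F' h) ≤ exp n := by
  obtain ⟨t, ht⟩ := exists_adicValuation_eq_exp P (-(n + 1))
  have h1 := adicValuation_trace_sub_lt_one P hP hdeg (algebraMap F F' t * h) 0 fun w hw => by
    rw [Pi.zero_apply, map_zero, sub_zero, map_mul, adicValuation_algebraMap_restrict,
      Place.mem_fiber.1 hw, ht, ← exp_nsmul, nsmul_eq_mul]
    refine lt_of_le_of_lt (mul_le_mul' le_rfl (hh w hw)) ?_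
    rw [← exp_add, ← exp_zero, exp_lt_exp]
    ring_nf
    omega
  simp only [Pi.zero_apply, mul_zero, Finset.sum_const_zero, map_zero, sub_zero] at h1
  rw [← Algebra.smul_def, map_smul, smul_eq_mul, map_mul, ht] at h1
  have h2 := trLe_exp_neg_one_of_lt_one h1
  calc P.adicValuation (Algebra.trace F F' h)
      = exp (n + 1) * (exp (-(n + 1)) * P.adicValuation (Algebra.trace F F' h)) := by
        rw [← mul_assoc, ← exp_add, add_neg_cancel, exp_zero, one_mul]
    _ ≤ exp (n + 1) * exp (-1 : ℤ) := mul_le_mul' le_rfl h2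
    _ = exp n := by rw [← exp_add]; congr 1; omega

end extension

end FermatLib.Curve
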